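/-
MW strand R, leaf R0: basic calculus of the Riemann–Roch spaces `L(D) = riemannRochSpace D`
(Prelude vocabulary) of a function field `F / K` of one variable.

Level-free.  The facts which need the curve (`L(0) = K`, `L(D) = 0` for `deg D < 0`, principal
divisors) are proved over an algebraically closed `K` of characteristic zero from the landed
`S24/FF` library.
-/
import Mathlib
import Fermat.Prelude.Def_AlgebraicCurve_Repartitions
import Fermat.Agent.S24.FF.Principal

set_option autoImplicit false

namespace Fermat.Agent.S17.R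

open AlgebraicCurve

/-- Riemann's constant (the genus): the least `γ` with `deg D + 1 - γ ≤ l(D)` for all `D`. -/
noncomputable def gR (K F : Type*) [Field K] [Field F] [Algebra K F] : ℕ :=
  sInf {γ : ℕ | ∀ D : Divisor K F,
    Divisor.degree D + 1 - (γ : ℤ) ≤ (Module.finrank K ↥(riemannRochSpace D) : ℤ)}

variable {K F : Type*} [Field K] [Field F] [Algebra K F]

theorem mem_L_iff {D : Divisor K F} {f : F} :
    f ∈ riemannRochSpace D ↔ f = 0 ∨ ∀ v : Place K F, -D v ≤ v.ord f := by
  rw [mem_riemannRochSpace_iff]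
  constructor
  · intro h
    by_cases hf : f = 0
    · exact Or.inl hf
    · exact Or.inr fun v => (h v).resolve_left hf
  · rintro (h | h) v
    · exact Or.inl h
    · exact Or.inr (h v)

theorem mem_L_of_ne_zero {D : Divisor K F} {f : F} (hf : f ≠ 0) :
    f ∈ riemannRochSpace D ↔ ∀ v : Place K F, -D v ≤ v.ord f := by
  rw [mem_L_iff, or_iff_right hf]

theorem L_mono {D D' : Divisor K F} (h : D ≤ D') :
    riemannRochSpace D ≤ riemannRochSpace D' := by
  intro f hf
  rw [mem_L_iff] at hf ⊢
  rcases hf with hf | hf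
  · exact Or.inl hf
  · refine Or.inr fun v => ?_
    have h1 : D v ≤ D' v := Finsupp.le_def.mp h v
    have h2 := hf v
    omega

theorem mul_mem_L {D E : Divisor K F} {f g : F} (hf : f ∈ riemannRochSpace D)
    (hg : g ∈ riemannRochSpace E) : f * g ∈ riemannRochSpace (D + E) := by
  rw [mem_L_iff] at hf hg ⊢
  rcases hf with rfl | hf
  · exact Or.inl (zero_mul g)
  rcases hg with rfl | hg
  · exact Or.inl (mul_zero f)
  by_cases hf0 : f = 0
  · exact Or.inl (by rw [hf0, zero_mul])
  by_cases hg0 : g = 0
  · exact Or.inl (by rw [hg0, mul_zero])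
  refine Or.inr fun v => ?_
  rw [v.ord_mul hf0 hg0, Finsupp.add_apply]
  have h1 := hf v
  have h2 := hg v
  omega

/-- The divisor of a function, as a `Divisor` (junk value `0` if it does not exist). -/
noncomputable def divOf (K : Type*) {F : Type*} [Field K] [Field F] [Algebra K F] (f : F) :
    Divisor K F :=
  letI := Classical.propDecidable
  if h : ∃ D : Divisor K F, ∀ v : Place K F, D v = v.ord f then h.choose else 0

section Curve

variable [IsAlgClosed K] [CharZero K] [Algebra.EssFiniteType K F]

open Fermat.Agent.S24.FF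

theorem divOf_apply (htr : Algebra.trdeg K F = 1) (f : F) (v : Place K F) :
    divOf K f v = v.ord f := by
  have hex : ∃ D : Divisor K F, ∀ v : Place K F, D v = v.ord f := by
    by_cases hf : f = 0
    · exact ⟨0, fun v => by simp [hf]⟩
    · exact exists_divisor_ord htr hf
  unfold divOf
  rw [dif_pos hex]
  exact hex.choose_spec v

theorem degree_divOf (htr : Algebra.trdeg K F = 1) (f : F) :
    Divisor.degree (divOf K f) = 0 := by
  by_cases hf : f = 0
  · have h0 : divOf K f = 0 := by
      ext v
      rw [divOf_apply htr, hf]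
      simp
    rw [h0, map_zero]
  · exact degree_eq_zero_of_ord htr hf _ (divOf_apply htr f)

theorem divOf_mem_principal (htr : Algebra.trdeg K F = 1) {f : F} (hf : f ≠ 0) :
    divOf K f ∈ Divisor.principal (K := K) (F := F) :=
  ⟨f, hf, divOf_apply htr f⟩

theorem divOf_mul (htr : Algebra.trdeg K F = 1) {f g : F} (hf : f ≠ 0) (hg : g ≠ 0) :
    divOf K (f * g) = divOf K f + divOf K g := by
  ext v
  rw [Finsupp.add_apply, divOf_apply htr, divOf_apply htr, divOf_apply htr, v.ord_mul hf hg]

theorem divOf_inv (htr : Algebra.trdeg K F = 1) (f : F) :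
    divOf K f⁻¹ = -divOf K f := by
  ext v
  rw [Finsupp.neg_apply, divOf_apply htr, divOf_apply htr, v.ord_inv]

/-- The degree of an effective divisor is nonnegative. -/
theorem degree_nonneg (htr : Algebra.trdeg K F = 1) {E : Divisor K F} (hE : 0 ≤ E) :
    0 ≤ Divisor.degree E := by
  rw [degree_eq_finsum htr E]
  exact finsum_nonneg fun v => Finsupp.le_def.mp hE v

theorem degree_mono (htr : Algebra.trdeg K F = 1) {D D' : Divisor K F} (h : D ≤ D') :
    Divisor.degree D ≤ Divisor.degree D' := by
  have h1 : 0 ≤ D' - D := sub_nonneg.mpr h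
  have h2 := degree_nonneg htr h1
  rw [map_sub] at h2
  omega

/-- `f ∈ L(D)`, `f ≠ 0`: the divisor `D + div f` is effective. -/
theorem add_divOf_nonneg (htr : Algebra.trdeg K F = 1) {D : Divisor K F} {f : F} (hf0 : f ≠ 0)
    (hf : f ∈ riemannRochSpace D) : 0 ≤ D + divOf K f := by
  rw [Finsupp.le_def]
  intro v
  rw [Finsupp.add_apply, divOf_apply htr, Finsupp.zero_apply]
  have := (mem_L_of_ne_zero hf0).mp hf v
  omega

theorem mem_L_of_add_divOf_nonneg (htr : Algebra.trdeg K F = 1) {D : Divisor K F} {f : F}
    (h : 0 ≤ D + divOf K f) : f ∈ riemannRochSpace D := by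
  rw [mem_L_iff]
  refine Or.inr fun v => ?_
  have := Finsupp.le_def.mp h v
  rw [Finsupp.add_apply, divOf_apply htr, Finsupp.zero_apply] at this
  omega

/-- `L(D) = 0` if `deg D < 0`. -/
theorem L_eq_bot_of_degree_neg (htr : Algebra.trdeg K F = 1) {D : Divisor K F}
    (h : Divisor.degree D < 0) : riemannRochSpace D = ⊥ := by
  rw [eq_bot_iff]
  intro f hf
  rw [Submodule.mem_bot]
  by_contra hf0
  have h1 := degree_nonneg htr (add_divOf_nonneg htr hf0 hf)
  rw [map_add, degree_divOf htr, add_zero] at h1
  omega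

/-- A function without poles is constant: `L(0) = K`. -/
theorem mem_L_zero_iff (htr : Algebra.trdeg K F = 1) {f : F} :
    f ∈ riemannRochSpace (0 : Divisor K F) ↔ f ∈ Set.range (algebraMap K F) := by
  constructor
  · intro hf
    by_contra hK
    have hx := transcendental_of_not_mem_range hK
    have hf0 : f ≠ 0 := fun h0 => hK ⟨0, by rw [h0, map_zero]⟩
    have hpos := (mem_L_of_ne_zero hf0).mp hf
    have hsum := sum_ord_poles htr hx
    have hempty : {v : Place K F | v.ord f < 0} = ∅ := by
      ext v
      simp only [Set.mem_ofPred_eq, Set.mem_empty_iff_false, iff_false, not_lt]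
      have := hpos v
      simpa using this
    rw [hempty, finsum_mem_empty] at hsum
    haveI : Module.Finite (IntermediateField.adjoin K {f}) F := finite_adjoin_simple htr hx
    have hpos' : 0 < Module.finrank (IntermediateField.adjoin K {f}) F := Module.finrank_pos
    have : (0 : ℤ) = (Module.finrank (IntermediateField.adjoin K {f}) F : ℤ) := hsum
    omega
  · rintro ⟨c, rfl⟩
    rw [mem_L_iff]
    refine Or.inr fun v => ?_
    rw [ord_algebraMap v c]
    simp

/-- Multiplication by `h` maps `L(D)` into `L(D - div h)`. -/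
theorem mul_mem_L_sub_divOf (htr : Algebra.trdeg K F = 1) {D : Divisor K F} {f : F} (h : F)
    (hf : f ∈ riemannRochSpace D) : f * h ∈ riemannRochSpace (D - divOf K h) := by
  rw [mem_L_iff] at hf ⊢
  rcases hf with rfl | hf
  · exact Or.inl (zero_mul h)
  by_cases hf0 : f = 0
  · exact Or.inl (by rw [hf0, zero_mul])
  by_cases hh0 : h = 0
  · exact Or.inl (by rw [hh0, mul_zero])
  refine Or.inr fun v => ?_
  rw [v.ord_mul hf0 hh0, Finsupp.sub_apply, divOf_apply htr]
  have := hf v
  omega

/-- `L(D) ≃ L(D - div h)`, `f ↦ f * h`. -/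
noncomputable def mulEquiv (htr : Algebra.trdeg K F = 1) (D : Divisor K F) {h : F} (hh : h ≠ 0) :
    ↥(riemannRochSpace D) ≃ₗ[K] ↥(riemannRochSpace (D - divOf K h)) where
  toFun f := ⟨(f : F) * h, mul_mem_L_sub_divOf htr h f.2⟩
  invFun f := ⟨(f : F) * h⁻¹, by
    have := mul_mem_L_sub_divOf htr h⁻¹ f.2
    rwa [divOf_inv htr, sub_neg_eq_add, sub_add_cancel] at this⟩
  map_add' f g := Subtype.ext (add_mul _ _ _)
  map_smul' c f := Subtype.ext (smul_mul_assoc _ _ _)
  left_inv f := Subtype.ext (by simp [mul_assoc, hh])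
  right_inv f := Subtype.ext (by simp [mul_assoc, hh])

/-- Linearly equivalent divisors have isomorphic Riemann–Roch spaces. -/
theorem exists_equiv_of_principal (htr : Algebra.trdeg K F = 1) {D D' : Divisor K F}
    (h : D - D' ∈ Divisor.principal (K := K) (F := F)) :
    Nonempty (↥(riemannRochSpace D) ≃ₗ[K] ↥(riemannRochSpace D')) := by
  obtain ⟨f, hf, hD⟩ := h
  have hdiv : divOf K f = D - D' := by
    ext v
    rw [divOf_apply htr, hD v]
  have e := mulEquiv htr D hf
  rw [hdiv, sub_sub_cancel] at e
  exact ⟨e⟩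

theorem finrank_L_eq_of_principal (htr : Algebra.trdeg K F = 1) {D D' : Divisor K F}
    (h : D - D' ∈ Divisor.principal (K := K) (F := F)) :
    Module.finrank K ↥(riemannRochSpace D) = Module.finrank K ↥(riemannRochSpace D') := by
  obtain ⟨e⟩ := exists_equiv_of_principal htr h
  exact e.finrank_eq

end Curve

end Fermat.Agent.S17.R
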