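/-
MW strand R, leaf R1 (helper178): the one-point step for the Riemann–Roch spaces
`L(D) = riemannRochSpace D` of a function field `F / K` of one variable over an algebraically
closed field `K` of characteristic zero, and its consequences:

* `finite_L`           : `L(D)` is finite-dimensional;
* `finrank_L_le_of_le` : `l(D') ≤ l(D) + (deg D' - deg D)` for `D ≤ D'`;
* `finrank_L_le`       : `l(D) ≤ max (deg D + 1) 0`.

The step: for a place `v` and `f, g ∈ L(D + v)` with `g ∉ L(D)` there is a constant `c` with
`f - c • g ∈ L(D)` (the residue field of `v` is `K`: `S24/FF/Residue.exists_residue`), hence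
`L(D + v) ≤ L(D) ⊔ K ∙ g`.
-/
import Mathlib
import Fermat.Prelude.Def_AlgebraicCurve_Repartitions
import Fermat.Agent.S24.FF.Principal
import Fermat.Agent.S24.FF.Residue
import Fermat.Agent.S17.R.LSpace

set_option autoImplicit false
set_option linter.unusedSectionVars false

namespace Fermat.Agent.S17.R

open AlgebraicCurve

variable {K F : Type*} [Field K] [Field F] [Algebra K F]
variable [IsAlgClosed K] [CharZero K] [Algebra.EssFiniteType K F]

namespace LStep

/-- **One-point step.**  `f, g ∈ L(D + v)`, `g ∉ L(D)`: some `f - c • g` lies in `L(D)`. -/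
theorem exists_sub_smul_mem (htr : Algebra.trdeg K F = 1) (D : Divisor K F) (v : Place K F)
    {f g : F} (hf : f ∈ riemannRochSpace (D + Finsupp.single v (1 : ℤ)))
    (hg : g ∈ riemannRochSpace (D + Finsupp.single v (1 : ℤ)))
    (hgD : g ∉ riemannRochSpace D) :
    ∃ c : K, f - c • g ∈ riemannRochSpace D := by
  classical
  have hg0 : g ≠ 0 := fun h => hgD (h ▸ Submodule.zero_mem _)
  by_cases hf0 : f = 0
  · refine ⟨0, ?_⟩
    rw [hf0, zero_smul, sub_zero]
    exact Submodule.zero_mem _
  have hf' := (mem_L_of_ne_zero hf0).mp hf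
  have hg' := (mem_L_of_ne_zero hg0).mp hg
  -- the order of `g` at `v` is exactly `-(D v) - 1`
  have hgv : v.ord g = -D v - 1 := by
    by_contra hne
    apply hgD
    rw [mem_L_of_ne_zero hg0]
    intro w
    have h1 := hg' w
    rw [Finsupp.add_apply] at h1
    by_cases hw : w = v
    · subst hw
      rw [Finsupp.single_eq_same] at h1
      omega
    · have h2 : (Finsupp.single v (1 : ℤ)) w = 0 := by
        rw [Finsupp.single_apply, if_neg (fun h => hw h.symm)]
      rw [h2] at h1
      omega
  have hfv : -D v - 1 ≤ v.ord f := by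
    have h1 := hf' v
    rw [Finsupp.add_apply, Finsupp.single_eq_same] at h1
    omega
  -- `f / g` is integral at `v`
  have hne : f / g ≠ 0 := div_ne_zero hf0 hg0
  have ha : f / g ∈ v.toValuationSubring := by
    rw [← Fermat.Agent.S24.FF.ord_nonneg_iff v hne, div_eq_mul_inv,
      v.ord_mul hf0 (inv_ne_zero hg0), v.ord_inv]
    omega
  obtain ⟨c, hc⟩ := Fermat.Agent.S24.FF.exists_residue htr v ha
  refine ⟨c, ?_⟩
  have hkey : f - c • g = (f / g - algebraMap K F c) * g := by
    rw [Algebra.smul_def, sub_mul, div_mul_cancel₀ f hg0]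
  rcases hc with hc | hc
  · rw [hkey, hc, sub_self, zero_mul]
    exact Submodule.zero_mem _
  · have hne1 : f / g - algebraMap K F c ≠ 0 := by
      intro h
      rw [h] at hc
      simp at hc
    have hne2 : f - c • g ≠ 0 := by
      rw [hkey]
      exact mul_ne_zero hne1 hg0
    rw [mem_L_of_ne_zero hne2]
    intro w
    by_cases hw : w = v
    · subst hw
      rw [hkey, w.ord_mul hne1 hg0, hgv]
      omega
    · have hmem : f - c • g ∈ riemannRochSpace (D + Finsupp.single v (1 : ℤ)) :=
        Submodule.sub_mem _ hf (Submodule.smul_mem _ c hg)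
      have h1 := (mem_L_of_ne_zero hne2).mp hmem w
      have h2 : (Finsupp.single v (1 : ℤ)) w = 0 := by
        rw [Finsupp.single_apply, if_neg (fun h => hw h.symm)]
      rw [Finsupp.add_apply, h2] at h1
      omega

/-- Adding one place raises the dimension of `L` by at most one. -/
theorem step (htr : Algebra.trdeg K F = 1) (D : Divisor K F) (v : Place K F)
    (hfin : Module.Finite K ↥(riemannRochSpace D)) :
    Module.Finite K ↥(riemannRochSpace (D + Finsupp.single v (1 : ℤ))) ∧
      Module.finrank K ↥(riemannRochSpace (D + Finsupp.single v (1 : ℤ))) ≤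
        Module.finrank K ↥(riemannRochSpace D) + 1 := by
  classical
  have hDle : D ≤ D + Finsupp.single v (1 : ℤ) := by
    rw [Finsupp.le_def]
    intro w
    rw [Finsupp.add_apply, Finsupp.single_apply]
    split_ifs <;> omega
  have hle : riemannRochSpace D ≤ riemannRochSpace (D + Finsupp.single v (1 : ℤ)) :=
    L_mono hDle
  by_cases hex : ∃ g ∈ riemannRochSpace (D + Finsupp.single v (1 : ℤ)), g ∉ riemannRochSpace D
  · obtain ⟨g, hg, hgD⟩ := hex
    have hg0 : g ≠ 0 := fun h => hgD (h ▸ Submodule.zero_mem _)
    have hsup : riemannRochSpace (D + Finsupp.single v (1 : ℤ)) ≤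
        riemannRochSpace D ⊔ Submodule.span K {g} := by
      intro f hf
      obtain ⟨c, hc⟩ := exists_sub_smul_mem htr D v hf hg hgD
      have hfe : f = (f - c • g) + c • g := by ring
      rw [hfe]
      exact Submodule.add_mem_sup hc
        (Submodule.smul_mem _ c (Submodule.mem_span_singleton_self g))
    haveI := hfin
    haveI : Module.Finite K ↥(riemannRochSpace D ⊔ Submodule.span K {g}) :=
      Submodule.finiteDimensional_sup _ _
    refine ⟨Submodule.finiteDimensional_of_le hsup, ?_⟩
    calc Module.finrank K ↥(riemannRochSpace (D + Finsupp.single v (1 : ℤ)))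
        ≤ Module.finrank K ↥(riemannRochSpace D ⊔ Submodule.span K {g}) :=
          Submodule.finrank_mono hsup
      _ ≤ Module.finrank K ↥(riemannRochSpace D) + Module.finrank K ↥(Submodule.span K {g}) :=
          Submodule.finrank_add_le_finrank_add_finrank _ _
      _ = Module.finrank K ↥(riemannRochSpace D) + 1 := by rw [finrank_span_singleton hg0]
  · have hge : riemannRochSpace (D + Finsupp.single v (1 : ℤ)) ≤ riemannRochSpace D := by
      intro g hg
      by_contra hgD
      exact hex ⟨g, hg, hgD⟩
    have heq : riemannRochSpace (D + Finsupp.single v (1 : ℤ)) = riemannRochSpace D :=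
      le_antisymm hge hle
    rw [heq]
    exact ⟨hfin, Nat.le_succ _⟩

/-- If `D ≤ D'` and `D ≠ D'`, one place can be added to `D` below `D'`. -/
theorem exists_add_single_le {D D' : Divisor K F} (h : D ≤ D') (hne : D ≠ D') :
    ∃ w : Place K F, D + Finsupp.single w (1 : ℤ) ≤ D' := by
  classical
  have hex : ∃ w : Place K F, D w ≠ D' w := by
    by_contra hall
    push_neg at hall
    exact hne (Finsupp.ext hall)
  obtain ⟨w, hw⟩ := hex
  refine ⟨w, ?_⟩
  rw [Finsupp.le_def]
  intro u
  have h1 := Finsupp.le_def.mp h u
  rw [Finsupp.add_apply, Finsupp.single_apply]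
  by_cases hu : w = u
  · rw [if_pos hu, ← hu]
    have h2 := Finsupp.le_def.mp h w
    omega
  · rw [if_neg hu]
    omega

theorem degree_add_single (htr : Algebra.trdeg K F = 1) (D : Divisor K F) (w : Place K F)
    (n : ℤ) : Divisor.degree (D + Finsupp.single w n) = Divisor.degree D + n := by
  rw [map_add, Divisor.degree_single, Fermat.Agent.S24.FF.deg_eq_one htr w]
  simp

/-- The induction: `D ≤ D'` with `deg D' - deg D = m`. -/
theorem aux (htr : Algebra.trdeg K F = 1) :
    ∀ (m : ℕ) (D D' : Divisor K F), D ≤ D' → Divisor.degree D' - Divisor.degree D = (m : ℤ) →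
      Module.Finite K ↥(riemannRochSpace D) →
      Module.Finite K ↥(riemannRochSpace D') ∧
        Module.finrank K ↥(riemannRochSpace D') ≤ Module.finrank K ↥(riemannRochSpace D) + m := by
  intro m
  induction m with
  | zero =>
    intro D D' h hdeg hfin
    have heq : D = D' := by
      by_contra hne
      obtain ⟨w, hw⟩ := exists_add_single_le h hne
      have h1 := degree_mono htr hw
      rw [degree_add_single htr] at h1
      have h2 : Divisor.degree D' - Divisor.degree D = 0 := by simpa using hdeg
      omega
    subst heq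
    exact ⟨hfin, le_rfl⟩
  | succ m ih =>
    intro D D' h hdeg hfin
    have hne : D ≠ D' := by
      rintro rfl
      rw [sub_self] at hdeg
      have : (0 : ℤ) = (m : ℤ) + 1 := by exact_mod_cast hdeg
      omega
    obtain ⟨w, hw⟩ := exists_add_single_le h hne
    obtain ⟨hfin1, hrk1⟩ := step htr D w hfin
    have hdeg1 : Divisor.degree D' - Divisor.degree (D + Finsupp.single w (1 : ℤ)) = (m : ℤ) := by
      rw [degree_add_single htr]
      have : Divisor.degree D' - Divisor.degree D = (m : ℤ) + 1 := by exact_mod_cast hdeg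
      omega
    obtain ⟨hfin2, hrk2⟩ := ih (D + Finsupp.single w (1 : ℤ)) D' hw hdeg1 hfin1
    exact ⟨hfin2, by omega⟩

/-- `L(0)` is contained in the line of constants. -/
theorem L_zero_le (htr : Algebra.trdeg K F = 1) :
    riemannRochSpace (0 : Divisor K F) ≤ Submodule.span K {(1 : F)} := by
  intro f hf
  obtain ⟨c, rfl⟩ := (mem_L_zero_iff htr).mp hf
  rw [Algebra.algebraMap_eq_smul_one]
  exact Submodule.smul_mem _ c (Submodule.mem_span_singleton_self 1)

theorem finite_L_zero (htr : Algebra.trdeg K F = 1) :
    Module.Finite K ↥(riemannRochSpace (0 : Divisor K F)) :=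
  Submodule.finiteDimensional_of_le (L_zero_le htr)

end LStep

open LStep

/-- **`L(D)` is finite-dimensional.** -/
theorem finite_L (htr : Algebra.trdeg K F = 1) (D : Divisor K F) :
    Module.Finite K ↥(riemannRochSpace D) := by
  classical
  -- the positive part of `D`
  let Dp : Divisor K F := D.mapRange (fun n : ℤ => max n 0) (by simp)
  have h0 : (0 : Divisor K F) ≤ Dp := by
    rw [Finsupp.le_def]
    intro w
    show (0 : ℤ) ≤ Dp w
    simp only [Dp, Finsupp.mapRange_apply]
    exact le_max_right _ _
  have h1 : D ≤ Dp := by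
    rw [Finsupp.le_def]
    intro w
    simp only [Dp, Finsupp.mapRange_apply]
    exact le_max_left _ _
  have hm : 0 ≤ Divisor.degree Dp - Divisor.degree (0 : Divisor K F) := by
    have := degree_mono htr h0
    omega
  obtain ⟨m, hm'⟩ := Int.eq_ofNat_of_zero_le hm
  haveI := (aux htr m 0 Dp h0 hm' (finite_L_zero htr)).1
  exact Submodule.finiteDimensional_of_le (L_mono h1)

/-- **Monotonicity with defect**: `l(D') ≤ l(D) + (deg D' - deg D)` for `D ≤ D'`. -/
theorem finrank_L_le_of_le (htr : Algebra.trdeg K F = 1) {D D' : Divisor K F} (h : D ≤ D') :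
    (Module.finrank K ↥(riemannRochSpace D') : ℤ) ≤
      Module.finrank K ↥(riemannRochSpace D) + (Divisor.degree D' - Divisor.degree D) := by
  have hm : 0 ≤ Divisor.degree D' - Divisor.degree D := by
    have := degree_mono htr h
    omega
  obtain ⟨m, hm'⟩ := Int.eq_ofNat_of_zero_le hm
  have h2 := (aux htr m D D' h hm' (finite_L htr D)).2
  rw [hm']
  exact_mod_cast h2

/-- **The trivial bound** `l(D) ≤ max (deg D + 1) 0`. -/
theorem finrank_L_le (htr : Algebra.trdeg K F = 1) (D : Divisor K F) :
    (Module.finrank K ↥(riemannRochSpace D) : ℤ) ≤ max (Divisor.degree D + 1) 0 := by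
  classical
  by_cases hneg : Divisor.degree D < 0
  · rw [L_eq_bot_of_degree_neg htr hneg, finrank_bot]
    simp
  push_neg at hneg
  refine le_trans ?_ (le_max_left _ _)
  by_cases hD : D = 0
  · subst hD
    rw [map_zero, zero_add]
    haveI : Module.Finite K ↥(Submodule.span K {(1 : F)}) := inferInstance
    have h1 := Submodule.finrank_mono (L_zero_le (K := K) (F := F) htr)
    rw [finrank_span_singleton (one_ne_zero : (1 : F) ≠ 0)] at h1
    exact_mod_cast h1
  · obtain ⟨w, -⟩ := Finsupp.support_nonempty_iff.mpr hD
    set k : ℤ := Divisor.degree D + 1 with hk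
    have hle : D + Finsupp.single w (-k) ≤ D := by
      rw [Finsupp.le_def]
      intro u
      rw [Finsupp.add_apply, Finsupp.single_apply]
      split_ifs <;> omega
    have hdeg : Divisor.degree (D + Finsupp.single w (-k)) = -1 := by
      rw [degree_add_single htr]
      omega
    have hbot : riemannRochSpace (D + Finsupp.single w (-k)) = ⊥ :=
      L_eq_bot_of_degree_neg htr (by rw [hdeg]; norm_num)
    have h2 := finrank_L_le_of_le htr hle
    rw [hbot, finrank_bot, hdeg] at h2
    have h3 : ((0 : ℕ) : ℤ) = 0 := rfl
    omega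

end Fermat.Agent.S17.R
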