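/-
MW strand R: a function field of one variable over an algebraically closed field of
characteristic zero has infinitely many places (zeros of `x - a`, `a ∈ K`).
-/
import Mathlib
import Fermat.Agent.S24.FF.Principal

set_option autoImplicit false

namespace Fermat.Agent.S17.R

open AlgebraicCurve Fermat.Agent.S24.FF

variable {K F : Type*} [Field K] [Field F] [Algebra K F]
variable [IsAlgClosed K] [CharZero K] [Algebra.EssFiniteType K F]

omit [IsAlgClosed K] [CharZero K] [Algebra.EssFiniteType K F] in
theorem exists_transcendental (htr : Algebra.trdeg K F = 1) : ∃ x : F, Transcendental K x := by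
  have h : Algebra.trdeg K F ≠ 0 := by rw [htr]; exact one_ne_zero
  exact (trdeg_ne_zero_iff.mp h).transcendental

/-- `x - a` has a zero. -/
theorem exists_zero (htr : Algebra.trdeg K F = 1) {x : F} (hx : Transcendental K x) (a : K) :
    ∃ v : Place K F, 0 < v.ord (x - algebraMap K F a) := by
  by_contra hne
  push Not at hne
  have hsum := sum_ord_zeros htr hx a
  have hempty : {v : Place K F | 0 < v.ord (x - algebraMap K F a)} = ∅ := by
    ext v
    simp only [Set.mem_ofPred_eq, Set.mem_empty_iff_false, iff_false, not_lt]
    exact hne v
  rw [hempty, finsum_mem_empty] at hsum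
  have : Module.Finite (IntermediateField.adjoin K {x}) F := finite_adjoin_simple htr hx
  have hpos : 0 < Module.finrank (IntermediateField.adjoin K {x}) F := Module.finrank_pos
  have h0 : (0 : ℤ) = (Module.finrank (IntermediateField.adjoin K {x}) F : ℤ) := hsum
  omega

/-- `x` has a pole. -/
theorem exists_pole (htr : Algebra.trdeg K F = 1) {x : F} (hx : Transcendental K x) :
    ∃ v : Place K F, v.ord x < 0 := by
  by_contra hne
  push Not at hne
  have hsum := sum_ord_poles htr hx
  have hempty : {v : Place K F | v.ord x < 0} = ∅ := by
    ext v
    simp only [Set.mem_ofPred_eq, Set.mem_empty_iff_false, iff_false, not_lt]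
    exact hne v
  rw [hempty, finsum_mem_empty] at hsum
  have : Module.Finite (IntermediateField.adjoin K {x}) F := finite_adjoin_simple htr hx
  have hpos : 0 < Module.finrank (IntermediateField.adjoin K {x}) F := Module.finrank_pos
  have h0 : (0 : ℤ) = (Module.finrank (IntermediateField.adjoin K {x}) F : ℤ) := hsum
  omega

omit [IsAlgClosed K] [CharZero K] [Algebra.EssFiniteType K F] in
theorem zero_unique {x : F} {a b : K} {v : Place K F}
    (ha : 0 < v.ord (x - algebraMap K F a)) (hb : 0 < v.ord (x - algebraMap K F b)) : a = b := by
  by_contra hab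
  have hne : algebraMap K F (b - a) ≠ 0 := by
    rw [Ne, map_eq_zero, sub_eq_zero]
    exact fun h => hab h.symm
  have h1 : (x - algebraMap K F a) - (x - algebraMap K F b) = algebraMap K F (b - a) := by
    rw [map_sub]; ring
  have h2 := ord_sub_ge v (f := x - algebraMap K F a) (g := x - algebraMap K F b)
    (by rw [h1]; exact hne)
  rw [h1, ord_algebraMap v (b - a)] at h2
  have := lt_min ha hb
  omega

theorem infinite_place (htr : Algebra.trdeg K F = 1) : Infinite (Place K F) := by
  obtain ⟨x, hx⟩ := exists_transcendental (K := K) (F := F) htr
  choose z hz using exists_zero htr hx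
  exact Infinite.of_injective z fun a b hab => zero_unique (hz a) (hab ▸ hz b)

theorem nonempty_place (htr : Algebra.trdeg K F = 1) : Nonempty (Place K F) :=
  haveI := infinite_place (K := K) (F := F) htr
  inferInstance

theorem exists_place_notMem (htr : Algebra.trdeg K F = 1) (S : Finset (Place K F)) :
    ∃ v : Place K F, v ∉ S :=
  haveI := infinite_place (K := K) (F := F) htr
  Infinite.exists_notMem_finset S

end Fermat.Agent.S17.R
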