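/-
MW strand R, leaf R9 (Riemann-only form): non-special effective divisors from Riemann's theorem
alone (no Riemann–Roch, no differentials, no canonical divisor).

The only input beyond the landed leaves R0 (`LSpace`) and R1 (`LStep`: `finite_L`) is the
conclusion of `riemann_eq_of_large` (leaf R2), taken as an explicit hypothesis:
* `hc : ∀ D, c ≤ deg D → l(D) = deg D + 1 - gR K F`       (one `c`), or
* `hR : ∃ c, ∀ D, c ≤ deg D → l(D) = deg D + 1 - gR K F`   (= `riemann_eq_of_large htr` verbatim).

Results (namespace `Fermat.Agent.S17.R`):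
* `nonspecial_step`   (NS1)    : for `A ≥ 0` with `l(A) = 1`, `deg A < gR`, all but at most `c`
                                 places `P ∉ supp A` satisfy `l(A + P) = 1`;
* `exists_distinct_nonspecial` (NS2) : `gR` distinct places outside a given finite set with
                                 `l(P₁ + … + P_g) = 1`;
* `exists_mem_pool_nonspecial` (NS3) : any pool of `c + gR` places contains a good `P` for every
                                 such `A`; `exists_pool_bound` is the same with the bound hidden;
* `exists_nonspecial_of_riemann` : `∃ E ≥ 0, deg E = gR ∧ l(E) = 1`.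

Proof of (NS1): if `P₁, …, P_m` are distinct bad places (`A P_i = 0`, `l(A + P_i) ≥ 2`), pick
`f_i ∈ L(A + P_i) \ L(A)`; it has a pole at `P_i`, so `L(A) ⊊ L(A + P₁) ⊊ … ⊊ L(A + P₁ + … + P_m)`
and `m + 1 ≤ l(A + ∑ P_i)`.  If `deg A + m ≥ c` the right-hand side is `deg A + m + 1 - gR`,
i.e. `gR ≤ deg A`.
-/
import Mathlib
import Fermat.Agent.S24.FF.Residue
import Fermat.Agent.S17.R.LSpace
import Fermat.Agent.S17.R.LStep
import Fermat.Agent.S17.R.Places

set_option autoImplicit false

namespace Fermat.Agent.S17.R

open AlgebraicCurve Fermat.Agent.S24.FF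

variable {K F : Type*} [Field K] [Field F] [Algebra K F]

namespace NonSpecialStep

/-- The divisor `A + ∑_{P ∈ s} P`. -/
noncomputable def addPts (A : Divisor K F) (s : Finset (Place K F)) : Divisor K F :=
  A + ∑ P ∈ s, Finsupp.single P (1 : ℤ)

theorem addPts_empty (A : Divisor K F) : addPts A ∅ = A := by
  simp [addPts]

theorem addPts_insert [DecidableEq (Place K F)] (A : Divisor K F) {s : Finset (Place K F)}
    {P : Place K F} (hP : P ∉ s) :
    addPts A (insert P s) = addPts A s + Finsupp.single P (1 : ℤ) := by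
  unfold addPts
  rw [Finset.sum_insert hP]
  abel

theorem sum_single_apply_of_notMem (s : Finset (Place K F)) {P : Place K F} (hP : P ∉ s) :
    (∑ Q ∈ s, Finsupp.single Q (1 : ℤ)) P = 0 := by
  classical
  rw [Finsupp.finsetSum_apply]
  refine Finset.sum_eq_zero fun Q hQ => ?_
  rw [Finsupp.single_apply, if_neg]
  rintro rfl
  exact hP hQ

theorem addPts_apply_of_notMem (A : Divisor K F) (s : Finset (Place K F)) {P : Place K F}
    (hP : P ∉ s) : addPts A s P = A P := by
  unfold addPts
  rw [Finsupp.add_apply, sum_single_apply_of_notMem s hP, add_zero]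

theorem single_one_nonneg (P : Place K F) : (0 : Divisor K F) ≤ Finsupp.single P (1 : ℤ) :=
  Finsupp.single_nonneg.mpr zero_le_one

theorem sum_single_nonneg (s : Finset (Place K F)) :
    (0 : Divisor K F) ≤ ∑ Q ∈ s, Finsupp.single Q (1 : ℤ) :=
  Finset.sum_nonneg fun Q _ => single_one_nonneg Q

theorem le_addPts (A : Divisor K F) (s : Finset (Place K F)) : A ≤ addPts A s :=
  le_add_of_nonneg_right (sum_single_nonneg s)

/-- A function of `L(A + P)` which is not in `L(A)` has a pole at `P` beyond `A`. -/
theorem ord_lt_of_notMem {A : Divisor K F} {P : Place K F} {f : F}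
    (hf : f ∈ riemannRochSpace (A + Finsupp.single P (1 : ℤ)))
    (hf' : f ∉ riemannRochSpace A) : P.ord f < -A P := by
  classical
  have hf0 : f ≠ 0 := fun h => hf' (by rw [h]; exact Submodule.zero_mem _)
  rw [mem_L_of_ne_zero hf0] at hf hf'
  push Not at hf'
  obtain ⟨v, hv⟩ := hf'
  by_cases hvP : v = P
  · subst hvP
    exact hv
  · have h1 := hf v
    rw [Finsupp.add_apply, Finsupp.single_apply, if_neg (fun h => hvP h.symm)] at h1
    omega

section Curve

variable [IsAlgClosed K] [CharZero K] [Algebra.EssFiniteType K F]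

/-- One more pole: the dimension goes up. -/
theorem finrank_lt_of_pole (htr : Algebra.trdeg K F = 1)
    {B : Divisor K F} {P : Place K F} {f : F}
    (hf : f ∈ riemannRochSpace (B + Finsupp.single P (1 : ℤ))) (hf' : f ∉ riemannRochSpace B) :
    Module.finrank K ↥(riemannRochSpace B) <
      Module.finrank K ↥(riemannRochSpace (B + Finsupp.single P (1 : ℤ))) := by
  have := finite_L htr (B + Finsupp.single P (1 : ℤ))
  have hle : riemannRochSpace B ≤ riemannRochSpace (B + Finsupp.single P (1 : ℤ)) :=
    L_mono (le_add_of_nonneg_right (single_one_nonneg P))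
  have hlt : riemannRochSpace B < riemannRochSpace (B + Finsupp.single P (1 : ℤ)) :=
    lt_of_le_of_ne hle (fun h => hf' (by rw [h]; exact hf))
  exact Submodule.finrank_lt_finrank_of_lt hlt

/-- `m` distinct bad places give a chain of `m` strict inclusions above `L(A)`. -/
theorem card_add_one_le (htr : Algebra.trdeg K F = 1)
    {A : Divisor K F} (hA1 : Module.finrank K ↥(riemannRochSpace A) = 1)
    (s : Finset (Place K F))
    (hs : ∀ P ∈ s, A P = 0 ∧
      Module.finrank K ↥(riemannRochSpace (A + Finsupp.single P (1 : ℤ))) ≠ 1) :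
    s.card + 1 ≤ Module.finrank K ↥(riemannRochSpace (addPts A s)) := by
  classical
  induction s using Finset.induction_on with
  | empty =>
    rw [addPts_empty, hA1]
    simp
  | insert P s hP ih =>
    have ih' := ih fun Q hQ => hs Q (Finset.mem_insert_of_mem hQ)
    obtain ⟨hAP, hne⟩ := hs P (Finset.mem_insert_self P s)
    have hle : riemannRochSpace A ≤ riemannRochSpace (A + Finsupp.single P (1 : ℤ)) :=
      L_mono (le_add_of_nonneg_right (single_one_nonneg P))
    have hex : ∃ f ∈ riemannRochSpace (A + Finsupp.single P (1 : ℤ)),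
        f ∉ riemannRochSpace A := by
      by_contra hcon
      push Not at hcon
      have heq : riemannRochSpace A = riemannRochSpace (A + Finsupp.single P (1 : ℤ)) :=
        le_antisymm hle hcon
      exact hne (by rw [← heq]; exact hA1)
    obtain ⟨f, hf, hf'⟩ := hex
    have hord : P.ord f < -A P := ord_lt_of_notMem hf hf'
    have hf0 : f ≠ 0 := fun h => hf' (by rw [h]; exact Submodule.zero_mem _)
    have hmem : f ∈ riemannRochSpace (addPts A s + Finsupp.single P (1 : ℤ)) :=
      L_mono (add_le_add (le_addPts A s) le_rfl) hf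
    have hnot : f ∉ riemannRochSpace (addPts A s) := by
      intro hin
      have h2 := (mem_L_of_ne_zero hf0).mp hin P
      rw [addPts_apply_of_notMem A s hP] at h2
      omega
    have hlt := finrank_lt_of_pole htr hmem hnot
    rw [addPts_insert A hP, Finset.card_insert_of_notMem hP]
    omega

/-- `L(0) = K`, so `l(0) = 1`. -/
theorem finrank_L_zero (htr : Algebra.trdeg K F = 1) :
    Module.finrank K ↥(riemannRochSpace (0 : Divisor K F)) = 1 := by
  have h : riemannRochSpace (0 : Divisor K F) = K ∙ (1 : F) := by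
    ext f
    rw [mem_L_zero_iff htr, Submodule.mem_span_singleton]
    constructor
    · rintro ⟨a, rfl⟩
      exact ⟨a, by rw [Algebra.smul_def, mul_one]⟩
    · rintro ⟨a, rfl⟩
      exact ⟨a, by rw [Algebra.smul_def, mul_one]⟩
  rw [h]
  exact finrank_span_singleton one_ne_zero

theorem degree_single_one (htr : Algebra.trdeg K F = 1) (P : Place K F) :
    Divisor.degree (Finsupp.single P (1 : ℤ)) = 1 := by
  rw [Divisor.degree_single, deg_eq_one htr P]
  norm_num

theorem degree_sum_single (htr : Algebra.trdeg K F = 1) (s : Finset (Place K F)) :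
    Divisor.degree (∑ P ∈ s, Finsupp.single P (1 : ℤ)) = s.card := by
  rw [map_sum, Finset.sum_congr rfl fun P _ => degree_single_one htr P]
  simp

theorem degree_addPts (htr : Algebra.trdeg K F = 1) (A : Divisor K F) (s : Finset (Place K F)) :
    Divisor.degree (addPts A s) = Divisor.degree A + s.card := by
  unfold addPts
  rw [map_add, degree_sum_single htr]

theorem degree_eq_sum_support (htr : Algebra.trdeg K F = 1) (A : Divisor K F) :
    Divisor.degree A = ∑ v ∈ A.support, A v := by
  rw [degree_eq_finsum htr A]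
  exact finsum_eq_sum_of_support_subset _ (by intro v hv; simpa using hv)

theorem card_support_le_degree (htr : Algebra.trdeg K F = 1) {A : Divisor K F} (hA : 0 ≤ A) :
    (A.support.card : ℤ) ≤ Divisor.degree A := by
  rw [degree_eq_sum_support htr A]
  have h1 : ∀ v ∈ A.support, (1 : ℤ) ≤ A v := by
    intro v hv
    have h0 : (0 : ℤ) ≤ A v := Finsupp.le_def.mp hA v
    have h2 : A v ≠ 0 := Finsupp.mem_support_iff.mp hv
    omega
  calc (A.support.card : ℤ) = ∑ v ∈ A.support, (1 : ℤ) := by simp
    _ ≤ ∑ v ∈ A.support, A v := Finset.sum_le_sum h1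

/-- The counting bound: `deg A + #s < c` for every finite set `s` of bad places. -/
theorem key_bound (htr : Algebra.trdeg K F = 1) {c : ℤ}
    (hc : ∀ D : Divisor K F, c ≤ Divisor.degree D →
      (Module.finrank K ↥(riemannRochSpace D) : ℤ) = Divisor.degree D + 1 - (gR K F : ℤ))
    {A : Divisor K F} (hA1 : Module.finrank K ↥(riemannRochSpace A) = 1)
    (hdeg : Divisor.degree A < (gR K F : ℤ)) (s : Finset (Place K F))
    (hs : ∀ P ∈ s, A P = 0 ∧
      Module.finrank K ↥(riemannRochSpace (A + Finsupp.single P (1 : ℤ))) ≠ 1) :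
    Divisor.degree A + s.card < c := by
  by_contra hcon
  push Not at hcon
  have h1 := card_add_one_le htr hA1 s hs
  have h2 := hc (addPts A s) (by rw [degree_addPts htr]; exact hcon)
  rw [degree_addPts htr] at h2
  have h3 : ((s.card + 1 : ℕ) : ℤ) ≤
      (Module.finrank K ↥(riemannRochSpace (addPts A s)) : ℤ) := by
    exact_mod_cast h1
  push_cast at h3
  omega

end Curve

end NonSpecialStep

open NonSpecialStep

section Curve

variable [IsAlgClosed K] [CharZero K] [Algebra.EssFiniteType K F]

/-- **(NS1)** The non-special step from Riemann's theorem alone: for an effective `A` with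
`l(A) = 1` and `deg A < gR`, all but at most `c` places `P` outside the support of `A`
satisfy `l(A + P) = 1`. -/
theorem nonspecial_step (htr : Algebra.trdeg K F = 1) {c : ℤ}
    (hc : ∀ D : Divisor K F, c ≤ Divisor.degree D →
      (Module.finrank K ↥(riemannRochSpace D) : ℤ) = Divisor.degree D + 1 - (gR K F : ℤ))
    {A : Divisor K F} (hA : 0 ≤ A) (hA1 : Module.finrank K ↥(riemannRochSpace A) = 1)
    (hdeg : Divisor.degree A < (gR K F : ℤ)) :
    {P : Place K F | A P = 0 ∧
      Module.finrank K ↥(riemannRochSpace (A + Finsupp.single P (1 : ℤ))) ≠ 1}.Finite ∧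
    {P : Place K F | A P = 0 ∧
      Module.finrank K ↥(riemannRochSpace (A + Finsupp.single P (1 : ℤ))) ≠ 1}.ncard ≤
        c.toNat := by
  have hdegA : 0 ≤ Divisor.degree A := degree_nonneg htr hA
  have key : ∀ s : Finset (Place K F), (∀ P ∈ s, A P = 0 ∧
      Module.finrank K ↥(riemannRochSpace (A + Finsupp.single P (1 : ℤ))) ≠ 1) →
      s.card < c.toNat := by
    intro s hs
    have h1 := key_bound htr hc hA1 hdeg s hs
    exact Int.lt_toNat.mpr (by omega)
  have hfinT : {P : Place K F | A P = 0 ∧
      Module.finrank K ↥(riemannRochSpace (A + Finsupp.single P (1 : ℤ))) ≠ 1}.Finite := by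
    by_contra hinf
    obtain ⟨s, hsT, hcard⟩ := Set.Infinite.exists_subset_card_eq hinf c.toNat
    have h1 := key s (fun P hP => hsT (Finset.mem_coe.mpr hP))
    omega
  refine ⟨hfinT, ?_⟩
  have h1 := key hfinT.toFinset (fun P hP => (Set.Finite.mem_toFinset hfinT).mp hP)
  rw [Set.ncard_eq_toFinset_card _ hfinT]
  exact h1.le

/-- **(NS2)** `gR` distinct places outside a given finite set whose sum is non-special:
`l(P₁ + … + P_g) = 1`.  The hypothesis `hR` is the conclusion of `riemann_eq_of_large`. -/
theorem exists_distinct_nonspecial (htr : Algebra.trdeg K F = 1)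
    (hR : ∃ c : ℤ, ∀ D : Divisor K F, c ≤ Divisor.degree D →
      (Module.finrank K ↥(riemannRochSpace D) : ℤ) = Divisor.degree D + 1 - (gR K F : ℤ))
    (S : Set (Place K F)) (hS : S.Finite) :
    ∃ s : Finset (Place K F), s.card = gR K F ∧ (∀ P ∈ s, P ∉ S) ∧
      Module.finrank K ↥(riemannRochSpace (∑ P ∈ s, Finsupp.single P (1 : ℤ))) = 1 := by
  classical
  obtain ⟨c, hc⟩ := hR
  have hinf : (Set.univ : Set (Place K F)).Infinite :=
    Set.infinite_univ_iff.mpr (infinite_place htr)
  have aux : ∀ j : ℕ, j ≤ gR K F → ∃ s : Finset (Place K F), s.card = j ∧ (∀ P ∈ s, P ∉ S) ∧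
      Module.finrank K ↥(riemannRochSpace (addPts (0 : Divisor K F) s)) = 1 := by
    intro j
    induction j with
    | zero =>
      intro _
      refine ⟨∅, rfl, by simp, ?_⟩
      rw [addPts_empty]
      exact finrank_L_zero htr
    | succ j ih =>
      intro hj
      obtain ⟨s, hcard, hsS, h1⟩ := ih (by omega)
      have hA : (0 : Divisor K F) ≤ addPts (0 : Divisor K F) s := le_addPts 0 s
      have hdeg : Divisor.degree (addPts (0 : Divisor K F) s) < (gR K F : ℤ) := by
        rw [degree_addPts htr, map_zero, zero_add, hcard]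
        have hj' : j < gR K F := hj
        exact_mod_cast hj'
      obtain ⟨hT, -⟩ := nonspecial_step htr hc hA h1 hdeg
      have hbad := (hT.union hS).union s.finite_toSet
      obtain ⟨P, hP⟩ := (hinf.sdiff hbad).nonempty
      have hPbad := hP.2
      rw [Set.mem_union, Set.mem_union, not_or, not_or] at hPbad
      obtain ⟨⟨hPT, hPS⟩, hPs⟩ := hPbad
      have hPs' : P ∉ s := fun h => hPs (Finset.mem_coe.mpr h)
      refine ⟨insert P s, by rw [Finset.card_insert_of_notMem hPs', hcard], ?_, ?_⟩
      · intro Q hQ
        rcases Finset.mem_insert.mp hQ with rfl | hQ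
        · exact hPS
        · exact hsS Q hQ
      · rw [addPts_insert 0 hPs']
        have hAP : addPts (0 : Divisor K F) s P = 0 := by
          rw [addPts_apply_of_notMem 0 s hPs']
          rfl
        by_contra hne
        exact hPT ⟨hAP, hne⟩
  obtain ⟨s, h1, h2, h3⟩ := aux (gR K F) le_rfl
  refine ⟨s, h1, h2, ?_⟩
  have h4 : addPts (0 : Divisor K F) s = ∑ P ∈ s, Finsupp.single P (1 : ℤ) := by
    simp [addPts]
  rwa [h4] at h3

/-- **(NS3)** A fixed pool of `c + gR` places contains, for every effective `A` with `l(A) = 1`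
and `deg A < gR`, a place `P` outside the support of `A` with `l(A + P) = 1`. -/
theorem exists_mem_pool_nonspecial (htr : Algebra.trdeg K F = 1) {c : ℤ}
    (hc : ∀ D : Divisor K F, c ≤ Divisor.degree D →
      (Module.finrank K ↥(riemannRochSpace D) : ℤ) = Divisor.degree D + 1 - (gR K F : ℤ))
    (pool : Finset (Place K F)) (hpool : c.toNat + gR K F ≤ pool.card)
    {A : Divisor K F} (hA : 0 ≤ A) (hA1 : Module.finrank K ↥(riemannRochSpace A) = 1)
    (hdeg : Divisor.degree A < (gR K F : ℤ)) :
    ∃ P ∈ pool, A P = 0 ∧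
      Module.finrank K ↥(riemannRochSpace (A + Finsupp.single P (1 : ℤ))) = 1 := by
  classical
  obtain ⟨hT, hTc⟩ := nonspecial_step htr hc hA hA1 hdeg
  have hcard : (hT.toFinset ∪ A.support).card < pool.card := by
    have h1 := Finset.card_union_le hT.toFinset A.support
    have h2 : hT.toFinset.card ≤ c.toNat := by
      rw [← Set.ncard_eq_toFinset_card _ hT]
      exact hTc
    have h3 := card_support_le_degree htr hA
    omega
  obtain ⟨P, hPpool, hPbad⟩ : ∃ P ∈ pool, P ∉ hT.toFinset ∪ A.support := by
    by_contra hcon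
    push Not at hcon
    exact absurd (Finset.card_le_card (fun P hP => hcon P hP)) (not_le.mpr hcard)
  rw [Finset.mem_union, not_or] at hPbad
  obtain ⟨hPT, hPA⟩ := hPbad
  have hAP : A P = 0 := by simpa using hPA
  refine ⟨P, hPpool, hAP, ?_⟩
  by_contra hne
  exact hPT ((Set.Finite.mem_toFinset hT).mpr ⟨hAP, hne⟩)

/-- **(NS3)**, bound hidden: there is `n` such that every pool of at least `n` places contains,
for every effective `A` with `l(A) = 1` and `deg A < gR`, a place `P` outside the support of `A`
with `l(A + P) = 1`.  The hypothesis `hR` is the conclusion of `riemann_eq_of_large`. -/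
theorem exists_pool_bound (htr : Algebra.trdeg K F = 1)
    (hR : ∃ c : ℤ, ∀ D : Divisor K F, c ≤ Divisor.degree D →
      (Module.finrank K ↥(riemannRochSpace D) : ℤ) = Divisor.degree D + 1 - (gR K F : ℤ)) :
    ∃ n : ℕ, ∀ pool : Finset (Place K F), n ≤ pool.card → ∀ A : Divisor K F, 0 ≤ A →
      Module.finrank K ↥(riemannRochSpace A) = 1 → Divisor.degree A < (gR K F : ℤ) →
      ∃ P ∈ pool, A P = 0 ∧
        Module.finrank K ↥(riemannRochSpace (A + Finsupp.single P (1 : ℤ))) = 1 := by
  obtain ⟨c, hc⟩ := hR
  exact ⟨c.toNat + gR K F, fun pool hpool A hA hA1 hdeg =>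
    exists_mem_pool_nonspecial htr hc pool hpool hA hA1 hdeg⟩

/-- There is an effective non-special divisor of degree `gR` (a sum of `gR` distinct places),
from Riemann's theorem alone.  The hypothesis `hR` is the conclusion of `riemann_eq_of_large`. -/
theorem exists_nonspecial_of_riemann (htr : Algebra.trdeg K F = 1)
    (hR : ∃ c : ℤ, ∀ D : Divisor K F, c ≤ Divisor.degree D →
      (Module.finrank K ↥(riemannRochSpace D) : ℤ) = Divisor.degree D + 1 - (gR K F : ℤ)) :
    ∃ E : Divisor K F, 0 ≤ E ∧ Divisor.degree E = (gR K F : ℤ) ∧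
      Module.finrank K ↥(riemannRochSpace E) = 1 := by
  obtain ⟨s, h1, -, h3⟩ := exists_distinct_nonspecial htr hR ∅ Set.finite_empty
  refine ⟨_, sum_single_nonneg s, ?_, h3⟩
  rw [degree_sum_single htr, h1]

end Curve

end Fermat.Agent.S17.R
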