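/-
MW strand R, leaf R2: Riemann's inequality for a function field `F / K` of one variable over an
algebraically closed field of characteristic zero (helper256, independent second of the row).

`gR K F` (leaf R0) is the least `γ` with `deg D + 1 - γ ≤ l(D)` for all divisors `D`.

* `riemann_inequality` : `deg D + 1 - gR ≤ l(D)` (the set of admissible `γ` is not empty);
* `riemann_eq_of_large` : `l(D) = deg D + 1 - gR` for all `D` of large degree.

Proof (Stichtenoth 1.4.14 / 1.4.17).  `x` transcendental, `B = (x)_∞`, `n = [F : K(x)] = deg B`,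
`u_1 .. u_n` a basis of `F / K(x)`, `C ≥ 0` with `u_j ∈ L(C)`: the `n (l + 1)` functions
`x ^ i u_j`, `i ≤ l`, are linearly independent in `L(l B + C)`, hence
`deg (l B) - l(l B) ≤ deg C - n`; an arbitrary `D` is dominated, up to a principal divisor, by
some `l B`, and `deg D - l(D)` is monotone in `D` (leaf R1).
-/
import Mathlib
import Fermat.Agent.S17.R.LSpace
import Fermat.Agent.S17.R.LStep

set_option autoImplicit false
set_option linter.style.haveILetI false

namespace Fermat.Agent.S17.R

open AlgebraicCurve IntermediateField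
open Fermat.Agent.S24.FF

namespace RiemannAux

variable {K F : Type*} [Field K] [Field F] [Algebra K F]

/-- The positive part of a divisor. -/
noncomputable def posDiv (D : Divisor K F) : Divisor K F :=
  D.mapRange (fun n : ℤ => max n 0) (by simp)

theorem posDiv_apply (D : Divisor K F) (v : Place K F) : posDiv D v = max (D v) 0 :=
  Finsupp.mapRange_apply

theorem le_posDiv (D : Divisor K F) : D ≤ posDiv D :=
  Finsupp.le_def.mpr fun v => by
    rw [posDiv_apply]
    exact le_max_left _ _

theorem posDiv_nonneg (D : Divisor K F) : 0 ≤ posDiv D :=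
  Finsupp.le_def.mpr fun v => by
    rw [posDiv_apply, Finsupp.zero_apply]
    exact le_max_right _ _

/-- The pole divisor of a function. -/
noncomputable def poleDiv (K : Type*) {F : Type*} [Field K] [Field F] [Algebra K F] (f : F) :
    Divisor K F :=
  posDiv (-divOf K f)

theorem poleDiv_nonneg (K : Type*) {F : Type*} [Field K] [Field F] [Algebra K F] (f : F) :
    0 ≤ poleDiv K f :=
  posDiv_nonneg _

theorem one_mem_L_zero : (1 : F) ∈ riemannRochSpace (0 : Divisor K F) := by
  rw [mem_L_iff]
  refine Or.inr fun v => ?_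
  simp

theorem pow_mem_L {D : Divisor K F} {f : F} (hf : f ∈ riemannRochSpace D) (i : ℕ) :
    f ^ i ∈ riemannRochSpace (i • D) := by
  induction i with
  | zero =>
    rw [zero_smul, pow_zero]
    exact one_mem_L_zero
  | succ i ih =>
    rw [pow_succ, succ_nsmul]
    exact mul_mem_L ih hf

theorem linearIndependent_pow_of_transcendental {x : F} (hx : Transcendental K x) :
    LinearIndependent K (fun i : ℕ => x ^ i) := by
  have h1 : LinearIndependent K (fun i : ℕ => (Polynomial.X : Polynomial K) ^ i) := by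
    have h := (Polynomial.basisMonomials K).linearIndependent
    rw [Polynomial.coe_basisMonomials] at h
    simp_rw [Polynomial.X_pow_eq_monomial]
    exact h
  have h2 := h1.map' (Polynomial.aeval x).toLinearMap
    (LinearMap.ker_eq_bot.mpr (transcendental_iff_injective.mp hx))
  have h3 : ((Polynomial.aeval x).toLinearMap ∘ fun i : ℕ => (Polynomial.X : Polynomial K) ^ i)
      = fun i : ℕ => x ^ i := by
    funext i
    simp
  rw [h3] at h2
  exact h2

section Curve

variable [IsAlgClosed K] [CharZero K] [Algebra.EssFiniteType K F]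

theorem poleDiv_apply (htr : Algebra.trdeg K F = 1) (f : F) (v : Place K F) :
    poleDiv K f v = max (-v.ord f) 0 := by
  unfold poleDiv
  rw [posDiv_apply, Finsupp.neg_apply, divOf_apply htr]

theorem mem_L_poleDiv (htr : Algebra.trdeg K F = 1) (f : F) :
    f ∈ riemannRochSpace (poleDiv K f) := by
  rw [mem_L_iff]
  refine Or.inr fun v => ?_
  rw [poleDiv_apply htr]
  have := le_max_left (-v.ord f) 0
  omega

theorem degree_poleDiv (htr : Algebra.trdeg K F = 1) {x : F} (hx : Transcendental K x) :
    Divisor.degree (poleDiv K x) = (Module.finrank K⟮x⟯ F : ℤ) := by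
  rw [degree_eq_finsum htr, ← sum_ord_poles htr hx]
  have hfun : (fun v : Place K F => poleDiv K x v) = fun v => max (-v.ord x) 0 :=
    funext fun v => poleDiv_apply htr x v
  rw [hfun, ← finsum_mem_support (fun v : Place K F => max (-v.ord x) 0)]
  refine finsum_mem_congr ?_ ?_
  · ext v
    simp only [Function.mem_support, Set.mem_ofPred_eq, ne_eq]
    constructor
    · intro h
      by_contra hlt
      exact h (max_eq_right (by omega))
    · intro h h0
      have := le_max_left (-v.ord x) 0
      omega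
  · intro v hv
    have hv' : v.ord x < 0 := hv
    exact max_eq_left (by omega)

theorem exists_transcendental (htr : Algebra.trdeg K F = 1) : ∃ x : F, Transcendental K x := by
  have h : Algebra.trdeg K F ≠ 0 := by
    rw [htr]
    exact one_ne_zero
  exact Algebra.transcendental_def.mp (trdeg_ne_zero_iff.mp h)

/-- **Riemann's theorem**: `deg D - l(D)` is bounded above. -/
theorem exists_bound (htr : Algebra.trdeg K F = 1) :
    ∃ γ : ℤ, ∀ D : Divisor K F,
      Divisor.degree D - (Module.finrank K ↥(riemannRochSpace D) : ℤ) ≤ γ := by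
  classical
  obtain ⟨x, hx⟩ := exists_transcendental (K := K) (F := F) htr
  haveI : Module.Finite K⟮x⟯ F := finite_adjoin_simple htr hx
  obtain ⟨n, hn⟩ : ∃ n : ℕ, n = Module.finrank K⟮x⟯ F := ⟨_, rfl⟩
  have hnpos : 0 < n := hn ▸ Module.finrank_pos
  obtain ⟨B, hB⟩ : ∃ B : Divisor K F, B = poleDiv K x := ⟨_, rfl⟩
  have hB0 : 0 ≤ B := hB ▸ poleDiv_nonneg K x
  have hxB : x ∈ riemannRochSpace B := hB ▸ mem_L_poleDiv htr x
  have hdegB : Divisor.degree B = (n : ℤ) := by
    rw [hB, hn]
    exact degree_poleDiv htr hx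
  let bas := Module.finBasis K⟮x⟯ F
  have hu : LinearIndependent K⟮x⟯ (fun j => bas j) := bas.linearIndependent
  obtain ⟨C, hC⟩ : ∃ C : Divisor K F, C = ∑ j, poleDiv K (bas j) := ⟨_, rfl⟩
  have hC0 : 0 ≤ C := hC ▸ Finset.sum_nonneg fun j _ => poleDiv_nonneg K (bas j)
  have huC : ∀ j, bas j ∈ riemannRochSpace C := fun j =>
    L_mono (hC ▸ Finset.single_le_sum (f := fun i => poleDiv K (bas i))
      (fun i _ => poleDiv_nonneg K (bas i)) (Finset.mem_univ j)) (mem_L_poleDiv htr (bas j))
  have hdegC : 0 ≤ Divisor.degree C := degree_nonneg htr hC0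
  -- the key estimate: `n (l + 1) - deg C ≤ l(l B)`
  have key : ∀ l : ℕ, (l : ℤ) * n + n - Divisor.degree C ≤
      (Module.finrank K ↥(riemannRochSpace (l • B)) : ℤ) := by
    intro l
    haveI := finite_L htr (l • B + C)
    have hmem : ∀ p : Fin (l + 1) × Fin (Module.finrank K⟮x⟯ F),
        x ^ (p.1 : ℕ) * bas p.2 ∈ riemannRochSpace (l • B + C) := by
      intro p
      refine mul_mem_L (L_mono ?_ (pow_mem_L hxB (p.1 : ℕ))) (huC p.2)
      exact nsmul_le_nsmul_left hB0 (Nat.lt_succ_iff.mp p.1.2)
    have hb : LinearIndependent K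
        (fun i : Fin (l + 1) => (AdjoinSimple.gen K x) ^ (i : ℕ)) := by
      have h := (linearIndependent_pow_of_transcendental hx).comp
        (fun i : Fin (l + 1) => (i : ℕ)) Fin.val_injective
      refine LinearIndependent.of_comp (K⟮x⟯.val.toLinearMap) ?_
      have h' : (K⟮x⟯.val.toLinearMap ∘ fun i : Fin (l + 1) => (AdjoinSimple.gen K x) ^ (i : ℕ))
          = ((fun i : ℕ => x ^ i) ∘ fun i : Fin (l + 1) => (i : ℕ)) := by
        funext i
        simp
      rw [h']
      exact h
    have hprod := linearIndependent_smul hb hu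
    have hli : LinearIndependent K (fun p : Fin (l + 1) × Fin (Module.finrank K⟮x⟯ F) =>
        (⟨x ^ (p.1 : ℕ) * bas p.2, hmem p⟩ : ↥(riemannRochSpace (l • B + C)))) := by
      refine LinearIndependent.of_comp (riemannRochSpace (l • B + C)).subtype ?_
      have h' : ((riemannRochSpace (l • B + C)).subtype ∘
          fun p : Fin (l + 1) × Fin (Module.finrank K⟮x⟯ F) =>
            (⟨x ^ (p.1 : ℕ) * bas p.2, hmem p⟩ : ↥(riemannRochSpace (l • B + C))))
          = fun p : Fin (l + 1) × Fin (Module.finrank K⟮x⟯ F) =>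
            (AdjoinSimple.gen K x) ^ (p.1 : ℕ) • bas p.2 := by
        funext p
        simp [Algebra.smul_def]
      rw [h']
      exact hprod
    have hcard := hli.fintype_card_le_finrank
    rw [Fintype.card_prod, Fintype.card_fin, Fintype.card_fin, ← hn] at hcard
    have hcard' : (((l + 1) * n : ℕ) : ℤ) ≤
        (Module.finrank K ↥(riemannRochSpace (l • B + C)) : ℤ) := by
      exact_mod_cast hcard
    push_cast at hcard'
    have hstep := finrank_L_le_of_le htr (D := l • B) (D' := l • B + C)
      (le_add_of_nonneg_right hC0)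
    rw [map_add, add_sub_cancel_left] at hstep
    linarith
  refine ⟨Divisor.degree C - n, fun D => ?_⟩
  obtain ⟨D₁, hD₁⟩ : ∃ D₁ : Divisor K F, D₁ = posDiv D := ⟨_, rfl⟩
  have hDD₁ : D ≤ D₁ := hD₁ ▸ le_posDiv D
  have hD₁0 : 0 ≤ D₁ := hD₁ ▸ posDiv_nonneg D
  have hdegD₁ : 0 ≤ Divisor.degree D₁ := degree_nonneg htr hD₁0
  obtain ⟨l, hl⟩ : ∃ l : ℕ, (l : ℤ) = Divisor.degree C + Divisor.degree D₁ :=
    ⟨(Divisor.degree C + Divisor.degree D₁).toNat, Int.toNat_of_nonneg (by linarith)⟩
  have hkey := key l
  have hdeglB : Divisor.degree (l • B) = (l : ℤ) * n := by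
    rw [map_nsmul, hdegB, nsmul_eq_mul]
  have h1 := finrank_L_le_of_le htr (D := l • B - D₁) (D' := l • B) (sub_le_self _ hD₁0)
  rw [map_sub] at h1
  have hn1 : (1 : ℤ) ≤ n := by exact_mod_cast hnpos
  have hl0 : (0 : ℤ) ≤ l := Int.natCast_nonneg l
  have hpos : 0 < Module.finrank K ↥(riemannRochSpace (l • B - D₁)) := by
    have h : (0 : ℤ) < (Module.finrank K ↥(riemannRochSpace (l • B - D₁)) : ℤ) := by
      nlinarith [mul_nonneg hl0 (sub_nonneg.mpr hn1)]
    exact_mod_cast h
  haveI := finite_L htr (l • B - D₁)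
  obtain ⟨z, hz⟩ := Module.finrank_pos_iff_exists_ne_zero.mp hpos
  have hz0 : (z : F) ≠ 0 := fun h => hz (Subtype.ext h)
  have hA' : D₁ - divOf K (z : F) ≤ l • B := by
    have h := add_divOf_nonneg htr hz0 z.2
    have h' : 0 ≤ l • B + divOf K (z : F) - D₁ := by
      convert h using 1
      abel
    rw [sub_le_iff_le_add]
    exact sub_nonneg.mp h'
  have hfr : Module.finrank K ↥(riemannRochSpace D₁) =
      Module.finrank K ↥(riemannRochSpace (D₁ - divOf K (z : F))) := by
    apply finrank_L_eq_of_principal htr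
    rw [sub_sub_cancel]
    exact divOf_mem_principal htr hz0
  have h2 := finrank_L_le_of_le htr hA'
  rw [map_sub, degree_divOf htr, sub_zero, ← hfr] at h2
  have h3 := finrank_L_le_of_le htr hDD₁
  linarith

end Curve

end RiemannAux

variable {K F : Type*} [Field K] [Field F] [Algebra K F]
variable [IsAlgClosed K] [CharZero K] [Algebra.EssFiniteType K F]

/-- **Riemann's inequality**: `deg D + 1 - g ≤ l(D)` for every divisor `D`. -/
theorem riemann_inequality (htr : Algebra.trdeg K F = 1) (D : Divisor K F) :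
    Divisor.degree D + 1 - (gR K F : ℤ) ≤ (Module.finrank K ↥(riemannRochSpace D) : ℤ) := by
  have hne : {γ : ℕ | ∀ D : Divisor K F,
      Divisor.degree D + 1 - (γ : ℤ) ≤ (Module.finrank K ↥(riemannRochSpace D) : ℤ)}.Nonempty := by
    obtain ⟨γ, hγ⟩ := RiemannAux.exists_bound (K := K) (F := F) htr
    refine ⟨(γ + 1).toNat, fun D => ?_⟩
    have h1 := hγ D
    have h2 : γ + 1 ≤ ((γ + 1).toNat : ℤ) := Int.self_le_toNat _
    linarith
  exact Nat.sInf_mem hne D

/-- **Riemann's theorem, equality in large degree**: `l(D) = deg D + 1 - g` as soon as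
`deg D` is large. -/
theorem riemann_eq_of_large (htr : Algebra.trdeg K F = 1) :
    ∃ c : ℤ, ∀ D : Divisor K F, c ≤ Divisor.degree D →
      (Module.finrank K ↥(riemannRochSpace D) : ℤ) = Divisor.degree D + 1 - (gR K F : ℤ) := by
  have hA : ∃ A₀ : Divisor K F, (Module.finrank K ↥(riemannRochSpace A₀) : ℤ) ≤
      Divisor.degree A₀ + 1 - (gR K F : ℤ) := by
    rcases Nat.eq_zero_or_pos (gR K F) with h0 | hpos
    · refine ⟨0, ?_⟩
      have h := finrank_L_le htr (0 : Divisor K F)
      rw [h0]
      simpa using h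
    · have hnot : (gR K F - 1) ∉ {γ : ℕ | ∀ D : Divisor K F,
          Divisor.degree D + 1 - (γ : ℤ) ≤ (Module.finrank K ↥(riemannRochSpace D) : ℤ)} :=
        Nat.notMem_of_lt_sInf (Nat.sub_lt hpos one_pos)
      simp only [Set.mem_ofPred_eq, not_forall, not_le] at hnot
      obtain ⟨A₀, hA₀⟩ := hnot
      refine ⟨A₀, ?_⟩
      have hc : ((gR K F - 1 : ℕ) : ℤ) = (gR K F : ℤ) - 1 := by
        rw [Nat.cast_sub hpos]
        simp
      rw [hc] at hA₀
      omega
  obtain ⟨A₀, hA₀⟩ := hA
  refine ⟨Divisor.degree A₀ + gR K F, fun D hD => ?_⟩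
  have hri := riemann_inequality htr D
  have hri2 := riemann_inequality htr (D - A₀)
  rw [map_sub] at hri2
  haveI := finite_L htr (D - A₀)
  have hpos : 0 < Module.finrank K ↥(riemannRochSpace (D - A₀)) := by
    have h : (0 : ℤ) < (Module.finrank K ↥(riemannRochSpace (D - A₀)) : ℤ) := by linarith
    exact_mod_cast h
  obtain ⟨z, hz⟩ := Module.finrank_pos_iff_exists_ne_zero.mp hpos
  have hz0 : (z : F) ≠ 0 := fun h => hz (Subtype.ext h)
  have hA' : A₀ - divOf K (z : F) ≤ D := by
    have h := add_divOf_nonneg htr hz0 z.2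
    have h' : 0 ≤ D + divOf K (z : F) - A₀ := by
      convert h using 1
      abel
    rw [sub_le_iff_le_add]
    exact sub_nonneg.mp h'
  have hfr : Module.finrank K ↥(riemannRochSpace A₀) =
      Module.finrank K ↥(riemannRochSpace (A₀ - divOf K (z : F))) := by
    apply finrank_L_eq_of_principal htr
    rw [sub_sub_cancel]
    exact divOf_mem_principal htr hz0
  have h2 := finrank_L_le_of_le htr hA'
  rw [map_sub, degree_divOf htr, sub_zero, ← hfr] at h2
  linarith

end Fermat.Agent.S17.R
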