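import Mathlib
import Fermat.Prelude.Def_AlgebraicCurve_Repartitions
import Fermat.Agent.S17.R.LSpace
import Fermat.Agent.S17.R.LStep
import Fermat.Agent.S17.R.Riemann

/-!
# S17 (PROGRAM MW), strand R, leaf R10a: pole orders at one place

`F / K` a function field of one variable over an algebraically closed field of characteristic
zero, `v₀` a place.  All thresholds are existential ("`n` large"); everything follows from
Riemann's theorem in large degree (`riemann_eq_of_large`, leaf R2) and `deg v = 1`.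

* `finrank_L_nsmul_single`   : `l(n·v₀) = n + 1 - g` for `n` large;
* `finrank_L_sub_point`      : `l(m·v₀ - P) + 1 = l(m·v₀)` for `m` large and every `P`
  (base-point freeness);
* `finrank_L_sub_two_points` : `l(m·v₀ - P - Q) + 2 = l(m·v₀)` for `m` large and all `P`, `Q`
  (separation of points and tangents; `P = Q` and `P = v₀` included);
* `exists_nongap_bound`      : every large `n` is the exact pole order at `v₀` of a function
  regular elsewhere.
-/

set_option autoImplicit false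

namespace Fermat.Agent.S17.R

open AlgebraicCurve

variable {K F : Type*} [Field K] [Field F] [Algebra K F]
variable [IsAlgClosed K] [CharZero K] [Algebra.EssFiniteType K F]

namespace PoleOrder

/-- `deg (n·v₀) = n`. -/
theorem degree_zsmul_single (htr : Algebra.trdeg K F = 1) (v₀ : Place K F) (n : ℤ) :
    Divisor.degree (n • Finsupp.single v₀ (1 : ℤ)) = n := by
  rw [map_zsmul, Divisor.degree_single, Fermat.Agent.S24.FF.deg_eq_one htr v₀]
  simp

/-- `deg (D - P) = deg D - 1`. -/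
theorem degree_sub_single (htr : Algebra.trdeg K F = 1) (D : Divisor K F) (P : Place K F) :
    Divisor.degree (D - Finsupp.single P (1 : ℤ)) = Divisor.degree D - 1 := by
  rw [map_sub, Divisor.degree_single, Fermat.Agent.S24.FF.deg_eq_one htr P]
  simp

/-- the threshold inequality in `ℤ` -/
theorem le_of_toNat_le {c : ℤ} {n : ℕ} (h : c.toNat ≤ n) : c ≤ (n : ℤ) := by
  have h1 := Int.self_le_toNat c
  have h2 : (c.toNat : ℤ) ≤ (n : ℤ) := by exact_mod_cast h
  linarith

end PoleOrder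

/-- `l(n·v₀) = n + 1 - g` for `n` large. -/
theorem finrank_L_nsmul_single (htr : Algebra.trdeg K F = 1) (v₀ : Place K F) :
    ∃ n₀ : ℕ, ∀ n : ℕ, n₀ ≤ n →
      (Module.finrank K ↥(riemannRochSpace ((n : ℤ) • Finsupp.single v₀ (1 : ℤ))) : ℤ) =
        (n : ℤ) + 1 - (gR K F : ℤ) := by
  obtain ⟨c, hc⟩ := riemann_eq_of_large (K := K) (F := F) htr
  refine ⟨c.toNat, fun n hn => ?_⟩
  have hdeg := PoleOrder.degree_zsmul_single htr v₀ (n : ℤ)
  have h1 : c ≤ (n : ℤ) := PoleOrder.le_of_toNat_le hn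
  have h := hc ((n : ℤ) • Finsupp.single v₀ (1 : ℤ)) (by rw [hdeg]; exact h1)
  rw [h, hdeg]

/-- `L(m·v₀)` is base-point free and separates points and tangents for `m` large. -/
theorem finrank_L_sub_two_points (htr : Algebra.trdeg K F = 1) (v₀ : Place K F) :
    ∃ m₀ : ℕ, ∀ m : ℕ, m₀ ≤ m → ∀ P Q : Place K F,
      Module.finrank K ↥(riemannRochSpace
        ((m : ℤ) • Finsupp.single v₀ (1 : ℤ) - Finsupp.single P 1 - Finsupp.single Q 1)) + 2 =
      Module.finrank K ↥(riemannRochSpace ((m : ℤ) • Finsupp.single v₀ (1 : ℤ))) := by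
  obtain ⟨c, hc⟩ := riemann_eq_of_large (K := K) (F := F) htr
  refine ⟨(c + 2).toNat, fun m hm P Q => ?_⟩
  have hm' : c + 2 ≤ (m : ℤ) := PoleOrder.le_of_toNat_le hm
  have hd0 := PoleOrder.degree_zsmul_single htr v₀ (m : ℤ)
  have hd1 := PoleOrder.degree_sub_single htr ((m : ℤ) • Finsupp.single v₀ (1 : ℤ)) P
  have hd2 := PoleOrder.degree_sub_single htr
    ((m : ℤ) • Finsupp.single v₀ (1 : ℤ) - Finsupp.single P 1) Q
  rw [hd1, hd0] at hd2
  have h0 := hc ((m : ℤ) • Finsupp.single v₀ (1 : ℤ)) (by rw [hd0]; linarith)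
  have h2 := hc ((m : ℤ) • Finsupp.single v₀ (1 : ℤ) - Finsupp.single P 1 - Finsupp.single Q 1)
    (by rw [hd2]; linarith)
  rw [hd0] at h0
  rw [hd2] at h2
  have h3 : ((Module.finrank K ↥(riemannRochSpace
      ((m : ℤ) • Finsupp.single v₀ (1 : ℤ) - Finsupp.single P 1 - Finsupp.single Q 1)) + 2 : ℕ)
        : ℤ)
      = (Module.finrank K ↥(riemannRochSpace ((m : ℤ) • Finsupp.single v₀ (1 : ℤ))) : ℤ) := by
    push_cast
    linarith
  exact_mod_cast h3

/-- `L(m·v₀)` is base-point free for `m` large. -/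
theorem finrank_L_sub_point (htr : Algebra.trdeg K F = 1) (v₀ : Place K F) :
    ∃ m₀ : ℕ, ∀ m : ℕ, m₀ ≤ m → ∀ P : Place K F,
      Module.finrank K ↥(riemannRochSpace
        ((m : ℤ) • Finsupp.single v₀ (1 : ℤ) - Finsupp.single P 1)) + 1 =
      Module.finrank K ↥(riemannRochSpace ((m : ℤ) • Finsupp.single v₀ (1 : ℤ))) := by
  obtain ⟨c, hc⟩ := riemann_eq_of_large (K := K) (F := F) htr
  refine ⟨(c + 1).toNat, fun m hm P => ?_⟩
  have hm' : c + 1 ≤ (m : ℤ) := PoleOrder.le_of_toNat_le hm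
  have hd0 := PoleOrder.degree_zsmul_single htr v₀ (m : ℤ)
  have hd1 := PoleOrder.degree_sub_single htr ((m : ℤ) • Finsupp.single v₀ (1 : ℤ)) P
  rw [hd0] at hd1
  have h0 := hc ((m : ℤ) • Finsupp.single v₀ (1 : ℤ)) (by rw [hd0]; linarith)
  have h1 := hc ((m : ℤ) • Finsupp.single v₀ (1 : ℤ) - Finsupp.single P 1)
    (by rw [hd1]; linarith)
  rw [hd0] at h0
  rw [hd1] at h1
  have h3 : ((Module.finrank K ↥(riemannRochSpace
      ((m : ℤ) • Finsupp.single v₀ (1 : ℤ) - Finsupp.single P 1)) + 1 : ℕ) : ℤ)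
      = (Module.finrank K ↥(riemannRochSpace ((m : ℤ) • Finsupp.single v₀ (1 : ℤ))) : ℤ) := by
    push_cast
    linarith
  exact_mod_cast h3

/-- Every large `n` is a pole order at `v₀` of a function regular elsewhere (non-gap). -/
theorem exists_nongap_bound (htr : Algebra.trdeg K F = 1) (v₀ : Place K F) :
    ∃ n₀ : ℕ, ∀ n : ℕ, n₀ ≤ n →
      ∃ f : F, f ∈ riemannRochSpace ((n : ℤ) • Finsupp.single v₀ (1 : ℤ)) ∧
        v₀.ord f = -(n : ℤ) := by
  classical
  obtain ⟨m₀, hm₀⟩ := finrank_L_sub_point (K := K) (F := F) htr v₀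
  refine ⟨m₀, fun n hn => ?_⟩
  have hfr := hm₀ n hn v₀
  obtain ⟨D, hD⟩ : ∃ D : Divisor K F, D = (n : ℤ) • Finsupp.single v₀ (1 : ℤ) := ⟨_, rfl⟩
  rw [← hD] at hfr ⊢
  have hDv : D v₀ = (n : ℤ) := by
    rw [hD, Finsupp.smul_apply, Finsupp.single_eq_same]
    simp
  have hle : riemannRochSpace (D - Finsupp.single v₀ 1) ≤ riemannRochSpace D := by
    refine L_mono (Finsupp.le_def.mpr fun v => ?_)
    rw [Finsupp.sub_apply, Finsupp.single_apply]
    split_ifs <;> omega
  have hnot : ¬ riemannRochSpace D ≤ riemannRochSpace (D - Finsupp.single v₀ 1) := by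
    intro h
    have heq := le_antisymm h hle
    rw [heq] at hfr
    omega
  obtain ⟨f, hfD, hfn⟩ := SetLike.not_le_iff_exists.mp hnot
  have hf0 : f ≠ 0 := by
    rintro rfl
    exact hfn (Submodule.zero_mem _)
  refine ⟨f, hfD, ?_⟩
  rw [mem_L_of_ne_zero hf0] at hfD hfn
  push_neg at hfn
  obtain ⟨v, hv⟩ := hfn
  have hvv : v = v₀ := by
    by_contra hne
    have h1 := hfD v
    rw [Finsupp.sub_apply, Finsupp.single_apply, if_neg (Ne.symm hne)] at hv
    omega
  subst hvv
  have h1 := hfD v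
  rw [Finsupp.sub_apply, Finsupp.single_eq_same, hDv] at hv
  rw [hDv] at h1
  omega

end Fermat.Agent.S17.R
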