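/-
MW strand R, leaf R11: in a function field of one variable `F / K`, every valuation subring of
`F` containing `K` (other than `F`) is the valuation ring of a place, and every nonzero prime of
a `K`-subalgebra of `F` is the centre of a place (closedness).
-/
import Mathlib
import Fermat.Agent.S24.FF.Dedekind

set_option autoImplicit false
set_option linter.unusedSectionVars false

namespace Fermat.Agent.S17.R

open AlgebraicCurve IsDedekindDomain IntermediateField Fermat.Agent.S24.FF
open scoped IntermediateField.algebraAdjoinAdjoin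

variable {K F : Type*} [Field K] [Field F] [Algebra K F]

namespace ValPlace

/-- A valuation subring of `F` is integrally closed in `F`. -/
theorem mem_of_isIntegral_valSubring (A : ValuationSubring F) {R : Type*} [CommRing R]
    [Algebra R F] (hR : ∀ r : R, algebraMap R F r ∈ A) {b : F} (hb : IsIntegral R b) :
    b ∈ A := by
  obtain ⟨p, hpm, hp0⟩ := hb
  let φ : R →+* A := (algebraMap R F).codRestrict A.toSubring hR
  have hint' : IsIntegral A b := by
    refine ⟨p.map φ, hpm.map φ, ?_⟩
    rw [Polynomial.eval₂_map]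
    exact hp0
  obtain ⟨y, hy⟩ := IsIntegrallyClosed.isIntegral_iff.mp hint'
  rw [← hy]
  exact y.2

section General

variable {R : Type*} [CommRing R] [IsDedekindDomain R] [Algebra R F] [IsFractionRing R F]
  [Algebra K R] [IsScalarTower K R F]

/-- A valuation subring `A ≠ ⊤` of `F` which contains a Dedekind domain `R` with fraction field
`F` is the valuation ring of the place of a height-one prime of `R`. -/
theorem exists_ofHeightOneSpectrum_toValuationSubring_eq (A : ValuationSubring F) (hA : A ≠ ⊤)
    (hv : ∀ r : R, algebraMap R F r ∈ A) :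
    ∃ w : HeightOneSpectrum R,
      (Place.ofHeightOneSpectrum (K := K) (F := F) w).toValuationSubring = A := by
  let φ : R →+* A := (algebraMap R F).codRestrict A.toSubring hv
  let q : Ideal R := (IsLocalRing.maximalIdeal A).comap φ
  have hqprime : q.IsPrime := Ideal.comap_isPrime φ _
  have hqmem : ∀ r : R, r ∉ q → (algebraMap R F r)⁻¹ ∈ A := by
    intro r hr
    have hunit : IsUnit (φ r) := by
      by_contra hnu
      exact hr ((IsLocalRing.mem_maximalIdeal _).mpr hnu)
    obtain ⟨b, hb⟩ := isUnit_iff_exists_inv.mp hunit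
    have h1 : algebraMap R F r * (b : F) = 1 := by
      have := Subtype.ext_iff.mp hb
      exact this
    have h2 : (algebraMap R F r)⁻¹ = (b : F) := by
      have hne : algebraMap R F r ≠ 0 := by
        intro h0
        rw [h0, zero_mul] at h1
        exact zero_ne_one h1
      exact inv_eq_of_mul_eq_one_right h1
    rw [h2]
    exact b.2
  have hqbot : q ≠ ⊥ := by
    intro hbot
    apply hA
    rw [eq_top_iff]
    intro f _
    obtain ⟨a, b, hb, rfl⟩ := IsFractionRing.div_surjective (A := R) f
    have hb0 : b ≠ 0 := nonZeroDivisors.ne_zero hb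
    have hbq : b ∉ q := by
      rw [hbot]
      simpa using hb0
    rw [div_eq_mul_inv]
    exact mul_mem (hv a) (hqmem b hbq)
  let w : HeightOneSpectrum R := ⟨q, hqprime, hqbot⟩
  refine ⟨w, ?_⟩
  have hle : (Place.ofHeightOneSpectrum (K := K) (F := F) w).toValuationSubring ≤ A := by
    intro g hg
    have hg' : w.valuation F g ≤ 1 := hg
    obtain ⟨n, d, hnd⟩ := w.exists_primeCompl_mul_eq_of_integer g hg'
    have hd : (d : R) ∉ q := d.2
    have hd0 : algebraMap R F (d : R) ≠ 0 := by
      intro h0
      have : (d : R) = 0 := (IsFractionRing.injective R F) (by rw [h0, map_zero])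
      exact hd (this ▸ q.zero_mem)
    have hg2 : g = algebraMap R F n * (algebraMap R F (d : R))⁻¹ := by
      rw [← hnd]
      field_simp
    rw [hg2]
    exact mul_mem (hv n) (hqmem d hd)
  exact ValuationSubring.eq_of_le_of_ne_top _ hle hA

end General

section Fiber

variable (K) (x : F)

/-- `K[x]` is a PID when `x` is transcendental. -/
local instance instPIDv [hx : Fact (Transcendental K x)] :
    IsPrincipalIdealRing (Algebra.adjoin K {x}) :=
  polyRing_isPrincipalIdealRing K x hx.out

local instance instDedekindClosurev [CharZero K] [Fact (Transcendental K x)]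
    [Module.Finite K⟮x⟯ F] : IsDedekindDomain (integralClosure (Algebra.adjoin K {x}) F) :=
  integralClosure.isDedekindDomain (Algebra.adjoin K {x}) K⟮x⟯ F

local instance instFracClosurev [Module.Finite K⟮x⟯ F] :
    IsFractionRing (integralClosure (Algebra.adjoin K {x}) F) F :=
  integralClosure.isFractionRing_of_finite_extension K⟮x⟯ F

local instance instTowerClosurev :
    IsScalarTower K (integralClosure (Algebra.adjoin K {x}) F) F :=
  IsScalarTower.of_algebraMap_eq (fun c => by simp [Algebra.algebraMap_eq_smul_one])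

/-- A valuation subring over `K`, other than `F`, which contains a transcendental `x` with
`F / K(x)` finite is a place: it is the localisation of the integral closure of `K[x]` at a
height-one prime. -/
theorem exists_place_of_mem [CharZero K] [Fact (Transcendental K x)] [Module.Finite K⟮x⟯ F]
    (A : ValuationSubring F) (hK : ∀ a : K, algebraMap K F a ∈ A) (hA : A ≠ ⊤) (hxA : x ∈ A) :
    ∃ v : Place K F, v.toValuationSubring = A := by
  let Osub : Subalgebra K F := { A.toSubring with algebraMap_mem' := hK }
  have hAx : ∀ r : Algebra.adjoin K {x}, algebraMap (Algebra.adjoin K {x}) F r ∈ A := by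
    intro r
    have hle : Algebra.adjoin K {x} ≤ Osub := Algebra.adjoin_le (by
      intro y hy
      rw [Set.mem_singleton_iff] at hy
      rw [hy]
      exact hxA)
    exact hle r.2
  have hB : ∀ b : integralClosure (Algebra.adjoin K {x}) F,
      algebraMap (integralClosure (Algebra.adjoin K {x}) F) F b ∈ A := fun b =>
    mem_of_isIntegral_valSubring A hAx b.2
  obtain ⟨w, hw⟩ := exists_ofHeightOneSpectrum_toValuationSubring_eq (K := K) A hA hB
  exact ⟨_, hw⟩

end Fiber

end ValPlace

variable [IsAlgClosed K] [CharZero K] [Algebra.EssFiniteType K F]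

/-- Every valuation subring of `F` over `K` other than `F` is a place. -/
theorem exists_place_of_valuationSubring (htr : Algebra.trdeg K F = 1) (A : ValuationSubring F)
    (hK : ∀ a : K, algebraMap K F a ∈ A) (hA : A ≠ ⊤) :
    ∃ v : Place K F, v.toValuationSubring = A := by
  have h : Algebra.trdeg K F ≠ 0 := by rw [htr]; exact one_ne_zero
  obtain ⟨x₀, hx₀⟩ := (trdeg_ne_zero_iff.mp h).transcendental
  obtain ⟨x, hxA, hx⟩ : ∃ x : F, x ∈ A ∧ Transcendental K x := by
    rcases A.mem_or_inv_mem x₀ with h | h
    · exact ⟨x₀, h, hx₀⟩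
    · refine ⟨x₀⁻¹, h, fun halg => hx₀ ?_⟩
      simpa using halg.inv
  have : Fact (Transcendental K x) := ⟨hx⟩
  have : Module.Finite K⟮x⟯ F := finite_adjoin_simple htr hx
  exact ValPlace.exists_place_of_mem K x A hK hA hxA

/-- Closedness: a nonzero prime of a `K`-subalgebra of `F` is the centre of a place. -/
theorem exists_place_center (htr : Algebra.trdeg K F = 1) (B : Subalgebra K F) (m : Ideal ↥B)
    (hm : m.IsPrime) (hm0 : m ≠ ⊥) :
    ∃ v : Place K F, (∀ b : ↥B, (b : F) ∈ v.toValuationSubring) ∧
      ∀ b ∈ m, (b : F) = 0 ∨ 0 < v.ord (b : F) := by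
  let φ : ↥B.toSubring →+* ↥B := (B.toSubring.subtype).codRestrict B (fun y => y.2)
  have hI : m.comap φ ≠ ⊤ := Ideal.comap_ne_top φ hm.ne_top
  obtain ⟨V, hBV, hmV⟩ := Ideal.image_subset_nonunits_valuationSubring (m.comap φ) hI
  have hBV' : ∀ b : ↥B, (b : F) ∈ V := fun b => hBV b.2
  have hKV : ∀ a : K, algebraMap K F a ∈ V := fun a => hBV (B.algebraMap_mem a)
  have hmV' : ∀ b ∈ m, (b : F) ∈ V.nonunits := by
    intro b hb
    apply hmV
    refine ⟨⟨(b : F), b.2⟩, ?_, rfl⟩
    have hφb : φ ⟨(b : F), b.2⟩ = b := Subtype.ext rfl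
    show φ ⟨(b : F), b.2⟩ ∈ m
    rw [hφb]
    exact hb
  have hVtop : V ≠ ⊤ := by
    obtain ⟨b, hbm, hb0⟩ := Submodule.exists_mem_ne_zero_of_ne_bot hm0
    intro htop
    have hb0' : (b : F) ≠ 0 := fun h => hb0 (Subtype.ext h)
    have h1 := hmV' b hbm
    rw [ValuationSubring.mem_nonunits_iff_or] at h1
    rcases h1 with h1 | h1
    · exact hb0' h1
    · exact h1 (htop ▸ ValuationSubring.mem_top _)
  obtain ⟨v, rfl⟩ := exists_place_of_valuationSubring htr V hKV hVtop
  refine ⟨v, hBV', fun b hb => ?_⟩
  by_cases hb0 : (b : F) = 0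
  · exact Or.inl hb0
  right
  obtain ⟨ha, hmem⟩ :=
    v.toValuationSubring.mem_nonunits_iff_exists_mem_maximalIdeal.mp (hmV' b hb)
  exact (mem_maximalIdeal_iff_ord_pos v ⟨(b : F), ha⟩ hb0).mp hmem

end Fermat.Agent.S17.R
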