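/-
MW strand R, leaf R13: evaluation at places and CLOSEDNESS of the affine curve `C ∖ {v₀}`.

`regOff v₀` is the `K`-algebra of the functions regular off the place `v₀` (the coordinate ring
of the affine curve `C ∖ {v₀}`).

* `mem_regOff_iff_exists_L` : `regOff v₀ = ⋃ n, L(n · v₀)`;
* `evalAt htr v` : the value of a function at a place where it is regular (the residue map;
  the residue field of a place is `K`, `S24/FF/Residue`), with `evalAt_eq_iff`;
* `exists_place_of_algHom` : every `K`-point `χ : regOff v₀ →ₐ[K] K` is the evaluation at a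
  place `v ≠ v₀` (the kernel of `χ` is a nonzero prime, hence the centre of a place by leaf R11,
  `exists_place_center`; the place is not `v₀` because `regOff v₀` contains a function with a
  pole at `v₀`, leaf R10a);
* `place_unique_of_algHom` : the functions regular off `v₀` separate the places `≠ v₀`
  (`L(m v₀ - v - w) ≠ L(m v₀ - v)` for `m` large, leaf R10a).
-/
import Mathlib
import Fermat.Prelude.Def_AlgebraicCurve_Repartitions
import Fermat.Agent.S24.FF.Residue
import Fermat.Agent.S17.R.LSpace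
import Fermat.Agent.S17.R.LStep
import Fermat.Agent.S17.R.Places
import Fermat.Agent.S17.R.PoleOrder
import Fermat.Agent.S17.R.ValPlace

set_option autoImplicit false
set_option linter.unusedSectionVars false
set_option linter.unusedVariables false

namespace Fermat.Agent.S17.R

open AlgebraicCurve

variable {K F : Type*} [Field K] [Field F] [Algebra K F]

/-- The functions regular off `v₀` (the affine coordinate ring of the curve minus `v₀`). -/
def regOff (v₀ : Place K F) : Subalgebra K F where
  carrier := {f | ∀ v : Place K F, v ≠ v₀ → f ∈ v.toValuationSubring}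
  mul_mem' := fun ha hb v hv => mul_mem (ha v hv) (hb v hv)
  one_mem' := fun _ _ => one_mem _
  add_mem' := fun ha hb v hv => add_mem (ha v hv) (hb v hv)
  zero_mem' := fun _ _ => zero_mem _
  algebraMap_mem' := fun r v _ => v.algebraMap_mem' r

theorem mem_regOff_iff {v₀ : Place K F} {f : F} :
    f ∈ regOff v₀ ↔ ∀ v : Place K F, v ≠ v₀ → f ∈ v.toValuationSubring := Iff.rfl

namespace Eval

/-- The value of `n · v₀` at `v₀`. -/
theorem nsmul_single_apply_self (v₀ : Place K F) (n : ℕ) :
    ((n : ℤ) • Finsupp.single v₀ (1 : ℤ) : Divisor K F) v₀ = (n : ℤ) := by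
  rw [Finsupp.smul_apply, Finsupp.single_eq_same, smul_eq_mul, mul_one]

/-- The value of `n · v₀` off `v₀`. -/
theorem nsmul_single_apply_of_ne {v₀ v : Place K F} (hv : v ≠ v₀) (n : ℕ) :
    ((n : ℤ) • Finsupp.single v₀ (1 : ℤ) : Divisor K F) v = 0 := by
  rw [Finsupp.smul_apply, Finsupp.single_eq_of_ne hv, smul_zero]

/-- A section of `n · v₀` is regular off `v₀`. -/
theorem mem_regOff_of_mem_L {v₀ : Place K F} {f : F} {n : ℕ}
    (hf : f ∈ riemannRochSpace ((n : ℤ) • Finsupp.single v₀ (1 : ℤ))) : f ∈ regOff v₀ := by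
  intro v hv
  by_cases hf0 : f = 0
  · rw [hf0]
    exact zero_mem _
  · have h := (mem_L_of_ne_zero hf0).mp hf v
    rw [nsmul_single_apply_of_ne hv, neg_zero] at h
    exact (Fermat.Agent.S24.FF.ord_nonneg_iff v hf0).mp h

/-- A section of a divisor below `n · v₀` is regular off `v₀`. -/
theorem mem_regOff_of_mem_L_of_le {v₀ : Place K F} {f : F} {n : ℕ} {D : Divisor K F}
    (hD : D ≤ (n : ℤ) • Finsupp.single v₀ (1 : ℤ)) (hf : f ∈ riemannRochSpace D) :
    f ∈ regOff v₀ :=
  mem_regOff_of_mem_L (L_mono hD hf)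

end Eval

variable [IsAlgClosed K] [CharZero K] [Algebra.EssFiniteType K F]

theorem mem_regOff_iff_exists_L (htr : Algebra.trdeg K F = 1) {v₀ : Place K F} {f : F} :
    f ∈ regOff v₀ ↔ ∃ n : ℕ, f ∈ riemannRochSpace ((n : ℤ) • Finsupp.single v₀ (1 : ℤ)) := by
  constructor
  · intro hf
    by_cases hf0 : f = 0
    · exact ⟨0, by rw [hf0]; exact zero_mem _⟩
    · refine ⟨(-(v₀.ord f)).toNat, (mem_L_of_ne_zero hf0).mpr fun v => ?_⟩
      by_cases hv : v = v₀
      · rw [hv, Eval.nsmul_single_apply_self]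
        have := Int.self_le_toNat (-(v₀.ord f))
        omega
      · rw [Eval.nsmul_single_apply_of_ne hv, neg_zero]
        exact Fermat.Agent.S24.FF.ord_nonneg_of_mem v (hf v hv)
  · rintro ⟨n, hf⟩
    exact Eval.mem_regOff_of_mem_L hf

/-- The value of a function at a place where it is regular. -/
noncomputable def evalAt (htr : Algebra.trdeg K F = 1) (v : Place K F) :
    ↥v.toValuationSubring →ₐ[K] K :=
  ((AlgEquiv.ofBijective (Algebra.ofId K v.ResidueField)
      ⟨(algebraMap K v.ResidueField).injective,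
        Fermat.Agent.S24.FF.algebraMap_residue_surjective htr v⟩).symm :
        v.ResidueField →ₐ[K] K).comp
    (IsScalarTower.toAlgHom K ↥v.toValuationSubring v.ResidueField)

namespace Eval

/-- `evalAt` is the residue map, read in `K`. -/
theorem evalAt_eq_iff_residue (htr : Algebra.trdeg K F = 1) (v : Place K F)
    (f : ↥v.toValuationSubring) (c : K) :
    evalAt htr v f = c ↔
      IsLocalRing.residue ↥v.toValuationSubring f = algebraMap K v.ResidueField c := by
  unfold evalAt
  rw [AlgHom.comp_apply, AlgEquiv.coe_toAlgHom, AlgEquiv.symm_apply_eq, AlgEquiv.ofBijective_apply,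
    Algebra.ofId_apply, IsScalarTower.toAlgHom_apply, IsLocalRing.ResidueField.algebraMap_eq]

/-- `evalAt` in terms of the maximal ideal. -/
theorem evalAt_eq_iff_mem (htr : Algebra.trdeg K F = 1) (v : Place K F)
    (f : ↥v.toValuationSubring) (c : K) :
    evalAt htr v f = c ↔
      f - algebraMap K ↥v.toValuationSubring c ∈
        IsLocalRing.maximalIdeal ↥v.toValuationSubring := by
  rw [evalAt_eq_iff_residue, IsScalarTower.algebraMap_apply K ↥v.toValuationSubring v.ResidueField,
    IsLocalRing.ResidueField.algebraMap_eq, ← sub_eq_zero, ← map_sub,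
    IsLocalRing.residue_eq_zero_iff]

end Eval

theorem evalAt_eq_iff (htr : Algebra.trdeg K F = 1) (v : Place K F) (f : ↥v.toValuationSubring)
    (c : K) : evalAt htr v f = c ↔
      ((f : F) = algebraMap K F c ∨ 0 < v.ord ((f : F) - algebraMap K F c)) := by
  rw [Eval.evalAt_eq_iff_mem]
  have hcoe : ((f - algebraMap K ↥v.toValuationSubring c : ↥v.toValuationSubring) : F) =
      (f : F) - algebraMap K F c := rfl
  by_cases h0 : (f : F) = algebraMap K F c
  · have hz : f - algebraMap K ↥v.toValuationSubring c = 0 := by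
      apply Subtype.ext
      rw [hcoe, h0, sub_self]
      rfl
    rw [hz]
    exact ⟨fun _ => Or.inl h0, fun _ => zero_mem _⟩
  · have hne : ((f - algebraMap K ↥v.toValuationSubring c : ↥v.toValuationSubring) : F) ≠ 0 := by
      rw [hcoe]
      exact sub_ne_zero.mpr h0
    rw [Fermat.Agent.S24.FF.mem_maximalIdeal_iff_ord_pos v _ hne, hcoe]
    exact ⟨fun h => Or.inr h, fun h => h.resolve_left h0⟩

/-- CLOSEDNESS: every `K`-point of the affine curve is a place. -/
theorem exists_place_of_algHom (htr : Algebra.trdeg K F = 1) (v₀ : Place K F)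
    (χ : ↥(regOff v₀) →ₐ[K] K) :
    ∃ v : Place K F, v ≠ v₀ ∧ ∀ f : ↥(regOff v₀),
      (f : F) = algebraMap K F (χ f) ∨ 0 < v.ord ((f : F) - algebraMap K F (χ f)) := by
  -- a function regular off `v₀` with a pole at `v₀`
  obtain ⟨n₀, hn₀⟩ := exists_nongap_bound (K := K) (F := F) htr v₀
  obtain ⟨f, hfL, hford⟩ := hn₀ (n₀ + 1) (Nat.le_succ n₀)
  have hfB : f ∈ regOff v₀ := Eval.mem_regOff_of_mem_L hfL
  -- the kernel of `χ` is a nonzero prime
  have hsub : ∀ g : ↥(regOff v₀), g - algebraMap K ↥(regOff v₀) (χ g) ∈ RingHom.ker χ.toRingHom := by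
    intro g
    rw [RingHom.mem_ker]
    show χ (g - algebraMap K ↥(regOff v₀) (χ g)) = 0
    rw [map_sub, AlgHom.commutes, sub_eq_zero]
    rfl
  have hcoe : ∀ g : ↥(regOff v₀),
      ((g - algebraMap K ↥(regOff v₀) (χ g) : ↥(regOff v₀)) : F) =
        (g : F) - algebraMap K F (χ g) := fun g => rfl
  have hprime : (RingHom.ker χ.toRingHom).IsPrime := RingHom.ker_isPrime χ.toRingHom
  have hne : RingHom.ker χ.toRingHom ≠ ⊥ := by
    intro hbot
    have h1 := hsub ⟨f, hfB⟩
    rw [hbot, Ideal.mem_bot] at h1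
    have h2 : f - algebraMap K F (χ ⟨f, hfB⟩) = 0 := by
      rw [← hcoe ⟨f, hfB⟩, h1]
      rfl
    rw [sub_eq_zero] at h2
    rw [h2, Fermat.Agent.S24.FF.ord_algebraMap] at hford
    omega
  obtain ⟨v, hBv, hmv⟩ := exists_place_center htr (regOff v₀) (RingHom.ker χ.toRingHom) hprime hne
  refine ⟨v, ?_, fun g => ?_⟩
  · intro hvv
    have h1 : 0 ≤ v.ord f := Fermat.Agent.S24.FF.ord_nonneg_of_mem v (hBv ⟨f, hfB⟩)
    rw [hvv, hford] at h1
    omega
  · have h := hmv _ (hsub g)
    rw [hcoe g] at h
    rcases h with h | h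
    · exact Or.inl (sub_eq_zero.mp h)
    · exact Or.inr h

/-- ... and the place is unique (functions regular off `v₀` separate points). -/
theorem place_unique_of_algHom (htr : Algebra.trdeg K F = 1) (v₀ : Place K F)
    {v w : Place K F} (hv : v ≠ v₀) (hw : w ≠ v₀)
    (h : ∀ f : ↥(regOff v₀), ∀ c : K, 0 < v.ord ((f : F) - algebraMap K F c) →
      0 < w.ord ((f : F) - algebraMap K F c)) : v = w := by
  classical
  by_contra hvw
  obtain ⟨m₁, hm₁⟩ := finrank_L_sub_point (K := K) (F := F) htr v₀
  obtain ⟨m₂, hm₂⟩ := finrank_L_sub_two_points (K := K) (F := F) htr v₀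
  have h1 := hm₁ (max m₁ m₂) (le_max_left _ _) v
  have h2 := hm₂ (max m₁ m₂) (le_max_right _ _) v w
  obtain ⟨m, hm⟩ : ∃ m : ℕ, m = max m₁ m₂ := ⟨_, rfl⟩
  rw [← hm] at h1 h2
  obtain ⟨D, hD⟩ : ∃ D : Divisor K F,
      D = (m : ℤ) • Finsupp.single v₀ (1 : ℤ) - Finsupp.single v 1 := ⟨_, rfl⟩
  rw [← hD] at h1 h2
  have hDle : D ≤ (m : ℤ) • Finsupp.single v₀ (1 : ℤ) := by
    rw [hD]
    refine Finsupp.le_def.mpr fun u => ?_
    rw [Finsupp.sub_apply]
    have : (0 : ℤ) ≤ (Finsupp.single v (1 : ℤ) : Divisor K F) u := by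
      rw [Finsupp.single_apply]
      split_ifs <;> norm_num
    omega
  have hDv : D v = -1 := by
    rw [hD, Finsupp.sub_apply, Eval.nsmul_single_apply_of_ne hv, Finsupp.single_eq_same]
    norm_num
  have hDw : D w = 0 := by
    rw [hD, Finsupp.sub_apply, Eval.nsmul_single_apply_of_ne hw,
      Finsupp.single_eq_of_ne (Ne.symm hvw)]
    norm_num
  have hle : riemannRochSpace (D - Finsupp.single w 1) ≤ riemannRochSpace D := by
    refine L_mono (Finsupp.le_def.mpr fun u => ?_)
    rw [Finsupp.sub_apply]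
    have : (0 : ℤ) ≤ (Finsupp.single w (1 : ℤ) : Divisor K F) u := by
      rw [Finsupp.single_apply]
      split_ifs <;> norm_num
    omega
  -- a section of `D` which is not a section of `D - w`
  have hnot : ¬ riemannRochSpace D ≤ riemannRochSpace (D - Finsupp.single w 1) := by
    intro hge
    have heq : riemannRochSpace (D - Finsupp.single w 1) = riemannRochSpace D :=
      le_antisymm hle hge
    rw [heq] at h2
    omega
  obtain ⟨f, hfD, hfn⟩ := SetLike.not_le_iff_exists.mp hnot
  have hf0 : f ≠ 0 := fun h0 => hfn (by rw [h0]; exact zero_mem _)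
  have hfB : f ∈ regOff v₀ := Eval.mem_regOff_of_mem_L_of_le hDle hfD
  have hford := (mem_L_of_ne_zero hf0).mp hfD
  -- `f` vanishes at `v`, hence at `w`
  have hfv : 0 < v.ord f := by
    have := hford v
    rw [hDv] at this
    omega
  have hfw : 0 < w.ord f := by
    have := h ⟨f, hfB⟩ 0
    simp only [map_zero, sub_zero] at this
    exact this hfv
  apply hfn
  refine (mem_L_of_ne_zero hf0).mpr fun u => ?_
  rw [Finsupp.sub_apply]
  by_cases hu : u = w
  · rw [hu, hDw, Finsupp.single_eq_same]
    omega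
  · rw [Finsupp.single_eq_of_ne hu, sub_zero]
    exact hford u

end Fermat.Agent.S17.R
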