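import Mathlib
import Fermat.Prelude.Def_AlgebraicCurve_Repartitions
import Fermat.Agent.S24.FF.Residue
import Fermat.Agent.S24.FF.Principal

/-!
# S17 / strand R / leaf R16: Taylor expansion at a place

For a place `v` of a function field of one variable over an algebraically closed field `K`
and a uniformiser `π` (`v.ord π = 1`), the `K`-algebra map

  `taylor htr v π hπ : ↥v.toValuationSubring →ₐ[K] PowerSeries K`,

with coefficients `aₙ(f) = res (Dⁿ f)`, where `res` is the value at the place and
`D f = (f - res f) / π`.  No completion and no topology is used: multiplicativity follows from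
the Leibniz rule `D (f g) = D f · g + res f · D g`.
-/

set_option autoImplicit false
set_option linter.unusedSectionVars false

namespace Fermat.Agent.S17.R

open AlgebraicCurve

variable {K F : Type*} [Field K] [Field F] [Algebra K F]
variable [IsAlgClosed K] [CharZero K] [Algebra.EssFiniteType K F]

namespace Taylor

open Fermat.Agent.S24.FF

/-- The residue field of a place is the constant field. -/
noncomputable def resEquiv (htr : Algebra.trdeg K F = 1) (v : Place K F) :
    K ≃+* v.ResidueField :=
  RingEquiv.ofBijective (algebraMap K v.ResidueField)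
    ⟨(algebraMap K v.ResidueField).injective, algebraMap_residue_surjective htr v⟩

/-- The value at the place. -/
noncomputable def res (htr : Algebra.trdeg K F = 1) (v : Place K F) :
    ↥v.toValuationSubring →+* K :=
  ((resEquiv htr v).symm : v.ResidueField →+* K).comp
    (IsLocalRing.residue ↥v.toValuationSubring)

theorem algebraMap_res (htr : Algebra.trdeg K F = 1) (v : Place K F)
    (f : ↥v.toValuationSubring) :
    algebraMap K v.ResidueField (res htr v f) = IsLocalRing.residue ↥v.toValuationSubring f :=
  (resEquiv htr v).apply_symm_apply _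

theorem residue_algebraMap (v : Place K F) (c : K) :
    IsLocalRing.residue ↥v.toValuationSubring (algebraMap K ↥v.toValuationSubring c) =
      algebraMap K v.ResidueField c := by
  rw [IsScalarTower.algebraMap_apply K ↥v.toValuationSubring v.ResidueField,
    IsLocalRing.ResidueField.algebraMap_eq]

theorem res_algebraMap (htr : Algebra.trdeg K F = 1) (v : Place K F) (c : K) :
    res htr v (algebraMap K ↥v.toValuationSubring c) = c := by
  apply (algebraMap K v.ResidueField).injective
  rw [algebraMap_res, residue_algebraMap]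

theorem res_eq_zero_iff (htr : Algebra.trdeg K F = 1) (v : Place K F)
    (f : ↥v.toValuationSubring) :
    res htr v f = 0 ↔ f ∈ IsLocalRing.maximalIdeal ↥v.toValuationSubring := by
  rw [← IsLocalRing.residue_eq_zero_iff, ← algebraMap_res htr v f]
  constructor
  · intro h
    rw [h, map_zero]
  · intro h
    exact (algebraMap K v.ResidueField).injective (by rw [h, map_zero])

theorem sub_res_mem (htr : Algebra.trdeg K F = 1) (v : Place K F) (f : ↥v.toValuationSubring) :
    f - algebraMap K ↥v.toValuationSubring (res htr v f) ∈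
      IsLocalRing.maximalIdeal ↥v.toValuationSubring := by
  rw [← res_eq_zero_iff htr v, map_sub, res_algebraMap, sub_self]

theorem coe_smul' (v : Place K F) (c : K) (f : ↥v.toValuationSubring) :
    ((c • f : ↥v.toValuationSubring) : F) = algebraMap K F c * (f : F) := by
  rw [Algebra.smul_def]
  rfl

theorem res_smul (htr : Algebra.trdeg K F = 1) (v : Place K F) (c : K)
    (f : ↥v.toValuationSubring) : res htr v (c • f) = c * res htr v f := by
  rw [Algebra.smul_def, map_mul, res_algebraMap]

/-! ### The uniformiser -/

theorem unif_ne_zero (v : Place K F) {π : F} (hπ : v.ord π = 1) : π ≠ 0 := by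
  rintro rfl
  simp at hπ

theorem unif_mem (v : Place K F) {π : F} (hπ : v.ord π = 1) : π ∈ v.toValuationSubring :=
  mem_of_ord_pos v (by omega)

theorem res_unif (htr : Algebra.trdeg K F = 1) (v : Place K F) {π : F} (hπ : v.ord π = 1)
    (hmem : π ∈ v.toValuationSubring) :
    res htr v (⟨π, hmem⟩ : ↥v.toValuationSubring) = 0 := by
  rw [res_eq_zero_iff]
  exact (mem_maximalIdeal_iff_ord_pos v ⟨π, hmem⟩ (unif_ne_zero v hπ)).mpr (by
    show 0 < v.ord π
    omega)

theorem exists_eq_unif_mul (v : Place K F) {π : F} (hπ : v.ord π = 1)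
    (x : ↥v.toValuationSubring) (hx : x ∈ IsLocalRing.maximalIdeal ↥v.toValuationSubring) :
    ∃ g : ↥v.toValuationSubring, (x : F) = π * (g : F) := by
  have hπ0 := unif_ne_zero v hπ
  by_cases hx0 : (x : F) = 0
  · exact ⟨0, by rw [hx0]; simp⟩
  · have hpos : 0 < v.ord (x : F) := (mem_maximalIdeal_iff_ord_pos v x hx0).mp hx
    have hne : (x : F) / π ≠ 0 := div_ne_zero hx0 hπ0
    have hord : 0 ≤ v.ord ((x : F) / π) := by
      rw [div_eq_mul_inv, v.ord_mul hx0 (inv_ne_zero hπ0), v.ord_inv, hπ]
      omega
    refine ⟨⟨(x : F) / π, (ord_nonneg_iff v hne).mp hord⟩, ?_⟩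
    show (x : F) = π * ((x : F) / π)
    field_simp

/-- The difference quotient `D f = (f - res f) / π`. -/
noncomputable def D (htr : Algebra.trdeg K F = 1) (v : Place K F) (π : F) (hπ : v.ord π = 1)
    (f : ↥v.toValuationSubring) : ↥v.toValuationSubring :=
  Classical.choose (exists_eq_unif_mul v hπ _ (sub_res_mem htr v f))

theorem D_spec (htr : Algebra.trdeg K F = 1) (v : Place K F) (π : F) (hπ : v.ord π = 1)
    (f : ↥v.toValuationSubring) :
    (f : F) = algebraMap K F (res htr v f) + π * (D htr v π hπ f : F) := by
  have h : (f : F) - algebraMap K F (res htr v f) = π * (D htr v π hπ f : F) :=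
    Classical.choose_spec (exists_eq_unif_mul v hπ _ (sub_res_mem htr v f))
  linear_combination h

/-- Uniqueness of the decomposition `f = c + π g`. -/
theorem D_unique (htr : Algebra.trdeg K F = 1) (v : Place K F) (π : F) (hπ : v.ord π = 1)
    (f g : ↥v.toValuationSubring) (c : K) (h : (f : F) = algebraMap K F c + π * (g : F)) :
    res htr v f = c ∧ D htr v π hπ f = g := by
  have hπ0 := unif_ne_zero v hπ
  have hf : f = algebraMap K ↥v.toValuationSubring c +
      (⟨π, unif_mem v hπ⟩ : ↥v.toValuationSubring) * g := Subtype.ext h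
  have hres : res htr v f = c := by
    rw [hf, map_add, map_mul, res_algebraMap, res_unif htr v hπ, zero_mul, add_zero]
  refine ⟨hres, Subtype.ext ?_⟩
  have hs := D_spec htr v π hπ f
  rw [hres] at hs
  have h4 : π * (D htr v π hπ f : F) = π * (g : F) := by
    have h5 : algebraMap K F c + π * (D htr v π hπ f : F) = algebraMap K F c + π * (g : F) := by
      rw [← hs, ← h]
    exact add_left_cancel h5
  exact mul_left_cancel₀ hπ0 h4

theorem D_add (htr : Algebra.trdeg K F = 1) (v : Place K F) (π : F) (hπ : v.ord π = 1)
    (f g : ↥v.toValuationSubring) :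
    D htr v π hπ (f + g) = D htr v π hπ f + D htr v π hπ g := by
  refine (D_unique htr v π hπ (f + g) _ (res htr v f + res htr v g) ?_).2
  have hf := D_spec htr v π hπ f
  have hg := D_spec htr v π hπ g
  show (f : F) + (g : F) = algebraMap K F (res htr v f + res htr v g) +
    π * ((D htr v π hπ f : F) + (D htr v π hπ g : F))
  rw [map_add]
  linear_combination hf + hg

theorem D_smul (htr : Algebra.trdeg K F = 1) (v : Place K F) (π : F) (hπ : v.ord π = 1)
    (c : K) (f : ↥v.toValuationSubring) :
    D htr v π hπ (c • f) = c • D htr v π hπ f := by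
  refine (D_unique htr v π hπ (c • f) _ (c * res htr v f) ?_).2
  have hf := D_spec htr v π hπ f
  rw [coe_smul', coe_smul', map_mul]
  linear_combination algebraMap K F c * hf

theorem D_mul (htr : Algebra.trdeg K F = 1) (v : Place K F) (π : F) (hπ : v.ord π = 1)
    (f g : ↥v.toValuationSubring) :
    D htr v π hπ (f * g) = D htr v π hπ f * g + res htr v f • D htr v π hπ g := by
  refine (D_unique htr v π hπ (f * g) _ (res htr v f * res htr v g) ?_).2
  have hf := D_spec htr v π hπ f
  have hg := D_spec htr v π hπ g
  show (f : F) * (g : F) = algebraMap K F (res htr v f * res htr v g) +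
    π * ((D htr v π hπ f : F) * (g : F) +
      ((res htr v f • D htr v π hπ g : ↥v.toValuationSubring) : F))
  rw [coe_smul', map_mul]
  linear_combination (g : F) * hf + algebraMap K F (res htr v f) * hg

theorem D_algebraMap (htr : Algebra.trdeg K F = 1) (v : Place K F) (π : F) (hπ : v.ord π = 1)
    (c : K) : D htr v π hπ (algebraMap K ↥v.toValuationSubring c) = 0 := by
  refine (D_unique htr v π hπ _ 0 c ?_).2
  show algebraMap K F c = algebraMap K F c + π * ((0 : ↥v.toValuationSubring) : F)
  simp

theorem D_unif (htr : Algebra.trdeg K F = 1) (v : Place K F) (π : F) (hπ : v.ord π = 1)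
    (hmem : π ∈ v.toValuationSubring) :
    D htr v π hπ (⟨π, hmem⟩ : ↥v.toValuationSubring) = 1 := by
  refine (D_unique htr v π hπ _ 1 0 ?_).2
  show π = algebraMap K F 0 + π * ((1 : ↥v.toValuationSubring) : F)
  simp

/-- `D` as a `K`-linear map. -/
noncomputable def Dl (htr : Algebra.trdeg K F = 1) (v : Place K F) (π : F) (hπ : v.ord π = 1) :
    ↥v.toValuationSubring →ₗ[K] ↥v.toValuationSubring where
  toFun := D htr v π hπ
  map_add' := D_add htr v π hπ
  map_smul' := D_smul htr v π hπ

theorem Dl_apply (htr : Algebra.trdeg K F = 1) (v : Place K F) (π : F) (hπ : v.ord π = 1)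
    (f : ↥v.toValuationSubring) : Dl htr v π hπ f = D htr v π hπ f := rfl

/-! ### The expansion -/

/-- The Taylor expansion as a function. -/
noncomputable def T (htr : Algebra.trdeg K F = 1) (v : Place K F) (π : F) (hπ : v.ord π = 1)
    (f : ↥v.toValuationSubring) : PowerSeries K :=
  PowerSeries.mk fun n => res htr v ((Dl htr v π hπ ^ n) f)

theorem coeff_T (htr : Algebra.trdeg K F = 1) (v : Place K F) (π : F) (hπ : v.ord π = 1)
    (f : ↥v.toValuationSubring) (n : ℕ) :
    PowerSeries.coeff n (T htr v π hπ f) = res htr v ((Dl htr v π hπ ^ n) f) :=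
  PowerSeries.coeff_mk _ _

theorem coeff_zero_T (htr : Algebra.trdeg K F = 1) (v : Place K F) (π : F) (hπ : v.ord π = 1)
    (f : ↥v.toValuationSubring) : PowerSeries.coeff 0 (T htr v π hπ f) = res htr v f := by
  rw [coeff_T, pow_zero]
  rfl

theorem coeff_succ_T (htr : Algebra.trdeg K F = 1) (v : Place K F) (π : F) (hπ : v.ord π = 1)
    (f : ↥v.toValuationSubring) (n : ℕ) :
    PowerSeries.coeff (n + 1) (T htr v π hπ f) =
      PowerSeries.coeff n (T htr v π hπ (D htr v π hπ f)) := by
  rw [coeff_T, coeff_T, pow_succ]
  rfl

theorem T_add (htr : Algebra.trdeg K F = 1) (v : Place K F) (π : F) (hπ : v.ord π = 1)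
    (f g : ↥v.toValuationSubring) :
    T htr v π hπ (f + g) = T htr v π hπ f + T htr v π hπ g := by
  ext n
  rw [map_add, coeff_T, coeff_T, coeff_T, map_add, map_add]

theorem T_smul (htr : Algebra.trdeg K F = 1) (v : Place K F) (π : F) (hπ : v.ord π = 1)
    (c : K) (f : ↥v.toValuationSubring) :
    T htr v π hπ (c • f) = c • T htr v π hπ f := by
  ext n
  rw [PowerSeries.coeff_smul, coeff_T, coeff_T, map_smul, res_smul, smul_eq_mul]

theorem T_zero (htr : Algebra.trdeg K F = 1) (v : Place K F) (π : F) (hπ : v.ord π = 1) :
    T htr v π hπ 0 = 0 := by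
  ext n
  rw [coeff_T, map_zero, map_zero, map_zero]

/-- The recursion `T f = C (res f) + X * T (D f)`. -/
theorem T_eq (htr : Algebra.trdeg K F = 1) (v : Place K F) (π : F) (hπ : v.ord π = 1)
    (f : ↥v.toValuationSubring) :
    T htr v π hπ f = PowerSeries.C (res htr v f) +
      PowerSeries.X * T htr v π hπ (D htr v π hπ f) := by
  ext n
  cases n with
  | zero =>
    rw [coeff_zero_T, map_add, PowerSeries.coeff_zero_C, PowerSeries.coeff_zero_X_mul, add_zero]
  | succ n =>
    rw [coeff_succ_T, map_add, PowerSeries.coeff_succ_X_mul, PowerSeries.coeff_C,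
      if_neg (Nat.succ_ne_zero n), zero_add]

theorem T_algebraMap (htr : Algebra.trdeg K F = 1) (v : Place K F) (π : F) (hπ : v.ord π = 1)
    (c : K) : T htr v π hπ (algebraMap K ↥v.toValuationSubring c) = PowerSeries.C c := by
  rw [T_eq, res_algebraMap, D_algebraMap, T_zero, mul_zero, add_zero]

theorem coeff_T_mul (htr : Algebra.trdeg K F = 1) (v : Place K F) (π : F) (hπ : v.ord π = 1)
    (n : ℕ) : ∀ f g : ↥v.toValuationSubring,
      PowerSeries.coeff n (T htr v π hπ (f * g)) =
        PowerSeries.coeff n (T htr v π hπ f * T htr v π hπ g) := by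
  induction n with
  | zero =>
    intro f g
    rw [coeff_zero_T, map_mul, PowerSeries.coeff_zero_eq_constantCoeff_apply, map_mul,
      ← PowerSeries.coeff_zero_eq_constantCoeff_apply,
      ← PowerSeries.coeff_zero_eq_constantCoeff_apply, coeff_zero_T, coeff_zero_T]
  | succ n ih =>
    intro f g
    have h1 : T htr v π hπ f * T htr v π hπ g =
        PowerSeries.C (res htr v f) * T htr v π hπ g +
          PowerSeries.X * (T htr v π hπ (D htr v π hπ f) * T htr v π hπ g) := by
      conv_lhs => rw [T_eq htr v π hπ f]
      ring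
    rw [coeff_succ_T, D_mul, T_add, T_smul, map_add, PowerSeries.coeff_smul, ih, h1, map_add,
      PowerSeries.coeff_C_mul, PowerSeries.coeff_succ_X_mul, coeff_succ_T, smul_eq_mul]
    ring

theorem T_mul (htr : Algebra.trdeg K F = 1) (v : Place K F) (π : F) (hπ : v.ord π = 1)
    (f g : ↥v.toValuationSubring) :
    T htr v π hπ (f * g) = T htr v π hπ f * T htr v π hπ g :=
  PowerSeries.ext fun n => coeff_T_mul htr v π hπ n f g

/-- **Taylor formula with remainder.** -/
theorem taylor_formula (htr : Algebra.trdeg K F = 1) (v : Place K F) (π : F) (hπ : v.ord π = 1)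
    (n : ℕ) : ∀ f : ↥v.toValuationSubring,
      (f : F) = ∑ i ∈ Finset.range n,
          algebraMap K F (PowerSeries.coeff i (T htr v π hπ f)) * π ^ i +
        π ^ n * (((Dl htr v π hπ ^ n) f : ↥v.toValuationSubring) : F) := by
  induction n with
  | zero =>
    intro f
    simp
  | succ n ih =>
    intro f
    have h1 := D_spec htr v π hπ f
    have h2 := ih (D htr v π hπ f)
    have h3 : ((Dl htr v π hπ ^ (n + 1)) f : ↥v.toValuationSubring) =
        (Dl htr v π hπ ^ n) (D htr v π hπ f) := by
      rw [pow_succ]
      rfl
    rw [Finset.sum_range_succ', h3, coeff_zero_T]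
    have h4 : ∑ i ∈ Finset.range n,
        algebraMap K F (PowerSeries.coeff (i + 1) (T htr v π hπ f)) * π ^ (i + 1) =
        π * ∑ i ∈ Finset.range n,
          algebraMap K F (PowerSeries.coeff i (T htr v π hπ (D htr v π hπ f))) * π ^ i := by
      rw [Finset.mul_sum]
      apply Finset.sum_congr rfl
      intro i _
      rw [coeff_succ_T]
      ring
    rw [h4]
    linear_combination h1 + π * h2

end Taylor

open Taylor in
/-- Taylor expansion at a place `v` with respect to a uniformiser `π`. -/
noncomputable def taylor (htr : Algebra.trdeg K F = 1) (v : Place K F) (π : F)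
    (hπ : v.ord π = 1) : ↥v.toValuationSubring →ₐ[K] PowerSeries K where
  toFun := T htr v π hπ
  map_one' := by
    have h := T_algebraMap htr v π hπ 1
    rwa [map_one, map_one] at h
  map_mul' := T_mul htr v π hπ
  map_zero' := T_zero htr v π hπ
  map_add' := T_add htr v π hπ
  commutes' c := by
    rw [T_algebraMap, PowerSeries.algebraMap_apply]
    rfl

theorem taylor_apply (htr : Algebra.trdeg K F = 1) (v : Place K F) (π : F) (hπ : v.ord π = 1)
    (f : ↥v.toValuationSubring) : taylor htr v π hπ f = Taylor.T htr v π hπ f := rfl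

namespace Taylor

open Fermat.Agent.S24.FF

theorem ord_unif_pow (v : Place K F) {π : F} (hπ : v.ord π = 1) (n : ℕ) :
    v.ord (π ^ n) = n := by
  rw [← zpow_natCast, v.ord_zpow, hπ, mul_one]

theorem coeff_eq_zero_of (htr : Algebra.trdeg K F = 1) (v : Place K F) (π : F)
    (hπ : v.ord π = 1) (n : ℕ) : ∀ f : ↥v.toValuationSubring,
      ((f : F) = 0 ∨ (n : ℤ) ≤ v.ord (f : F)) →
        ∀ i < n, PowerSeries.coeff i (T htr v π hπ f) = 0 := by
  induction n with
  | zero =>
    intro f _ i hi
    omega
  | succ n ih =>
    intro f hf i hi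
    have hπ0 := unif_ne_zero v hπ
    have hfm : f ∈ IsLocalRing.maximalIdeal ↥v.toValuationSubring := by
      by_cases h0 : (f : F) = 0
      · have h1 : f = 0 := Subtype.ext h0
        rw [h1]
        exact zero_mem _
      · refine (mem_maximalIdeal_iff_ord_pos v f h0).mpr ?_
        rcases hf with h | h
        · exact absurd h h0
        · push_cast at h
          omega
    have hres : res htr v f = 0 := (res_eq_zero_iff htr v f).mpr hfm
    have hs := D_spec htr v π hπ f
    rw [hres, map_zero, zero_add] at hs
    cases i with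
    | zero =>
      rw [coeff_zero_T]
      exact hres
    | succ j =>
      rw [coeff_succ_T]
      refine ih (D htr v π hπ f) ?_ j (by omega)
      by_cases hD0 : (D htr v π hπ f : F) = 0
      · exact Or.inl hD0
      · right
        rcases hf with h | h
        · rw [hs] at h
          exact absurd ((mul_eq_zero.mp h).resolve_left hπ0) hD0
        · rw [hs, v.ord_mul hπ0 hD0, hπ] at h
          push_cast at h
          omega

end Taylor

open Taylor Fermat.Agent.S24.FF in
theorem taylor_unif (htr : Algebra.trdeg K F = 1) (v : Place K F) (π : F) (hπ : v.ord π = 1)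
    (hmem : π ∈ v.toValuationSubring) : taylor htr v π hπ ⟨π, hmem⟩ = PowerSeries.X := by
  have h := T_algebraMap htr v π hπ 1
  rw [map_one, map_one] at h
  rw [taylor_apply, T_eq, res_unif htr v hπ hmem, D_unif htr v π hπ hmem, map_zero, zero_add, h,
    mul_one]

open Taylor Fermat.Agent.S24.FF in
/-- The order of the expansion is the order at the place. -/
theorem coeff_taylor_eq_zero_iff (htr : Algebra.trdeg K F = 1) (v : Place K F) (π : F)
    (hπ : v.ord π = 1) (f : ↥v.toValuationSubring) (n : ℕ) :
    (∀ i < n, PowerSeries.coeff i (taylor htr v π hπ f) = 0) ↔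
      ((f : F) = 0 ∨ (n : ℤ) ≤ v.ord (f : F)) := by
  constructor
  · intro h
    have hπ0 := unif_ne_zero v hπ
    have hform := taylor_formula htr v π hπ n f
    have hsum : ∑ i ∈ Finset.range n,
        algebraMap K F (PowerSeries.coeff i (T htr v π hπ f)) * π ^ i = 0 := by
      apply Finset.sum_eq_zero
      intro i hi
      have h0 : PowerSeries.coeff i (T htr v π hπ f) = 0 := h i (Finset.mem_range.mp hi)
      rw [h0, map_zero, zero_mul]
    rw [hsum, zero_add] at hform
    by_cases hR : (((Dl htr v π hπ ^ n) f : ↥v.toValuationSubring) : F) = 0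
    · left
      rw [hform, hR, mul_zero]
    · right
      rw [hform, v.ord_mul (pow_ne_zero n hπ0) hR, ord_unif_pow v hπ]
      have h1 := ord_nonneg_of_mem v ((Dl htr v π hπ ^ n) f).2
      omega
  · intro h i hi
    rw [taylor_apply]
    exact coeff_eq_zero_of htr v π hπ n f h i hi

open Taylor Fermat.Agent.S24.FF in
theorem taylor_injective (htr : Algebra.trdeg K F = 1) (v : Place K F) (π : F)
    (hπ : v.ord π = 1) : Function.Injective (taylor htr v π hπ) := by
  rw [injective_iff_map_eq_zero]
  intro f hf
  have h := (coeff_taylor_eq_zero_iff htr v π hπ f ((v.ord (f : F)).toNat + 1)).mp (by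
    intro i _
    rw [hf, map_zero])
  rcases h with h | h
  · exact Subtype.ext h
  · exfalso
    have h1 := Int.self_le_toNat (v.ord (f : F))
    push_cast at h
    omega

open Taylor Fermat.Agent.S24.FF in
/-- The constant coefficient is the value at the place. -/
theorem constantCoeff_taylor_eq_iff (htr : Algebra.trdeg K F = 1) (v : Place K F) (π : F)
    (hπ : v.ord π = 1) (f : ↥v.toValuationSubring) (c : K) :
    PowerSeries.constantCoeff (taylor htr v π hπ f) = c ↔
      ((f : F) = algebraMap K F c ∨ 0 < v.ord ((f : F) - algebraMap K F c)) := by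
  rw [← PowerSeries.coeff_zero_eq_constantCoeff_apply, taylor_apply, coeff_zero_T]
  constructor
  · intro h
    have hmem := sub_res_mem htr v f
    rw [h] at hmem
    by_cases h0 : (f : F) - algebraMap K F c = 0
    · exact Or.inl (sub_eq_zero.mp h0)
    · right
      exact (mem_maximalIdeal_iff_ord_pos v
        (f - algebraMap K ↥v.toValuationSubring c) h0).mp hmem
  · intro h
    have hmem : f - algebraMap K ↥v.toValuationSubring c ∈
        IsLocalRing.maximalIdeal ↥v.toValuationSubring := by
      rcases h with h | h
      · have h1 : f - algebraMap K ↥v.toValuationSubring c = 0 :=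
          Subtype.ext (sub_eq_zero.mpr h)
        rw [h1]
        exact zero_mem _
      · have h0 : (f : F) - algebraMap K F c ≠ 0 := by
          intro h0
          rw [h0] at h
          simp at h
        exact (mem_maximalIdeal_iff_ord_pos v
          (f - algebraMap K ↥v.toValuationSubring c) h0).mpr h
    have h2 := (res_eq_zero_iff htr v _).mpr hmem
    rw [map_sub, res_algebraMap, sub_eq_zero] at h2
    exact h2

end Fermat.Agent.S17.R
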