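import Mathlib
import Fermat.Prelude.Def_AlgebraicCurve_Repartitions
import Fermat.Prelude.Def_AlgebraicCurve_BaseChangeGalois
import Fermat.Agent.S24.FF.Principal

set_option autoImplicit false
set_option linter.unusedSectionVars false

/-!
# Reduced (minimal) representatives of degree-zero divisor classes

MW strand R, leaf R4, level-free core.  `K` algebraically closed of characteristic zero,
`F / K` a function field of one variable, `v₀` a place.

* `IsEffRep v₀ x d E` : the class `x` is `[E - d·v₀]` with `E ≥ 0`.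
* `redDeg v₀ x` : the least such `d`;  `redDiv v₀ x` : the effective divisor at that `d`.
* the divisor at the least `d` is unique, does not contain `v₀`, has `L(E) = K`, and is
  carried to itself by every semilinear automorphism fixing `x` and `v₀`.

Nothing here uses Riemann's inequality: the existence of one effective representative is a
hypothesis (`∃ d E, IsEffRep v₀ x d E`), supplied once by `exists_isEffRep_of_riemann`.
-/

namespace Fermat.Agent.S17.R

open AlgebraicCurve

variable {K F : Type*} [Field K] [Field F] [Algebra K F]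

/-- The class `x` is represented by `E - d·v₀` with `E` effective. -/
def IsEffRep (v₀ : Place K F) (x : Pic0 K F) (d : ℕ) (E : Divisor K F) : Prop :=
  0 ≤ E ∧ ∃ h : E - (d : ℤ) • Finsupp.single v₀ (1 : ℤ) ∈ Divisor.degZero (K := K) (F := F),
    Pic0.mk ⟨E - (d : ℤ) • Finsupp.single v₀ (1 : ℤ), h⟩ = x

/-- The reduced degree of a class with respect to the base place `v₀`: the least `d` such
that the class is `[E - d·v₀]` with `E` effective. -/
noncomputable def redDeg (v₀ : Place K F) (x : Pic0 K F) : ℕ :=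
  sInf {d : ℕ | ∃ E : Divisor K F, IsEffRep v₀ x d E}

open Classical in
/-- The reduced divisor of a class with respect to the base place `v₀`: the effective divisor
`E` with `x = [E - redDeg·v₀]` (unique, see `eq_redDiv`). -/
noncomputable def redDiv (v₀ : Place K F) (x : Pic0 K F) : Divisor K F :=
  if h : ∃ E : Divisor K F, IsEffRep v₀ x (redDeg v₀ x) E then h.choose else 0

namespace ReducedCore

theorem degree_nonneg {E : Divisor K F} (hE : 0 ≤ E) : 0 ≤ Divisor.degree E := by
  have h1 : Divisor.degree E = E.sum (fun v n => n * (v.deg : ℤ)) := by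
    simp [Divisor.degree, Finsupp.liftAddHom_apply]
  rw [h1]
  refine Finsupp.sum_nonneg' (fun v => mul_nonneg ?_ (Int.natCast_nonneg _))
  simpa using hE v

theorem mk_eq_mk_iff {A B : Divisor K F} (hA : A ∈ Divisor.degZero (K := K) (F := F))
    (hB : B ∈ Divisor.degZero (K := K) (F := F)) :
    Pic0.mk ⟨A, hA⟩ = Pic0.mk ⟨B, hB⟩ ↔
      ∃ f : F, f ≠ 0 ∧ ∀ v : Place K F, B v - A v = v.ord f := by
  unfold Pic0.mk
  rw [QuotientAddGroup.eq, AddSubgroup.mem_addSubgroupOf]
  have hcoe : ((-(⟨A, hA⟩ : Divisor.degZero (K := K) (F := F)) + ⟨B, hB⟩ :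
      Divisor.degZero (K := K) (F := F)) : Divisor K F) = -A + B := rfl
  rw [hcoe, Divisor.mem_principal]
  constructor
  · rintro ⟨f, hf, h⟩
    refine ⟨f, hf, fun v => ?_⟩
    rw [← h v, Finsupp.add_apply, Finsupp.neg_apply]
    ring
  · rintro ⟨f, hf, h⟩
    refine ⟨f, hf, fun v => ?_⟩
    rw [← h v, Finsupp.add_apply, Finsupp.neg_apply]
    ring

/-- One-point step: a non-constant function of `L(E)`, `E ≥ 0`, yields a non-zero function
of `L(E - v₀)`. -/
theorem exists_ne_zero_mem_sub_single [IsAlgClosed K] (htr : Algebra.trdeg K F = 1)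
    (v₀ : Place K F) {E : Divisor K F} (hE : 0 ≤ E) {f : F} (hf : f ∈ riemannRochSpace E)
    (hfK : f ∉ Set.range (algebraMap K F)) :
    ∃ h : F, h ≠ 0 ∧ h ∈ riemannRochSpace (E - Finsupp.single v₀ (1 : ℤ)) := by
  classical
  have hE' : ∀ v : Place K F, 0 ≤ E v := fun v => by simpa using hE v
  rw [mem_riemannRochSpace_iff] at hf
  have hf0 : f ≠ 0 := fun h0 => hfK ⟨0, by rw [h0, map_zero]⟩
  have hford : ∀ v : Place K F, -E v ≤ v.ord f := fun v => (hf v).resolve_left hf0
  by_cases h1 : 1 ≤ E v₀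
  · refine ⟨1, one_ne_zero, ?_⟩
    rw [mem_riemannRochSpace_iff]
    intro v
    right
    rw [Place.ord_one, Finsupp.sub_apply, Finsupp.single_apply]
    have := hE' v
    split_ifs with hv
    · rw [← hv]; omega
    · omega
  · have h0 : E v₀ = 0 := by have := hE' v₀; omega
    have hmem : f ∈ v₀.toValuationSubring :=
      (Fermat.Agent.S24.FF.ord_nonneg_iff v₀ hf0).mp (by have := hford v₀; omega)
    obtain ⟨c, hc⟩ := Fermat.Agent.S24.FF.exists_residue htr v₀ hmem
    have hne : f - algebraMap K F c ≠ 0 := fun h => hfK ⟨c, (sub_eq_zero.mp h).symm⟩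
    have hc' : 0 < v₀.ord (f - algebraMap K F c) :=
      hc.resolve_left (fun h => hne (sub_eq_zero.mpr h))
    refine ⟨f - algebraMap K F c, hne, ?_⟩
    rw [mem_riemannRochSpace_iff]
    intro v
    right
    rw [Finsupp.sub_apply, Finsupp.single_apply]
    split_ifs with hv
    · rw [← hv]; omega
    · have h2 := Fermat.Agent.S24.FF.ord_sub_ge v hne
      rw [Fermat.Agent.S24.FF.ord_algebraMap] at h2
      have h3 : -E v ≤ min (v.ord f) 0 := le_min (hford v) (by have := hE' v; omega)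
      have h4 := h3.trans h2
      omega

theorem degree_eq_of_mem_degZero [IsAlgClosed K] (htr : Algebra.trdeg K F = 1)
    {v₀ : Place K F} {d : ℕ} {E : Divisor K F}
    (h : E - (d : ℤ) • Finsupp.single v₀ (1 : ℤ) ∈ Divisor.degZero (K := K) (F := F)) :
    Divisor.degree E = d := by
  have hv₀ : (v₀.deg : ℤ) = 1 := by rw [Fermat.Agent.S24.FF.deg_eq_one htr v₀]; rfl
  have h' := Divisor.mem_degZero.mp h
  rw [map_sub, map_zsmul, Divisor.degree_single, hv₀] at h'
  simp only [mul_one, smul_eq_mul] at h'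
  linarith

theorem eq_zero_of_nonneg_of_degree_eq_zero [IsAlgClosed K] (htr : Algebra.trdeg K F = 1)
    {E : Divisor K F} (hE : 0 ≤ E) (hdeg : Divisor.degree E = 0) : E = 0 := by
  have h1 : Divisor.degree E = ∑ v ∈ E.support, E v * (v.deg : ℤ) := by
    simp [Divisor.degree, Finsupp.liftAddHom_apply, Finsupp.sum]
  rw [h1] at hdeg
  have h2 : ∀ v ∈ E.support, 0 ≤ E v * (v.deg : ℤ) := fun v _ =>
    mul_nonneg (by simpa using hE v) (Int.natCast_nonneg _)
  have h3 := (Finset.sum_eq_zero_iff_of_nonneg h2).mp hdeg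
  ext v
  by_contra hv
  have hv' : v ∈ E.support := Finsupp.mem_support_iff.mpr hv
  have h4 := h3 v hv'
  rw [Fermat.Agent.S24.FF.deg_eq_one htr v] at h4
  simp only [Nat.cast_one, mul_one] at h4
  exact hv h4

end ReducedCore

open ReducedCore

theorem IsEffRep.nonneg {v₀ : Place K F} {x : Pic0 K F} {d : ℕ} {E : Divisor K F}
    (hE : IsEffRep v₀ x d E) : 0 ≤ E := hE.1

theorem IsEffRep.degree_eq [IsAlgClosed K] (htr : Algebra.trdeg K F = 1) {v₀ : Place K F}
    {x : Pic0 K F} {d : ℕ} {E : Divisor K F} (hE : IsEffRep v₀ x d E) :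
    Divisor.degree E = d :=
  degree_eq_of_mem_degZero htr hE.2.choose

/-- The zero class is represented by the zero divisor in degree `0`. -/
theorem isEffRep_zero (v₀ : Place K F) : IsEffRep v₀ (0 : Pic0 K F) 0 0 := by
  have h0 : (0 : Divisor K F) - ((0 : ℕ) : ℤ) • Finsupp.single v₀ (1 : ℤ) = 0 := by simp
  have hmem : (0 : Divisor K F) - ((0 : ℕ) : ℤ) • Finsupp.single v₀ (1 : ℤ)
      ∈ Divisor.degZero (K := K) (F := F) := by
    rw [h0]
    exact zero_mem _
  refine ⟨le_rfl, hmem, ?_⟩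
  have h1 : (⟨_, hmem⟩ : Divisor.degZero (K := K) (F := F)) = 0 := Subtype.ext h0
  rw [h1]
  exact Pic0.mk_zero

/-- A class represented in degree `0` is zero. -/
theorem IsEffRep.eq_zero_of_degree_zero [IsAlgClosed K] (htr : Algebra.trdeg K F = 1)
    {v₀ : Place K F} {x : Pic0 K F} {E : Divisor K F} (hE : IsEffRep v₀ x 0 E) : x = 0 := by
  have hE0 : E = 0 :=
    eq_zero_of_nonneg_of_degree_eq_zero htr hE.1 (by simpa using hE.degree_eq htr)
  obtain ⟨-, hmem, hmk⟩ := hE
  subst hE0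
  have h0 : (0 : Divisor K F) - ((0 : ℕ) : ℤ) • Finsupp.single v₀ (1 : ℤ) = 0 := by simp
  have h1 : (⟨_, hmem⟩ : Divisor.degZero (K := K) (F := F)) = 0 := Subtype.ext h0
  rw [← hmk, h1]
  exact Pic0.mk_zero

/-- Lowering the degree: a non-zero function of `L(E - v₀)` turns a representative of
degree `d` into one of degree `d - 1` (and `d ≥ 1`). -/
theorem IsEffRep.lower [IsAlgClosed K] [CharZero K] [Algebra.EssFiniteType K F]
    (htr : Algebra.trdeg K F = 1) {v₀ : Place K F} {x : Pic0 K F} {d : ℕ} {E : Divisor K F}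
    (hE : IsEffRep v₀ x d E) {h : F} (hh0 : h ≠ 0)
    (hh : h ∈ riemannRochSpace (E - Finsupp.single v₀ (1 : ℤ))) :
    1 ≤ d ∧ ∃ E' : Divisor K F, IsEffRep v₀ x (d - 1) E' := by
  obtain ⟨hE0, hdeg, hmk⟩ := hE
  obtain ⟨Dh, hDh⟩ := Fermat.Agent.S24.FF.exists_divisor_ord htr hh0
  have hDh0 : Divisor.degree Dh = 0 :=
    Fermat.Agent.S24.FF.degree_eq_zero_of_ord htr hh0 Dh hDh
  rw [mem_riemannRochSpace_iff] at hh
  have hord : ∀ v : Place K F, -(E - Finsupp.single v₀ (1 : ℤ)) v ≤ v.ord h :=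
    fun v => (hh v).resolve_left hh0
  have hE'0 : 0 ≤ E - Finsupp.single v₀ (1 : ℤ) + Dh := by
    intro v
    have h1 := hord v
    have h2 : (E - Finsupp.single v₀ (1 : ℤ) + Dh) v
        = (E - Finsupp.single v₀ (1 : ℤ)) v + v.ord h := by
      rw [Finsupp.add_apply, hDh v]
    rw [h2]
    show (0 : ℤ) ≤ _
    omega
  have hv₀ : (v₀.deg : ℤ) = 1 := by rw [Fermat.Agent.S24.FF.deg_eq_one htr v₀]; rfl
  have hdegE : Divisor.degree E = d := degree_eq_of_mem_degZero htr hdeg
  have hdegE' : Divisor.degree (E - Finsupp.single v₀ (1 : ℤ) + Dh) = (d : ℤ) - 1 := by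
    rw [map_add, map_sub, Divisor.degree_single, hv₀, hDh0, hdegE]
    ring
  have hd : 1 ≤ d := by
    have h1 := degree_nonneg hE'0
    rw [hdegE'] at h1
    omega
  have hcast : ((d - 1 : ℕ) : ℤ) = (d : ℤ) - 1 := by omega
  have heq : E - Finsupp.single v₀ (1 : ℤ) + Dh - ((d - 1 : ℕ) : ℤ) • Finsupp.single v₀ (1 : ℤ)
      = (E - (d : ℤ) • Finsupp.single v₀ (1 : ℤ)) + Dh := by
    rw [hcast, sub_smul, one_smul]
    abel
  have hmem : E - Finsupp.single v₀ (1 : ℤ) + Dh - ((d - 1 : ℕ) : ℤ) • Finsupp.single v₀ (1 : ℤ)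
      ∈ Divisor.degZero (K := K) (F := F) := by
    rw [heq, Divisor.mem_degZero, map_add, hDh0, Divisor.mem_degZero.mp hdeg, add_zero]
  refine ⟨hd, _, hE'0, hmem, ?_⟩
  rw [← hmk, mk_eq_mk_iff]
  refine ⟨h⁻¹, inv_ne_zero hh0, fun v => ?_⟩
  rw [heq, Place.ord_inv, Finsupp.add_apply, hDh v]
  ring

/-- **Uniqueness of the effective part at the minimal degree.** -/
theorem IsEffRep.eq_of_minimal [IsAlgClosed K] [CharZero K] [Algebra.EssFiniteType K F]
    (htr : Algebra.trdeg K F = 1) {v₀ : Place K F} {x : Pic0 K F} {d : ℕ}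
    {E E' : Divisor K F} (hE : IsEffRep v₀ x d E) (hE' : IsEffRep v₀ x d E')
    (hmin : ∀ (d' : ℕ) (E'' : Divisor K F), IsEffRep v₀ x d' E'' → d ≤ d') : E = E' := by
  obtain ⟨hE0, hdeg, hmk⟩ := id hE
  obtain ⟨hE'0, hdeg', hmk'⟩ := id hE'
  have hmm := hmk.trans hmk'.symm
  rw [mk_eq_mk_iff] at hmm
  obtain ⟨f, hf0, hf⟩ := hmm
  have hf' : ∀ v : Place K F, v.ord f = E' v - E v := fun v => by
    rw [← hf v, Finsupp.sub_apply, Finsupp.sub_apply]
    ring
  by_cases hK : f ∈ Set.range (algebraMap K F)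
  · obtain ⟨c, rfl⟩ := hK
    ext v
    have h1 := hf' v
    rw [Fermat.Agent.S24.FF.ord_algebraMap] at h1
    omega
  · exfalso
    have hfL : f ∈ riemannRochSpace E := by
      rw [mem_riemannRochSpace_iff]
      intro v
      right
      have h1 : 0 ≤ E' v := by simpa using hE'0 v
      rw [hf' v]
      omega
    obtain ⟨h, hh0, hh⟩ := exists_ne_zero_mem_sub_single htr v₀ hE0 hfL hK
    obtain ⟨hd, E'', hE''⟩ := IsEffRep.lower htr hE hh0 hh
    have h1 := hmin _ _ hE''
    omega

/-- At the minimal degree the base place is not in the support. -/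
theorem IsEffRep.apply_self_of_minimal [IsAlgClosed K] [CharZero K] [Algebra.EssFiniteType K F]
    (htr : Algebra.trdeg K F = 1) {v₀ : Place K F} {x : Pic0 K F} {d : ℕ}
    {E : Divisor K F} (hE : IsEffRep v₀ x d E)
    (hmin : ∀ (d' : ℕ) (E'' : Divisor K F), IsEffRep v₀ x d' E'' → d ≤ d') : E v₀ = 0 := by
  classical
  by_contra hne
  have hE0 : ∀ v : Place K F, 0 ≤ E v := fun v => by simpa using hE.1 v
  have h1 : 1 ≤ E v₀ := by have := hE0 v₀; omega
  have hone : (1 : F) ∈ riemannRochSpace (E - Finsupp.single v₀ (1 : ℤ)) := by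
    rw [mem_riemannRochSpace_iff]
    intro v
    right
    rw [Place.ord_one, Finsupp.sub_apply, Finsupp.single_apply]
    have := hE0 v
    split_ifs with hv
    · rw [← hv]; omega
    · omega
  obtain ⟨hd, E'', hE''⟩ := IsEffRep.lower htr hE one_ne_zero hone
  have h2 := hmin _ _ hE''
  omega

/-- At the minimal degree `L(E)` consists of the constants only. -/
theorem IsEffRep.mem_L_iff_of_minimal [IsAlgClosed K] [CharZero K] [Algebra.EssFiniteType K F]
    (htr : Algebra.trdeg K F = 1) {v₀ : Place K F} {x : Pic0 K F} {d : ℕ}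
    {E : Divisor K F} (hE : IsEffRep v₀ x d E)
    (hmin : ∀ (d' : ℕ) (E'' : Divisor K F), IsEffRep v₀ x d' E'' → d ≤ d') {f : F} :
    f ∈ riemannRochSpace E ↔ f ∈ Set.range (algebraMap K F) := by
  constructor
  · intro hf
    by_contra hK
    obtain ⟨h, hh0, hh⟩ := exists_ne_zero_mem_sub_single htr v₀ hE.1 hf hK
    obtain ⟨hd, E'', hE''⟩ := IsEffRep.lower htr hE hh0 hh
    have h1 := hmin _ _ hE''
    omega
  · rintro ⟨c, rfl⟩
    rw [mem_riemannRochSpace_iff]
    intro v
    right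
    rw [Fermat.Agent.S24.FF.ord_algebraMap]
    have h1 : 0 ≤ E v := by simpa using hE.1 v
    omega

/-- Semilinear automorphisms transport effective representatives. -/
theorem IsEffRep.smul (g : SemilinearAut K F) {v₀ : Place K F} {x : Pic0 K F} {d : ℕ}
    {E : Divisor K F} (hE : IsEffRep v₀ x d E) : IsEffRep (g • v₀) (g • x) d (g • E) := by
  obtain ⟨hE0, hdeg, hmk⟩ := hE
  have hz : g • ((d : ℤ) • Finsupp.single v₀ (1 : ℤ))
      = (d : ℤ) • (g • Finsupp.single v₀ (1 : ℤ)) :=
    map_zsmul (DistribSMul.toAddMonoidHom (Divisor K F) g) (d : ℤ) _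
  have heq : g • (E - (d : ℤ) • Finsupp.single v₀ (1 : ℤ))
      = g • E - (d : ℤ) • Finsupp.single (g • v₀) (1 : ℤ) := by
    rw [smul_sub, hz, SemilinearAut.smul_single]
  have hmem : g • E - (d : ℤ) • Finsupp.single (g • v₀) (1 : ℤ)
      ∈ Divisor.degZero (K := K) (F := F) := by
    rw [← heq]
    exact SemilinearAut.smul_mem_degZero g hdeg
  refine ⟨fun w => ?_, hmem, ?_⟩
  · rw [SemilinearAut.divisor_smul_apply]
    exact hE0 _
  · rw [← hmk, SemilinearAut.pic0_smul_mk]
    exact congrArg Pic0.mk (Subtype.ext heq.symm)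

/-- Existence of an effective representative of degree `γ` from Riemann's inequality with
constant `γ`. -/
theorem exists_isEffRep_of_riemann [IsAlgClosed K] [CharZero K] [Algebra.EssFiniteType K F]
    (htr : Algebra.trdeg K F = 1) {γ : ℕ}
    (hγ : ∀ D : Divisor K F,
      Divisor.degree D + 1 - (γ : ℤ) ≤ (Module.finrank K ↥(riemannRochSpace D) : ℤ))
    (v₀ : Place K F) (x : Pic0 K F) : ∃ E : Divisor K F, IsEffRep v₀ x γ E := by
  obtain ⟨⟨D, hD⟩, rfl⟩ := Pic0.mk_surjective x
  have hv₀ : (v₀.deg : ℤ) = 1 := by rw [Fermat.Agent.S24.FF.deg_eq_one htr v₀]; rfl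
  have hdeg : Divisor.degree (D + (γ : ℤ) • Finsupp.single v₀ (1 : ℤ)) = γ := by
    rw [map_add, map_zsmul, Divisor.degree_single, hv₀, Divisor.mem_degZero.mp hD]
    simp
  have h1 := hγ (D + (γ : ℤ) • Finsupp.single v₀ (1 : ℤ))
  rw [hdeg] at h1
  have hne : riemannRochSpace (D + (γ : ℤ) • Finsupp.single v₀ (1 : ℤ)) ≠ ⊥ := by
    intro hbot
    rw [hbot, finrank_bot] at h1
    omega
  obtain ⟨f, hfL, hf0⟩ := (Submodule.ne_bot_iff _).mp hne
  obtain ⟨Df, hDf⟩ := Fermat.Agent.S24.FF.exists_divisor_ord htr hf0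
  have hDf0 : Divisor.degree Df = 0 :=
    Fermat.Agent.S24.FF.degree_eq_zero_of_ord htr hf0 Df hDf
  rw [mem_riemannRochSpace_iff] at hfL
  have heq : D + (γ : ℤ) • Finsupp.single v₀ (1 : ℤ) + Df - (γ : ℤ) • Finsupp.single v₀ (1 : ℤ)
      = D + Df := by abel
  have hmem : D + (γ : ℤ) • Finsupp.single v₀ (1 : ℤ) + Df - (γ : ℤ) • Finsupp.single v₀ (1 : ℤ)
      ∈ Divisor.degZero (K := K) (F := F) := by
    rw [heq, Divisor.mem_degZero, map_add, hDf0, Divisor.mem_degZero.mp hD, add_zero]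
  refine ⟨D + (γ : ℤ) • Finsupp.single v₀ (1 : ℤ) + Df, fun v => ?_, hmem, ?_⟩
  · have h2 := (hfL v).resolve_left hf0
    have h3 : (D + (γ : ℤ) • Finsupp.single v₀ (1 : ℤ) + Df) v
        = (D + (γ : ℤ) • Finsupp.single v₀ (1 : ℤ)) v + v.ord f := by
      rw [Finsupp.add_apply, hDf v]
    rw [h3]
    show (0 : ℤ) ≤ _
    omega
  · rw [mk_eq_mk_iff]
    refine ⟨f⁻¹, inv_ne_zero hf0, fun v => ?_⟩
    rw [heq, Place.ord_inv, Finsupp.add_apply, hDf v]
    ring

/-! ### The reduced degree and the reduced divisor -/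

theorem redDeg_le {v₀ : Place K F} {x : Pic0 K F} {d : ℕ} {E : Divisor K F}
    (h : IsEffRep v₀ x d E) : redDeg v₀ x ≤ d :=
  Nat.sInf_le ⟨E, h⟩

theorem isEffRep_redDiv_of_exists {v₀ : Place K F} {x : Pic0 K F}
    (hx : ∃ (d : ℕ) (E : Divisor K F), IsEffRep v₀ x d E) :
    IsEffRep v₀ x (redDeg v₀ x) (redDiv v₀ x) := by
  have h : ∃ E : Divisor K F, IsEffRep v₀ x (redDeg v₀ x) E := by
    obtain ⟨d, E, h⟩ := hx
    exact Nat.sInf_mem (s := {d : ℕ | ∃ E : Divisor K F, IsEffRep v₀ x d E}) ⟨d, E, h⟩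
  unfold redDiv
  rw [dif_pos h]
  exact h.choose_spec

theorem redDiv_nonneg_of_exists {v₀ : Place K F} {x : Pic0 K F}
    (hx : ∃ (d : ℕ) (E : Divisor K F), IsEffRep v₀ x d E) : 0 ≤ redDiv v₀ x :=
  (isEffRep_redDiv_of_exists hx).1

section

variable [IsAlgClosed K] [CharZero K] [Algebra.EssFiniteType K F]

/-- The reduced divisor is the only effective `E` with `x = [E - redDeg·v₀]`. -/
theorem eq_redDiv (htr : Algebra.trdeg K F = 1) {v₀ : Place K F} {x : Pic0 K F}
    {E : Divisor K F} (hE : IsEffRep v₀ x (redDeg v₀ x) E) : E = redDiv v₀ x :=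
  IsEffRep.eq_of_minimal htr hE (isEffRep_redDiv_of_exists ⟨_, _, hE⟩)
    (fun _ _ h => redDeg_le h)

theorem degree_redDiv_of_exists (htr : Algebra.trdeg K F = 1) {v₀ : Place K F} {x : Pic0 K F}
    (hx : ∃ (d : ℕ) (E : Divisor K F), IsEffRep v₀ x d E) :
    Divisor.degree (redDiv v₀ x) = redDeg v₀ x :=
  degree_eq_of_mem_degZero htr (isEffRep_redDiv_of_exists hx).2.choose

/-- The base place is not in the support of the reduced divisor. -/
theorem redDiv_apply_self_of_exists (htr : Algebra.trdeg K F = 1) {v₀ : Place K F}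
    {x : Pic0 K F} (hx : ∃ (d : ℕ) (E : Divisor K F), IsEffRep v₀ x d E) :
    redDiv v₀ x v₀ = 0 :=
  IsEffRep.apply_self_of_minimal htr (isEffRep_redDiv_of_exists hx) (fun _ _ h => redDeg_le h)

/-- `L(redDiv) = K`: the reduced divisor moves in no pencil. -/
theorem mem_L_redDiv_iff_of_exists (htr : Algebra.trdeg K F = 1) {v₀ : Place K F}
    {x : Pic0 K F} (hx : ∃ (d : ℕ) (E : Divisor K F), IsEffRep v₀ x d E) {f : F} :
    f ∈ riemannRochSpace (redDiv v₀ x) ↔ f ∈ Set.range (algebraMap K F) :=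
  IsEffRep.mem_L_iff_of_minimal htr (isEffRep_redDiv_of_exists hx) (fun _ _ h => redDeg_le h)

end

theorem redDeg_zero (v₀ : Place K F) : redDeg v₀ (0 : Pic0 K F) = 0 :=
  Nat.le_zero.mp (redDeg_le (isEffRep_zero v₀))

theorem redDiv_zero [IsAlgClosed K] [CharZero K] [Algebra.EssFiniteType K F]
    (htr : Algebra.trdeg K F = 1) (v₀ : Place K F) : redDiv v₀ (0 : Pic0 K F) = 0 :=
  (eq_redDiv htr (by rw [redDeg_zero]; exact isEffRep_zero v₀)).symm

/-- The reduced degree vanishes exactly for the zero class. -/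
theorem redDeg_eq_zero_iff_of_exists [IsAlgClosed K] (htr : Algebra.trdeg K F = 1)
    {v₀ : Place K F} {x : Pic0 K F} (hx : ∃ (d : ℕ) (E : Divisor K F), IsEffRep v₀ x d E) :
    redDeg v₀ x = 0 ↔ x = 0 := by
  constructor
  · intro h
    have h1 := isEffRep_redDiv_of_exists hx
    rw [h] at h1
    exact h1.eq_zero_of_degree_zero htr
  · rintro rfl
    exact redDeg_zero v₀

/-- The reduced degree is invariant under semilinear automorphisms. -/
theorem redDeg_smul (g : SemilinearAut K F) (v₀ : Place K F) (x : Pic0 K F) :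
    redDeg (g • v₀) (g • x) = redDeg v₀ x := by
  unfold redDeg
  congr 1
  ext d
  constructor
  · rintro ⟨E, hE⟩
    have h := hE.smul g⁻¹
    rw [inv_smul_smul, inv_smul_smul] at h
    exact ⟨_, h⟩
  · rintro ⟨E, hE⟩
    exact ⟨_, hE.smul g⟩

/-- The reduced divisor is equivariant under semilinear automorphisms. -/
theorem redDiv_smul_of_exists [IsAlgClosed K] [CharZero K] [Algebra.EssFiniteType K F]
    (htr : Algebra.trdeg K F = 1) (g : SemilinearAut K F) {v₀ : Place K F} {x : Pic0 K F}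
    (hx : ∃ (d : ℕ) (E : Divisor K F), IsEffRep v₀ x d E) :
    redDiv (g • v₀) (g • x) = g • redDiv v₀ x := by
  have h := (isEffRep_redDiv_of_exists hx).smul g
  rw [← redDeg_smul g v₀ x] at h
  exact (eq_redDiv htr h).symm

/-- **Stability of the reduced divisor**: a semilinear automorphism fixing the class and the
base place fixes the reduced divisor. -/
theorem smul_redDiv_of_exists [IsAlgClosed K] [CharZero K] [Algebra.EssFiniteType K F]
    (htr : Algebra.trdeg K F = 1) (g : SemilinearAut K F) {v₀ : Place K F} {x : Pic0 K F}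
    (hx : ∃ (d : ℕ) (E : Divisor K F), IsEffRep v₀ x d E)
    (hv : g • v₀ = v₀) (hgx : g • x = x) : g • redDiv v₀ x = redDiv v₀ x := by
  have h := redDiv_smul_of_exists htr g hx
  rw [hv, hgx] at h
  exact h.symm

end Fermat.Agent.S17.R
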