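import Mathlib
import Fermat.Prelude.Def_AlgebraicCurve_Repartitions
import Fermat.Prelude.Def_ModularCurve_ArithmeticGalois
import Fermat.Agent.S24.FibreCount.ValPlace

/-!
# S17 / strand R, leaf R5: the cusp `∞` as a place of `Fb N`

`infPlace N : Place Qb (Fb N)` is the place of the order function
`f ↦ (f : LaurentSeries Qb).order` (the order of the `q`-expansion).  Its normalised order is
exactly the `q`-order (`ord_infPlace`, because `j` has order `-1`), and it is fixed by the
arithmetic Galois action (`smul_infPlace`, because a coefficientwise field automorphism does not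
move the order of a Laurent series).
-/

set_option autoImplicit false

namespace Fermat.Agent.S17.R

open AlgebraicCurve ModularCurve

namespace FbInf

open Fermat.Agent.S24.FibreCount.ValPlace

section Generic

variable {L : Type*} [Field L] [Algebra ℚ L] (F₀ : IntermediateField ℚ (LaurentSeries ℚ))

/-- The order of the `q`-expansion, as a function on the base-changed field. -/
noncomputable def ordQ (f : laurentBaseChange L F₀) : ℤ := (f : LaurentSeries L).order

theorem ordQ_def (f : laurentBaseChange L F₀) : ordQ F₀ f = (f : LaurentSeries L).order := rfl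

theorem isOrd_ordQ : IsOrd (ordQ (L := L) F₀) := by
  refine ⟨fun a b ha hb => ?_, fun a b ha hb hab => ?_⟩
  · have ha' : (a : LaurentSeries L) ≠ 0 := fun h => ha (Subtype.ext h)
    have hb' : (b : LaurentSeries L) ≠ 0 := fun h => hb (Subtype.ext h)
    show ((a : LaurentSeries L) * (b : LaurentSeries L)).order = _
    exact HahnSeries.order_mul ha' hb'
  · have hab' : (a : LaurentSeries L) + (b : LaurentSeries L) ≠ 0 := fun h => hab (Subtype.ext h)
    show min (a : LaurentSeries L).order (b : LaurentSeries L).order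
      ≤ ((a : LaurentSeries L) + (b : LaurentSeries L)).order
    exact HahnSeries.min_order_le_order_add hab'

theorem ordQ_algebraMap (c : L) (hc : c ≠ 0) :
    ordQ F₀ (algebraMap L (laurentBaseChange L F₀) c) = 0 := by
  show (algebraMap L (LaurentSeries L) c).order = 0
  rw [algebraMap_laurentSeries_eq_single]
  exact HahnSeries.order_single hc

/-- A coefficientwise injective ring homomorphism does not move the order. -/
theorem order_coeffMap {R S : Type*} [CommRing R] [CommRing S] (φ : R →+* S)
    (hφ : Function.Injective φ) (x : LaurentSeries R) : (coeffMap φ x).order = x.order := by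
  rcases eq_or_ne x 0 with rfl | hx
  · simp
  have hc : (coeffMap φ x).coeff x.order ≠ 0 := by
    rw [coeffMap_coeff]
    intro h
    exact hx (HahnSeries.coeff_order_eq_zero.mp (hφ (h.trans (map_zero φ).symm)))
  have hx' : coeffMap φ x ≠ 0 := HahnSeries.ne_zero_of_coeff_ne_zero hc
  refine le_antisymm (HahnSeries.order_le_of_coeff_ne_zero hc) ?_
  rw [HahnSeries.le_order_iff_forall hx']
  intro j hj
  rw [coeffMap_coeff, HahnSeries.coeff_eq_zero_of_lt_order hj, map_zero]

theorem order_jq : (jq : LaurentSeries ℚ).order = -1 := by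
  refine le_antisymm (HahnSeries.order_le_of_coeff_ne_zero ?_) ?_
  · rw [coeff_jq_neg_one]
    exact one_ne_zero
  · rw [HahnSeries.le_order_iff_forall jq_ne_zero]
    intro j hj
    exact coeff_jq_of_lt hj

theorem order_coeffEmb_jq : (coeffEmb L jq).order = -1 := by
  rw [coeffEmb, order_coeffMap _ (algebraMap ℚ L).injective, order_jq]

theorem ordQ_smul (σ : L ≃ₐ[ℚ] L) (f : laurentBaseChange L F₀) :
    ordQ F₀ (arithmeticGalois F₀ σ • f) = ordQ F₀ f := by
  show ((arithmeticGalois F₀ σ • f : laurentBaseChange L F₀) : LaurentSeries L).order = _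
  rw [coe_arithmeticGalois_smul]
  exact order_coeffMap _ σ.injective _

end Generic

section Modular

variable (N : ℕ)

local notation "Qb" => AlgebraicClosure ℚ
local notation "Fb" => modularFunctionFieldBar

theorem jq_mem_full : jq ∈ modularFunctionFieldFull N := by
  have h := jqd_mem_full N (one_dvd N)
  rwa [qExpand_one_apply] at h

/-- The `j`-function as an element of `Fb N`. -/
noncomputable def jb : Fb N :=
  ⟨coeffEmb Qb jq, coeffEmb_mem_laurentBaseChange Qb (jq_mem_full N)⟩

theorem ordQ_jb : ordQ (L := Qb) (modularFunctionFieldFull N) (jb N) = -1 :=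
  order_coeffEmb_jq

theorem jb_ne_zero : jb N ≠ 0 := by
  intro h
  have h1 := ordQ_jb N
  rw [h] at h1
  have h0 : ordQ (L := Qb) (modularFunctionFieldFull N) 0 = 0 := by
    show (0 : LaurentSeries Qb).order = 0
    exact HahnSeries.order_zero
  omega

theorem exists_pos : ∃ t : Fb N, t ≠ 0 ∧ 0 < ordQ (L := Qb) (modularFunctionFieldFull N) t := by
  refine ⟨(jb N)⁻¹, inv_ne_zero (jb_ne_zero N), ?_⟩
  rw [(isOrd_ordQ (L := Qb) (modularFunctionFieldFull N)).map_inv (jb_ne_zero N), ordQ_jb]
  norm_num

end Modular

end FbInf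

section Modular

open Fermat.Agent.S24.FibreCount.ValPlace

variable (N : ℕ) [NeZero N]

local notation "Qb" => AlgebraicClosure ℚ
local notation "Fb" => modularFunctionFieldBar

/-- The cusp `∞` as a place of `Fb N`. -/
noncomputable def infPlace : Place Qb (Fb N) :=
  placeOfOrd (FbInf.isOrd_ordQ (L := Qb) (modularFunctionFieldFull N))
    (FbInf.ordQ_algebraMap (L := Qb) (modularFunctionFieldFull N)) (FbInf.exists_pos N)

theorem mem_infPlace_iff {f : Fb N} :
    f ∈ (infPlace N).toValuationSubring ↔ f = 0 ∨ 0 ≤ ((f : LaurentSeries Qb)).order :=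
  Iff.rfl

theorem ord_infPlace {f : Fb N} (hf : f ≠ 0) :
    ((infPlace N).ord f : ℤ) = ((f : LaurentSeries Qb)).order := by
  obtain ⟨κ, hκ, -, h⟩ := exists_ramification_placeOfOrd
    (FbInf.isOrd_ordQ (L := Qb) (modularFunctionFieldFull N))
    (FbInf.ordQ_algebraMap (L := Qb) (modularFunctionFieldFull N)) (FbInf.exists_pos N)
  have hj := h (FbInf.jb N) (FbInf.jb_ne_zero N)
  rw [FbInf.ordQ_jb] at hj
  have hκ1 : κ = 1 := by
    have hdvd : κ ∣ 1 := ⟨-(placeOfOrd (FbInf.isOrd_ordQ (L := Qb) (modularFunctionFieldFull N))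
      (FbInf.ordQ_algebraMap (L := Qb) (modularFunctionFieldFull N)) (FbInf.exists_pos N)).ord
        (FbInf.jb N), by linarith⟩
    exact Int.eq_one_of_dvd_one hκ.le hdvd
  have hf' := h f hf
  rw [hκ1, one_mul] at hf'
  exact hf'.symm

theorem smul_infPlace (σ : Qb ≃ₐ[ℚ] Qb) :
    arithmeticGalois (modularFunctionFieldFull N) σ • infPlace N = infPlace N := by
  apply Place.ext
  rw [SemilinearAut.smul_toValuationSubring]
  ext x
  rw [ValuationSubring.mem_pointwise_smul_iff_inv_smul_mem, mem_infPlace_iff, mem_infPlace_iff,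
    smul_eq_zero_iff_eq, ← map_inv]
  have h := FbInf.ordQ_smul (L := Qb) (modularFunctionFieldFull N) σ⁻¹ x
  rw [FbInf.ordQ_def, FbInf.ordQ_def] at h
  rw [h]

end Modular

end Fermat.Agent.S17.R
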