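import Mathlib
import Fermat.Agent.S24.FF.Dedekind

/-!
# Finiteness of the branch locus of a function on a curve

For a function field `F` of one variable over an algebraically closed field `K` of
characteristic zero and a transcendental `t : F`, only finitely many values `c : K` admit a
place of `F` at which `t - c` vanishes to order at least two (`branch_finite`).

Proof: with `A = K[t]` and `B` the integral closure of `A` in `F`, a place `v` with
`ord_v (t - c) ≥ 2` is the place of a prime `q` of `B` over `(t - c)` with ramification index
`e(q) = ord_v (t - c) ≥ 2`.  Such a prime divides the different ideal of `B / A`, which is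
nonzero because `Frac B / Frac A` is separable (characteristic zero), so there are only finitely
many such primes, and every prime of `B` contains `t - c` for at most one `c`.
-/

set_option autoImplicit false

namespace Fermat.Agent.S17.R

open AlgebraicCurve IsDedekindDomain IntermediateField
open scoped IntermediateField.algebraAdjoinAdjoin

section BranchAbs

attribute [local instance] FractionRing.liftAlgebra FractionRing.isScalarTower_liftAlgebra

/-- In a finite extension of Dedekind domains of characteristic zero only finitely many primes
are ramified: a ramified prime divides the different ideal. -/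
theorem branch_finite_ramified (A B : Type*) [CommRing A] [IsDedekindDomain A] [CommRing B]
    [IsDedekindDomain B] [Algebra A B] [Module.IsTorsionFree A B] [Module.Finite A B]
    [CharZero A] :
    {w : HeightOneSpectrum B | 1 < w.asIdeal.ramificationIdx A}.Finite := by
  have hD : differentIdeal A B ≠ ⊥ := differentIdeal_ne_bot
  refine (Ideal.finite_factors hD).subset ?_
  intro w hw
  have hprime : w.asIdeal.IsPrime := w.isPrime
  rw [Set.mem_ofPred_eq] at hw
  rw [Set.mem_ofPred_eq, dvd_differentIdeal_iff]
  intro hun
  have h1 := Ideal.ramificationIdx_eq_one w.asIdeal A
  omega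

end BranchAbs

variable {K F : Type*} [Field K] [Field F] [Algebra K F]

section BranchFiber

variable (K) (x : F)

attribute [local instance] Fermat.Agent.S24.FF.instPID Fermat.Agent.S24.FF.instDedekindClosure
  Fermat.Agent.S24.FF.instFracClosure Fermat.Agent.S24.FF.instFiniteClosure
  Fermat.Agent.S24.FF.instTowerClosure

theorem branch_charZero_adjoin [CharZero K] : CharZero (Algebra.adjoin K {x}) :=
  charZero_of_injective_algebraMap (algebraMap K (Algebra.adjoin K {x})).injective

variable [CharZero K] [hx : Fact (Transcendental K x)] [Module.Finite K⟮x⟯ F]

/-- The branch locus of `x` is finite (instance form of `branch_finite`). -/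
theorem branch_finite_fiber :
    {c : K | ∃ v : Place K F, 1 < v.ord (x - algebraMap K F c)}.Finite := by
  have hcz : CharZero (Algebra.adjoin K {x}) := branch_charZero_adjoin K x
  have hfin := branch_finite_ramified (Algebra.adjoin K {x})
    (integralClosure (Algebra.adjoin K {x}) F)
  refine Set.Finite.subset (Set.Finite.biUnion hfin (fun w _ =>
    (?_ : {c : K | algebraMap (Algebra.adjoin K {x}) (integralClosure (Algebra.adjoin K {x}) F)
      (S24.FF.linGen K x c) ∈ w.asIdeal}.Finite))) ?_
  · -- a prime of `B` contains `x - c` for at most one `c`
    apply Set.Subsingleton.finite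
    intro c hc c' hc'
    by_contra hne
    rw [Set.mem_ofPred_eq] at hc hc'
    have hsub := w.asIdeal.sub_mem hc' hc
    have hunit : IsUnit (algebraMap (Algebra.adjoin K {x})
        (integralClosure (Algebra.adjoin K {x}) F) (S24.FF.linGen K x c') -
        algebraMap (Algebra.adjoin K {x})
        (integralClosure (Algebra.adjoin K {x}) F) (S24.FF.linGen K x c)) := by
      have h2 : algebraMap (Algebra.adjoin K {x})
          (integralClosure (Algebra.adjoin K {x}) F) (S24.FF.linGen K x c') -
          algebraMap (Algebra.adjoin K {x})
          (integralClosure (Algebra.adjoin K {x}) F) (S24.FF.linGen K x c) =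
          algebraMap K (integralClosure (Algebra.adjoin K {x}) F) (c - c') := by
        apply Subtype.ext
        show (x - algebraMap K F c') - (x - algebraMap K F c) = algebraMap K F (c - c')
        rw [map_sub]
        ring
      rw [h2]
      exact (IsUnit.mk0 (c - c') (sub_ne_zero.mpr hne)).map _
    exact w.isPrime.ne_top (Ideal.eq_top_of_isUnit_mem _ hsub hunit)
  · -- a place with `ord (x - c) ≥ 2` is the place of a ramified prime containing `x - c`
    rintro c ⟨v, hv⟩
    have hv0 : v ∈ {v : Place K F | 0 < v.ord (x - algebraMap K F c)} := by
      show 0 < v.ord (x - algebraMap K F c)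
      omega
    rw [← S24.FF.range_fiberPlace K x c] at hv0
    obtain ⟨q, rfl⟩ := hv0
    rw [S24.FF.ord_fiberPlace] at hv
    have hlies : q.1.LiesOver (S24.FF.fiberPrime K x c).asIdeal := q.2.2
    simp only [Set.mem_iUnion, Set.mem_ofPred_eq]
    refine ⟨⟨q.1, q.2.1, Ideal.ne_bot_of_mem_primesOver (S24.FF.fiberPrime K x c).ne_bot q.2⟩,
      by exact_mod_cast hv, ?_⟩
    exact S24.FF.mem_of_liesOver K x
      (⟨q.1, q.2.1, Ideal.ne_bot_of_mem_primesOver (S24.FF.fiberPrime K x c).ne_bot q.2⟩ :
        HeightOneSpectrum (integralClosure (Algebra.adjoin K {x}) F)) c

end BranchFiber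

set_option linter.unusedSectionVars false

variable [IsAlgClosed K] [CharZero K] [Algebra.EssFiniteType K F]

/-- **Finiteness of the branch locus**: for a transcendental `t` of a function field of one
variable over an algebraically closed field of characteristic zero, only finitely many values
`c` admit a place at which `t - c` vanishes to order at least two. -/
theorem branch_finite (htr : Algebra.trdeg K F = 1) {t : F} (ht : Transcendental K t) :
    {c : K | ∃ v : Place K F, 1 < v.ord (t - algebraMap K F c)}.Finite := by
  have : Fact (Transcendental K t) := ⟨ht⟩
  have : Module.Finite K⟮t⟯ F := S24.FF.finite_adjoin_simple htr ht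
  exact branch_finite_fiber K t

end Fermat.Agent.S17.R
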