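/-
MW strand R, leaf R15d (core): the generic member of a complete linear system of large degree.

Level-free (`K` algebraically closed of characteristic zero, `F / K` of transcendence degree one).
The three inputs of the pencil argument are taken as HYPOTHESES, in the literals of R WORD #4:
* `hbr`  (R15a `branch_finite`)     : a non-constant function has finitely many branch values;
* `hsep` (R15b `sep_values_finite`) : if `K(ψ, s) = F` then `s` separates the points of all but
  finitely many fibres of `ψ`;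
* `hpen` (R15c `exists_pencil`)     : for `deg D` large there is a pencil `f₀, f₁ ∈ L(D)` without
  base points whose ratio generates `F` together with `s`.

Proof.  Apply the pencil to `s = t ^ 2` (then `f₁ ≠ 0`, because `K(t ^ 2) ≠ F`), put
`ψ = f₁ / f₀`.  The member `D + div (f₁ - c f₀)` is the divisor of zeros of `ψ - c`; all five
conditions fail for finitely many `c` only, and `K` is infinite.
-/
import Mathlib
import Fermat.Prelude.Def_AlgebraicCurve_Repartitions
import Fermat.Agent.S17.R.LSpace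
import Fermat.Agent.S17.R.Places

set_option autoImplicit false

namespace Fermat.Agent.S17.R.GenMemCore

open AlgebraicCurve Fermat.Agent.S24.FF Fermat.Agent.S17.R

variable {K F : Type*} [Field K] [Field F] [Algebra K F]

/-- `ord (f₁ / f₀) = ord f₁ - ord f₀`. -/
theorem ord_div_eq (v : Place K F) {f₁ f₀ : F} (hf₁ : f₁ ≠ 0) (hf₀ : f₀ ≠ 0) :
    v.ord (f₁ / f₀) = v.ord f₁ - v.ord f₀ := by
  rw [div_eq_mul_inv, v.ord_mul hf₁ (inv_ne_zero hf₀), v.ord_inv]
  ring

/-- If `t - d` vanishes at `v` then so does `t ^ 2 - d ^ 2`. -/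
theorem ord_sq_sub_pos (v : Place K F) {t : F} (ht : Transcendental K t) (d : K)
    (h : 0 < v.ord (t - algebraMap K F d)) : 0 < v.ord (t ^ 2 - algebraMap K F (d ^ 2)) := by
  have h1 : t - algebraMap K F d ≠ 0 := by
    intro h0
    rw [h0] at h
    simp at h
  have h2 : t + algebraMap K F d ≠ 0 := by
    intro h0
    apply ht
    have e : t = algebraMap K F (-d) := by
      rw [map_neg]
      exact eq_neg_of_add_eq_zero_left h0
    rw [e]
    exact isAlgebraic_algebraMap _
  have h3 : t ^ 2 - algebraMap K F (d ^ 2)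
      = (t - algebraMap K F d) * (t + algebraMap K F d) := by
    rw [map_pow]
    ring
  have h4 : t + algebraMap K F d = (t - algebraMap K F d) + algebraMap K F (2 * d) := by
    rw [two_mul, map_add]
    ring
  have h5 := ord_add_ge v (f := t - algebraMap K F d) (g := algebraMap K F (2 * d))
    (by rw [← h4]; exact h2)
  rw [← h4, ord_algebraMap v (2 * d)] at h5
  rw [h3, v.ord_mul h1 h2]
  omega

/-- For a finite set `T` of places, only finitely many `c` have a zero of `ψ - c` in `T`. -/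
theorem finite_zero_in (ψ : F) {T : Set (Place K F)} (hT : T.Finite) :
    {c : K | ∃ v ∈ T, 0 < v.ord (ψ - algebraMap K F c)}.Finite := by
  have h : {c : K | ∃ v ∈ T, 0 < v.ord (ψ - algebraMap K F c)}
      = ⋃ v ∈ T, {c : K | 0 < v.ord (ψ - algebraMap K F c)} := by
    ext c
    simp
  rw [h]
  refine hT.biUnion fun v _ => Set.Subsingleton.finite ?_
  intro a ha b hb
  exact zero_unique ha hb

variable [IsAlgClosed K] [CharZero K] [Algebra.EssFiniteType K F]

/-- `K(t ^ 2) ≠ F` (the zero of `t` is a double zero of `t ^ 2`), in the form used below. -/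
theorem adjoin_zero_sq_ne_top (htr : Algebra.trdeg K F = 1) {t : F} (ht : Transcendental K t) :
    IntermediateField.adjoin K {(0 : F), t ^ 2} ≠ ⊤ := by
  intro htop
  have hs : Transcendental K (t ^ 2) := ht.pow (by norm_num)
  have hK : IntermediateField.adjoin K {t ^ 2} = (⊤ : IntermediateField K F) := by
    rw [eq_top_iff, ← htop, IntermediateField.adjoin_le_iff]
    intro x hx
    rcases hx with rfl | rfl
    · exact zero_mem _
    · exact IntermediateField.mem_adjoin_simple_self K _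
  have hfr : Module.finrank (IntermediateField.adjoin K {t ^ 2}) F = 1 := by
    rw [hK]
    exact IntermediateField.finrank_top
  have hsum := sum_ord_zeros htr hs 0
  rw [hfr] at hsum
  obtain ⟨v₀, hv₀⟩ := exists_zero htr ht 0
  have ht0 : t ≠ 0 := by
    rintro rfl
    exact ht isAlgebraic_zero
  have hfin := zeros_finite htr hs 0
  rw [finsum_mem_eq_finite_toFinset_sum _ hfin] at hsum
  have h2 : 2 ≤ v₀.ord (t ^ 2 - algebraMap K F 0) := by
    simp only [map_zero, sub_zero] at hv₀ ⊢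
    rw [pow_two, v₀.ord_mul ht0 ht0]
    omega
  have hmem : v₀ ∈ hfin.toFinset := by
    rw [Set.Finite.mem_toFinset, Set.mem_ofPred_eq]
    omega
  have hle := Finset.single_le_sum (f := fun v : Place K F => v.ord (t ^ 2 - algebraMap K F 0))
    (fun v hv => by
      rw [Set.Finite.mem_toFinset, Set.mem_ofPred_eq] at hv
      exact hv.le) hmem
  have h3 : (2 : ℤ) ≤ ((1 : ℕ) : ℤ) := le_trans h2 (le_trans hle hsum.le)
  norm_num at h3

/-- **R15d (core).**  The generic member of `|D|`, `deg D` large, on the literals of R15a-c. -/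
theorem exists_generic_member_of (htr : Algebra.trdeg K F = 1)
    (hbr : ∀ x : F, Transcendental K x →
      {c : K | ∃ v : Place K F, 1 < v.ord (x - algebraMap K F c)}.Finite)
    (hsep : ∀ ψ s : F, Transcendental K ψ → IntermediateField.adjoin K {ψ, s} = ⊤ →
      {c : K | ∃ P Q : Place K F, P ≠ Q ∧ 0 < P.ord (ψ - algebraMap K F c) ∧
        0 < Q.ord (ψ - algebraMap K F c) ∧
        ∃ d : K, 0 < P.ord (s - algebraMap K F d) ∧ 0 < Q.ord (s - algebraMap K F d)}.Finite)
    (hpen : ∀ s : F, Transcendental K s →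
      ∃ n₀ : ℤ, ∀ D : Divisor K F, n₀ ≤ Divisor.degree D → ∀ S : Finset (Place K F),
        ∃ f₀ f₁ : F, f₀ ≠ 0 ∧ f₀ ∈ riemannRochSpace D ∧ f₁ ∈ riemannRochSpace D ∧
          (∀ v ∈ S, (D + divOf K f₀) v = 0) ∧
          (∀ v : Place K F, (D + divOf K f₀) v ≠ 0 → v.ord f₁ = -D v) ∧
          IntermediateField.adjoin K {f₁ / f₀, s} = ⊤)
    {t : F} (ht : Transcendental K t) :
    ∃ n₀ : ℤ, ∀ D : Divisor K F, n₀ ≤ Divisor.degree D → ∀ S : Finset (Place K F),
      ∃ f : F, f ≠ 0 ∧ f ∈ riemannRochSpace D ∧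
        (∀ v : Place K F, (D + divOf K f) v ≤ 1) ∧
        (∀ v ∈ S, (D + divOf K f) v = 0) ∧
        (∀ v : Place K F, (D + divOf K f) v ≠ 0 → 0 ≤ v.ord t) ∧
        (∀ v w : Place K F, (D + divOf K f) v ≠ 0 → (D + divOf K f) w ≠ 0 → v ≠ w →
          ∀ c : K, 0 < v.ord (t - algebraMap K F c) → ¬ 0 < w.ord (t - algebraMap K F c)) ∧
        (∀ v : Place K F, (D + divOf K f) v ≠ 0 → ∀ c : K, 0 < v.ord (t - algebraMap K F c) →
          ∀ u : Place K F, 0 < u.ord (t - algebraMap K F c) →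
            u.ord (t - algebraMap K F c) = 1) := by
  classical
  have hs : Transcendental K (t ^ 2) := ht.pow (by norm_num)
  obtain ⟨n₁, hn₁⟩ := hpen (t ^ 2) hs
  refine ⟨max n₁ 1, fun D hD S => ?_⟩
  have hD1 : n₁ ≤ Divisor.degree D := le_trans (le_max_left _ _) hD
  have hD2 : 1 ≤ Divisor.degree D := le_trans (le_max_right _ _) hD
  obtain ⟨f₀, f₁, hf₀, hf₀L, hf₁L, -, hbpf, hgen⟩ := hn₁ D hD1 S
  -- the fixed member `A∞ = D + div f₀` of the pencil
  have hA0 : 0 ≤ D + divOf K f₀ := add_divOf_nonneg htr hf₀ hf₀L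
  have hAv : ∀ v : Place K F, (D + divOf K f₀) v = D v + v.ord f₀ := fun v => by
    rw [Finsupp.add_apply, divOf_apply htr]
  have hAnn : ∀ v : Place K F, 0 ≤ (D + divOf K f₀) v := fun v => Finsupp.le_def.mp hA0 v
  -- `f₁ ≠ 0`, because `K(t ^ 2) ≠ F`
  have hf₁ : f₁ ≠ 0 := by
    rintro rfl
    rw [zero_div] at hgen
    exact adjoin_zero_sq_ne_top htr ht hgen
  -- `A∞` has a point, because `deg D ≥ 1`
  obtain ⟨v₁, hv₁⟩ : ∃ v₁ : Place K F, (D + divOf K f₀) v₁ ≠ 0 := by
    by_contra hne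
    push Not at hne
    have h0 : D + divOf K f₀ = 0 := Finsupp.ext hne
    have hdeg : Divisor.degree (D + divOf K f₀) = Divisor.degree D := by
      rw [map_add, degree_divOf htr, add_zero]
    rw [h0, map_zero] at hdeg
    omega
  -- the ratio `ψ = f₁ / f₀`
  have hψ0 : f₁ / f₀ ≠ 0 := div_ne_zero hf₁ hf₀
  have hordψ : ∀ v : Place K F, v.ord (f₁ / f₀) = v.ord f₁ - v.ord f₀ :=
    fun v => ord_div_eq v hf₁ hf₀
  have hpole : ∀ v : Place K F, (D + divOf K f₀) v ≠ 0 →
      v.ord (f₁ / f₀) = -(D + divOf K f₀) v := by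
    intro v hv
    rw [hordψ v, hbpf v hv, hAv v]
    ring
  have hψK : f₁ / f₀ ∉ Set.range (algebraMap K F) := by
    rintro ⟨a, ha⟩
    have h1 := hpole v₁ hv₁
    rw [← ha, ord_algebraMap v₁ a] at h1
    omega
  have hψ : Transcendental K (f₁ / f₀) := transcendental_of_not_mem_range hψK
  have hψc : ∀ c : K, f₁ / f₀ - algebraMap K F c ≠ 0 := fun c h =>
    hψK ⟨c, (sub_eq_zero.mp h).symm⟩
  -- the members `D + div (f₁ - c f₀)` of the pencil
  have hfc : ∀ c : K, f₁ - c • f₀ = f₀ * (f₁ / f₀ - algebraMap K F c) := by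
    intro c
    rw [Algebra.smul_def, mul_sub, mul_div_cancel₀ _ hf₀, mul_comm]
  have hfc0 : ∀ c : K, f₁ - c • f₀ ≠ 0 := fun c => by
    rw [hfc c]
    exact mul_ne_zero hf₀ (hψc c)
  have hfcL : ∀ c : K, f₁ - c • f₀ ∈ riemannRochSpace D := fun c =>
    Submodule.sub_mem _ hf₁L (Submodule.smul_mem _ c hf₀L)
  have hval : ∀ (c : K) (v : Place K F), (D + divOf K (f₁ - c • f₀)) v
      = (D + divOf K f₀) v + v.ord (f₁ / f₀ - algebraMap K F c) := by
    intro c v
    rw [Finsupp.add_apply, divOf_apply htr, hfc c, v.ord_mul hf₀ (hψc c), hAv v]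
    ring
  -- the member is the divisor of zeros of `ψ - c`
  have hkey : ∀ (c : K) (v : Place K F), (D + divOf K (f₁ - c • f₀)) v ≠ 0 →
      0 < v.ord (f₁ / f₀ - algebraMap K F c) ∧
        (D + divOf K (f₁ - c • f₀)) v = v.ord (f₁ / f₀ - algebraMap K F c) := by
    intro c v hv
    have hnn : 0 ≤ (D + divOf K (f₁ - c • f₀)) v :=
      Finsupp.le_def.mp (add_divOf_nonneg htr (hfc0 c) (hfcL c)) v
    have hv' := hval c v
    by_cases hA : (D + divOf K f₀) v = 0
    · rw [hA, zero_add] at hv'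
      constructor
      · omega
      · exact hv'
    · exfalso
      have h1 := hpole v hA
      have h2 := hAnn v
      have h3 := ord_add_ge v (f := f₁ / f₀ - algebraMap K F c) (g := algebraMap K F c)
        (by rw [sub_add_cancel]; exact hψ0)
      rw [sub_add_cancel, ord_algebraMap v c] at h3
      omega
  -- the finitely many bad values of `c`
  have hB1 := hbr (f₁ / f₀) hψ
  have hB2 := finite_zero_in (K := K) (f₁ / f₀) S.finite_toSet
  have hB3 := finite_zero_in (K := K) (f₁ / f₀) (poles_finite htr ht)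
  have hB4 := hsep (f₁ / f₀) (t ^ 2) hψ hgen
  have hT : {v : Place K F | ∃ d : K, (∃ u : Place K F, 1 < u.ord (t - algebraMap K F d)) ∧
      0 < v.ord (t - algebraMap K F d)}.Finite := by
    have h : {v : Place K F | ∃ d : K, (∃ u : Place K F, 1 < u.ord (t - algebraMap K F d)) ∧
        0 < v.ord (t - algebraMap K F d)}
        = ⋃ d ∈ {d : K | ∃ u : Place K F, 1 < u.ord (t - algebraMap K F d)},
          {v : Place K F | 0 < v.ord (t - algebraMap K F d)} := by
      ext v
      simp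
    rw [h]
    exact (hbr t ht).biUnion fun d _ => zeros_finite htr ht d
  have hB5 := finite_zero_in (K := K) (f₁ / f₀) hT
  obtain ⟨c, hc⟩ := (((hB1.union hB2).union hB3).union (hB4.union hB5)).exists_notMem
  have hc1 : c ∉ {c : K | ∃ v : Place K F, 1 < v.ord (f₁ / f₀ - algebraMap K F c)} :=
    fun h => hc (Or.inl (Or.inl (Or.inl h)))
  have hc2 : c ∉ {c : K | ∃ v ∈ (S : Set (Place K F)),
      0 < v.ord (f₁ / f₀ - algebraMap K F c)} :=
    fun h => hc (Or.inl (Or.inl (Or.inr h)))
  have hc3 : c ∉ {c : K | ∃ v ∈ {v : Place K F | v.ord t < 0},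
      0 < v.ord (f₁ / f₀ - algebraMap K F c)} :=
    fun h => hc (Or.inl (Or.inr h))
  have hc4 : c ∉ {c : K | ∃ P Q : Place K F, P ≠ Q ∧
      0 < P.ord (f₁ / f₀ - algebraMap K F c) ∧ 0 < Q.ord (f₁ / f₀ - algebraMap K F c) ∧
      ∃ d : K, 0 < P.ord (t ^ 2 - algebraMap K F d) ∧ 0 < Q.ord (t ^ 2 - algebraMap K F d)} :=
    fun h => hc (Or.inr (Or.inl h))
  have hc5 : c ∉ {c : K | ∃ v ∈ {v : Place K F | ∃ d : K,
      (∃ u : Place K F, 1 < u.ord (t - algebraMap K F d)) ∧
        0 < v.ord (t - algebraMap K F d)}, 0 < v.ord (f₁ / f₀ - algebraMap K F c)} :=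
    fun h => hc (Or.inr (Or.inr h))
  refine ⟨f₁ - c • f₀, hfc0 c, hfcL c, ?_, ?_, ?_, ?_, ?_⟩
  · intro v
    by_cases hv : (D + divOf K (f₁ - c • f₀)) v = 0
    · rw [hv]
      exact zero_le_one
    · obtain ⟨-, h2⟩ := hkey c v hv
      rw [h2]
      by_contra hlt
      exact hc1 ⟨v, not_le.mp hlt⟩
  · intro v hvS
    by_contra hv
    exact hc2 ⟨v, Finset.mem_coe.mpr hvS, (hkey c v hv).1⟩
  · intro v hv
    by_contra hlt
    exact hc3 ⟨v, not_le.mp hlt, (hkey c v hv).1⟩
  · intro v w hv hw hvw d hvd hwd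
    exact hc4 ⟨v, w, hvw, (hkey c v hv).1, (hkey c w hw).1, d ^ 2,
      ord_sq_sub_pos v ht d hvd, ord_sq_sub_pos w ht d hwd⟩
  · intro v hv d hvd u hud
    by_contra hne
    have h1 : 1 < u.ord (t - algebraMap K F d) := by omega
    exact hc5 ⟨v, ⟨d, ⟨u, h1⟩, hvd⟩, (hkey c v hv).1⟩

end Fermat.Agent.S17.R.GenMemCore
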