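/-
MW strand R, leaf R15c (helper129): a base-point-free pencil `f₀, f₁ ∈ L(D)` of a divisor `D` of
large degree with `K(f₁ / f₀, t) = F`, for a function field `F / K` of one variable over an
algebraically closed field `K` of characteristic zero and a transcendental `t ∈ F`.

Proof.  `E = K(t)`; `F / E` is finite separable, hence has finitely many intermediate fields
(Mathlib, primitive element theorem).  Let `b_j` be an `E`-basis of `F` and `B ≥ 0` a divisor with
`b_j ∈ L(B)`.  For `deg D ≥ n₀ := max (c + 1) (deg B + g)` (`c` the constant of Riemann's theorem,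
leaf R2):

* `L(D - v)` is a proper subspace of `L(D)` for every place `v` (its dimension is one less);
* for a proper intermediate field `M` and `0 ≠ f₀ ∈ L(D)` the subspace `{f ∈ L(D) | f / f₀ ∈ M}`
  is proper: with `A = D + div f₀ ≥ 0` Riemann's inequality gives `0 ≠ h ∈ L(A - B)`; then
  `h f₀, h b_j f₀ ∈ L(D)`, so otherwise `h, h b_j ∈ M`, hence `b_j ∈ M` for all `j` and `M = ⊤`.

A vector space over an infinite field is not a finite union of proper subspaces: choose `f₀`
outside the `L(D - v)`, `v ∈ S`, and then `f₁` outside the `L(D - v)`, `v ∈ supp A`, and outside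
the subspaces attached to the proper intermediate fields.
-/
import Mathlib
import Fermat.Prelude.Def_AlgebraicCurve_Repartitions
import Fermat.Agent.S17.R.LSpace
import Fermat.Agent.S17.R.LStep
import Fermat.Agent.S17.R.Places
import Fermat.Agent.S17.R.Riemann

set_option autoImplicit false
set_option linter.style.haveILetI false

namespace Fermat.Agent.S17.R

open AlgebraicCurve IntermediateField

namespace PrimElt

/-- A subspace of a vector space over an infinite field contains a vector outside finitely many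
subspaces none of which contains it. -/
theorem exists_mem_forall_notMem {k V : Type*} [Field k] [Infinite k] [AddCommGroup V]
    [Module k V] (L : Submodule k V) {ι : Type*} [Finite ι] (W : ι → Submodule k V)
    (hW : ∀ i, ¬ L ≤ W i) : ∃ f ∈ L, ∀ i, f ∉ W i := by
  by_contra hcon0
  have hcon : ∀ f ∈ L, ∃ i, f ∈ W i := fun f hf => by
    by_contra h
    exact hcon0 ⟨f, hf, fun i hi => h ⟨i, hi⟩⟩
  have hcov : ⋃ i, (((W i).comap L.subtype : Submodule k ↥L) : Set ↥L) = Set.univ := by
    ext x
    simp only [Set.mem_iUnion, SetLike.mem_coe, Submodule.mem_comap, Submodule.coe_subtype,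
      Set.mem_univ, iff_true]
    exact hcon x x.2
  obtain ⟨i, hi⟩ := Subspace.exists_eq_top_of_iUnion_eq_univ hcov
  apply hW i
  intro x hx
  have h : (⟨x, hx⟩ : ↥L) ∈ (W i).comap L.subtype := by
    rw [hi]
    exact Submodule.mem_top
  exact h

variable {K F : Type*} [Field K] [Field F] [Algebra K F]

/-- The `K`-subspace `{f | f / f₀ ∈ M}` attached to an intermediate field `M` of `F / E`. -/
def divSub (E : IntermediateField K F) (M : IntermediateField (↥E) F) (f₀ : F) :
    Submodule K F where
  carrier := {f | f / f₀ ∈ M}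
  add_mem' := fun {a b} ha hb => by
    change (a + b) / f₀ ∈ M
    rw [add_div]
    exact M.add_mem ha hb
  zero_mem' := by
    change (0 : F) / f₀ ∈ M
    rw [zero_div]
    exact M.zero_mem
  smul_mem' := fun c {a} ha => by
    change (c • a) / f₀ ∈ M
    rw [smul_div_assoc, Algebra.smul_def]
    refine M.mul_mem ?_ ha
    rw [IsScalarTower.algebraMap_apply K (↥E) F]
    exact M.algebraMap_mem _

theorem mem_divSub {E : IntermediateField K F} {M : IntermediateField (↥E) F} {f₀ f : F} :
    f ∈ divSub E M f₀ ↔ f / f₀ ∈ M := Iff.rfl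

/-- `f ∈ L(D) \ L(D - v)`: `f ≠ 0` and `ord_v f = -D v`. -/
theorem ord_eq_of_notMem_sub_single {D : Divisor K F} {v : Place K F} {f : F}
    (hf : f ∈ riemannRochSpace D)
    (hfv : f ∉ riemannRochSpace (D - Finsupp.single v (1 : ℤ))) :
    f ≠ 0 ∧ v.ord f = -D v := by
  classical
  have hf0 : f ≠ 0 := fun h => hfv (h ▸ Submodule.zero_mem _)
  refine ⟨hf0, ?_⟩
  have h1 := (mem_L_of_ne_zero hf0).mp hf
  by_contra hne
  apply hfv
  rw [mem_L_of_ne_zero hf0]
  intro w
  rw [Finsupp.sub_apply]
  by_cases hw : w = v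
  · subst hw
    rw [Finsupp.single_eq_same]
    have := h1 w
    omega
  · have h2 : (Finsupp.single v (1 : ℤ)) w = 0 := by
      rw [Finsupp.single_apply, if_neg (fun h => hw h.symm)]
    rw [h2]
    have := h1 w
    omega

variable [IsAlgClosed K] [CharZero K] [Algebra.EssFiniteType K F]

/-- In large degree `L(D - v)` is a proper subspace of `L(D)`. -/
theorem not_L_le_sub_single (htr : Algebra.trdeg K F = 1) {c : ℤ}
    (hc : ∀ D : Divisor K F, c ≤ Divisor.degree D →
      (Module.finrank K ↥(riemannRochSpace D) : ℤ) = Divisor.degree D + 1 - (gR K F : ℤ))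
    {D : Divisor K F} (hD : c + 1 ≤ Divisor.degree D) (v : Place K F) :
    ¬ riemannRochSpace D ≤ riemannRochSpace (D - Finsupp.single v (1 : ℤ)) := by
  intro hle
  have h1 := hc D (by omega)
  have hdeg : Divisor.degree (D - Finsupp.single v (1 : ℤ)) = Divisor.degree D - 1 := by
    rw [map_sub, Divisor.degree_single, Fermat.Agent.S24.FF.deg_eq_one htr v]
    simp
  have h2 := hc (D - Finsupp.single v (1 : ℤ)) (by rw [hdeg]; omega)
  haveI := finite_L htr (D - Finsupp.single v (1 : ℤ))
  have h3 : Module.finrank K ↥(riemannRochSpace D) ≤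
      Module.finrank K ↥(riemannRochSpace (D - Finsupp.single v (1 : ℤ))) :=
    Submodule.finrank_mono hle
  rw [hdeg] at h2
  omega

end PrimElt

variable {K F : Type*} [Field K] [Field F] [Algebra K F]
variable [IsAlgClosed K] [CharZero K] [Algebra.EssFiniteType K F]

open PrimElt in
/-- (R15c) a base-point-free pencil `f₀, f₁ ∈ L(D)` with `K(f₁ / f₀, t) = F`. -/
theorem exists_pencil (htr : Algebra.trdeg K F = 1) {t : F} (ht : Transcendental K t) :
    ∃ n₀ : ℤ, ∀ D : Divisor K F, n₀ ≤ Divisor.degree D → ∀ S : Finset (Place K F),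
      ∃ f₀ f₁ : F, f₀ ≠ 0 ∧ f₀ ∈ riemannRochSpace D ∧ f₁ ∈ riemannRochSpace D ∧
        (∀ v ∈ S, (D + divOf K f₀) v = 0) ∧
        (∀ v : Place K F, (D + divOf K f₀) v ≠ 0 → v.ord f₁ = -D v) ∧
        IntermediateField.adjoin K {f₁ / f₀, t} = ⊤ := by
  classical
  haveI : Module.Finite K⟮t⟯ F := Fermat.Agent.S24.FF.finite_adjoin_simple htr ht
  haveI : Finite (IntermediateField (↥K⟮t⟯) F) :=
    Field.finite_intermediateField_of_exists_primitive_element K⟮t⟯ F
      (Field.exists_primitive_element K⟮t⟯ F)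
  haveI : Infinite K := inferInstance
  obtain ⟨v₁⟩ := nonempty_place (K := K) (F := F) htr
  let bas := Module.finBasis K⟮t⟯ F
  obtain ⟨B, hB⟩ : ∃ B : Divisor K F, B = ∑ j, RiemannAux.poleDiv K (bas j) := ⟨_, rfl⟩
  have hB0 : 0 ≤ B := hB ▸ Finset.sum_nonneg fun j _ => RiemannAux.poleDiv_nonneg K (bas j)
  have hbB : ∀ j, bas j ∈ riemannRochSpace B := fun j =>
    L_mono (hB ▸ Finset.single_le_sum (f := fun i => RiemannAux.poleDiv K (bas i))
      (fun i _ => RiemannAux.poleDiv_nonneg K (bas i)) (Finset.mem_univ j))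
      (RiemannAux.mem_L_poleDiv htr (bas j))
  obtain ⟨c, hc⟩ := riemann_eq_of_large (K := K) (F := F) htr
  refine ⟨max (c + 1) (Divisor.degree B + gR K F), fun D hD S => ?_⟩
  have hD1 : c + 1 ≤ Divisor.degree D := le_trans (le_max_left _ _) hD
  have hD2 : Divisor.degree B + gR K F ≤ Divisor.degree D := le_trans (le_max_right _ _) hD
  -- the first section
  obtain ⟨f₀, hf₀, hf₀S⟩ := exists_mem_forall_notMem (riemannRochSpace D)
    (fun v : ↥(insert v₁ S) => riemannRochSpace (D - Finsupp.single (v : Place K F) (1 : ℤ)))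
    (fun v => not_L_le_sub_single htr hc hD1 v)
  have hf₀0 : f₀ ≠ 0 :=
    (ord_eq_of_notMem_sub_single hf₀ (hf₀S ⟨v₁, Finset.mem_insert_self v₁ S⟩)).1
  obtain ⟨A, hA⟩ : ∃ A : Divisor K F, A = D + divOf K f₀ := ⟨_, rfl⟩
  have hA0 : 0 ≤ A := hA ▸ add_divOf_nonneg htr hf₀0 hf₀
  -- a nonzero element of `L(A - B)`
  have hri := riemann_inequality htr (A - B)
  rw [map_sub, hA, map_add, degree_divOf htr, add_zero] at hri
  haveI := finite_L htr (D + divOf K f₀ - B)
  have hpos : 0 < Module.finrank K ↥(riemannRochSpace (D + divOf K f₀ - B)) := by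
    have h : (0 : ℤ) < (Module.finrank K ↥(riemannRochSpace (D + divOf K f₀ - B)) : ℤ) := by
      linarith
    exact_mod_cast h
  obtain ⟨z, hz⟩ := Module.finrank_pos_iff_exists_ne_zero.mp hpos
  have hz0 : (z : F) ≠ 0 := fun h => hz (Subtype.ext h)
  have hmulD : ∀ g ∈ riemannRochSpace (D + divOf K f₀), g * f₀ ∈ riemannRochSpace D := by
    intro g hg
    have h := mul_mem_L_sub_divOf htr f₀ hg
    rwa [add_sub_cancel_right] at h
  have hzD : (z : F) * f₀ ∈ riemannRochSpace D :=
    hmulD _ (L_mono (sub_le_self _ hB0) z.2)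
  have hzbD : ∀ j, (z : F) * bas j * f₀ ∈ riemannRochSpace D := fun j => by
    refine hmulD _ ?_
    have h := mul_mem_L z.2 (hbB j)
    rwa [sub_add_cancel] at h
  -- the subspaces attached to the proper intermediate fields are proper
  have hproper : ∀ M : IntermediateField (↥K⟮t⟯) F, M ≠ ⊤ →
      ¬ riemannRochSpace D ≤ divSub K⟮t⟯ M f₀ := by
    intro M hM hle
    apply hM
    have hzM : (z : F) ∈ M := by
      have h := mem_divSub.mp (hle hzD)
      rwa [mul_div_cancel_right₀ _ hf₀0] at h
    have hbM : ∀ j, bas j ∈ M := fun j => by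
      have h := mem_divSub.mp (hle (hzbD j))
      rw [mul_div_cancel_right₀ _ hf₀0] at h
      have h2 := M.mul_mem (M.inv_mem hzM) h
      rwa [← mul_assoc, inv_mul_cancel₀ hz0, one_mul] at h2
    rw [eq_top_iff]
    intro x _
    have hx : x ∈ Submodule.span (↥K⟮t⟯) (Set.range bas) := bas.mem_span x
    have hle' : Submodule.span (↥K⟮t⟯) (Set.range bas) ≤ M.toSubalgebra.toSubmodule :=
      Submodule.span_le.mpr (by
        rintro _ ⟨j, rfl⟩
        exact hbM j)
    exact hle' hx
  -- the second section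
  obtain ⟨f₁, hf₁, hf₁W⟩ := exists_mem_forall_notMem (riemannRochSpace D)
    (Sum.elim
      (fun v : ↥A.support => riemannRochSpace (D - Finsupp.single (v : Place K F) (1 : ℤ)))
      (fun M : {M : IntermediateField (↥K⟮t⟯) F // M ≠ ⊤} => divSub K⟮t⟯ M.1 f₀))
    (by
      rintro (v | M)
      · exact not_L_le_sub_single htr hc hD1 v
      · exact hproper M.1 M.2)
  refine ⟨f₀, f₁, hf₀0, hf₀, hf₁, fun v hv => ?_, fun v hv => ?_, ?_⟩
  · have h := (ord_eq_of_notMem_sub_single (v := v) hf₀
      (hf₀S ⟨v, Finset.mem_insert_of_mem hv⟩)).2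
    rw [Finsupp.add_apply, divOf_apply htr, h]
    omega
  · have hvA : v ∈ A.support := by
      rw [Finsupp.mem_support_iff, hA]
      exact hv
    exact (ord_eq_of_notMem_sub_single (v := v) hf₁ (hf₁W (Sum.inl ⟨v, hvA⟩))).2
  · have htop : K⟮t⟯⟮f₁ / f₀⟯ = ⊤ := by
      by_contra hM
      exact hf₁W (Sum.inr ⟨_, hM⟩) (mem_divSub.mpr (mem_adjoin_simple_self _ _))
    have h := adjoin_simple_adjoin_simple K t (f₁ / f₀)
    rw [htop, restrictScalars_top] at h
    rw [Set.pair_comm]
    exact h.symm

end Fermat.Agent.S17.R
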