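/-
MW strand R, leaf R15b: `t` separates the points of all but finitely many fibres of `ψ` when
`K(ψ, t) = F`.

Conductor argument (no characteristic polynomial, no discriminant, no norm):

* `A = K[ψ]`, `B` = the integral closure of `A` in `F` is a finite `A`-module;
* every element of `F = K(ψ, t)` times a nonzero element of `K[ψ]` lies in `K[ψ, t]`
  (`SepValues.exists_mul_mem_adjoin`), hence there is ONE `r ≠ 0` in `K[ψ]` with
  `r • B ⊆ K[ψ, t]` (`SepValues.exists_conductor`);
* if `P ≠ Q` lie over `ψ = c` and `t` takes the same value `d` at both, then every element of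
  `K[ψ, t]` takes the same value at `P` and at `Q` (`SepValues.exists_const_of_mem_adjoin`);
  applied to `r * f`, with `f ∈ B` vanishing at `P` and a unit at `Q` (prime avoidance, landed
  in `S24/FF/PrimeAvoid`), this forces `r` to vanish at `Q`;
* `r` has finitely many zeros and `ψ` has one value at each of them.
-/
import Mathlib
import Fermat.Agent.S24.FF.PrimeAvoid
import Fermat.Agent.S24.FF.Principal

set_option autoImplicit false

namespace Fermat.Agent.S17.R

open AlgebraicCurve IntermediateField
open scoped IntermediateField.algebraAdjoinAdjoin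

variable {K F : Type*} [Field K] [Field F] [Algebra K F]

namespace SepValues

attribute [local instance] Fermat.Agent.S24.FF.instPID Fermat.Agent.S24.FF.instDedekindClosure
  Fermat.Agent.S24.FF.instFracClosure Fermat.Agent.S24.FF.instFiniteClosure
  Fermat.Agent.S24.FF.instTowerClosure

/-- Denominators: every element of `K(ψ, t) = F` times a nonzero element of `K[ψ]` lies in
`K[ψ, t]`. -/
theorem exists_mul_mem_adjoin (htr : Algebra.trdeg K F = 1) {ψ t : F}
    (hψ : Transcendental K ψ) (hgen : IntermediateField.adjoin K {ψ, t} = ⊤) (w : F) :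
    ∃ r : F, r ≠ 0 ∧ r ∈ Algebra.adjoin K {ψ} ∧ r * w ∈ Algebra.adjoin K {ψ, t} := by
  have hw : w ∈ IntermediateField.adjoin K {ψ, t} := by rw [hgen]; trivial
  obtain ⟨a, ha, b, hb, rfl⟩ := IntermediateField.mem_adjoin_iff_div.mp hw
  by_cases hb0 : b = 0
  · refine ⟨1, one_ne_zero, one_mem _, ?_⟩
    rw [hb0, div_zero, mul_zero]
    exact zero_mem _
  have halgF : Algebra.IsAlgebraic K⟮ψ⟯ F :=
    Fermat.Agent.S24.FF.isAlgebraic_adjoin_simple htr hψ
  have hbalg : IsAlgebraic (Algebra.adjoin K {ψ}) b :=
    (IsFractionRing.isAlgebraic_iff (Algebra.adjoin K {ψ}) K⟮ψ⟯ F).mpr (halgF.isAlgebraic b)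
  obtain ⟨t', ht', r, hr, hbt⟩ :=
    hbalg.exists_nonzero_eq_adjoin_mul (mem_nonZeroDivisors_of_ne_zero hb0)
  have hle : Algebra.adjoin K {ψ} ≤ Algebra.adjoin K {ψ, t} :=
    Algebra.adjoin_mono (by simp)
  have hsub : ∀ x ∈ Algebra.adjoin (Algebra.adjoin K {ψ}) {b}, x ∈ Algebra.adjoin K {ψ, t} := by
    intro x hx
    induction hx using Algebra.adjoin_induction with
    | mem x hx =>
      rw [Set.mem_singleton_iff] at hx
      rw [hx]
      exact hb
    | algebraMap s => exact hle s.2
    | add x y _ _ hx hy => exact add_mem hx hy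
    | mul x y _ _ hx hy => exact mul_mem hx hy
  have hbt' : b * t' = (r : F) := hbt
  refine ⟨(r : F), ?_, r.2, ?_⟩
  · intro h0
    exact hr (Subtype.ext h0)
  · have e : (r : F) * (a / b) = a * t' := by
      rw [← hbt']
      field_simp
    rw [e]
    exact mul_mem ha (hsub t' ht')

/-- The conductor: one nonzero `r ∈ K[ψ]` multiplies the whole integral closure of `K[ψ]` into
`K[ψ, t]`. -/
theorem exists_conductor [CharZero K] [Algebra.EssFiniteType K F]
    (htr : Algebra.trdeg K F = 1) {ψ t : F} (hψ : Transcendental K ψ)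
    (hgen : IntermediateField.adjoin K {ψ, t} = ⊤) :
    ∃ r : F, r ≠ 0 ∧ r ∈ Algebra.adjoin K {ψ} ∧
      ∀ f : F, IsIntegral (Algebra.adjoin K {ψ}) f → r * f ∈ Algebra.adjoin K {ψ, t} := by
  classical
  have : Fact (Transcendental K ψ) := ⟨hψ⟩
  have : Module.Finite K⟮ψ⟯ F := Fermat.Agent.S24.FF.finite_adjoin_simple htr hψ
  have hfin : Module.Finite (Algebra.adjoin K {ψ}) (integralClosure (Algebra.adjoin K {ψ}) F) :=
    inferInstance
  obtain ⟨s, hs⟩ := hfin.fg_top
  have hle : Algebra.adjoin K {ψ} ≤ Algebra.adjoin K {ψ, t} :=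
    Algebra.adjoin_mono (by simp)
  have key : ∀ s : Finset (integralClosure (Algebra.adjoin K {ψ}) F),
      ∃ r : F, r ≠ 0 ∧ r ∈ Algebra.adjoin K {ψ} ∧
        ∀ x ∈ Submodule.span (Algebra.adjoin K {ψ})
            (s : Set (integralClosure (Algebra.adjoin K {ψ}) F)),
          r * (x : F) ∈ Algebra.adjoin K {ψ, t} := by
    intro s
    induction s using Finset.induction_on with
    | empty =>
      refine ⟨1, one_ne_zero, one_mem _, fun x hx => ?_⟩
      simp only [Finset.coe_empty, Submodule.span_empty, Submodule.mem_bot] at hx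
      rw [hx]
      simp
    | insert b s _ ih =>
      obtain ⟨r, hr0, hrA, hr⟩ := ih
      obtain ⟨rb, hrb0, hrbA, hrb⟩ := exists_mul_mem_adjoin htr hψ hgen (b : F)
      refine ⟨rb * r, mul_ne_zero hrb0 hr0, mul_mem hrbA hrA, fun x hx => ?_⟩
      rw [Finset.coe_insert, Submodule.mem_span_insert] at hx
      obtain ⟨a, z, hz, rfl⟩ := hx
      have e : rb * r * ((a • b + z : integralClosure (Algebra.adjoin K {ψ}) F) : F)
          = (a : F) * r * (rb * (b : F)) + rb * (r * (z : F)) := by
        have h1 : ((a • b + z : integralClosure (Algebra.adjoin K {ψ}) F) : F)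
            = (a : F) * (b : F) + (z : F) := rfl
        rw [h1]
        ring
      rw [e]
      exact add_mem (mul_mem (mul_mem (hle a.2) (hle hrA)) hrb) (mul_mem (hle hrbA) (hr z hz))
  obtain ⟨r, hr0, hrA, hr⟩ := key s
  refine ⟨r, hr0, hrA, fun f hf => ?_⟩
  exact hr ⟨f, hf⟩ (by rw [hs]; trivial)

/-- Constants have valuation at most one. -/
theorem adicValuation_algebraMap_le_one (v : Place K F) (c : K) :
    v.adicValuation (algebraMap K F c) ≤ 1 :=
  Fermat.Agent.S24.FF.adicValuation_le_one_of_mem v (v.algebraMap_mem' c)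

/-- A function which is congruent to a constant at `v` is regular at `v`. -/
theorem adicValuation_le_one_of_sub_lt (v : Place K F) {x : F} {β : K}
    (h : v.adicValuation (x - algebraMap K F β) < 1) : v.adicValuation x ≤ 1 := by
  have e : x = (x - algebraMap K F β) + algebraMap K F β := by ring
  rw [e]
  exact Valuation.map_add_le _ h.le (adicValuation_algebraMap_le_one v β)

theorem adicValuation_mul_lt_one (v : Place K F) {x y : F} (hx : v.adicValuation x < 1)
    (hy : v.adicValuation y ≤ 1) : v.adicValuation (x * y) < 1 := by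
  rw [map_mul]
  calc v.adicValuation x * v.adicValuation y ≤ v.adicValuation x * 1 := mul_le_mul' le_rfl hy
    _ = v.adicValuation x := mul_one _
    _ < 1 := hx

/-- If `ψ` and `t` take the same values `c`, `d` at the two places `P`, `Q`, then every element
of `K[ψ, t]` takes the same value at `P` and at `Q`. -/
theorem exists_const_of_mem_adjoin {P Q : Place K F} {ψ t : F} {c d : K}
    (hPψ : P.adicValuation (ψ - algebraMap K F c) < 1)
    (hQψ : Q.adicValuation (ψ - algebraMap K F c) < 1)
    (hPt : P.adicValuation (t - algebraMap K F d) < 1)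
    (hQt : Q.adicValuation (t - algebraMap K F d) < 1)
    {x : F} (hx : x ∈ Algebra.adjoin K {ψ, t}) :
    ∃ β : K, P.adicValuation (x - algebraMap K F β) < 1 ∧
      Q.adicValuation (x - algebraMap K F β) < 1 := by
  induction hx using Algebra.adjoin_induction with
  | mem x hx =>
    rcases hx with rfl | hx
    · exact ⟨c, hPψ, hQψ⟩
    · rw [Set.mem_singleton_iff] at hx
      subst hx
      exact ⟨d, hPt, hQt⟩
  | algebraMap r =>
    refine ⟨r, ?_, ?_⟩ <;> simp
  | add x y _ _ hx hy =>
    obtain ⟨β, h1, h2⟩ := hx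
    obtain ⟨γ, h3, h4⟩ := hy
    have e : x + y - algebraMap K F (β + γ)
        = (x - algebraMap K F β) + (y - algebraMap K F γ) := by
      rw [map_add]
      ring
    refine ⟨β + γ, ?_, ?_⟩
    · rw [e]
      exact Valuation.map_add_lt _ h1 h3
    · rw [e]
      exact Valuation.map_add_lt _ h2 h4
  | mul x y _ _ hx hy =>
    obtain ⟨β, h1, h2⟩ := hx
    obtain ⟨γ, h3, h4⟩ := hy
    have e : x * y - algebraMap K F (β * γ)
        = (x - algebraMap K F β) * y + (y - algebraMap K F γ) * algebraMap K F β := by
      rw [map_mul]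
      ring
    refine ⟨β * γ, ?_, ?_⟩
    · rw [e]
      exact Valuation.map_add_lt _
        (adicValuation_mul_lt_one P h1 (adicValuation_le_one_of_sub_lt P h3))
        (adicValuation_mul_lt_one P h3 (adicValuation_algebraMap_le_one P β))
    · rw [e]
      exact Valuation.map_add_lt _
        (adicValuation_mul_lt_one Q h2 (adicValuation_le_one_of_sub_lt Q h4))
        (adicValuation_mul_lt_one Q h4 (adicValuation_algebraMap_le_one Q β))

/-- A function has at most one value at a place. -/
theorem value_unique (v : Place K F) {ψ : F} {c c' : K}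
    (hc : 0 < v.ord (ψ - algebraMap K F c)) (hc' : 0 < v.ord (ψ - algebraMap K F c')) :
    c = c' := by
  by_contra hne
  have hne' : algebraMap K F (c' - c) ≠ 0 := by
    simpa [sub_eq_zero] using Ne.symm hne
  have e : (ψ - algebraMap K F c) - (ψ - algebraMap K F c') = algebraMap K F (c' - c) := by
    rw [map_sub]
    ring
  have h := Fermat.Agent.S24.FF.ord_sub_ge v (f := ψ - algebraMap K F c)
    (g := ψ - algebraMap K F c') (by rw [e]; exact hne')
  rw [e, Fermat.Agent.S24.FF.ord_algebraMap] at h
  have := le_min hc.le hc'.le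
  omega

end SepValues

open Fermat.Agent.S24.FF in
/-- (R15b) `t` separates the points of all but finitely many fibres of `ψ` when `K(ψ, t) = F`. -/
theorem sep_values_finite [IsAlgClosed K] [CharZero K] [Algebra.EssFiniteType K F]
    (htr : Algebra.trdeg K F = 1) {ψ t : F} (hψ : Transcendental K ψ)
    (hgen : IntermediateField.adjoin K {ψ, t} = ⊤) :
    {c : K | ∃ P Q : Place K F, P ≠ Q ∧ 0 < P.ord (ψ - algebraMap K F c) ∧
      0 < Q.ord (ψ - algebraMap K F c) ∧
      ∃ d : K, 0 < P.ord (t - algebraMap K F d) ∧ 0 < Q.ord (t - algebraMap K F d)}.Finite := by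
  classical
  obtain ⟨r, hr0, hrA, hr⟩ := SepValues.exists_conductor htr hψ hgen
  have hZ : {v : Place K F | v.ord r ≠ 0}.Finite := support_ord_finite htr hr0
  have hfinU : (⋃ v ∈ {v : Place K F | v.ord r ≠ 0},
      {c : K | 0 < v.ord (ψ - algebraMap K F c)}).Finite := by
    refine Set.Finite.biUnion hZ (fun v _ => Set.Subsingleton.finite ?_)
    intro c hc c' hc'
    exact SepValues.value_unique v hc hc'
  refine hfinU.subset ?_
  rintro c ⟨P, Q, hPQ, hPc, hQc, d, hPd, hQd⟩
  simp only [Set.mem_iUnion, Set.mem_ofPred_eq, exists_prop]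
  refine ⟨Q, ?_, hQc⟩
  -- nonvanishing of the functions involved
  have hψc : ψ - algebraMap K F c ≠ 0 := by
    intro h0
    rw [h0, Place.ord_zero] at hPc
    exact lt_irrefl _ hPc
  have htd : t - algebraMap K F d ≠ 0 := by
    intro h0
    rw [h0, Place.ord_zero] at hPd
    exact lt_irrefl _ hPd
  -- `ψ` is regular at `P` and at `Q`
  have hψmem : ∀ v : Place K F, 0 < v.ord (ψ - algebraMap K F c) → ψ ∈ v.toValuationSubring := by
    intro v hv
    have h1 := mem_of_ord_pos v hv
    have h2 := v.toValuationSubring.add_mem _ _ h1 (v.algebraMap_mem' c)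
    simpa using h2
  -- a function integral over `K[ψ]`, vanishing at `P`, a unit at `Q`
  obtain ⟨f, hfint, hfP, hfT⟩ := exists_integral_avoid_center htr hψ c P hPc {Q}
    (by simpa using hPQ) (by intro w hw; rw [Finset.mem_singleton] at hw; rw [hw]; exact hQc)
  have hfQ : Q.ord f = 0 := hfT Q (Finset.mem_singleton_self Q)
  have hf0 : f ≠ 0 := by
    intro h0
    rw [h0, Place.ord_zero] at hfP
    exact lt_irrefl _ hfP
  have hrf : r * f ∈ Algebra.adjoin K {ψ, t} := hr f hfint
  obtain ⟨β, hβP, hβQ⟩ := SepValues.exists_const_of_mem_adjoin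
    ((ord_pos_iff_adicValuation_lt_one P hψc).mp hPc)
    ((ord_pos_iff_adicValuation_lt_one Q hψc).mp hQc)
    ((ord_pos_iff_adicValuation_lt_one P htd).mp hPd)
    ((ord_pos_iff_adicValuation_lt_one Q htd).mp hQd) hrf
  -- `r` is regular at `P`, `f` vanishes there, so `β = 0`
  have hrP : P.adicValuation r ≤ 1 :=
    adicValuation_le_one_of_mem P (adjoin_le_valuationSubring P (hψmem P hPc) ⟨r, hrA⟩)
  have hfPv : P.adicValuation f < 1 := (ord_pos_iff_adicValuation_lt_one P hf0).mp hfP
  have hrfP : P.adicValuation (r * f) < 1 := by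
    rw [mul_comm]
    exact SepValues.adicValuation_mul_lt_one P hfPv hrP
  have hβ0 : β = 0 := by
    by_contra hβ
    have h1 : P.adicValuation (algebraMap K F β) = 1 := adicValuation_algebraMap P hβ
    have e : algebraMap K F β = r * f - (r * f - algebraMap K F β) := by ring
    have h2 : P.adicValuation (algebraMap K F β) < 1 := by
      rw [e]
      exact Valuation.map_sub_lt _ hrfP hβP
    rw [h1] at h2
    exact lt_irrefl _ h2
  -- hence `r * f` vanishes at `Q`, where `f` is a unit
  have hrfQ : Q.adicValuation (r * f) < 1 := by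
    simpa [hβ0] using hβQ
  have hfQv : Q.adicValuation f = 1 := (ord_eq_zero_iff_adicValuation_eq_one Q hf0).mp hfQ
  have hrQ : Q.adicValuation r < 1 := by
    rw [map_mul, hfQv, mul_one] at hrfQ
    exact hrfQ
  have hpos : 0 < Q.ord r := (ord_pos_iff_adicValuation_lt_one Q hr0).mpr hrQ
  omega

end Fermat.Agent.S17.R
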