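/-
MW strand R, leaf R15d: the generic member of a complete linear system of large degree.

`exists_generic_member`: for a function field `F / K` of one variable over an algebraically
closed field of characteristic zero and a non-constant `t`, there is `n₀` such that for every
divisor `D` of degree `≥ n₀` and every finite set `S` of places some `f ≠ 0` in `L(D)` has
`A = D + div f` multiplicity-free, disjoint from `S` and from the poles of `t`, with pairwise
distinct values of `t` on `A`, and every fibre of `t` through a point of `A` unramified.

Wrapper: `GenMemCore.exists_generic_member_of` (the pencil argument) applied to the landed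
`branch_finite` (R15a), `sep_values_finite` (R15b) and `exists_pencil` (R15c).
-/
import Mathlib
import Fermat.Agent.S17.R.GenericMemberCore
import Fermat.Agent.S17.R.Branch
import Fermat.Agent.S17.R.SepValues
import Fermat.Agent.S17.R.PrimElt

set_option autoImplicit false

namespace Fermat.Agent.S17.R

open AlgebraicCurve

variable {K F : Type*} [Field K] [Field F] [Algebra K F]
variable [IsAlgClosed K] [CharZero K] [Algebra.EssFiniteType K F]

/-- **R15d.**  A generic member of a complete linear system of large degree is
multiplicity-free, avoids a given finite set and the poles of `t`, and `t` takes pairwise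
distinct non-branch values on it. -/
theorem exists_generic_member (htr : Algebra.trdeg K F = 1) {t : F} (ht : Transcendental K t) :
    ∃ n₀ : ℤ, ∀ D : Divisor K F, n₀ ≤ Divisor.degree D → ∀ S : Finset (Place K F),
      ∃ f : F, f ≠ 0 ∧ f ∈ riemannRochSpace D ∧
        (∀ v : Place K F, (D + divOf K f) v ≤ 1) ∧
        (∀ v ∈ S, (D + divOf K f) v = 0) ∧
        (∀ v : Place K F, (D + divOf K f) v ≠ 0 → 0 ≤ v.ord t) ∧
        (∀ v w : Place K F, (D + divOf K f) v ≠ 0 → (D + divOf K f) w ≠ 0 → v ≠ w →
          ∀ c : K, 0 < v.ord (t - algebraMap K F c) → ¬ 0 < w.ord (t - algebraMap K F c)) ∧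
        (∀ v : Place K F, (D + divOf K f) v ≠ 0 → ∀ c : K, 0 < v.ord (t - algebraMap K F c) →
          ∀ u : Place K F, 0 < u.ord (t - algebraMap K F c) →
            u.ord (t - algebraMap K F c) = 1) :=
  GenMemCore.exists_generic_member_of htr (fun _ hx => branch_finite htr hx)
    (fun _ _ hψ h => sep_values_finite htr hψ h) (fun _ hs => exists_pencil htr hs) ht

end Fermat.Agent.S17.R
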