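/-
MW strand R, leaf R4: effective representatives of degree-zero classes and THE reduced
(minimal) representative, hypothesis-free.

`ReducedCore` proves everything about the minimal representative assuming that one effective
representative exists; here Riemann's inequality (`Riemann.lean`, leaf R2) supplies it, with
`d = gR K F`.
-/
import Mathlib
import Fermat.Agent.S17.R.Riemann
import Fermat.Agent.S17.R.ReducedCore

set_option autoImplicit false

namespace Fermat.Agent.S17.R

open AlgebraicCurve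

variable {K F : Type*} [Field K] [Field F] [Algebra K F]
variable [IsAlgClosed K] [CharZero K] [Algebra.EssFiniteType K F]

omit [IsAlgClosed K] [CharZero K] [Algebra.EssFiniteType K F] in
/-- Uniqueness of an effective representative `E` (of any degree `d`) as soon as `L(E)`
consists of constants only, i.e. `l(E) = 1`. -/
theorem IsEffRep.eq_of_L_const {v₀ : Place K F} {x : Pic0 K F} {d : ℕ} {E E' : Divisor K F}
    (hE : IsEffRep v₀ x d E) (hE' : IsEffRep v₀ x d E')
    (hL : ∀ f ∈ riemannRochSpace E, f ∈ Set.range (algebraMap K F)) : E' = E := by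
  obtain ⟨hE0, hdeg, hmk⟩ := hE
  obtain ⟨hE'0, hdeg', hmk'⟩ := hE'
  have hmm := hmk.trans hmk'.symm
  rw [ReducedCore.mk_eq_mk_iff] at hmm
  obtain ⟨f, hf0, hf⟩ := hmm
  have hf' : ∀ v : Place K F, v.ord f = E' v - E v := fun v => by
    rw [← hf v, Finsupp.sub_apply, Finsupp.sub_apply]
    ring
  have hfL : f ∈ riemannRochSpace E := by
    rw [mem_riemannRochSpace_iff]
    intro v
    right
    have h1 : 0 ≤ E' v := by simpa using hE'0 v
    rw [hf' v]
    omega
  obtain ⟨c, rfl⟩ := hL f hfL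
  ext v
  have h1 := hf' v
  rw [Fermat.Agent.S24.FF.ord_algebraMap] at h1
  omega

/-- Every class of degree zero is `[E - g·v₀]` with `E ≥ 0`, `g = gR K F` (Riemann). -/
theorem exists_isEffRep_gR (htr : Algebra.trdeg K F = 1) (v₀ : Place K F) (x : Pic0 K F) :
    ∃ E : Divisor K F, IsEffRep v₀ x (gR K F) E :=
  exists_isEffRep_of_riemann htr (riemann_inequality htr) v₀ x

theorem exists_isEffRep (htr : Algebra.trdeg K F = 1) (v₀ : Place K F) (x : Pic0 K F) :
    ∃ (d : ℕ) (E : Divisor K F), IsEffRep v₀ x d E :=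
  ⟨gR K F, exists_isEffRep_gR htr v₀ x⟩

/-- Every class of degree zero is `[E - g·v₀]` with `E ≥ 0` of degree `g = gR K F`. -/
theorem exists_effective_rep (htr : Algebra.trdeg K F = 1) (v₀ : Place K F) (x : Pic0 K F) :
    ∃ (E : Divisor K F) (h : E - (gR K F : ℤ) • Finsupp.single v₀ (1 : ℤ) ∈
        Divisor.degZero (K := K) (F := F)),
      0 ≤ E ∧ Pic0.mk ⟨E - (gR K F : ℤ) • Finsupp.single v₀ (1 : ℤ), h⟩ = x := by
  obtain ⟨E, hE0, h, hmk⟩ := exists_isEffRep_gR htr v₀ x
  exact ⟨E, h, hE0, hmk⟩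

/-- The reduced degree is at most the genus. -/
theorem redDeg_le_gR (htr : Algebra.trdeg K F = 1) (v₀ : Place K F) (x : Pic0 K F) :
    redDeg v₀ x ≤ gR K F := by
  obtain ⟨E, hE⟩ := exists_isEffRep_gR htr v₀ x
  exact redDeg_le hE

/-- The reduced divisor represents the class at the reduced degree. -/
theorem isEffRep_redDiv (htr : Algebra.trdeg K F = 1) (v₀ : Place K F) (x : Pic0 K F) :
    IsEffRep v₀ x (redDeg v₀ x) (redDiv v₀ x) :=
  isEffRep_redDiv_of_exists (exists_isEffRep htr v₀ x)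

theorem redDiv_nonneg (htr : Algebra.trdeg K F = 1) (v₀ : Place K F) (x : Pic0 K F) :
    0 ≤ redDiv v₀ x :=
  (isEffRep_redDiv htr v₀ x).1

/-- `x = [redDiv v₀ x - redDeg v₀ x · v₀]`. -/
theorem mk_redDiv (htr : Algebra.trdeg K F = 1) (v₀ : Place K F) (x : Pic0 K F) :
    ∃ h : redDiv v₀ x - (redDeg v₀ x : ℤ) • Finsupp.single v₀ (1 : ℤ) ∈
        Divisor.degZero (K := K) (F := F),
      Pic0.mk ⟨redDiv v₀ x - (redDeg v₀ x : ℤ) • Finsupp.single v₀ (1 : ℤ), h⟩ = x :=
  (isEffRep_redDiv htr v₀ x).2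

theorem degree_redDiv (htr : Algebra.trdeg K F = 1) (v₀ : Place K F) (x : Pic0 K F) :
    Divisor.degree (redDiv v₀ x) = redDeg v₀ x :=
  degree_redDiv_of_exists htr (exists_isEffRep htr v₀ x)

theorem degree_redDiv_le_gR (htr : Algebra.trdeg K F = 1) (v₀ : Place K F) (x : Pic0 K F) :
    Divisor.degree (redDiv v₀ x) ≤ (gR K F : ℤ) := by
  rw [degree_redDiv htr v₀ x]
  exact_mod_cast redDeg_le_gR htr v₀ x

/-- The base place is not in the support of the reduced divisor. -/
theorem redDiv_apply_self (htr : Algebra.trdeg K F = 1) (v₀ : Place K F) (x : Pic0 K F) :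
    redDiv v₀ x v₀ = 0 :=
  redDiv_apply_self_of_exists htr (exists_isEffRep htr v₀ x)

/-- `L(redDiv) = K`. -/
theorem mem_L_redDiv_iff (htr : Algebra.trdeg K F = 1) (v₀ : Place K F) (x : Pic0 K F) {f : F} :
    f ∈ riemannRochSpace (redDiv v₀ x) ↔ f ∈ Set.range (algebraMap K F) :=
  mem_L_redDiv_iff_of_exists htr (exists_isEffRep htr v₀ x)

/-- `l(redDiv) = 1`. -/
theorem finrank_L_redDiv (htr : Algebra.trdeg K F = 1) (v₀ : Place K F) (x : Pic0 K F) :
    Module.finrank K ↥(riemannRochSpace (redDiv v₀ x)) = 1 := by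
  have h : riemannRochSpace (redDiv v₀ x) = Submodule.span K {(1 : F)} := by
    ext f
    rw [mem_L_redDiv_iff htr v₀ x, Submodule.mem_span_singleton]
    constructor
    · rintro ⟨c, rfl⟩
      exact ⟨c, (Algebra.algebraMap_eq_smul_one c).symm⟩
    · rintro ⟨c, rfl⟩
      exact ⟨c, Algebra.algebraMap_eq_smul_one c⟩
  rw [h]
  exact finrank_span_singleton one_ne_zero

/-- A class is determined by its reduced divisor. -/
theorem redDiv_injective (htr : Algebra.trdeg K F = 1) (v₀ : Place K F) :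
    Function.Injective (redDiv (K := K) (F := F) v₀) := by
  intro x y hxy
  have hd : redDeg v₀ x = redDeg v₀ y := by
    have h1 := degree_redDiv htr v₀ x
    have h2 := degree_redDiv htr v₀ y
    rw [hxy, h2] at h1
    exact_mod_cast h1.symm
  obtain ⟨hx, hmkx⟩ := mk_redDiv htr v₀ x
  obtain ⟨hy, hmky⟩ := mk_redDiv htr v₀ y
  rw [← hmkx, ← hmky]
  have heq : redDiv v₀ x - (redDeg v₀ x : ℤ) • Finsupp.single v₀ (1 : ℤ)
      = redDiv v₀ y - (redDeg v₀ y : ℤ) • Finsupp.single v₀ (1 : ℤ) := by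
    rw [hd, hxy]
  exact congrArg Pic0.mk (Subtype.ext heq)

theorem redDeg_eq_zero_iff (htr : Algebra.trdeg K F = 1) (v₀ : Place K F) (x : Pic0 K F) :
    redDeg v₀ x = 0 ↔ x = 0 :=
  redDeg_eq_zero_iff_of_exists htr (exists_isEffRep htr v₀ x)

/-- The reduced divisor is equivariant under semilinear automorphisms. -/
theorem redDiv_smul (htr : Algebra.trdeg K F = 1) (g : SemilinearAut K F) (v₀ : Place K F)
    (x : Pic0 K F) : redDiv (g • v₀) (g • x) = g • redDiv v₀ x :=
  redDiv_smul_of_exists htr g (exists_isEffRep htr v₀ x)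

/-- **Stability of the reduced divisor**: a semilinear automorphism fixing the class and the
base place fixes the reduced divisor. -/
theorem smul_redDiv (htr : Algebra.trdeg K F = 1) (g : SemilinearAut K F) {v₀ : Place K F}
    {x : Pic0 K F} (hv : g • v₀ = v₀) (hgx : g • x = x) :
    g • redDiv v₀ x = redDiv v₀ x :=
  smul_redDiv_of_exists htr g (exists_isEffRep htr v₀ x) hv hgx

end Fermat.Agent.S17.R
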