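/-
MW strand R (helper178): pole orders at a place `v₀` of a function field `F / K` of one variable
(`K` algebraically closed of characteristic zero): the Weierstrass semigroup, the gap theorem,
and the Apéry (pole-order) basis with `w₀ = 1` in the `L(n·v₀)` vocabulary.  Companion of
`R/Apery.lean` (leaf R14, whose literal of record is `exists_apery_basis` for `regOff v₀`).

* `IsNonGap v₀ n`            : some `f ∈ L(n·v₀)` has `ord_{v₀} f = -n`;
* `isNonGap_add`             : the non-gaps form a semigroup;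
* `finrank_L_eq_card_nonGap` : `l(n·v₀)` is the number of non-gaps `≤ n`;
* `ncard_gaps`               : there are exactly `gR K F` gaps (Weierstrass);
* `Gaps.ord_sum_of_injOn`    : strict ultrametric inequality for finite sums;
* `Gaps.ord_aeval`           : `ord_{v₀} q(x) = -n₀ · deg q` when `ord_{v₀} x = -n₀ < 0`;
* `Gaps.ord_sum`             : `∑ pᵢ(x) wᵢ ≠ 0` and its exact pole order, for `ord wᵢ = -νᵢ`,
  `νᵢ ≡ i (mod n₀)`;
* `Gaps.gap_iff`             : `m` is a gap iff `m < ν_{m mod n₀}` for the least non-gaps `νᵢ`;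
* `exists_apery`             : for `x ∈ L(n₀·v₀)` of pole order `n₀ > 0` there are `w₀ = 1, …,
  w_{n₀-1}` regular off `v₀`, of pole orders `νᵢ ≡ i (mod n₀)`, with `∑ ⌊νᵢ / n₀⌋ = gR K F`,
  which form a basis of `⋃ L(n·v₀)` over `K[x]`: every `f ∈ L(n·v₀)` is `∑ pᵢ(x) wᵢ` with
  `n₀ · deg pᵢ + νᵢ ≤ n`, uniquely;
* `exists_apery_basis_of_forall` : the same in the vocabulary `∀ v ≠ v₀, f ∈ 𝒪_v` of functions
  regular off `v₀` (existence and uniqueness of coordinates, pole order of a combination).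
-/
import Mathlib
import Fermat.Prelude.Def_AlgebraicCurve_Repartitions
import Fermat.Agent.S24.FF.Principal
import Fermat.Agent.S24.FF.Residue
import Fermat.Agent.S17.R.LSpace
import Fermat.Agent.S17.R.LStep
import Fermat.Agent.S17.R.Riemann

set_option autoImplicit false
set_option linter.unusedSectionVars false
set_option linter.style.haveILetI false

namespace Fermat.Agent.S17.R

open AlgebraicCurve
open Fermat.Agent.S24.FF

variable {K F : Type*} [Field K] [Field F] [Algebra K F]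

/-- `n` is a pole order at `v₀` of a function regular elsewhere (a non-gap at `v₀`). -/
def IsNonGap (v₀ : Place K F) (n : ℕ) : Prop :=
  ∃ f : F, f ∈ riemannRochSpace ((n : ℤ) • Finsupp.single v₀ (1 : ℤ)) ∧ v₀.ord f = -(n : ℤ)

namespace Gaps

theorem zsmul_single_apply_self (v₀ : Place K F) (n : ℤ) :
    (n • Finsupp.single v₀ (1 : ℤ)) v₀ = n := by
  rw [Finsupp.smul_apply, Finsupp.single_eq_same, smul_eq_mul, mul_one]

theorem zsmul_single_apply_ne (v₀ : Place K F) (n : ℤ) {v : Place K F} (h : v ≠ v₀) :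
    (n • Finsupp.single v₀ (1 : ℤ)) v = 0 := by
  classical
  rw [Finsupp.smul_apply, Finsupp.single_apply, if_neg (fun h' => h h'.symm), smul_zero]

/-- Membership in `L(n·v₀)`. -/
theorem mem_Ln_iff (v₀ : Place K F) (n : ℤ) {f : F} (hf : f ≠ 0) :
    f ∈ riemannRochSpace (n • Finsupp.single v₀ (1 : ℤ)) ↔
      -n ≤ v₀.ord f ∧ ∀ v : Place K F, v ≠ v₀ → 0 ≤ v.ord f := by
  rw [mem_L_of_ne_zero hf]
  constructor
  · intro h
    refine ⟨?_, fun v hv => ?_⟩
    · have h1 := h v₀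
      rwa [zsmul_single_apply_self] at h1
    · have h1 := h v
      rwa [zsmul_single_apply_ne v₀ n hv, neg_zero] at h1
  · rintro ⟨h1, h2⟩ v
    by_cases hv : v = v₀
    · subst hv
      rwa [zsmul_single_apply_self]
    · rw [zsmul_single_apply_ne v₀ n hv, neg_zero]
      exact h2 v hv

theorem Ln_mono (v₀ : Place K F) {m n : ℤ} (h : m ≤ n) :
    riemannRochSpace (m • Finsupp.single v₀ (1 : ℤ)) ≤
      riemannRochSpace (n • Finsupp.single v₀ (1 : ℤ)) := by
  intro f hf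
  by_cases hf0 : f = 0
  · rw [hf0]
    exact Submodule.zero_mem _
  rw [mem_Ln_iff v₀ _ hf0] at hf ⊢
  have h1 := hf.1
  exact ⟨by omega, hf.2⟩

theorem one_mem_Ln (v₀ : Place K F) (n : ℕ) :
    (1 : F) ∈ riemannRochSpace ((n : ℤ) • Finsupp.single v₀ (1 : ℤ)) := by
  rw [mem_Ln_iff v₀ _ one_ne_zero]
  refine ⟨?_, fun v _ => ?_⟩
  · rw [Place.ord_one]
    have h := Int.natCast_nonneg n
    omega
  · rw [Place.ord_one]

theorem cast_succ_smul (v₀ : Place K F) (n : ℕ) :
    ((n + 1 : ℕ) : ℤ) • Finsupp.single v₀ (1 : ℤ) =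
      (n : ℤ) • Finsupp.single v₀ (1 : ℤ) + Finsupp.single v₀ (1 : ℤ) := by
  rw [Nat.cast_succ, add_smul, one_smul]

/-- A non-gap has a nonzero witness. -/
theorem isNonGap_iff (v₀ : Place K F) (n : ℕ) :
    IsNonGap v₀ n ↔ ∃ f : F, f ≠ 0 ∧
      f ∈ riemannRochSpace ((n : ℤ) • Finsupp.single v₀ (1 : ℤ)) ∧ v₀.ord f = -(n : ℤ) := by
  constructor
  · rintro ⟨f, hf, hord⟩
    by_cases hf0 : f = 0
    · subst hf0
      rw [Place.ord_zero] at hord
      have hn : n = 0 := by omega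
      subst hn
      refine ⟨1, one_ne_zero, one_mem_Ln v₀ 0, ?_⟩
      rw [Place.ord_one]
      simp
    · exact ⟨f, hf0, hf, hord⟩
  · rintro ⟨f, _, hf, hord⟩
    exact ⟨f, hf, hord⟩

/-- A function is regular off `v₀` iff it lies in some `L(n·v₀)`. -/
theorem regular_iff (v₀ : Place K F) {f : F} :
    (∀ v : Place K F, v ≠ v₀ → f ∈ v.toValuationSubring) ↔
      ∃ n : ℕ, f ∈ riemannRochSpace ((n : ℤ) • Finsupp.single v₀ (1 : ℤ)) := by
  constructor
  · intro h
    by_cases hf0 : f = 0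
    · exact ⟨0, by rw [hf0]; exact Submodule.zero_mem _⟩
    · refine ⟨(-v₀.ord f).toNat, ?_⟩
      rw [mem_Ln_iff v₀ _ hf0]
      refine ⟨?_, fun v hv => ord_nonneg_of_mem v (h v hv)⟩
      have h1 : -v₀.ord f ≤ ((-v₀.ord f).toNat : ℤ) := Int.self_le_toNat _
      omega
  · rintro ⟨n, hn⟩ v hv
    by_cases hf0 : f = 0
    · rw [hf0]
      exact zero_mem _
    · exact (ord_nonneg_iff v hf0).mp (((mem_Ln_iff v₀ _ hf0).mp hn).2 v hv)

end Gaps

open Gaps

theorem isNonGap_zero (v₀ : Place K F) : IsNonGap v₀ 0 := by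
  refine ⟨1, one_mem_Ln v₀ 0, ?_⟩
  rw [Place.ord_one]
  simp

/-- The non-gaps at `v₀` form a semigroup. -/
theorem isNonGap_add {v₀ : Place K F} {a b : ℕ} (ha : IsNonGap v₀ a) (hb : IsNonGap v₀ b) :
    IsNonGap v₀ (a + b) := by
  obtain ⟨f, hf0, hf, hfo⟩ := (isNonGap_iff v₀ a).mp ha
  obtain ⟨g, hg0, hg, hgo⟩ := (isNonGap_iff v₀ b).mp hb
  refine ⟨f * g, ?_, ?_⟩
  · have h := mul_mem_L hf hg
    rwa [← add_smul, ← Nat.cast_add] at h
  · rw [v₀.ord_mul hf0 hg0, hfo, hgo]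
    push_cast
    ring

theorem isNonGap_mul {v₀ : Place K F} {a : ℕ} (ha : IsNonGap v₀ a) (k : ℕ) :
    IsNonGap v₀ (k * a) := by
  induction k with
  | zero =>
    rw [Nat.zero_mul]
    exact isNonGap_zero v₀
  | succ k ih =>
    rw [Nat.succ_mul]
    exact isNonGap_add ih ha

namespace Gaps

/-- If `n + 1` is a gap then `L((n+1)·v₀) = L(n·v₀)`. -/
theorem Ln_succ_le_of_gap (v₀ : Place K F) (n : ℕ) (h : ¬ IsNonGap v₀ (n + 1)) :
    riemannRochSpace (((n + 1 : ℕ) : ℤ) • Finsupp.single v₀ (1 : ℤ)) ≤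
      riemannRochSpace ((n : ℤ) • Finsupp.single v₀ (1 : ℤ)) := by
  intro f hf
  by_cases hf0 : f = 0
  · rw [hf0]
    exact Submodule.zero_mem _
  have hf' := (mem_Ln_iff v₀ _ hf0).mp hf
  rw [mem_Ln_iff v₀ _ hf0]
  refine ⟨?_, hf'.2⟩
  have hne : v₀.ord f ≠ -((n + 1 : ℕ) : ℤ) := fun heq => h ⟨f, hf, heq⟩
  have h1 := hf'.1
  push_cast at h1 hne
  omega

theorem finrank_Ln_succ_of_gap (v₀ : Place K F) (n : ℕ) (h : ¬ IsNonGap v₀ (n + 1)) :
    Module.finrank K ↥(riemannRochSpace (((n + 1 : ℕ) : ℤ) • Finsupp.single v₀ (1 : ℤ))) =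
      Module.finrank K ↥(riemannRochSpace ((n : ℤ) • Finsupp.single v₀ (1 : ℤ))) := by
  have heq : riemannRochSpace (((n + 1 : ℕ) : ℤ) • Finsupp.single v₀ (1 : ℤ)) =
      riemannRochSpace ((n : ℤ) • Finsupp.single v₀ (1 : ℤ)) :=
    le_antisymm (Ln_succ_le_of_gap v₀ n h) (Ln_mono v₀ (by push_cast; omega))
  rw [heq]

/-- **Strict ultrametric inequality** for a finite sum of functions of pairwise distinct orders. -/
theorem ord_sum_of_injOn {ι : Type*} (v : Place K F) (s : Finset ι) (f : ι → F)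
    (hs : s.Nonempty) (h0 : ∀ i ∈ s, f i ≠ 0)
    (hinj : Set.InjOn (fun i => v.ord (f i)) (s : Set ι)) :
    ∑ i ∈ s, f i ≠ 0 ∧ ∃ i ∈ s, v.ord (∑ j ∈ s, f j) = v.ord (f i) ∧
      ∀ j ∈ s, v.ord (f i) ≤ v.ord (f j) := by
  classical
  induction s using Finset.induction_on with
  | empty => exact absurd hs (by simp)
  | insert a s ha ih =>
    have ha0 : f a ≠ 0 := h0 a (Finset.mem_insert_self a s)
    by_cases hse : s = ∅
    · subst hse
      refine ⟨?_, a, Finset.mem_insert_self a ∅, ?_, ?_⟩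
      · simpa using ha0
      · simp
      · intro j hj
        have hja : j = a := by simpa using hj
        rw [hja]
    · have hsne : s.Nonempty := Finset.nonempty_iff_ne_empty.mpr hse
      have h0' : ∀ i ∈ s, f i ≠ 0 := fun i hi => h0 i (Finset.mem_insert_of_mem hi)
      have hinj' : Set.InjOn (fun i => v.ord (f i)) (s : Set ι) :=
        hinj.mono (by
          intro i hi
          exact Finset.mem_coe.mpr (Finset.mem_insert_of_mem (Finset.mem_coe.mp hi)))
      obtain ⟨hS0, i, his, hSi, hmin⟩ := ih hsne h0' hinj'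
      have hne : v.ord (f a) ≠ v.ord (f i) := by
        intro heq
        have hai : a = i :=
          hinj (Finset.mem_coe.mpr (Finset.mem_insert_self a s))
            (Finset.mem_coe.mpr (Finset.mem_insert_of_mem his)) heq
        exact ha (hai ▸ his)
      have hzero : f a + ∑ j ∈ s, f j ≠ 0 := by
        intro hz
        have hS : ∑ j ∈ s, f j = -f a := by
          rw [eq_neg_iff_add_eq_zero, add_comm]
          exact hz
        rw [hS, ord_neg] at hSi
        exact hne hSi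
      rw [Finset.sum_insert ha]
      rcases lt_or_gt_of_ne hne with hlt | hgt
      · have h1 : v.ord (f a + ∑ j ∈ s, f j) = v.ord (f a) :=
          ord_add_eq_of_lt v (by rw [hSi]; exact hlt) ha0 hS0
        refine ⟨hzero, a, Finset.mem_insert_self a s, h1, ?_⟩
        intro j hj
        rcases Finset.mem_insert.mp hj with hja | hjs
        · rw [hja]
        · exact hlt.le.trans (hmin j hjs)
      · have h1 : v.ord (f a + ∑ j ∈ s, f j) = v.ord (f i) := by
          rw [add_comm, ← hSi]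
          exact ord_add_eq_of_lt v (by rw [hSi]; exact hgt) hS0 ha0
        refine ⟨hzero, i, Finset.mem_insert_of_mem his, h1, ?_⟩
        intro j hj
        rcases Finset.mem_insert.mp hj with hja | hjs
        · rw [hja]
          exact hgt.le
        · exact hmin j hjs

/-- The order at `v` of a polynomial in a function `x` with a pole of order `n₀ > 0` at `v`. -/
theorem ord_aeval (v : Place K F) {x : F} {n₀ : ℕ} (hn₀ : 0 < n₀) (hord : v.ord x = -(n₀ : ℤ))
    {q : Polynomial K} (hq : q ≠ 0) :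
    Polynomial.aeval x q ≠ 0 ∧
      v.ord (Polynomial.aeval x q) = -((q.natDegree * n₀ : ℕ) : ℤ) := by
  have hx0 : x ≠ 0 := by
    rintro rfl
    rw [Place.ord_zero] at hord
    omega
  have hsum : Polynomial.aeval x q = ∑ j ∈ q.support, algebraMap K F (q.coeff j) * x ^ j := by
    rw [Polynomial.aeval_def, Polynomial.eval₂_eq_sum]
    rfl
  have hterm : ∀ j ∈ q.support, algebraMap K F (q.coeff j) * x ^ j ≠ 0 ∧
      v.ord (algebraMap K F (q.coeff j) * x ^ j) = -((j * n₀ : ℕ) : ℤ) := by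
    intro j hj
    have hc : q.coeff j ≠ 0 := Polynomial.mem_support_iff.mp hj
    have hc' : algebraMap K F (q.coeff j) ≠ 0 := by
      intro h
      exact hc ((map_eq_zero (algebraMap K F)).mp h)
    refine ⟨mul_ne_zero hc' (pow_ne_zero j hx0), ?_⟩
    rw [v.ord_mul hc' (pow_ne_zero j hx0), ord_algebraMap, ← zpow_natCast, Place.ord_zpow, hord]
    push_cast
    ring
  have hsupp : q.support.Nonempty := Polynomial.nonempty_support_iff.mpr hq
  have hinj : Set.InjOn (fun j => v.ord (algebraMap K F (q.coeff j) * x ^ j))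
      (q.support : Set ℕ) := by
    intro a ha b hb hab
    have hab' : v.ord (algebraMap K F (q.coeff a) * x ^ a) =
        v.ord (algebraMap K F (q.coeff b) * x ^ b) := hab
    rw [(hterm a (Finset.mem_coe.mp ha)).2, (hterm b (Finset.mem_coe.mp hb)).2] at hab'
    have h1 : a * n₀ = b * n₀ := by exact_mod_cast neg_injective hab'
    exact Nat.eq_of_mul_eq_mul_right hn₀ h1
  obtain ⟨h0, i, hi, hio, hmin⟩ := ord_sum_of_injOn v q.support
    (fun j => algebraMap K F (q.coeff j) * x ^ j) hsupp (fun j hj => (hterm j hj).1) hinj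
  rw [hsum]
  refine ⟨h0, ?_⟩
  rw [hio, (hterm i hi).2]
  have hnd : q.natDegree ∈ q.support := Polynomial.natDegree_mem_support_of_nonzero hq
  have h1 := hmin _ hnd
  rw [(hterm i hi).2, (hterm _ hnd).2] at h1
  have h2 : i ≤ q.natDegree := Polynomial.le_natDegree_of_mem_supp i hi
  have h3 : q.natDegree * n₀ ≤ i * n₀ := by exact_mod_cast neg_le_neg_iff.mp h1
  have h4 : q.natDegree ≤ i := Nat.le_of_mul_le_mul_right h3 hn₀
  rw [le_antisymm h2 h4]

/-- **Pole order of a `K[x]`-combination** of functions `wᵢ` of pole orders `νᵢ ≡ i (mod n₀)`: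
it is not zero and its pole order is the largest of the `n₀ · deg pᵢ + νᵢ`. -/
theorem ord_sum (v₀ : Place K F) {x : F} {n₀ : ℕ} (hn₀ : 0 < n₀) (hord : v₀.ord x = -(n₀ : ℤ))
    (w : Fin n₀ → F) (ν : Fin n₀ → ℕ) (hw0 : ∀ i, w i ≠ 0)
    (hwo : ∀ i, v₀.ord (w i) = -(ν i : ℤ)) (hν2 : ∀ i : Fin n₀, ν i % n₀ = (i : ℕ))
    (p : Fin n₀ → Polynomial K) (hp : p ≠ 0) :
    ∑ i, Polynomial.aeval x (p i) * w i ≠ 0 ∧
      ∃ i, p i ≠ 0 ∧
        v₀.ord (∑ j, Polynomial.aeval x (p j) * w j) =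
          -(((p i).natDegree * n₀ + ν i : ℕ) : ℤ) ∧
        ∀ j, p j ≠ 0 → (p j).natDegree * n₀ + ν j ≤ (p i).natDegree * n₀ + ν i := by
  classical
  have hsum : ∑ i, Polynomial.aeval x (p i) * w i =
      ∑ i ∈ Finset.univ.filter (fun i => p i ≠ 0), Polynomial.aeval x (p i) * w i := by
    rw [Finset.sum_filter]
    refine Finset.sum_congr rfl fun i _ => ?_
    by_cases h : p i = 0
    · rw [if_neg (not_not.mpr h), h, map_zero, zero_mul]
    · rw [if_pos h]
  have hterm : ∀ i ∈ Finset.univ.filter (fun i => p i ≠ 0),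
      Polynomial.aeval x (p i) * w i ≠ 0 ∧
        v₀.ord (Polynomial.aeval x (p i) * w i) =
          -(((p i).natDegree * n₀ + ν i : ℕ) : ℤ) := by
    intro i hi
    have hpi : p i ≠ 0 := (Finset.mem_filter.mp hi).2
    obtain ⟨h1, h2⟩ := ord_aeval v₀ hn₀ hord hpi
    refine ⟨mul_ne_zero h1 (hw0 i), ?_⟩
    rw [v₀.ord_mul h1 (hw0 i), h2, hwo]
    push_cast
    ring
  have hsne : (Finset.univ.filter (fun i => p i ≠ 0)).Nonempty := by
    by_contra hem
    rw [Finset.not_nonempty_iff_eq_empty] at hem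
    apply hp
    funext i
    by_contra hi
    have hmem : i ∈ Finset.univ.filter (fun i => p i ≠ 0) :=
      Finset.mem_filter.mpr ⟨Finset.mem_univ i, hi⟩
    rw [hem] at hmem
    exact absurd hmem (Finset.notMem_empty i)
  have hinj : Set.InjOn (fun i => v₀.ord (Polynomial.aeval x (p i) * w i))
      ((Finset.univ.filter (fun i => p i ≠ 0) : Finset (Fin n₀)) : Set (Fin n₀)) := by
    intro a ha b hb hab
    have hab' : v₀.ord (Polynomial.aeval x (p a) * w a) =
        v₀.ord (Polynomial.aeval x (p b) * w b) := hab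
    rw [(hterm a (Finset.mem_coe.mp ha)).2, (hterm b (Finset.mem_coe.mp hb)).2] at hab'
    have h1 : (p a).natDegree * n₀ + ν a = (p b).natDegree * n₀ + ν b := by
      exact_mod_cast neg_injective hab'
    have h2 : ((p a).natDegree * n₀ + ν a) % n₀ = ((p b).natDegree * n₀ + ν b) % n₀ := by
      rw [h1]
    rw [Nat.mul_add_mod_self_right, Nat.mul_add_mod_self_right, hν2, hν2] at h2
    exact Fin.ext h2
  obtain ⟨h0, i, hi, hio, hmin⟩ := ord_sum_of_injOn v₀ (Finset.univ.filter (fun i => p i ≠ 0))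
    (fun i => Polynomial.aeval x (p i) * w i) hsne (fun i hi => (hterm i hi).1) hinj
  rw [hsum]
  refine ⟨h0, i, (Finset.mem_filter.mp hi).2, ?_, ?_⟩
  · rw [hio, (hterm i hi).2]
  · intro j hj
    have hjs : j ∈ Finset.univ.filter (fun i => p i ≠ 0) :=
      Finset.mem_filter.mpr ⟨Finset.mem_univ j, hj⟩
    have h1 := hmin j hjs
    rw [(hterm i hi).2, (hterm j hjs).2] at h1
    exact_mod_cast neg_le_neg_iff.mp h1

end Gaps

section Curve

variable [IsAlgClosed K] [CharZero K] [Algebra.EssFiniteType K F]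

namespace Gaps

theorem degree_zsmul_single (htr : Algebra.trdeg K F = 1) (v₀ : Place K F) (n : ℤ) :
    Divisor.degree (n • Finsupp.single v₀ (1 : ℤ)) = n := by
  rw [map_zsmul, Divisor.degree_single, deg_eq_one htr v₀]
  simp

theorem finrank_Ln_zero (htr : Algebra.trdeg K F = 1) (v₀ : Place K F) :
    Module.finrank K ↥(riemannRochSpace (((0 : ℕ) : ℤ) • Finsupp.single v₀ (1 : ℤ))) = 1 := by
  have heq : riemannRochSpace (((0 : ℕ) : ℤ) • Finsupp.single v₀ (1 : ℤ)) =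
      Submodule.span K {(1 : F)} := by
    rw [Nat.cast_zero, zero_smul]
    refine le_antisymm (LStep.L_zero_le htr) ?_
    rw [Submodule.span_le, Set.singleton_subset_iff]
    exact RiemannAux.one_mem_L_zero
  rw [heq]
  exact finrank_span_singleton one_ne_zero

/-- If `n + 1` is a non-gap then `l((n+1)·v₀) = l(n·v₀) + 1`. -/
theorem finrank_Ln_succ_of_nonGap (htr : Algebra.trdeg K F = 1) (v₀ : Place K F) (n : ℕ)
    (h : IsNonGap v₀ (n + 1)) :
    Module.finrank K ↥(riemannRochSpace (((n + 1 : ℕ) : ℤ) • Finsupp.single v₀ (1 : ℤ))) =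
      Module.finrank K ↥(riemannRochSpace ((n : ℤ) • Finsupp.single v₀ (1 : ℤ))) + 1 := by
  obtain ⟨g, hg0, hg, hgo⟩ := (isNonGap_iff v₀ (n + 1)).mp h
  have hgn : g ∉ riemannRochSpace ((n : ℤ) • Finsupp.single v₀ (1 : ℤ)) := by
    intro hmem
    have h1 := ((mem_Ln_iff v₀ _ hg0).mp hmem).1
    rw [hgo] at h1
    push_cast at h1
    omega
  have hstep := LStep.step htr ((n : ℤ) • Finsupp.single v₀ (1 : ℤ)) v₀ (finite_L htr _)
  rw [← cast_succ_smul] at hstep
  haveI := hstep.1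
  have hlt : riemannRochSpace ((n : ℤ) • Finsupp.single v₀ (1 : ℤ)) <
      riemannRochSpace (((n + 1 : ℕ) : ℤ) • Finsupp.single v₀ (1 : ℤ)) := by
    refine lt_of_le_of_ne (Ln_mono v₀ (by push_cast; omega)) ?_
    intro heq
    exact hgn (heq ▸ hg)
  have h1 := Submodule.finrank_lt_finrank_of_lt hlt
  have h2 := hstep.2
  omega

end Gaps

/-- `l(n·v₀)` is the number of non-gaps `≤ n`. -/
theorem finrank_L_eq_card_nonGap (htr : Algebra.trdeg K F = 1) (v₀ : Place K F)
    [DecidablePred (IsNonGap v₀)] (n : ℕ) :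
    Module.finrank K ↥(riemannRochSpace ((n : ℤ) • Finsupp.single v₀ (1 : ℤ))) =
      ((Finset.range (n + 1)).filter (IsNonGap v₀)).card := by
  induction n with
  | zero =>
    rw [finrank_Ln_zero htr v₀, Nat.zero_add, Finset.range_one, Finset.filter_singleton,
      if_pos (isNonGap_zero v₀), Finset.card_singleton]
  | succ n ih =>
    rw [Finset.range_add_one (n := n + 1), Finset.filter_insert]
    by_cases h : IsNonGap v₀ (n + 1)
    · rw [if_pos h, Finset.card_insert_of_notMem (by simp), ← ih,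
        finrank_Ln_succ_of_nonGap htr v₀ n h]
    · rw [if_neg h, ← ih, finrank_Ln_succ_of_gap v₀ n h]

namespace Gaps

/-- Beyond some bound every integer is a non-gap and `l(n·v₀) = n + 1 - g`. -/
theorem exists_bound (htr : Algebra.trdeg K F = 1) (v₀ : Place K F) :
    ∃ c : ℕ, ∀ n : ℕ, c ≤ n → IsNonGap v₀ (n + 1) ∧
      (Module.finrank K ↥(riemannRochSpace ((n : ℤ) • Finsupp.single v₀ (1 : ℤ))) : ℤ) =
        (n : ℤ) + 1 - (gR K F : ℤ) := by
  obtain ⟨c, hc⟩ := riemann_eq_of_large (K := K) (F := F) htr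
  refine ⟨c.toNat, fun n hn => ?_⟩
  have hcn : c ≤ (n : ℤ) := by
    have h1 : c ≤ (c.toNat : ℤ) := Int.self_le_toNat c
    have h2 : (c.toNat : ℤ) ≤ (n : ℤ) := by exact_mod_cast hn
    exact le_trans h1 h2
  have h1 := hc ((n : ℤ) • Finsupp.single v₀ (1 : ℤ))
    (by rw [degree_zsmul_single htr]; exact hcn)
  have h2 := hc (((n + 1 : ℕ) : ℤ) • Finsupp.single v₀ (1 : ℤ))
    (by rw [degree_zsmul_single htr]; push_cast; omega)
  rw [degree_zsmul_single htr] at h1 h2
  refine ⟨?_, h1⟩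
  by_contra hgap
  have h3 := finrank_Ln_succ_of_gap v₀ n hgap
  rw [h3] at h2
  push_cast at h2
  omega

theorem card_filter_gap (htr : Algebra.trdeg K F = 1) (v₀ : Place K F)
    [DecidablePred (IsNonGap v₀)] :
    ∃ c : ℕ, (∀ n : ℕ, c ≤ n → IsNonGap v₀ (n + 1)) ∧
      ((Finset.range (c + 1)).filter (fun m => ¬ IsNonGap v₀ m)).card = gR K F := by
  obtain ⟨c, hc⟩ := exists_bound htr v₀
  refine ⟨c, fun n hn => (hc n hn).1, ?_⟩
  have h1 := (hc c le_rfl).2
  rw [finrank_L_eq_card_nonGap htr v₀ c] at h1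
  have h2 := Finset.card_filter_add_card_filter_not (s := Finset.range (c + 1)) (IsNonGap v₀)
  rw [Finset.card_range] at h2
  omega

end Gaps

/-- **Weierstrass gap theorem**: there are exactly `gR K F` gaps at `v₀`. -/
theorem ncard_gaps (htr : Algebra.trdeg K F = 1) (v₀ : Place K F) :
    {n : ℕ | ¬ IsNonGap v₀ n}.Finite ∧ {n : ℕ | ¬ IsNonGap v₀ n}.ncard = gR K F := by
  classical
  obtain ⟨c, hc, hcard⟩ := card_filter_gap htr v₀
  have hset : {n : ℕ | ¬ IsNonGap v₀ n} =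
      ↑((Finset.range (c + 1)).filter (fun m => ¬ IsNonGap v₀ m)) := by
    ext m
    rw [Finset.mem_coe, Finset.mem_filter, Finset.mem_range]
    constructor
    · intro hm
      have hm' : ¬ IsNonGap v₀ m := hm
      refine ⟨?_, hm'⟩
      by_contra hlt
      have h1 : IsNonGap v₀ ((m - 1) + 1) := hc (m - 1) (by omega)
      rw [Nat.sub_add_cancel (by omega)] at h1
      exact hm' h1
    · intro h
      exact h.2
  rw [hset]
  exact ⟨Finset.finite_toSet _, by rw [Set.ncard_coe_finset, hcard]⟩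

namespace Gaps

/-- Characterisation of the gaps by least non-gaps `νᵢ` in the classes mod a non-gap `n₀`. -/
theorem gap_iff {v₀ : Place K F} {n₀ : ℕ} (hn₀ : 0 < n₀) (hxng : IsNonGap v₀ n₀)
    (ν : Fin n₀ → ℕ) (hν1 : ∀ i, IsNonGap v₀ (ν i)) (hν2 : ∀ i : Fin n₀, ν i % n₀ = (i : ℕ))
    (hν3 : ∀ (i : Fin n₀) (n : ℕ), IsNonGap v₀ n → n % n₀ = (i : ℕ) → ν i ≤ n) (m : ℕ) :
    ¬ IsNonGap v₀ m ↔ m < ν ⟨m % n₀, Nat.mod_lt m hn₀⟩ := by
  constructor
  · intro hm
    by_contra hle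
    rw [not_lt] at hle
    apply hm
    have hmod : ν ⟨m % n₀, Nat.mod_lt m hn₀⟩ % n₀ = m % n₀ := hν2 _
    have hdvd : n₀ ∣ m - ν ⟨m % n₀, Nat.mod_lt m hn₀⟩ := (Nat.modEq_iff_dvd' hle).mp hmod
    obtain ⟨k, hk⟩ := hdvd
    have hm' : ν ⟨m % n₀, Nat.mod_lt m hn₀⟩ + k * n₀ = m := by
      rw [mul_comm k]
      omega
    have h1 := isNonGap_add (hν1 ⟨m % n₀, Nat.mod_lt m hn₀⟩) (isNonGap_mul hxng k)
    rwa [hm'] at h1
  · intro hlt hng
    have h1 := hν3 ⟨m % n₀, Nat.mod_lt m hn₀⟩ m hng rfl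
    omega

/-- `∑ ⌊νᵢ / n₀⌋ = g` for the least non-gaps `νᵢ` in the classes mod a non-gap `n₀`. -/
theorem sum_div_eq_gR (htr : Algebra.trdeg K F = 1) (v₀ : Place K F) {n₀ : ℕ} (hn₀ : 0 < n₀)
    (hxng : IsNonGap v₀ n₀) (ν : Fin n₀ → ℕ) (hν1 : ∀ i, IsNonGap v₀ (ν i))
    (hν2 : ∀ i : Fin n₀, ν i % n₀ = (i : ℕ))
    (hν3 : ∀ (i : Fin n₀) (n : ℕ), IsNonGap v₀ n → n % n₀ = (i : ℕ) → ν i ≤ n) :
    ∑ i, ν i / n₀ = gR K F := by
  classical
  have hchar := gap_iff hn₀ hxng ν hν1 hν2 hν3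
  have hφ : Function.Injective
      (fun a : (Σ _ : Fin n₀, ℕ) => (a.1 : ℕ) + n₀ * a.2) := by
    rintro ⟨i, j⟩ ⟨i', j'⟩ h
    have h0 : (i : ℕ) + n₀ * j = (i' : ℕ) + n₀ * j' := h
    have h1 : ((i : ℕ) + n₀ * j) % n₀ = ((i' : ℕ) + n₀ * j') % n₀ := by rw [h0]
    rw [Nat.add_mul_mod_self_left, Nat.add_mul_mod_self_left, Nat.mod_eq_of_lt i.2,
      Nat.mod_eq_of_lt i'.2] at h1
    have h2 : i = i' := Fin.ext h1
    subst h2
    have h3 : n₀ * j = n₀ * j' := by omega
    have h4 : j = j' := Nat.eq_of_mul_eq_mul_left hn₀ h3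
    subst h4
    rfl
  have hset : {n : ℕ | ¬ IsNonGap v₀ n} =
      ↑(((Finset.univ : Finset (Fin n₀)).sigma (fun i => Finset.range (ν i / n₀))).image
        (fun a : (Σ _ : Fin n₀, ℕ) => (a.1 : ℕ) + n₀ * a.2)) := by
    ext m
    rw [Finset.mem_coe, Finset.mem_image]
    constructor
    · intro hm
      have hlt := (hchar m).mp hm
      refine ⟨⟨⟨m % n₀, Nat.mod_lt m hn₀⟩, m / n₀⟩, ?_, Nat.mod_add_div m n₀⟩
      rw [Finset.mem_sigma]
      refine ⟨Finset.mem_univ _, ?_⟩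
      rw [Finset.mem_range]
      show m / n₀ < ν ⟨m % n₀, Nat.mod_lt m hn₀⟩ / n₀
      have e1 := Nat.mod_add_div m n₀
      have e2 := Nat.mod_add_div (ν ⟨m % n₀, Nat.mod_lt m hn₀⟩) n₀
      rw [hν2] at e2
      by_contra hge
      rw [not_lt] at hge
      have h5 := Nat.mul_le_mul_left n₀ hge
      have e2' : m % n₀ + n₀ * (ν ⟨m % n₀, Nat.mod_lt m hn₀⟩ / n₀) =
          ν ⟨m % n₀, Nat.mod_lt m hn₀⟩ := e2
      omega
    · rintro ⟨⟨i, j⟩, ha, rfl⟩
      rw [Finset.mem_sigma, Finset.mem_range] at ha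
      have hj : j < ν i / n₀ := ha.2
      have hgoal : ¬ IsNonGap v₀ ((i : ℕ) + n₀ * j) := by
        rw [hchar]
        have hmod : ((i : ℕ) + n₀ * j) % n₀ = (i : ℕ) := by
          rw [Nat.add_mul_mod_self_left, Nat.mod_eq_of_lt i.2]
        have hidx : (⟨((i : ℕ) + n₀ * j) % n₀, Nat.mod_lt _ hn₀⟩ : Fin n₀) = i := Fin.ext hmod
        rw [hidx]
        have e2 := Nat.mod_add_div (ν i) n₀
        rw [hν2] at e2
        have h5 : n₀ * j < n₀ * (ν i / n₀) := Nat.mul_lt_mul_of_pos_left hj hn₀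
        omega
      exact hgoal
  have hcard : (((Finset.univ : Finset (Fin n₀)).sigma (fun i => Finset.range (ν i / n₀))).image
      (fun a : (Σ _ : Fin n₀, ℕ) => (a.1 : ℕ) + n₀ * a.2)).card = ∑ i, ν i / n₀ := by
    rw [Finset.card_image_of_injective _ hφ, Finset.card_sigma]
    simp
  have hg := (ncard_gaps htr v₀).2
  rw [hset, Set.ncard_coe_finset, hcard] at hg
  exact hg

/-- **Spanning with pole-order control**: every `f ∈ L(n·v₀)` is a `K[x]`-combination
`∑ pᵢ(x) wᵢ` with `n₀ · deg pᵢ + νᵢ ≤ n`. -/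
theorem span (htr : Algebra.trdeg K F = 1) (v₀ : Place K F) {x : F} {n₀ : ℕ} (hn₀ : 0 < n₀)
    (hx : x ∈ riemannRochSpace ((n₀ : ℤ) • Finsupp.single v₀ (1 : ℤ)))
    (hord : v₀.ord x = -(n₀ : ℤ)) (w : Fin n₀ → F) (ν : Fin n₀ → ℕ) (hw0 : ∀ i, w i ≠ 0)
    (hwL : ∀ i, w i ∈ riemannRochSpace ((ν i : ℤ) • Finsupp.single v₀ (1 : ℤ)))
    (hwo : ∀ i, v₀.ord (w i) = -(ν i : ℤ)) (hν2 : ∀ i : Fin n₀, ν i % n₀ = (i : ℕ))
    (hν3 : ∀ (i : Fin n₀) (n : ℕ), IsNonGap v₀ n → n % n₀ = (i : ℕ) → ν i ≤ n)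
    (hone : w ⟨0, hn₀⟩ = 1) :
    ∀ (n : ℕ) (f : F), f ∈ riemannRochSpace ((n : ℤ) • Finsupp.single v₀ (1 : ℤ)) →
      ∃ p : Fin n₀ → Polynomial K, f = ∑ i, Polynomial.aeval x (p i) * w i ∧
        ∀ i, p i ≠ 0 → (p i).natDegree * n₀ + ν i ≤ n := by
  classical
  have hx0 : x ≠ 0 := by
    rintro rfl
    rw [Place.ord_zero] at hord
    omega
  intro n
  induction n with
  | zero =>
    intro f hf
    rw [Nat.cast_zero, zero_smul] at hf
    obtain ⟨c, rfl⟩ := (mem_L_zero_iff htr).mp hf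
    refine ⟨Pi.single ⟨0, hn₀⟩ (Polynomial.C c), ?_, ?_⟩
    · rw [Finset.sum_eq_single (⟨0, hn₀⟩ : Fin n₀)]
      · rw [Pi.single_eq_same, Polynomial.aeval_C, hone, mul_one]
      · intro j _ hj
        rw [Pi.single_eq_of_ne hj, map_zero, zero_mul]
      · intro h
        exact absurd (Finset.mem_univ _) h
    · intro i hi
      by_cases h : i = ⟨0, hn₀⟩
      · subst h
        rw [Pi.single_eq_same, Polynomial.natDegree_C, Nat.zero_mul, Nat.zero_add]
        exact hν3 _ 0 (isNonGap_zero v₀) (Nat.zero_mod _)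
      · exact absurd (Pi.single_eq_of_ne h _) hi
  | succ n ih =>
    intro f hf
    by_cases hgap : IsNonGap v₀ (n + 1)
    · have hle : ν ⟨(n + 1) % n₀, Nat.mod_lt _ hn₀⟩ ≤ n + 1 :=
        hν3 ⟨(n + 1) % n₀, Nat.mod_lt _ hn₀⟩ (n + 1) hgap rfl
      generalize hi : (⟨(n + 1) % n₀, Nat.mod_lt _ hn₀⟩ : Fin n₀) = i at hle
      have hin : (n + 1) % n₀ = (i : ℕ) := by
        rw [← hi]
      obtain ⟨k, hk⟩ : ∃ k, n + 1 = ν i + k * n₀ := by
        have hmod : ν i % n₀ = (n + 1) % n₀ := by rw [hν2 i, hin]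
        have hdvd : n₀ ∣ (n + 1) - ν i := (Nat.modEq_iff_dvd' hle).mp hmod
        obtain ⟨k, hk⟩ := hdvd
        exact ⟨k, by rw [mul_comm k]; omega⟩
      have hg0 : x ^ k * w i ≠ 0 := mul_ne_zero (pow_ne_zero k hx0) (hw0 i)
      have hgo : v₀.ord (x ^ k * w i) = -((n + 1 : ℕ) : ℤ) := by
        rw [v₀.ord_mul (pow_ne_zero k hx0) (hw0 i), hwo, ← zpow_natCast, Place.ord_zpow, hord, hk]
        push_cast
        ring
      have hgL : x ^ k * w i ∈
          riemannRochSpace (((n + 1 : ℕ) : ℤ) • Finsupp.single v₀ (1 : ℤ)) := by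
        rw [mem_Ln_iff v₀ _ hg0]
        refine ⟨le_of_eq hgo.symm, fun v hv => ?_⟩
        rw [v.ord_mul (pow_ne_zero k hx0) (hw0 i), ← zpow_natCast, Place.ord_zpow]
        have h1 := ((mem_Ln_iff v₀ _ hx0).mp hx).2 v hv
        have h2 := ((mem_Ln_iff v₀ _ (hw0 i)).mp (hwL i)).2 v hv
        exact add_nonneg (mul_nonneg (Int.natCast_nonneg k) h1) h2
      have hgn : x ^ k * w i ∉ riemannRochSpace ((n : ℤ) • Finsupp.single v₀ (1 : ℤ)) := by
        intro hmem
        have h1 := ((mem_Ln_iff v₀ _ hg0).mp hmem).1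
        rw [hgo] at h1
        push_cast at h1
        omega
      obtain ⟨c, hc⟩ := LStep.exists_sub_smul_mem htr ((n : ℤ) • Finsupp.single v₀ (1 : ℤ)) v₀
        (by rw [← cast_succ_smul]; exact hf) (by rw [← cast_succ_smul]; exact hgL) hgn
      obtain ⟨p, hp, hpd⟩ := ih (f - c • (x ^ k * w i)) hc
      refine ⟨Function.update p i (p i + Polynomial.C c * Polynomial.X ^ k), ?_, ?_⟩
      · have hupd : ∀ j, Polynomial.aeval x
            (Function.update p i (p i + Polynomial.C c * Polynomial.X ^ k) j) * w j =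
            Polynomial.aeval x (p j) * w j + (if j = i then c • (x ^ k * w i) else 0) := by
          intro j
          by_cases hji : j = i
          · rw [hji, Function.update_self, if_pos rfl]
            simp only [map_add, map_mul, Polynomial.aeval_C, map_pow, Polynomial.aeval_X]
            rw [Algebra.smul_def]
            ring
          · rw [Function.update_of_ne hji, if_neg hji, add_zero]
        rw [Finset.sum_congr rfl (fun j _ => hupd j)]
        simp only [Finset.sum_add_distrib, Finset.sum_ite_eq', Finset.mem_univ, if_true]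
        rw [← hp]
        exact (sub_add_cancel f _).symm
      · intro j hj
        by_cases hji : j = i
        · rw [hji] at hj ⊢
          rw [Function.update_self] at hj ⊢
          have hdeg : (p i + Polynomial.C c * Polynomial.X ^ k).natDegree ≤
              max (p i).natDegree k :=
            (Polynomial.natDegree_add_le _ _).trans
              (max_le_max le_rfl (Polynomial.natDegree_C_mul_X_pow_le c k))
          by_cases hpi : p i = 0
          · have hdeg' : (p i + Polynomial.C c * Polynomial.X ^ k).natDegree ≤ k := by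
              rw [hpi, zero_add]
              exact Polynomial.natDegree_C_mul_X_pow_le c k
            calc (p i + Polynomial.C c * Polynomial.X ^ k).natDegree * n₀ + ν i
                ≤ k * n₀ + ν i := Nat.add_le_add_right (Nat.mul_le_mul_right _ hdeg') _
              _ = n + 1 := by omega
          · have h1 := hpd i hpi
            rcases le_max_iff.mp hdeg with h | h
            · calc (p i + Polynomial.C c * Polynomial.X ^ k).natDegree * n₀ + ν i
                  ≤ (p i).natDegree * n₀ + ν i :=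
                    Nat.add_le_add_right (Nat.mul_le_mul_right _ h) _
                _ ≤ n + 1 := by omega
            · calc (p i + Polynomial.C c * Polynomial.X ^ k).natDegree * n₀ + ν i
                  ≤ k * n₀ + ν i := Nat.add_le_add_right (Nat.mul_le_mul_right _ h) _
                _ = n + 1 := by omega
        · rw [Function.update_of_ne hji] at hj ⊢
          have h1 := hpd j hj
          omega
    · have hf' := Ln_succ_le_of_gap v₀ n hgap hf
      obtain ⟨p, hp, hpd⟩ := ih f hf'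
      exact ⟨p, hp, fun i hi => (hpd i hi).trans (Nat.le_succ n)⟩

end Gaps

/-- **Apéry basis.**  Let `x` be regular off `v₀` with a pole of order `n₀ > 0` at `v₀`.  There
are functions `w₀ = 1, …, w_{n₀-1}` regular off `v₀`, of pole orders `νᵢ ≡ i (mod n₀)` at `v₀`,
with `∑ ⌊νᵢ / n₀⌋ = gR K F`, which form a basis over `K[x]` of the ring `⋃ L(n·v₀)` of functions
regular off `v₀`: every `f ∈ L(n·v₀)` is `∑ pᵢ(x) wᵢ` with `n₀ · deg pᵢ + νᵢ ≤ n`, uniquely. -/
theorem exists_apery (htr : Algebra.trdeg K F = 1) (v₀ : Place K F) (x : F) (n₀ : ℕ)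
    (hn₀ : 0 < n₀) (hx : x ∈ riemannRochSpace ((n₀ : ℤ) • Finsupp.single v₀ (1 : ℤ)))
    (hord : v₀.ord x = -(n₀ : ℤ)) :
    ∃ (w : Fin n₀ → F) (ν : Fin n₀ → ℕ),
      (∀ i, w i ∈ riemannRochSpace ((ν i : ℤ) • Finsupp.single v₀ (1 : ℤ))) ∧
      (∀ i, v₀.ord (w i) = -(ν i : ℤ)) ∧
      (∀ i, ν i % n₀ = (i : ℕ)) ∧
      w ⟨0, hn₀⟩ = 1 ∧
      (∑ i, ν i / n₀ = gR K F) ∧
      (∀ (n : ℕ) (f : F), f ∈ riemannRochSpace ((n : ℤ) • Finsupp.single v₀ (1 : ℤ)) →
        ∃ p : Fin n₀ → Polynomial K, f = ∑ i, Polynomial.aeval x (p i) * w i ∧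
          ∀ i, p i ≠ 0 → (p i).natDegree * n₀ + ν i ≤ n) ∧
      (∀ p : Fin n₀ → Polynomial K, ∑ i, Polynomial.aeval x (p i) * w i = 0 → p = 0) := by
  classical
  have hxng : IsNonGap v₀ n₀ := ⟨x, hx, hord⟩
  obtain ⟨c, hc⟩ := Gaps.exists_bound htr v₀
  have hS : ∀ i : Fin n₀, {n : ℕ | IsNonGap v₀ n ∧ n % n₀ = (i : ℕ)}.Nonempty := by
    intro i
    refine ⟨(i : ℕ) + n₀ * (c + 1), ?_, ?_⟩
    · have h1 : c + 1 ≤ n₀ * (c + 1) := Nat.le_mul_of_pos_left (c + 1) hn₀
      have h2 := (hc ((i : ℕ) + n₀ * (c + 1) - 1) (by omega)).1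
      rwa [Nat.sub_add_cancel (by omega)] at h2
    · rw [Nat.add_mul_mod_self_left, Nat.mod_eq_of_lt i.2]
  obtain ⟨ν, hν1', hν2', hν3'⟩ : ∃ ν : Fin n₀ → ℕ, (∀ i, IsNonGap v₀ (ν i)) ∧
      (∀ i : Fin n₀, ν i % n₀ = (i : ℕ)) ∧
      (∀ (i : Fin n₀) (n : ℕ), IsNonGap v₀ n → n % n₀ = (i : ℕ) → ν i ≤ n) :=
    ⟨fun i => sInf {n : ℕ | IsNonGap v₀ n ∧ n % n₀ = (i : ℕ)},
      fun i => (Nat.sInf_mem (hS i)).1, fun i => (Nat.sInf_mem (hS i)).2,
      fun i n h1 h2 => Nat.sInf_le ⟨h1, h2⟩⟩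
  have hν0 : ν ⟨0, hn₀⟩ = 0 :=
    Nat.le_zero.mp (hν3' ⟨0, hn₀⟩ 0 (isNonGap_zero v₀) (Nat.zero_mod _))
  have hwit : ∀ i : Fin n₀, ∃ f : F, f ≠ 0 ∧
      f ∈ riemannRochSpace ((ν i : ℤ) • Finsupp.single v₀ (1 : ℤ)) ∧
      v₀.ord f = -(ν i : ℤ) ∧ (i = ⟨0, hn₀⟩ → f = 1) := by
    intro i
    by_cases hi : i = ⟨0, hn₀⟩
    · refine ⟨1, one_ne_zero, one_mem_Ln v₀ _, ?_, fun _ => rfl⟩
      rw [Place.ord_one, hi, hν0]
      simp
    · obtain ⟨f, hf0, hf, hfo⟩ := (isNonGap_iff v₀ _).mp (hν1' i)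
      exact ⟨f, hf0, hf, hfo, fun h => absurd h hi⟩
  choose w hw0 hwL hwo hw1 using hwit
  refine ⟨w, ν, hwL, hwo, hν2', hw1 _ rfl, ?_, ?_, ?_⟩
  · exact Gaps.sum_div_eq_gR htr v₀ hn₀ hxng ν hν1' hν2' hν3'
  · exact Gaps.span htr v₀ hn₀ hx hord w ν hw0 hwL hwo hν2' hν3' (hw1 _ rfl)
  · intro p hp
    by_contra hne
    exact (Gaps.ord_sum v₀ hn₀ hord w ν hw0 hwo hν2' p hne).1 hp

/-- **Apéry basis, in the vocabulary of functions regular off `v₀`** (`∀ v ≠ v₀, f ∈ 𝒪_v`, which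
is the carrier of the subalgebra of functions regular off `v₀`): existence and uniqueness of the
`K[x]`-coordinates, the pole order of a combination, and `g = ∑ ⌊νᵢ / n₀⌋`. -/
theorem exists_apery_basis_of_forall (htr : Algebra.trdeg K F = 1) (v₀ : Place K F) {x : F}
    (hx : ∀ v : Place K F, v ≠ v₀ → x ∈ v.toValuationSubring) {n0 : ℕ} (hn0 : 0 < n0)
    (hord : v₀.ord x = -(n0 : ℤ)) :
    ∃ (ν : Fin n0 → ℕ) (w : Fin n0 → F),
      (∀ i, (∀ v : Place K F, v ≠ v₀ → w i ∈ v.toValuationSubring) ∧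
        v₀.ord (w i) = -(ν i : ℤ) ∧ ν i % n0 = (i : ℕ)) ∧
      (∀ f : F, (∀ v : Place K F, v ≠ v₀ → f ∈ v.toValuationSubring) →
        ∃! c : Fin n0 → Polynomial K, f = ∑ i, Polynomial.aeval x (c i) * w i) ∧
      (∀ c : Fin n0 → Polynomial K, (∑ i, Polynomial.aeval x (c i) * w i) ≠ 0 →
        ∀ i, c i ≠ 0 → v₀.ord (∑ i, Polynomial.aeval x (c i) * w i) ≤
          -((n0 * (c i).natDegree + ν i : ℕ) : ℤ)) ∧
      (gR K F : ℤ) = ∑ i, ((ν i / n0 : ℕ) : ℤ) := by
  have hx0 : x ≠ 0 := by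
    rintro rfl
    rw [Place.ord_zero] at hord
    omega
  have hxL : x ∈ riemannRochSpace ((n0 : ℤ) • Finsupp.single v₀ (1 : ℤ)) := by
    rw [Gaps.mem_Ln_iff v₀ _ hx0]
    exact ⟨le_of_eq hord.symm, fun v hv => ord_nonneg_of_mem v (hx v hv)⟩
  obtain ⟨w, ν, hwL, hwo, hν2, hone, hsum, hspan, hfree⟩ :=
    exists_apery htr v₀ x n0 hn0 hxL hord
  have hw0 : ∀ i, w i ≠ 0 := by
    intro i h0
    have h1 := hfree (Pi.single i 1) (by
      rw [Finset.sum_eq_single i]
      · rw [Pi.single_eq_same, map_one, one_mul, h0]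
      · intro j _ hj
        rw [Pi.single_eq_of_ne hj, map_zero, zero_mul]
      · intro h
        exact absurd (Finset.mem_univ _) h)
    have h2 := congrFun h1 i
    rw [Pi.single_eq_same, Pi.zero_apply] at h2
    exact one_ne_zero h2
  refine ⟨ν, w, fun i => ⟨fun v hv => ?_, hwo i, hν2 i⟩, ?_, ?_, ?_⟩
  · exact (ord_nonneg_iff v (hw0 i)).mp (((Gaps.mem_Ln_iff v₀ _ (hw0 i)).mp (hwL i)).2 v hv)
  · intro f hf
    obtain ⟨n, hn⟩ := (Gaps.regular_iff v₀).mp hf
    obtain ⟨p, hp, -⟩ := hspan n f hn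
    refine ⟨p, hp, fun q hq => ?_⟩
    have hzero : ∑ i, Polynomial.aeval x ((q - p) i) * w i = 0 := by
      have h1 : ∑ i, Polynomial.aeval x ((q - p) i) * w i =
          ∑ i, Polynomial.aeval x (q i) * w i - ∑ i, Polynomial.aeval x (p i) * w i := by
        rw [← Finset.sum_sub_distrib]
        refine Finset.sum_congr rfl fun i _ => ?_
        rw [Pi.sub_apply, map_sub, sub_mul]
      rw [h1, ← hq, ← hp, sub_self]
    exact sub_eq_zero.mp (hfree _ hzero)
  · intro c _ i hci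
    have hc : c ≠ 0 := by
      intro h
      apply hci
      rw [h]
      rfl
    obtain ⟨-, i₀, -, ho, hmax⟩ := Gaps.ord_sum v₀ hn0 hord w ν hw0 hwo hν2 c hc
    rw [ho]
    have h1 := hmax i hci
    have h2 : n0 * (c i).natDegree + ν i ≤ (c i₀).natDegree * n0 + ν i₀ := by
      rw [Nat.mul_comm n0]
      exact h1
    have h3 : ((n0 * (c i).natDegree + ν i : ℕ) : ℤ) ≤
        (((c i₀).natDegree * n0 + ν i₀ : ℕ) : ℤ) := by exact_mod_cast h2
    exact neg_le_neg h3
  · rw [← hsum]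
    push_cast
    rfl

end Curve

end Fermat.Agent.S17.R
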