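/-
MW strand R, leaf R14: the Apéry basis of the ring of functions regular off a place.

`F / K` a function field of one variable over an algebraically closed field of characteristic
zero, `v₀` a place, `regOff v₀` the functions regular off `v₀`, `x ∈ regOff v₀` of pole order
`n0 > 0` at `v₀`.  For every residue class `i` mod `n0` let `ν i` be the least pole order at `v₀`
in that class of a nonzero function of `regOff v₀`, attained by `w i`.  Then

* `regOff v₀ = ⊕ K[x] · w i` (existence by pole-order induction and the one-point step,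
  uniqueness because the pole orders `n0 · deg + ν i` of the terms are pairwise distinct);
* the pole order of a sum is the maximum of the pole orders of its terms;
* Riemann's constant is the number of gaps: `gR = ∑ ⌊ν i / n0⌋` (dimension count of
  `L(N · v₀)`, `N = n0 · m + n0 - 1` large, against `finrank_L_nsmul_single`).
-/
import Mathlib
import Fermat.Prelude.Def_AlgebraicCurve_Repartitions
import Fermat.Agent.S17.R.LSpace
import Fermat.Agent.S17.R.LStep
import Fermat.Agent.S17.R.PoleOrder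
import Fermat.Agent.S17.R.Eval

set_option autoImplicit false

namespace Fermat.Agent.S17.R

open AlgebraicCurve

namespace Apery

open Fermat.Agent.S24

section Ultra

variable {K F : Type*} [Field K] [Field F] [Algebra K F]

/-- Two elements with different orders have a nonzero sum. -/
theorem add_ne_zero_of_ord_lt (v : Place K F) {f g : F} (h : v.ord f < v.ord g) :
    f + g ≠ 0 := by
  intro h0
  have hg : g = -f := (neg_eq_of_add_eq_zero_right h0).symm
  rw [hg, FF.ord_neg] at h
  exact lt_irrefl _ h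

/-- A finite sum whose nonzero terms have pairwise distinct orders: it is nonzero and its order
is the least order of a nonzero term. -/
theorem sum_distinct_ord (v : Place K F) {ι : Type*} (s : Finset ι) (t : ι → F)
    (hd : ∀ i ∈ s, ∀ j ∈ s, i ≠ j → t i ≠ 0 → t j ≠ 0 → v.ord (t i) ≠ v.ord (t j))
    (hne : ∃ i ∈ s, t i ≠ 0) :
    ∃ i₀ ∈ s, t i₀ ≠ 0 ∧ (∑ i ∈ s, t i) ≠ 0 ∧ v.ord (∑ i ∈ s, t i) = v.ord (t i₀) ∧
      ∀ i ∈ s, t i ≠ 0 → v.ord (t i₀) ≤ v.ord (t i) := by
  classical
  induction s using Finset.induction_on with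
  | empty =>
    obtain ⟨i, hi, -⟩ := hne
    exact absurd hi (Finset.notMem_empty i)
  | insert a s ha ih =>
    rw [Finset.sum_insert ha]
    have hd' : ∀ i ∈ s, ∀ j ∈ s, i ≠ j → t i ≠ 0 → t j ≠ 0 → v.ord (t i) ≠ v.ord (t j) :=
      fun i hi j hj => hd i (Finset.mem_insert_of_mem hi) j (Finset.mem_insert_of_mem hj)
    by_cases hs : ∃ i ∈ s, t i ≠ 0
    · obtain ⟨i₀, hi₀, hti₀, hsum, hord, hmin⟩ := ih hd' hs
      by_cases hta : t a = 0
      · rw [hta, zero_add]
        refine ⟨i₀, Finset.mem_insert_of_mem hi₀, hti₀, hsum, hord, fun i hi hti => ?_⟩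
        rcases Finset.mem_insert.mp hi with hia | hi
        · rw [hia] at hti
          exact absurd hta hti
        · exact hmin i hi hti
      · have hne' : v.ord (t a) ≠ v.ord (t i₀) :=
          hd a (Finset.mem_insert_self a s) i₀ (Finset.mem_insert_of_mem hi₀)
            (fun h => ha (h ▸ hi₀)) hta hti₀
        rcases lt_or_gt_of_ne hne' with hlt | hgt
        · have hlt' : v.ord (t a) < v.ord (∑ i ∈ s, t i) := by rw [hord]; exact hlt
          refine ⟨a, Finset.mem_insert_self a s, hta, add_ne_zero_of_ord_lt v hlt',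
            FF.ord_add_eq_of_lt v hlt' hta hsum, fun i hi hti => ?_⟩
          rcases Finset.mem_insert.mp hi with hia | hi
          · rw [hia]
          · exact hlt.le.trans (hmin i hi hti)
        · have hgt' : v.ord (∑ i ∈ s, t i) < v.ord (t a) := by rw [hord]; exact hgt
          refine ⟨i₀, Finset.mem_insert_of_mem hi₀, hti₀, ?_, ?_, fun i hi hti => ?_⟩
          · rw [add_comm]
            exact add_ne_zero_of_ord_lt v hgt'
          · rw [add_comm, FF.ord_add_eq_of_lt v hgt' hsum hta, hord]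
          · rcases Finset.mem_insert.mp hi with hia | hi
            · rw [hia]
              exact hgt.le
            · exact hmin i hi hti
    · push Not at hs
      have hta : t a ≠ 0 := by
        obtain ⟨i, hi, hti⟩ := hne
        rcases Finset.mem_insert.mp hi with hia | hi
        · rwa [hia] at hti
        · exact absurd (hs i hi) hti
      have hz : ∑ i ∈ s, t i = 0 := Finset.sum_eq_zero hs
      rw [hz, add_zero]
      refine ⟨a, Finset.mem_insert_self a s, hta, hta, rfl, fun i hi hti => ?_⟩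
      rcases Finset.mem_insert.mp hi with hia | hi
      · rw [hia]
      · exact absurd (hs i hi) hti

/-- A nonzero polynomial in a function `x` with a pole of order `n0` at `v`: it is nonzero and its
pole order is `n0 · deg`. -/
theorem aeval_ne_zero_and_ord (v : Place K F) {x : F} {n0 : ℕ} (hn0 : 0 < n0)
    (hord : v.ord x = -(n0 : ℤ)) {p : Polynomial K} (hp : p ≠ 0) :
    Polynomial.aeval x p ≠ 0 ∧
      v.ord (Polynomial.aeval x p) = -((n0 * p.natDegree : ℕ) : ℤ) := by
  classical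
  have hx0 : x ≠ 0 := by
    rintro rfl
    rw [Place.ord_zero] at hord
    omega
  have hsum : Polynomial.aeval x p =
      ∑ k ∈ Finset.range (p.natDegree + 1), algebraMap K F (p.coeff k) * x ^ k := by
    rw [Polynomial.aeval_eq_sum_range]
    exact Finset.sum_congr rfl fun k _ => Algebra.smul_def _ _
  have ht0 : ∀ k : ℕ, algebraMap K F (p.coeff k) * x ^ k ≠ 0 → p.coeff k ≠ 0 := by
    intro k hk h0
    rw [h0, map_zero, zero_mul] at hk
    exact hk rfl
  have hto : ∀ k : ℕ, p.coeff k ≠ 0 →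
      v.ord (algebraMap K F (p.coeff k) * x ^ k) = -((n0 * k : ℕ) : ℤ) := by
    intro k hk
    have h1 : algebraMap K F (p.coeff k) ≠ 0 := by
      rw [Ne, map_eq_zero]
      exact hk
    rw [v.ord_mul h1 (pow_ne_zero k hx0), FF.ord_algebraMap, zero_add, ← zpow_natCast,
      v.ord_zpow, hord]
    push_cast
    ring
  have hlead : p.coeff p.natDegree ≠ 0 := by
    rw [Polynomial.coeff_natDegree]
    exact Polynomial.leadingCoeff_ne_zero.mpr hp
  obtain ⟨i₀, hi₀, hti₀, hs0, hso, hmin⟩ := sum_distinct_ord v (Finset.range (p.natDegree + 1))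
    (fun k => algebraMap K F (p.coeff k) * x ^ k)
    (fun i _ j _ hij hi hj => by
      rw [hto i (ht0 i hi), hto j (ht0 j hj)]
      intro h
      have h2 : n0 * i = n0 * j := by exact_mod_cast neg_injective h
      exact hij (Nat.eq_of_mul_eq_mul_left hn0 h2))
    ⟨p.natDegree, Finset.self_mem_range_succ _, by
      have h1 : algebraMap K F (p.coeff p.natDegree) ≠ 0 := by
        rw [Ne, map_eq_zero]
        exact hlead
      exact mul_ne_zero h1 (pow_ne_zero _ hx0)⟩
  rw [hsum]
  refine ⟨hs0, ?_⟩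
  rw [hso]
  have h1 := hmin p.natDegree (Finset.self_mem_range_succ _) (by
    have h1 : algebraMap K F (p.coeff p.natDegree) ≠ 0 := by
      rw [Ne, map_eq_zero]
      exact hlead
    exact mul_ne_zero h1 (pow_ne_zero _ hx0))
  rw [hto i₀ (ht0 i₀ hti₀), hto _ hlead] at h1
  rw [hto i₀ (ht0 i₀ hti₀)]
  have h2 : i₀ ≤ p.natDegree := Nat.lt_succ_iff.mp (Finset.mem_range.mp hi₀)
  have h3 : n0 * p.natDegree ≤ n0 * i₀ := by exact_mod_cast neg_le_neg_iff.mp h1
  have h4 : p.natDegree ≤ i₀ := Nat.le_of_mul_le_mul_left h3 hn0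
  rw [le_antisymm h2 h4]

/-- A term `c(x) · w` of the Apéry representation. -/
theorem term_ne_zero_and_ord (v : Place K F) {x : F} {n0 : ℕ} (hn0 : 0 < n0)
    (hord : v.ord x = -(n0 : ℤ)) {p : Polynomial K} (hp : p ≠ 0) {w : F} (hw0 : w ≠ 0)
    {ν : ℕ} (hwo : v.ord w = -(ν : ℤ)) :
    Polynomial.aeval x p * w ≠ 0 ∧
      v.ord (Polynomial.aeval x p * w) = -((n0 * p.natDegree + ν : ℕ) : ℤ) := by
  obtain ⟨h1, h2⟩ := aeval_ne_zero_and_ord v hn0 hord hp
  refine ⟨mul_ne_zero h1 hw0, ?_⟩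
  rw [v.ord_mul h1 hw0, h2, hwo]
  push_cast
  ring

/-- The pole orders of the terms of an Apéry sum are pairwise distinct, so a sum with a nonzero
coefficient is nonzero and its pole order dominates the pole order of every term. -/
theorem sum_ne_zero_and_ord_le (v : Place K F) {x : F} {n0 : ℕ} (hn0 : 0 < n0)
    (hord : v.ord x = -(n0 : ℤ)) (ν : Fin n0 → ℕ) (w : Fin n0 → F) (hw0 : ∀ i, w i ≠ 0)
    (hwo : ∀ i, v.ord (w i) = -(ν i : ℤ)) (hwm : ∀ i, ν i % n0 = (i : ℕ))
    (c : Fin n0 → Polynomial K) (hc : ∃ i, c i ≠ 0) :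
    (∑ i, Polynomial.aeval x (c i) * w i) ≠ 0 ∧
      ∀ i, c i ≠ 0 → v.ord (∑ i, Polynomial.aeval x (c i) * w i) ≤
        -((n0 * (c i).natDegree + ν i : ℕ) : ℤ) := by
  classical
  have hci : ∀ i, Polynomial.aeval x (c i) * w i ≠ 0 → c i ≠ 0 := by
    intro i hi h0
    rw [h0, map_zero, zero_mul] at hi
    exact hi rfl
  obtain ⟨i₀, -, hti₀, hs0, hso, hmin⟩ := sum_distinct_ord v (Finset.univ : Finset (Fin n0))
    (fun i => Polynomial.aeval x (c i) * w i)
    (fun i _ j _ hij hi hj => by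
      rw [(term_ne_zero_and_ord v hn0 hord (hci i hi) (hw0 i) (hwo i)).2,
        (term_ne_zero_and_ord v hn0 hord (hci j hj) (hw0 j) (hwo j)).2]
      intro h
      have h2 : n0 * (c i).natDegree + ν i = n0 * (c j).natDegree + ν j := by
        exact_mod_cast neg_injective h
      have h3 : (n0 * (c i).natDegree + ν i) % n0 = (n0 * (c j).natDegree + ν j) % n0 := by
        rw [h2]
      rw [Nat.mul_add_mod, Nat.mul_add_mod, hwm i, hwm j] at h3
      exact hij (Fin.ext h3))
    (by
      obtain ⟨i, hi⟩ := hc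
      exact ⟨i, Finset.mem_univ i, (term_ne_zero_and_ord v hn0 hord hi (hw0 i) (hwo i)).1⟩)
  refine ⟨hs0, fun i hi => ?_⟩
  rw [hso]
  have h1 := hmin i (Finset.mem_univ i) (term_ne_zero_and_ord v hn0 hord hi (hw0 i) (hwo i)).1
  rwa [(term_ne_zero_and_ord v hn0 hord hi (hw0 i) (hwo i)).2] at h1

/-- The Apéry sum of a coefficient vector concentrated at one index. -/
theorem sum_single (x : F) {n0 : ℕ} (w : Fin n0 → F) (i : Fin n0) (q : Polynomial K) :
    (∑ j, Polynomial.aeval x ((Pi.single i q : Fin n0 → Polynomial K) j) * w j) =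
      Polynomial.aeval x q * w i := by
  classical
  rw [Finset.sum_eq_single i]
  · rw [Pi.single_eq_same]
  · intro j _ hj
    rw [Pi.single_eq_of_ne hj, map_zero, zero_mul]
  · intro h
    exact absurd (Finset.mem_univ i) h

/-- The Apéry sum is additive in the coefficient vector. -/
theorem sum_add (x : F) {n0 : ℕ} (w : Fin n0 → F) (c c' : Fin n0 → Polynomial K) :
    (∑ j, Polynomial.aeval x ((c + c') j) * w j) =
      (∑ j, Polynomial.aeval x (c j) * w j) + ∑ j, Polynomial.aeval x (c' j) * w j := by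
  rw [← Finset.sum_add_distrib]
  refine Finset.sum_congr rfl fun j _ => ?_
  rw [Pi.add_apply, map_add, add_mul]

/-- The Apéry sum is subtractive in the coefficient vector. -/
theorem sum_sub (x : F) {n0 : ℕ} (w : Fin n0 → F) (c c' : Fin n0 → Polynomial K) :
    (∑ j, Polynomial.aeval x ((c - c') j) * w j) =
      (∑ j, Polynomial.aeval x (c j) * w j) - ∑ j, Polynomial.aeval x (c' j) * w j := by
  rw [← Finset.sum_sub_distrib]
  refine Finset.sum_congr rfl fun j _ => ?_
  rw [Pi.sub_apply, map_sub, sub_mul]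

/-- Polynomials in a function regular off `v₀` are regular off `v₀`. -/
theorem aeval_mem_regOff {v₀ : Place K F} {x : F} (hx : x ∈ regOff v₀) (p : Polynomial K) :
    Polynomial.aeval x p ∈ regOff v₀ := by
  have h : Polynomial.aeval x p =
      ((Polynomial.aeval (⟨x, hx⟩ : ↥(regOff v₀)) p : ↥(regOff v₀)) : F) :=
    Polynomial.aeval_algHom_apply (regOff v₀).val (⟨x, hx⟩ : ↥(regOff v₀)) p
  rw [h]
  exact SetLike.coe_mem _

/-- Functions regular off `v₀` with a bounded pole at `v₀` lie in `L(k · v₀)`. -/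
theorem mem_L_of_mem_regOff {v₀ : Place K F} {f : F} (hf : f ∈ regOff v₀) (k : ℤ)
    (h : f = 0 ∨ -k ≤ v₀.ord f) :
    f ∈ riemannRochSpace (k • Finsupp.single v₀ (1 : ℤ)) := by
  rw [mem_L_iff]
  rcases h with h | h
  · exact Or.inl h
  · refine Or.inr fun v => ?_
    by_cases hv : v = v₀
    · subst hv
      rw [Finsupp.smul_apply, Finsupp.single_eq_same, smul_eq_mul, mul_one]
      exact h
    · rw [Finsupp.smul_apply, Finsupp.single_eq_of_ne hv, smul_zero, neg_zero]
      exact FF.ord_nonneg_of_mem v (hf v hv)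

/-- `L(k · v₀) ⊆ regOff v₀`. -/
theorem mem_regOff_of_mem_L {v₀ : Place K F} {f : F} {k : ℤ}
    (h : f ∈ riemannRochSpace (k • Finsupp.single v₀ (1 : ℤ))) : f ∈ regOff v₀ := by
  intro v hv
  by_cases hf0 : f = 0
  · rw [hf0]
    exact zero_mem _
  · have h1 := (mem_L_of_ne_zero hf0).mp h v
    rw [Finsupp.smul_apply, Finsupp.single_eq_of_ne hv, smul_zero, neg_zero] at h1
    exact (FF.ord_nonneg_iff v hf0).mp h1

/-- The pole-order bound of an element of `L(k · v₀)`. -/
theorem neg_le_ord_of_mem_L {v₀ : Place K F} {f : F} {k : ℤ} (hf0 : f ≠ 0)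
    (h : f ∈ riemannRochSpace (k • Finsupp.single v₀ (1 : ℤ))) : -k ≤ v₀.ord f := by
  have h1 := (mem_L_of_ne_zero hf0).mp h v₀
  rwa [Finsupp.smul_apply, Finsupp.single_eq_same, smul_eq_mul, mul_one] at h1

end Ultra

section Curve

variable {K F : Type*} [Field K] [Field F] [Algebra K F]
variable [IsAlgClosed K] [CharZero K] [Algebra.EssFiniteType K F]

/-- A nonzero function regular off `v₀` has no zero at `v₀`... more precisely `ord ≤ 0`. -/
theorem ord_nonpos_of_mem_regOff (htr : Algebra.trdeg K F = 1) {v₀ : Place K F} {f : F}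
    (hf : f ∈ regOff v₀) (hf0 : f ≠ 0) : v₀.ord f ≤ 0 := by
  by_contra hpos
  push Not at hpos
  have hL : f ∈ riemannRochSpace ((0 : ℤ) • Finsupp.single v₀ (1 : ℤ)) :=
    mem_L_of_mem_regOff hf 0 (Or.inr (by rw [neg_zero]; exact hpos.le))
  rw [zero_smul] at hL
  obtain ⟨c, rfl⟩ := (mem_L_zero_iff htr).mp hL
  rw [FF.ord_algebraMap] at hpos
  exact lt_irrefl _ hpos

/-- The one-point step at `v₀` in pole-order form. -/
theorem exists_sub_smul (htr : Algebra.trdeg K F = 1) {v₀ : Place K F} {f g : F}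
    (hf : f ∈ regOff v₀) (hg : g ∈ regOff v₀) (hg0 : g ≠ 0) {n : ℕ}
    (hfo : v₀.ord f = -(n : ℤ)) (hgo : v₀.ord g = -(n : ℤ)) :
    ∃ a : K, f - a • g = 0 ∨ -(n : ℤ) < v₀.ord (f - a • g) := by
  have hD : ((n : ℤ) - 1) • Finsupp.single v₀ (1 : ℤ) + Finsupp.single v₀ (1 : ℤ) =
      (n : ℤ) • Finsupp.single v₀ (1 : ℤ) := by
    rw [sub_smul, one_smul, sub_add_cancel]
  have hfL : f ∈ riemannRochSpace
      (((n : ℤ) - 1) • Finsupp.single v₀ (1 : ℤ) + Finsupp.single v₀ (1 : ℤ)) := by
    rw [hD]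
    exact mem_L_of_mem_regOff hf _ (Or.inr (by rw [hfo]))
  have hgL : g ∈ riemannRochSpace
      (((n : ℤ) - 1) • Finsupp.single v₀ (1 : ℤ) + Finsupp.single v₀ (1 : ℤ)) := by
    rw [hD]
    exact mem_L_of_mem_regOff hg _ (Or.inr (by rw [hgo]))
  have hgD : g ∉ riemannRochSpace (((n : ℤ) - 1) • Finsupp.single v₀ (1 : ℤ)) := by
    intro h
    have h1 := neg_le_ord_of_mem_L hg0 h
    rw [hgo] at h1
    omega
  obtain ⟨a, ha⟩ := LStep.exists_sub_smul_mem htr _ v₀ hfL hgL hgD
  refine ⟨a, ?_⟩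
  by_cases h0 : f - a • g = 0
  · exact Or.inl h0
  · refine Or.inr ?_
    have h1 := neg_le_ord_of_mem_L h0 ha
    omega

/-- Existence of the Apéry representation, by induction on the pole order. -/
theorem exists_repr (htr : Algebra.trdeg K F = 1) (v₀ : Place K F) {x : F}
    (hx : x ∈ regOff v₀) {n0 : ℕ} (hn0 : 0 < n0) (hord : v₀.ord x = -(n0 : ℤ))
    (ν : Fin n0 → ℕ) (w : Fin n0 → F) (hwR : ∀ i, w i ∈ regOff v₀) (hw0 : ∀ i, w i ≠ 0)
    (hwo : ∀ i, v₀.ord (w i) = -(ν i : ℤ)) (hwm : ∀ i, ν i % n0 = (i : ℕ))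
    (hmin : ∀ (i : Fin n0) (n : ℕ) (f : F), f ∈ regOff v₀ → f ≠ 0 → v₀.ord f = -(n : ℤ) →
      n % n0 = (i : ℕ) → ν i ≤ n) :
    ∀ (n : ℕ) (f : F), f ∈ regOff v₀ → f ≠ 0 → v₀.ord f = -(n : ℤ) →
      ∃ c : Fin n0 → Polynomial K, f = ∑ i, Polynomial.aeval x (c i) * w i := by
  classical
  have hx0 : x ≠ 0 := by
    rintro rfl
    rw [Place.ord_zero] at hord
    omega
  intro n
  induction n using Nat.strong_induction_on with
  | _ n ih =>
    intro f hf hf0 hfo
    obtain ⟨i, hi⟩ : ∃ i : Fin n0, (i : ℕ) = n % n0 := ⟨⟨n % n0, Nat.mod_lt _ hn0⟩, rfl⟩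
    have hνle : ν i ≤ n := hmin i n f hf hf0 hfo hi.symm
    have hmod : ν i % n0 = n % n0 := by rw [hwm i, hi]
    obtain ⟨d, hd⟩ : ∃ d : ℕ, n = ν i + n0 * d := by
      refine ⟨(n - ν i) / n0, ?_⟩
      have h1 : (n - ν i) % n0 = 0 := Nat.sub_mod_eq_zero_of_mod_eq hmod.symm
      have h2 := Nat.div_add_mod (n - ν i) n0
      rw [h1, add_zero] at h2
      rw [h2]
      omega
    have hg_mem : x ^ d * w i ∈ regOff v₀ := mul_mem (pow_mem hx d) (hwR i)
    have hg0 : x ^ d * w i ≠ 0 := mul_ne_zero (pow_ne_zero d hx0) (hw0 i)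
    have hgo : v₀.ord (x ^ d * w i) = -(n : ℤ) := by
      rw [v₀.ord_mul (pow_ne_zero d hx0) (hw0 i), ← zpow_natCast, v₀.ord_zpow, hord, hwo]
      have : (n : ℤ) = (ν i : ℤ) + (n0 : ℤ) * (d : ℤ) := by exact_mod_cast hd
      rw [this]
      ring
    obtain ⟨a, ha⟩ := exists_sub_smul htr hf hg_mem hg0 hfo hgo
    have hterm : a • (x ^ d * w i) =
        ∑ j, Polynomial.aeval x ((Pi.single i
          (Polynomial.C a * Polynomial.X ^ d) : Fin n0 → Polynomial K) j) * w j := by
      rw [sum_single, map_mul, Polynomial.aeval_C, map_pow, Polynomial.aeval_X,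
        Algebra.smul_def, mul_assoc]
    by_cases hf'0 : f - a • (x ^ d * w i) = 0
    · refine ⟨Pi.single i (Polynomial.C a * Polynomial.X ^ d), ?_⟩
      rw [← hterm]
      exact sub_eq_zero.mp hf'0
    · have ha' : -(n : ℤ) < v₀.ord (f - a • (x ^ d * w i)) := ha.resolve_left hf'0
      have hf'R : f - a • (x ^ d * w i) ∈ regOff v₀ :=
        sub_mem hf (Subalgebra.smul_mem _ hg_mem a)
      have hle := ord_nonpos_of_mem_regOff htr hf'R hf'0
      have hm : v₀.ord (f - a • (x ^ d * w i)) =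
          -(((-v₀.ord (f - a • (x ^ d * w i))).toNat : ℕ) : ℤ) := by
        rw [Int.toNat_of_nonneg (by omega)]
        ring
      have hlt : (-v₀.ord (f - a • (x ^ d * w i))).toNat < n := by
        omega
      obtain ⟨c', hc'⟩ := ih _ hlt _ hf'R hf'0 hm
      refine ⟨c' + (Pi.single i (Polynomial.C a * Polynomial.X ^ d) :
        Fin n0 → Polynomial K), ?_⟩
      rw [sum_add, ← hterm, ← hc']
      ring

/-- The space of coefficient vectors with degree bounds `e i`, mapped to the Apéry sums. -/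
noncomputable def phi (x : F) {n0 : ℕ} (w : Fin n0 → F) (e : Fin n0 → ℕ) :
    ((i : Fin n0) → ↥(Polynomial.degreeLT K (e i))) →ₗ[K] F where
  toFun c := ∑ i, Polynomial.aeval x ((c i : Polynomial K)) * w i
  map_add' c c' := by
    rw [← Finset.sum_add_distrib]
    refine Finset.sum_congr rfl fun i _ => ?_
    rw [Pi.add_apply, Submodule.coe_add, map_add, add_mul]
  map_smul' r c := by
    rw [RingHom.id_apply, Finset.smul_sum]
    refine Finset.sum_congr rfl fun i _ => ?_
    rw [Pi.smul_apply, Submodule.coe_smul, map_smul, smul_mul_assoc]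

theorem phi_apply (x : F) {n0 : ℕ} (w : Fin n0 → F) (e : Fin n0 → ℕ)
    (c : (i : Fin n0) → ↥(Polynomial.degreeLT K (e i))) :
    phi x w e c = ∑ i, Polynomial.aeval x ((c i : Polynomial K)) * w i := rfl

/-- The dimension of the space of coefficient vectors. -/
theorem finrank_dom {n0 : ℕ} (e : Fin n0 → ℕ) :
    Module.finrank K ((i : Fin n0) → ↥(Polynomial.degreeLT K (e i))) = ∑ i, e i := by
  haveI : ∀ i : Fin n0, Module.Finite K ↥(Polynomial.degreeLT K (e i)) := fun i =>
    Module.Finite.equiv (Polynomial.degreeLTEquiv K (e i)).symm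
  rw [Module.finrank_pi_fintype]
  refine Finset.sum_congr rfl fun i _ => ?_
  rw [(Polynomial.degreeLTEquiv K (e i)).finrank_eq, Module.finrank_fin_fun]

/-- The gap count: `gR = ∑ ⌊ν i / n0⌋`. -/
theorem gR_eq_sum (htr : Algebra.trdeg K F = 1) (v₀ : Place K F) {x : F}
    (hx : x ∈ regOff v₀) {n0 : ℕ} (hn0 : 0 < n0) (hord : v₀.ord x = -(n0 : ℤ))
    (ν : Fin n0 → ℕ) (w : Fin n0 → F) (hwR : ∀ i, w i ∈ regOff v₀) (hw0 : ∀ i, w i ≠ 0)
    (hwo : ∀ i, v₀.ord (w i) = -(ν i : ℤ)) (hwm : ∀ i, ν i % n0 = (i : ℕ))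
    (hmin : ∀ (i : Fin n0) (n : ℕ) (f : F), f ∈ regOff v₀ → f ≠ 0 → v₀.ord f = -(n : ℤ) →
      n % n0 = (i : ℕ) → ν i ≤ n) :
    (gR K F : ℤ) = ∑ i, ((ν i / n0 : ℕ) : ℤ) := by
  classical
  obtain ⟨n₁, hn₁⟩ := finrank_L_nsmul_single (K := K) (F := F) htr v₀
  -- the degree cut-off
  obtain ⟨m, hm⟩ : ∃ m : ℕ, m = n₁ + ∑ i, ν i / n0 := ⟨_, rfl⟩
  have hqm : ∀ i, ν i / n0 ≤ m := by
    intro i
    have h1 : ν i / n0 ≤ ∑ j, ν j / n0 :=
      Finset.single_le_sum (f := fun j => ν j / n0) (fun j _ => Nat.zero_le _)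
        (Finset.mem_univ i)
    omega
  obtain ⟨N, hN⟩ : ∃ N : ℕ, N = n0 * m + (n0 - 1) := ⟨_, rfl⟩
  have hNn : n₁ ≤ N := by
    have h1 : m ≤ n0 * m := Nat.le_mul_of_pos_left m hn0
    omega
  have hfr := hn₁ N hNn
  -- the map
  set e : Fin n0 → ℕ := fun i => m + 1 - ν i / n0 with he
  have hνdecomp : ∀ i : Fin n0, ν i = n0 * (ν i / n0) + (i : ℕ) := by
    intro i
    have h1 := Nat.div_add_mod (ν i) n0
    rw [hwm i] at h1
    exact h1.symm
  have hinj : Function.Injective (phi (K := K) x w e) := by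
    rw [← LinearMap.ker_eq_bot, LinearMap.ker_eq_bot']
    intro c hc
    by_contra hne
    have hex : ∃ i, (c i : Polynomial K) ≠ 0 := by
      by_contra hall
      push Not at hall
      exact hne (funext fun i => Subtype.ext (hall i))
    rw [phi_apply] at hc
    exact (sum_ne_zero_and_ord_le v₀ hn0 hord ν w hw0 hwo hwm (fun i => (c i : Polynomial K))
      hex).1 hc
  have hrange : LinearMap.range (phi (K := K) x w e) =
      riemannRochSpace ((N : ℤ) • Finsupp.single v₀ (1 : ℤ)) := by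
    apply le_antisymm
    · rintro _ ⟨c, rfl⟩
      rw [phi_apply]
      refine Submodule.sum_mem _ fun i _ => ?_
      by_cases hci : (c i : Polynomial K) = 0
      · rw [hci, map_zero, zero_mul]
        exact zero_mem _
      · have hdeg : (c i : Polynomial K).natDegree < e i := by
          have h1 := Polynomial.mem_degreeLT.mp (c i).2
          rwa [Polynomial.degree_eq_natDegree hci, Nat.cast_lt] at h1
        have hT := term_ne_zero_and_ord v₀ hn0 hord hci (hw0 i) (hwo i)
        refine mem_L_of_mem_regOff (mul_mem (aeval_mem_regOff hx _) (hwR i)) _ (Or.inr ?_)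
        · rw [hT.2]
          have h1 : (c i : Polynomial K).natDegree + ν i / n0 ≤ m := by
            have := hqm i
            simp only [he] at hdeg
            omega
          have h2 : n0 * ((c i : Polynomial K).natDegree + ν i / n0) ≤ n0 * m :=
            Nat.mul_le_mul_left n0 h1
          have h3 := hνdecomp i
          have h4 : (i : ℕ) < n0 := i.2
          have h5 : n0 * (c i : Polynomial K).natDegree + ν i ≤ N := by
            rw [Nat.mul_add] at h2
            omega
          exact_mod_cast neg_le_neg (by exact_mod_cast h5 : ((n0 * (c i : Polynomial K).natDegree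
            + ν i : ℕ) : ℤ) ≤ (N : ℤ))
    · intro f hf
      by_cases hf0 : f = 0
      · rw [hf0]
        exact zero_mem _
      · have hfR : f ∈ regOff v₀ := mem_regOff_of_mem_L hf
        have hle := ord_nonpos_of_mem_regOff htr hfR hf0
        have hge := neg_le_ord_of_mem_L hf0 hf
        have hfo : v₀.ord f = -(((-v₀.ord f).toNat : ℕ) : ℤ) := by
          rw [Int.toNat_of_nonneg (by omega)]
          ring
        obtain ⟨c, hc⟩ := exists_repr htr v₀ hx hn0 hord ν w hwR hw0 hwo hwm hmin _ f hfR hf0 hfo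
        have hcmem : ∀ i, c i ∈ Polynomial.degreeLT K (e i) := by
          intro i
          rw [Polynomial.mem_degreeLT]
          by_cases hci : c i = 0
          · rw [hci, Polynomial.degree_zero]
            exact WithBot.bot_lt_coe _
          · rw [Polynomial.degree_eq_natDegree hci, Nat.cast_lt]
            have hb := (sum_ne_zero_and_ord_le v₀ hn0 hord ν w hw0 hwo hwm c ⟨i, hci⟩).2 i hci
            rw [← hc] at hb
            have h5 : n0 * (c i).natDegree + ν i ≤ N := by
              have : ((n0 * (c i).natDegree + ν i : ℕ) : ℤ) ≤ (N : ℤ) := by omega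
              exact_mod_cast this
            have h3 := hνdecomp i
            have h4 : (i : ℕ) < n0 := i.2
            have h6 : (c i).natDegree + ν i / n0 ≤ m := by
              by_contra hcon
              push Not at hcon
              have h7 : n0 * (m + 1) ≤ n0 * ((c i).natDegree + ν i / n0) :=
                Nat.mul_le_mul_left n0 hcon
              rw [Nat.mul_add, Nat.mul_add, Nat.mul_one] at h7
              omega
            simp only [he]
            omega
        refine ⟨fun i => ⟨c i, hcmem i⟩, ?_⟩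
        rw [phi_apply]
        exact hc.symm
  -- the count
  have hcount : Module.finrank K ↥(riemannRochSpace ((N : ℤ) • Finsupp.single v₀ (1 : ℤ))) =
      ∑ i, e i := by
    rw [← hrange, ← (LinearEquiv.ofInjective (phi (K := K) x w e) hinj).finrank_eq, finrank_dom]
  rw [hcount] at hfr
  have hsum : ((∑ i, e i : ℕ) : ℤ) = (n0 : ℤ) * ((m : ℤ) + 1) - ∑ i, ((ν i / n0 : ℕ) : ℤ) := by
    rw [Nat.cast_sum]
    have h1 : ∀ i : Fin n0, ((e i : ℕ) : ℤ) = ((m : ℤ) + 1) - ((ν i / n0 : ℕ) : ℤ) := by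
      intro i
      have := hqm i
      simp only [he]
      omega
    rw [Finset.sum_congr rfl fun i _ => h1 i, Finset.sum_sub_distrib, Finset.sum_const,
      Finset.card_univ, Fintype.card_fin, nsmul_eq_mul]
  rw [hsum] at hfr
  have hNz : (N : ℤ) = (n0 : ℤ) * (m : ℤ) + ((n0 : ℤ) - 1) := by
    rw [hN]
    have : 1 ≤ n0 := hn0
    push_cast [Nat.cast_sub this]
    ring
  rw [hNz] at hfr
  linarith

end Curve

end Apery

variable {K F : Type*} [Field K] [Field F] [Algebra K F]
variable [IsAlgClosed K] [CharZero K] [Algebra.EssFiniteType K F]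

/-- Apéry basis of the functions regular off `v₀` over `K[x]`, `x` of pole order `n0` at `v₀`,
and the gap count `g = ∑ ⌊ν_i / n0⌋`. -/
theorem exists_apery_basis (htr : Algebra.trdeg K F = 1) (v₀ : Place K F) {x : F}
    (hx : x ∈ regOff v₀) {n0 : ℕ} (hn0 : 0 < n0) (hord : v₀.ord x = -(n0 : ℤ)) :
    ∃ (ν : Fin n0 → ℕ) (w : Fin n0 → F),
      (∀ i, w i ∈ regOff v₀ ∧ v₀.ord (w i) = -(ν i : ℤ) ∧ ν i % n0 = (i : ℕ)) ∧
      (∀ f ∈ regOff v₀, ∃! c : Fin n0 → Polynomial K,
        f = ∑ i, Polynomial.aeval x (c i) * w i) ∧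
      (∀ c : Fin n0 → Polynomial K, (∑ i, Polynomial.aeval x (c i) * w i) ≠ 0 →
        ∀ i, c i ≠ 0 → v₀.ord (∑ i, Polynomial.aeval x (c i) * w i) ≤
          -((n0 * (c i).natDegree + ν i : ℕ) : ℤ)) ∧
      (gR K F : ℤ) = ∑ i, ((ν i / n0 : ℕ) : ℤ) := by
  classical
  -- every residue class contains a pole order
  obtain ⟨N₀, hN₀⟩ := exists_nongap_bound (K := K) (F := F) htr v₀
  have hex : ∀ i : Fin n0, ∃ n : ℕ, ∃ f : F, f ∈ regOff v₀ ∧ f ≠ 0 ∧ v₀.ord f = -(n : ℤ) ∧
      n % n0 = (i : ℕ) := by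
    intro i
    have hge : N₀ ≤ (N₀ + 1) * n0 + (i : ℕ) := by
      have h1 : N₀ + 1 ≤ (N₀ + 1) * n0 := Nat.le_mul_of_pos_right _ hn0
      omega
    obtain ⟨f, hf, hfo⟩ := hN₀ _ hge
    refine ⟨(N₀ + 1) * n0 + (i : ℕ), f, Apery.mem_regOff_of_mem_L hf, ?_, hfo, ?_⟩
    · rintro rfl
      rw [Place.ord_zero] at hfo
      have h1 : N₀ + 1 ≤ (N₀ + 1) * n0 := Nat.le_mul_of_pos_right _ hn0
      have h2 : ((((N₀ + 1) * n0 + (i : ℕ) : ℕ)) : ℤ) = 0 := by omega
      have h3 : (N₀ + 1) * n0 + (i : ℕ) = 0 := by exact_mod_cast h2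
      omega
    · rw [Nat.mul_add_mod_self_right]
      exact Nat.mod_eq_of_lt i.2
  have hspec : ∀ i : Fin n0, ∃ f : F, f ∈ regOff v₀ ∧ f ≠ 0 ∧
      v₀.ord f = -((Nat.find (hex i) : ℕ) : ℤ) ∧ Nat.find (hex i) % n0 = (i : ℕ) :=
    fun i => Nat.find_spec (hex i)
  choose w hwR hw0 hwo hwm using hspec
  have hmin : ∀ (i : Fin n0) (n : ℕ) (f : F), f ∈ regOff v₀ → f ≠ 0 → v₀.ord f = -(n : ℤ) →
      n % n0 = (i : ℕ) → Nat.find (hex i) ≤ n :=
    fun i n f hf hf0 hfo hn => Nat.find_min' (hex i) ⟨f, hf, hf0, hfo, hn⟩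
  refine ⟨fun i => Nat.find (hex i), w, fun i => ⟨hwR i, hwo i, hwm i⟩, ?_, ?_, ?_⟩
  · intro f hf
    have hexist : ∃ c : Fin n0 → Polynomial K, f = ∑ i, Polynomial.aeval x (c i) * w i := by
      by_cases hf0 : f = 0
      · refine ⟨0, ?_⟩
        rw [hf0]
        simp
      · have hle := Apery.ord_nonpos_of_mem_regOff htr hf hf0
        have hfo : v₀.ord f = -(((-v₀.ord f).toNat : ℕ) : ℤ) := by
          rw [Int.toNat_of_nonneg (by omega)]
          ring
        exact Apery.exists_repr htr v₀ hx hn0 hord _ w hwR hw0 hwo hwm hmin _ f hf hf0 hfo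
    obtain ⟨c, hc⟩ := hexist
    refine ⟨c, hc, fun c' hc' => ?_⟩
    by_contra hne
    have hsub : c' - c ≠ 0 := sub_ne_zero.mpr hne
    have hex' : ∃ i, (c' - c) i ≠ 0 := by
      by_contra hall
      push Not at hall
      exact hsub (funext hall)
    have h1 := (Apery.sum_ne_zero_and_ord_le v₀ hn0 hord _ w hw0 hwo hwm (c' - c) hex').1
    rw [Apery.sum_sub, ← hc, ← hc', sub_self] at h1
    exact h1 rfl
  · intro c _ i hi
    exact (Apery.sum_ne_zero_and_ord_le v₀ hn0 hord _ w hw0 hwo hwm c ⟨i, hi⟩).2 i hi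
  · exact Apery.gR_eq_sum htr v₀ hx hn0 hord _ w hwR hw0 hwo hwm hmin

end Fermat.Agent.S17.R
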