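/-
MW strand R (helper178; ask of H LINE #3 (6) for the blocks D4a / D4c): a function `x` regular
off `v₀` with a pole of order `n0 > 0` at `v₀` is transcendental and `[F : K(x)] = n0`
(`v₀` is totally ramified over the pole of `x`); every fibre of `x` has `n0` points counted with
multiplicity and does not contain `v₀`.

* `finrank_adjoin_of_regOff` : `x ∈ regOff v₀`, `v₀.ord x = -n0`, `0 < n0` ⟹ `[F : K(x)] = n0`;
* `PoleDegree.transcendental_of_ord_ne_zero`, `PoleDegree.finite_adjoin_of_ord_ne_zero`;
* `PoleDegree.poles_eq_singleton` : the pole set of `x` is `{v₀}`;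
* `PoleDegree.sum_ord_fibre` : `∑_{v : x(v) = a} ord_v (x - a) = n0`;
* `PoleDegree.ord_sub_algebraMap` : `ord_{v₀} (x - a) = ord_{v₀} x` at a pole.
-/
import Mathlib
import Fermat.Prelude.Def_AlgebraicCurve_Repartitions
import Fermat.Agent.S24.FF.Dedekind
import Fermat.Agent.S17.R.LSpace
import Fermat.Agent.S17.R.Eval

set_option autoImplicit false
set_option linter.unusedSectionVars false

namespace Fermat.Agent.S17.R

open AlgebraicCurve
open Fermat.Agent.S24.FF

variable {K F : Type*} [Field K] [Field F] [Algebra K F]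
variable [IsAlgClosed K] [CharZero K] [Algebra.EssFiniteType K F]

namespace PoleDegree

/-- A function with a pole or a zero at some place is transcendental. -/
theorem transcendental_of_ord_ne_zero {v : Place K F} {x : F} (h : v.ord x ≠ 0) :
    Transcendental K x := by
  apply transcendental_of_not_mem_range
  rintro ⟨c, rfl⟩
  exact h (ord_algebraMap v c)

theorem finite_adjoin_of_ord_ne_zero (htr : Algebra.trdeg K F = 1) {v : Place K F} {x : F}
    (h : v.ord x ≠ 0) : Module.Finite (IntermediateField.adjoin K {x}) F :=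
  finite_adjoin_simple htr (transcendental_of_ord_ne_zero h)

/-- At a pole of `x`, `ord (x - a) = ord x` for every constant `a`. -/
theorem ord_sub_algebraMap {v : Place K F} {x : F} (h : v.ord x < 0) (a : K) :
    v.ord (x - algebraMap K F a) = v.ord x := by
  have hx0 : x ≠ 0 := by
    rintro rfl
    rw [Place.ord_zero] at h
    omega
  by_cases ha : a = 0
  · rw [ha, map_zero, sub_zero]
  · have ha' : -algebraMap K F a ≠ 0 := by
      intro h0
      apply ha
      have h1 : algebraMap K F a = 0 := neg_eq_zero.mp h0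
      exact (map_eq_zero (algebraMap K F)).mp h1
    rw [sub_eq_add_neg]
    refine ord_add_eq_of_lt v ?_ hx0 ha'
    rw [ord_neg, ord_algebraMap]
    exact h

/-- The pole set of a function regular off `v₀` with a pole at `v₀` is `{v₀}`. -/
theorem poles_eq_singleton {v₀ : Place K F} {x : F}
    (hx : ∀ v : Place K F, v ≠ v₀ → x ∈ v.toValuationSubring) (h : v₀.ord x < 0) :
    {v : Place K F | v.ord x < 0} = {v₀} := by
  ext v
  constructor
  · intro hv
    have hv' : v.ord x < 0 := hv
    by_contra hne
    have h1 := ord_nonneg_of_mem v (hx v hne)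
    omega
  · intro hv
    have hv' : v = v₀ := hv
    rw [hv']
    exact h

/-- `[F : K(x)] = n0` for `x` regular off `v₀` with a pole of order `n0 > 0` at `v₀`. -/
theorem finrank_adjoin_of_forall (htr : Algebra.trdeg K F = 1) (v₀ : Place K F) {x : F}
    (hx : ∀ v : Place K F, v ≠ v₀ → x ∈ v.toValuationSubring) {n0 : ℕ} (hn0 : 0 < n0)
    (hord : v₀.ord x = -(n0 : ℤ)) :
    Module.finrank (IntermediateField.adjoin K {x}) F = n0 := by
  have hn0' : (0 : ℤ) < (n0 : ℤ) := by exact_mod_cast hn0
  have hneg : v₀.ord x < 0 := by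
    rw [hord]
    omega
  have htrans : Transcendental K x := transcendental_of_ord_ne_zero (v := v₀) (by omega)
  have hsum := sum_ord_poles htr htrans
  rw [poles_eq_singleton hx hneg, finsum_mem_singleton, hord, neg_neg] at hsum
  exact_mod_cast hsum.symm

/-- Every fibre of `x` has `n0` points, counted with multiplicity. -/
theorem sum_ord_fibre (htr : Algebra.trdeg K F = 1) (v₀ : Place K F) {x : F}
    (hx : ∀ v : Place K F, v ≠ v₀ → x ∈ v.toValuationSubring) {n0 : ℕ} (hn0 : 0 < n0)
    (hord : v₀.ord x = -(n0 : ℤ)) (a : K) :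
    ∑ᶠ v ∈ {v : Place K F | 0 < v.ord (x - algebraMap K F a)},
        v.ord (x - algebraMap K F a) = (n0 : ℤ) := by
  have hn0' : (0 : ℤ) < (n0 : ℤ) := by exact_mod_cast hn0
  have htrans : Transcendental K x := transcendental_of_ord_ne_zero (v := v₀) (by omega)
  rw [sum_ord_zeros htr htrans a, finrank_adjoin_of_forall htr v₀ hx hn0 hord]

/-- The fibres of `x` are finite. -/
theorem fibre_finite (htr : Algebra.trdeg K F = 1) {v₀ : Place K F} {x : F}
    (h : v₀.ord x ≠ 0) (a : K) :
    {v : Place K F | 0 < v.ord (x - algebraMap K F a)}.Finite :=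
  zeros_finite htr (transcendental_of_ord_ne_zero h) a

/-- The fibres of `x` do not contain its pole. -/
theorem ne_of_mem_fibre {v₀ v : Place K F} {x : F} (h : v₀.ord x < 0) {a : K}
    (hv : 0 < v.ord (x - algebraMap K F a)) : v ≠ v₀ := by
  rintro rfl
  rw [ord_sub_algebraMap h a] at hv
  omega

end PoleDegree

/-- **`v₀` is totally ramified for `x`**: if `x` is regular off `v₀` and has a pole of order
`n0 > 0` at `v₀`, then `[F : K(x)] = n0`. -/
theorem finrank_adjoin_of_regOff (htr : Algebra.trdeg K F = 1) (v₀ : Place K F) {x : F}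
    (hx : x ∈ regOff v₀) {n0 : ℕ} (hn0 : 0 < n0) (hord : v₀.ord x = -(n0 : ℤ)) :
    Module.finrank (IntermediateField.adjoin K {x}) F = n0 :=
  PoleDegree.finrank_adjoin_of_forall htr v₀ hx hn0 hord

end Fermat.Agent.S17.R
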