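import Mathlib
import Fermat.Prelude.Def_AlgebraicCurve_Repartitions
import Fermat.Agent.S17.R.LSpace
import Fermat.Agent.S17.R.LStep

/-!
# S17 / strand R, leaf R10b (core): the section ring of a point is generated in bounded degree

`F / K` a function field of one variable over an algebraically closed field of characteristic
zero, `v₀` a place, `L(n) = riemannRochSpace (n • v₀)`.  If every `n ≥ N₀` is a pole order at `v₀`
of a function regular elsewhere (the non-gap statement, leaf R10a), then for `a, b ≥ 2 N₀ + 2`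

  `span (L(a) · L(b)) = L(a + b)`.

Proof: pole-order induction.  `L(n) ⊆ L(a) ⊆ span` for `n ≤ a` (multiply by `1 ∈ L(b)`); for
`a < n ≤ a + b` write `n = n₁ + n₂` with non-gaps `N₀ < n₁ ≤ a`, `N₀ < n₂ ≤ b`, take `g₁ ∈ L(n₁)`,
`g₂ ∈ L(n₂)` of exact pole orders, and subtract a multiple of `g₁ g₂` by the one-point step
(`LStep.exists_sub_smul_mem`).

The non-gap statement is a hypothesis here, so this file needs nothing but R0 and R1.
-/

set_option autoImplicit false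

namespace Fermat.Agent.S17.R

open AlgebraicCurve

namespace SectionRing

section Basic

variable {K F : Type*} [Field K] [Field F] [Algebra K F]

/-- The divisor `n • v₀`. -/
noncomputable def nD (v₀ : Place K F) (n : ℕ) : Divisor K F :=
  (n : ℤ) • Finsupp.single v₀ (1 : ℤ)

theorem nD_def (v₀ : Place K F) (n : ℕ) : nD v₀ n = (n : ℤ) • Finsupp.single v₀ (1 : ℤ) := rfl

theorem nD_apply_self (v₀ : Place K F) (n : ℕ) : nD v₀ n v₀ = n := by
  rw [nD_def, Finsupp.smul_apply, Finsupp.single_eq_same, smul_eq_mul, mul_one]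

theorem nD_apply_of_ne (v₀ : Place K F) (n : ℕ) {w : Place K F} (hw : w ≠ v₀) :
    nD v₀ n w = 0 := by
  classical
  rw [nD_def, Finsupp.smul_apply, Finsupp.single_apply, if_neg (fun h => hw h.symm), smul_zero]

theorem nD_add (v₀ : Place K F) (a b : ℕ) : nD v₀ a + nD v₀ b = nD v₀ (a + b) := by
  rw [nD_def, nD_def, nD_def, ← add_smul, Nat.cast_add]

theorem nD_succ (v₀ : Place K F) (m : ℕ) :
    nD v₀ (m + 1) = nD v₀ m + Finsupp.single v₀ (1 : ℤ) := by
  rw [nD_def, nD_def, Nat.cast_add, Nat.cast_one, add_smul, one_smul]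

theorem nD_mono (v₀ : Place K F) {a b : ℕ} (h : a ≤ b) : nD v₀ a ≤ nD v₀ b := by
  rw [Finsupp.le_def]
  intro w
  by_cases hw : w = v₀
  · subst hw
    rw [nD_apply_self, nD_apply_self]
    exact_mod_cast h
  · rw [nD_apply_of_ne v₀ a hw, nD_apply_of_ne v₀ b hw]

theorem one_mem_L (v₀ : Place K F) (n : ℕ) : (1 : F) ∈ riemannRochSpace (nD v₀ n) := by
  rw [mem_L_iff]
  refine Or.inr fun w => ?_
  rw [Place.ord_one]
  by_cases hw : w = v₀
  · subst hw
    rw [nD_apply_self]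
    omega
  · rw [nD_apply_of_ne v₀ n hw]
    simp

theorem neg_le_ord_of_mem {v₀ : Place K F} {n : ℕ} {f : F} (hf0 : f ≠ 0)
    (hf : f ∈ riemannRochSpace (nD v₀ n)) : -(n : ℤ) ≤ v₀.ord f := by
  have h := (mem_L_of_ne_zero hf0).mp hf v₀
  rwa [nD_apply_self] at h

theorem mul_mem_L_nD {v₀ : Place K F} {a b : ℕ} {f g : F}
    (hf : f ∈ riemannRochSpace (nD v₀ a)) (hg : g ∈ riemannRochSpace (nD v₀ b)) :
    f * g ∈ riemannRochSpace (nD v₀ (a + b)) := by
  have h := mul_mem_L hf hg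
  rwa [nD_add] at h

end Basic

section Curve

variable {K F : Type*} [Field K] [Field F] [Algebra K F]
variable [IsAlgClosed K] [CharZero K] [Algebra.EssFiniteType K F]

/-- Pole-order induction: `L(n) ⊆ span (L(a) · L(b))` for all `n ≤ a + b`. -/
theorem le_span_of_nongap (htr : Algebra.trdeg K F = 1) (v₀ : Place K F) (N₀ : ℕ)
    (hng : ∀ n : ℕ, N₀ ≤ n → ∃ f : F,
      f ∈ riemannRochSpace ((n : ℤ) • Finsupp.single v₀ (1 : ℤ)) ∧ v₀.ord f = -(n : ℤ))
    (a b : ℕ) (ha : 2 * N₀ + 2 ≤ a) (hb : 2 * N₀ + 2 ≤ b) (n : ℕ) (hn : n ≤ a + b) :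
    riemannRochSpace (nD v₀ n) ≤ Submodule.span K (Set.image2 (fun f g : F => f * g)
      (riemannRochSpace (nD v₀ a) : Set F) (riemannRochSpace (nD v₀ b) : Set F)) := by
  have base : riemannRochSpace (nD v₀ a) ≤ Submodule.span K (Set.image2 (fun f g : F => f * g)
      (riemannRochSpace (nD v₀ a) : Set F) (riemannRochSpace (nD v₀ b) : Set F)) := by
    intro f hf
    exact Submodule.subset_span ⟨f, hf, 1, one_mem_L v₀ b, mul_one f⟩
  induction n with
  | zero => exact (L_mono (nD_mono v₀ (Nat.zero_le a))).trans base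
  | succ m ih =>
    by_cases hma : m + 1 ≤ a
    · exact (L_mono (nD_mono v₀ hma)).trans base
    have ih' := ih (by omega)
    intro f hf
    obtain ⟨n₁, n₂, h12, h1a, h1N, h2b, h2N⟩ : ∃ n₁ n₂ : ℕ,
        n₁ + n₂ = m + 1 ∧ n₁ ≤ a ∧ N₀ + 1 ≤ n₁ ∧ n₂ ≤ b ∧ N₀ + 1 ≤ n₂ := by
      by_cases hc : N₀ + 1 ≤ m + 1 - a
      · exact ⟨a, m + 1 - a, by omega, le_refl a, by omega, by omega, hc⟩
      · exact ⟨m + 1 - (N₀ + 1), N₀ + 1, by omega, by omega, by omega, by omega, le_refl _⟩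
    obtain ⟨g₁, hg₁, ho₁⟩ := hng n₁ (by omega)
    obtain ⟨g₂, hg₂, ho₂⟩ := hng n₂ (by omega)
    have hg₁0 : g₁ ≠ 0 := by
      rintro rfl
      rw [Place.ord_zero] at ho₁
      omega
    have hg₂0 : g₂ ≠ 0 := by
      rintro rfl
      rw [Place.ord_zero] at ho₂
      omega
    have hg₁' : g₁ ∈ riemannRochSpace (nD v₀ n₁) := hg₁
    have hg₂' : g₂ ∈ riemannRochSpace (nD v₀ n₂) := hg₂
    have hg : g₁ * g₂ ∈ riemannRochSpace (nD v₀ (m + 1)) := by
      have h := mul_mem_L_nD hg₁' hg₂'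
      rwa [h12] at h
    have hgm : g₁ * g₂ ∉ riemannRochSpace (nD v₀ m) := by
      intro hmem
      have h := neg_le_ord_of_mem (mul_ne_zero hg₁0 hg₂0) hmem
      rw [v₀.ord_mul hg₁0 hg₂0, ho₁, ho₂] at h
      omega
    rw [nD_succ] at hf hg
    obtain ⟨c, hc⟩ := LStep.exists_sub_smul_mem htr (nD v₀ m) v₀ hf hg hgm
    have hgS : g₁ * g₂ ∈ Submodule.span K (Set.image2 (fun f g : F => f * g)
        (riemannRochSpace (nD v₀ a) : Set F) (riemannRochSpace (nD v₀ b) : Set F)) :=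
      Submodule.subset_span
        ⟨g₁, L_mono (nD_mono v₀ h1a) hg₁', g₂, L_mono (nD_mono v₀ h2b) hg₂', rfl⟩
    have hsplit : f = (f - c • (g₁ * g₂)) + c • (g₁ * g₂) := (sub_add_cancel _ _).symm
    rw [hsplit]
    exact Submodule.add_mem _ (ih' hc) (Submodule.smul_mem _ c hgS)

/-- **Section ring in bounded degree**, explicit threshold: with `N₀` a non-gap bound at `v₀`,
`span (L(a·v₀) · L(b·v₀)) = L((a+b)·v₀)` for `a, b ≥ 2 N₀ + 2`. -/
theorem span_mul_L_of_nongap (htr : Algebra.trdeg K F = 1) (v₀ : Place K F) (N₀ : ℕ)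
    (hng : ∀ n : ℕ, N₀ ≤ n → ∃ f : F,
      f ∈ riemannRochSpace ((n : ℤ) • Finsupp.single v₀ (1 : ℤ)) ∧ v₀.ord f = -(n : ℤ))
    (a b : ℕ) (ha : 2 * N₀ + 2 ≤ a) (hb : 2 * N₀ + 2 ≤ b) :
    Submodule.span K (Set.image2 (fun f g : F => f * g)
        (riemannRochSpace ((a : ℤ) • Finsupp.single v₀ (1 : ℤ)) : Set F)
        (riemannRochSpace ((b : ℤ) • Finsupp.single v₀ (1 : ℤ)) : Set F)) =
      riemannRochSpace (((a + b : ℕ) : ℤ) • Finsupp.single v₀ (1 : ℤ)) := by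
  apply le_antisymm
  · rw [Submodule.span_le]
    rintro _ ⟨f, hf, g, hg, rfl⟩
    exact mul_mem_L_nD (v₀ := v₀) (a := a) (b := b) hf hg
  · exact le_span_of_nongap htr v₀ N₀ hng a b ha hb (a + b) le_rfl

/-- The literal of R10b with the non-gap statement (the literal of R10a
`exists_nongap_bound`) as a hypothesis. -/
theorem span_mul_L_nsmul_single_of_nongap (htr : Algebra.trdeg K F = 1) (v₀ : Place K F)
    (hng : ∃ n₀ : ℕ, ∀ n : ℕ, n₀ ≤ n → ∃ f : F,
      f ∈ riemannRochSpace ((n : ℤ) • Finsupp.single v₀ (1 : ℤ)) ∧ v₀.ord f = -(n : ℤ)) :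
    ∃ n₀ : ℕ, ∀ a b : ℕ, n₀ ≤ a → n₀ ≤ b →
      Submodule.span K (Set.image2 (fun f g : F => f * g)
        (riemannRochSpace ((a : ℤ) • Finsupp.single v₀ (1 : ℤ)) : Set F)
        (riemannRochSpace ((b : ℤ) • Finsupp.single v₀ (1 : ℤ)) : Set F)) =
      riemannRochSpace (((a + b : ℕ) : ℤ) • Finsupp.single v₀ (1 : ℤ)) := by
  obtain ⟨N₀, h⟩ := hng
  exact ⟨2 * N₀ + 2, fun a b ha hb => span_mul_L_of_nongap htr v₀ N₀ h a b ha hb⟩

/-- Product form: `L(a·v₀) * L(b·v₀) = L((a+b)·v₀)` as submodules of `F`. -/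
theorem L_mul_L_of_nongap (htr : Algebra.trdeg K F = 1) (v₀ : Place K F) (N₀ : ℕ)
    (hng : ∀ n : ℕ, N₀ ≤ n → ∃ f : F,
      f ∈ riemannRochSpace ((n : ℤ) • Finsupp.single v₀ (1 : ℤ)) ∧ v₀.ord f = -(n : ℤ))
    (a b : ℕ) (ha : 2 * N₀ + 2 ≤ a) (hb : 2 * N₀ + 2 ≤ b) :
    riemannRochSpace ((a : ℤ) • Finsupp.single v₀ (1 : ℤ)) *
        riemannRochSpace ((b : ℤ) • Finsupp.single v₀ (1 : ℤ)) =
      riemannRochSpace (((a + b : ℕ) : ℤ) • Finsupp.single v₀ (1 : ℤ)) := by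
  rw [Submodule.mul_eq_span_mul_set, ← Set.image2_mul]
  exact span_mul_L_of_nongap htr v₀ N₀ hng a b ha hb

/-- Power form: `L(a·v₀) ^ k = L(k a·v₀)` for `k ≥ 1`: forms of degree `k` in a basis of
`L(a·v₀)` span `L(k a·v₀)`. -/
theorem L_pow_of_nongap (htr : Algebra.trdeg K F = 1) (v₀ : Place K F) (N₀ : ℕ)
    (hng : ∀ n : ℕ, N₀ ≤ n → ∃ f : F,
      f ∈ riemannRochSpace ((n : ℤ) • Finsupp.single v₀ (1 : ℤ)) ∧ v₀.ord f = -(n : ℤ))
    (a : ℕ) (ha : 2 * N₀ + 2 ≤ a) (k : ℕ) :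
    riemannRochSpace ((a : ℤ) • Finsupp.single v₀ (1 : ℤ)) ^ (k + 1) =
      riemannRochSpace ((((k + 1) * a : ℕ) : ℤ) • Finsupp.single v₀ (1 : ℤ)) := by
  induction k with
  | zero => rw [zero_add, pow_one, one_mul]
  | succ k ih =>
    rw [pow_succ, ih, L_mul_L_of_nongap htr v₀ N₀ hng ((k + 1) * a) a
      (le_trans ha (Nat.le_mul_of_pos_left a (Nat.succ_pos k))) ha]
    congr 3
    ring

end Curve

end SectionRing

end Fermat.Agent.S17.R
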