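import Mathlib
import Fermat.Prelude.Def_AlgebraicCurve_Repartitions
import Fermat.Agent.S17.R.LSpace
import Fermat.Agent.S17.R.LStep
import Fermat.Agent.S17.R.Riemann
import Fermat.Agent.S17.R.SectionRingCore

/-!
# S17 / strand R, leaf R10b: the section ring of a point is generated in bounded degree

`span_mul_L_nsmul_single htr v₀ : ∃ n₀, ∀ a b ≥ n₀, span (L(a·v₀) · L(b·v₀)) = L((a+b)·v₀)`,
together with the product form and the power form (`L(a·v₀) ^ (k+1) = L((k+1) a·v₀)`: forms of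
degree `k + 1` in a basis of `L(a·v₀)` span `L((k+1) a·v₀)`).

The pole-order induction is `SectionRingCore`; the non-gap input (every large `n` is a pole
order at `v₀`) is proved here from Riemann's theorem `riemann_eq_of_large`:
`l((m+1)·v₀) = l(m·v₀) + 1` for `m` large.
-/

set_option autoImplicit false

namespace Fermat.Agent.S17.R

open AlgebraicCurve

variable {K F : Type*} [Field K] [Field F] [Algebra K F]
variable [IsAlgClosed K] [CharZero K] [Algebra.EssFiniteType K F]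

namespace SectionRing

omit [CharZero K] [Algebra.EssFiniteType K F] in
theorem degree_nD (htr : Algebra.trdeg K F = 1) (v₀ : Place K F) (n : ℕ) :
    Divisor.degree (nD v₀ n) = n := by
  rw [nD_def, map_zsmul, Divisor.degree_single, Fermat.Agent.S24.FF.deg_eq_one htr v₀]
  simp

omit [IsAlgClosed K] [CharZero K] [Algebra.EssFiniteType K F] in
/-- A function in `L((m+1)·v₀)` outside `L(m·v₀)` has pole order exactly `m + 1` at `v₀`. -/
theorem ord_eq_of_mem_of_notMem {v₀ : Place K F} {m : ℕ} {f : F}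
    (hf : f ∈ riemannRochSpace (nD v₀ (m + 1))) (hfm : f ∉ riemannRochSpace (nD v₀ m)) :
    v₀.ord f = -((m + 1 : ℕ) : ℤ) := by
  have hf0 : f ≠ 0 := fun h => hfm (h ▸ Submodule.zero_mem _)
  have hge := neg_le_ord_of_mem hf0 hf
  by_contra hne
  apply hfm
  rw [mem_L_of_ne_zero hf0]
  intro w
  by_cases hw : w = v₀
  · subst hw
    rw [nD_apply_self]
    push_cast at hge hne ⊢
    omega
  · have h := (mem_L_of_ne_zero hf0).mp hf w
    rw [nD_apply_of_ne v₀ _ hw] at h ⊢
    exact h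

/-- **Non-gaps**: every large `n` is the pole order at `v₀` of a function regular elsewhere. -/
theorem exists_nongap (htr : Algebra.trdeg K F = 1) (v₀ : Place K F) :
    ∃ n₀ : ℕ, ∀ n : ℕ, n₀ ≤ n → ∃ f : F,
      f ∈ riemannRochSpace ((n : ℤ) • Finsupp.single v₀ (1 : ℤ)) ∧ v₀.ord f = -(n : ℤ) := by
  obtain ⟨c, hc⟩ := riemann_eq_of_large (K := K) (F := F) htr
  refine ⟨c.toNat + 1, fun n hn => ?_⟩
  obtain ⟨m, rfl⟩ : ∃ m, n = m + 1 := ⟨n - 1, by omega⟩
  have hcm : c ≤ (m : ℤ) := by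
    have h1 : c ≤ (c.toNat : ℤ) := Int.self_le_toNat c
    have h2 : (c.toNat : ℤ) ≤ (m : ℤ) := by exact_mod_cast (by omega : c.toNat ≤ m)
    exact h1.trans h2
  have h1 := hc (nD v₀ (m + 1)) (by rw [degree_nD htr]; push_cast; omega)
  have h0 := hc (nD v₀ m) (by rw [degree_nD htr]; exact hcm)
  rw [degree_nD htr] at h1 h0
  have hlt : Module.finrank K ↥(riemannRochSpace (nD v₀ m)) <
      Module.finrank K ↥(riemannRochSpace (nD v₀ (m + 1))) := by
    have h : (Module.finrank K ↥(riemannRochSpace (nD v₀ m)) : ℤ) <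
        (Module.finrank K ↥(riemannRochSpace (nD v₀ (m + 1))) : ℤ) := by
      rw [h1, h0]
      push_cast
      omega
    exact_mod_cast h
  have hne : ¬ (riemannRochSpace (nD v₀ (m + 1)) ≤ riemannRochSpace (nD v₀ m)) := by
    intro hle
    have heq : riemannRochSpace (nD v₀ m) = riemannRochSpace (nD v₀ (m + 1)) :=
      le_antisymm (L_mono (nD_mono v₀ (Nat.le_succ m))) hle
    rw [heq] at hlt
    exact lt_irrefl _ hlt
  obtain ⟨f, hf, hfm⟩ := SetLike.not_le_iff_exists.mp hne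
  exact ⟨f, hf, ord_eq_of_mem_of_notMem hf hfm⟩

end SectionRing

/-- **R10b.** The section ring of `v₀` is generated in bounded degree:
`L(a·v₀) · L(b·v₀)` spans `L((a+b)·v₀)` for `a, b` large. -/
theorem span_mul_L_nsmul_single (htr : Algebra.trdeg K F = 1) (v₀ : Place K F) :
    ∃ n₀ : ℕ, ∀ a b : ℕ, n₀ ≤ a → n₀ ≤ b →
      Submodule.span K (Set.image2 (fun f g : F => f * g)
        (riemannRochSpace ((a : ℤ) • Finsupp.single v₀ (1 : ℤ)) : Set F)
        (riemannRochSpace ((b : ℤ) • Finsupp.single v₀ (1 : ℤ)) : Set F)) =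
      riemannRochSpace (((a + b : ℕ) : ℤ) • Finsupp.single v₀ (1 : ℤ)) :=
  SectionRing.span_mul_L_nsmul_single_of_nongap htr v₀ (SectionRing.exists_nongap htr v₀)

/-- Product form of R10b: `L(a·v₀) * L(b·v₀) = L((a+b)·v₀)` (submodule product in `F`). -/
theorem L_mul_L_nsmul_single (htr : Algebra.trdeg K F = 1) (v₀ : Place K F) :
    ∃ n₀ : ℕ, ∀ a b : ℕ, n₀ ≤ a → n₀ ≤ b →
      riemannRochSpace ((a : ℤ) • Finsupp.single v₀ (1 : ℤ)) *
        riemannRochSpace ((b : ℤ) • Finsupp.single v₀ (1 : ℤ)) =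
      riemannRochSpace (((a + b : ℕ) : ℤ) • Finsupp.single v₀ (1 : ℤ)) := by
  obtain ⟨N₀, h⟩ := SectionRing.exists_nongap htr v₀
  exact ⟨2 * N₀ + 2, fun a b ha hb => SectionRing.L_mul_L_of_nongap htr v₀ N₀ h a b ha hb⟩

/-- Power form of R10b: `L(a·v₀) ^ (k+1) = L((k+1) a·v₀)` for `a` large and all `k`: the forms
of degree `k + 1` in a basis of `L(a·v₀)` span `L((k+1) a·v₀)`. -/
theorem L_pow_nsmul_single (htr : Algebra.trdeg K F = 1) (v₀ : Place K F) :
    ∃ n₀ : ℕ, ∀ a : ℕ, n₀ ≤ a → ∀ k : ℕ,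
      riemannRochSpace ((a : ℤ) • Finsupp.single v₀ (1 : ℤ)) ^ (k + 1) =
      riemannRochSpace ((((k + 1) * a : ℕ) : ℤ) • Finsupp.single v₀ (1 : ℤ)) := by
  obtain ⟨N₀, h⟩ := SectionRing.exists_nongap htr v₀
  exact ⟨2 * N₀ + 2, fun a ha k => SectionRing.L_pow_of_nongap htr v₀ N₀ h a ha k⟩

end Fermat.Agent.S17.R
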