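import Fermat.Agent.S17.R.FbRat
import Fermat.Agent.S17.R.LStep
import Fermat.Agent.S30.HeckeInputs

/-!
# S17, strand R, leaf R6 (exit): `exists_rational_basis`

The interface literal `exists_rational_basis` : every Galois-stable divisor `D` of `Fb N` has a
basis of `L(D)` made of Galois-fixed (= `ℚ`-rational) functions.  It is
`exists_rational_basis_of_finite` (`FbRat.lean`) at `finite_L` (`LStep.lean`) and
`S30.HeckeInputs.trdeg_bar`.
-/

set_option autoImplicit false

namespace Fermat.Agent.S17.R

open AlgebraicCurve ModularCurve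

local notation "Qb" => AlgebraicClosure ℚ
local notation "Fb" => modularFunctionFieldBar

/-- Galois-stable divisors have `L(D)` with a basis of Galois-fixed (= `ℚ`-rational)
functions. -/
theorem exists_rational_basis (N : ℕ) [NeZero N] (D : Divisor Qb (Fb N))
    (hD : ∀ σ : Qb ≃ₐ[ℚ] Qb, arithmeticGalois (modularFunctionFieldFull N) σ • D = D) :
    ∃ (n : ℕ) (b : Fin n → Fb N),
      (∀ i, ∀ σ : Qb ≃ₐ[ℚ] Qb, arithmeticGalois (modularFunctionFieldFull N) σ • b i = b i) ∧
      LinearIndependent Qb b ∧
      Submodule.span Qb (Set.range b) = riemannRochSpace D :=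
  exists_rational_basis_of_finite N D
    (finite_L (Fermat.Agent.S30.HeckeInputs.trdeg_bar N) D) hD

/-- The `ℚ`-rational form: `L(D)` of a Galois-stable divisor is spanned over `ℚ̄` by finitely
many linearly independent functions with rational `q`-expansions. -/
theorem exists_rational_basis_coeffEmb (N : ℕ) [NeZero N] (D : Divisor Qb (Fb N))
    (hD : ∀ σ : Qb ≃ₐ[ℚ] Qb, arithmeticGalois (modularFunctionFieldFull N) σ • D = D) :
    ∃ (n : ℕ) (b : Fin n → Fb N),
      (∀ i, ∃ g ∈ modularFunctionFieldFull N, ((b i : Fb N) : LaurentSeries Qb) = coeffEmb Qb g) ∧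
      LinearIndependent Qb b ∧
      Submodule.span Qb (Set.range b) = riemannRochSpace D := by
  obtain ⟨n, b, hfix, hli, hspan⟩ := exists_rational_basis N D hD
  exact ⟨n, b, fun i => (fixed_iff_rational N (b i)).mp (hfix i), hli, hspan⟩

end Fermat.Agent.S17.R
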