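/-
MW strand R (helper178), curve instance for block D4 of strand H (the adjugate form): the
**pole-order filtration** `poleFilt v₀ e = L(e · v₀)` (`e : ℤ`) of the function field, as a
monotone multiplicative filtration in the sense of `H/Glob/WeightedDet`, and the Apéry basis in
the filtered form consumed by the weighted-degree machinery.

* `poleFilt v₀ e`, `isMulFilt_poleFilt`, `monotone_poleFilt`, `algebraMap_mem_poleFilt`,
  `mem_poleFilt_iff`, `poleFilt_eq_bot` (`e < 0`);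
* `exists_apery_filt` : for `x ∈ L((n+1)·v₀)` of pole order `n + 1` there are `w 0 = 1, …, w n`
  and weights `ν : Fin (n+1) → ℤ`, `ν 0 = 0`, `w c ∈ poleFilt v₀ (ν c)`, such that every
  `f ∈ poleFilt v₀ e` is `∑ pᵢ(x) wᵢ` with `pᵢ ∈ degFilt K (n+1) (e - ν i)` (REP), uniquely, and
  `2 ∑ ν = 2 (n+1) gR + (n+1) n`.
-/
import Mathlib
import Fermat.Agent.S17.R.Gaps
import Fermat.Agent.S17.H.Glob.WeightedDet

set_option autoImplicit false
set_option linter.unusedSectionVars false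

namespace Fermat.Agent.S17.R

open AlgebraicCurve Polynomial
open Fermat.Agent.S24.FF
open Fermat.Agent.S17.H.Glob

variable {K F : Type*} [Field K] [Field F] [Algebra K F]

/-- The pole-order filtration at `v₀`: `poleFilt v₀ e = L(e · v₀)`, the functions regular off
`v₀` with a pole of order at most `e` at `v₀` (for `e < 0`: a zero of order at least `-e`). -/
noncomputable def poleFilt (v₀ : Place K F) (e : ℤ) : AddSubgroup F :=
  (riemannRochSpace (e • Finsupp.single v₀ (1 : ℤ))).toAddSubgroup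

theorem mem_poleFilt {v₀ : Place K F} {e : ℤ} {f : F} :
    f ∈ poleFilt v₀ e ↔ f ∈ riemannRochSpace (e • Finsupp.single v₀ (1 : ℤ)) := Iff.rfl

theorem mem_poleFilt_iff {v₀ : Place K F} {e : ℤ} {f : F} (hf : f ≠ 0) :
    f ∈ poleFilt v₀ e ↔ -e ≤ v₀.ord f ∧ ∀ v : Place K F, v ≠ v₀ → 0 ≤ v.ord f :=
  Gaps.mem_Ln_iff v₀ e hf

theorem monotone_poleFilt (v₀ : Place K F) : Monotone (poleFilt v₀) :=
  fun _ _ h _ hf => Gaps.Ln_mono v₀ h hf

theorem isMulFilt_poleFilt (v₀ : Place K F) : WeightedDet.IsMulFilt (poleFilt v₀) where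
  one_mem := by
    rw [mem_poleFilt, zero_smul]
    exact RiemannAux.one_mem_L_zero
  mul_mem := by
    intro d e a b ha hb
    rw [mem_poleFilt] at ha hb ⊢
    have h := mul_mem_L ha hb
    rwa [← add_smul] at h

theorem algebraMap_mem_poleFilt (v₀ : Place K F) (k : K) :
    algebraMap K F k ∈ poleFilt v₀ 0 := by
  rw [mem_poleFilt, zero_smul, Algebra.algebraMap_eq_smul_one]
  exact Submodule.smul_mem _ k RiemannAux.one_mem_L_zero

theorem smul_mem_poleFilt {v₀ : Place K F} {e : ℤ} {f : F} (k : K) (hf : f ∈ poleFilt v₀ e) :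
    k • f ∈ poleFilt v₀ e := by
  rw [mem_poleFilt] at hf ⊢
  exact Submodule.smul_mem _ k hf

variable [IsAlgClosed K] [CharZero K] [Algebra.EssFiniteType K F]

theorem poleFilt_eq_bot (htr : Algebra.trdeg K F = 1) (v₀ : Place K F) {e : ℤ} (he : e < 0) :
    poleFilt v₀ e = ⊥ := by
  ext f
  rw [mem_poleFilt, L_eq_bot_of_degree_neg htr (by rw [Gaps.degree_zsmul_single htr]; exact he),
    Submodule.mem_bot, AddSubgroup.mem_bot]

/-- **The Apéry basis in filtered form** (the curve instance of the hypotheses of the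
weighted-degree machinery of block D4). -/
theorem exists_apery_filt (htr : Algebra.trdeg K F = 1) (v₀ : Place K F) (x : F) (n : ℕ)
    (hx : x ∈ poleFilt v₀ ((n + 1 : ℕ) : ℤ)) (hord : v₀.ord x = -((n + 1 : ℕ) : ℤ)) :
    ∃ (w : Fin (n + 1) → F) (ν : Fin (n + 1) → ℤ), w 0 = 1 ∧ ν 0 = 0 ∧ (∀ c, 0 ≤ ν c) ∧
      (∀ c, w c ∈ poleFilt v₀ (ν c)) ∧ (∀ c, v₀.ord (w c) = -ν c) ∧
      (∀ (e : ℤ) (f : F), f ∈ poleFilt v₀ e → ∃ p : Fin (n + 1) → K[X],
        f = ∑ i, aeval x (p i) * w i ∧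
          ∀ i, p i ∈ WeightedDet.degFilt K ((n + 1 : ℕ) : ℤ) (e - ν i)) ∧
      (∀ p : Fin (n + 1) → K[X], ∑ i, aeval x (p i) * w i = 0 → p = 0) ∧
      2 * ∑ k, ν k = 2 * ((n + 1 : ℕ) : ℤ) * (gR K F : ℤ) + ((n + 1 : ℕ) : ℤ) * (n : ℤ) := by
  obtain ⟨w, ν, hwL, hwo, hν2, hone, hsum, hspan, hfree⟩ :=
    exists_apery htr v₀ x (n + 1) (Nat.succ_pos n) hx hord
  have h0 : (0 : Fin (n + 1)) = ⟨0, Nat.succ_pos n⟩ := rfl
  have hν0 : ν 0 = 0 := by
    have h1 := hwo 0
    rw [h0, hone, Place.ord_one] at h1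
    rw [h0]
    omega
  refine ⟨w, fun c => (ν c : ℤ), ?_, ?_, fun c => Int.natCast_nonneg _, hwL, hwo, ?_, hfree, ?_⟩
  · rw [h0]
    exact hone
  · show ((ν 0 : ℕ) : ℤ) = 0
    rw [hν0]
    rfl
  · intro e f hf
    by_cases he : e < 0
    · have hf0 : f = 0 := by
        rw [poleFilt_eq_bot htr v₀ he] at hf
        exact AddSubgroup.mem_bot.mp hf
      refine ⟨fun _ => 0, ?_, fun i => AddSubgroup.zero_mem _⟩
      rw [hf0]
      symm
      refine Finset.sum_eq_zero fun i _ => ?_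
      rw [map_zero, zero_mul]
    · rw [not_lt] at he
      obtain ⟨m, hm⟩ : ∃ m : ℕ, (m : ℤ) = e := ⟨e.toNat, Int.toNat_of_nonneg he⟩
      subst hm
      obtain ⟨p, hp, hpd⟩ := hspan m f hf
      refine ⟨p, hp, fun i => ?_⟩
      by_cases hp0 : p i = 0
      · rw [hp0]
        exact AddSubgroup.zero_mem _
      · refine WeightedDet.mem_degFilt_of_natDegree_le (Int.natCast_nonneg _) ?_
        have h1 := hpd i hp0
        have h2 : (((p i).natDegree * (n + 1) + ν i : ℕ) : ℤ) ≤ (m : ℤ) := by exact_mod_cast h1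
        push_cast at h2 ⊢
        linarith
  · have hk : ∀ k : Fin (n + 1), ((ν k : ℕ) : ℤ) =
        ((n + 1 : ℕ) : ℤ) * ((ν k / (n + 1) : ℕ) : ℤ) + ((k : ℕ) : ℤ) := by
      intro k
      have h1 := Nat.mod_add_div (ν k) (n + 1)
      rw [hν2 k] at h1
      have h2 : ((ν k : ℕ) : ℤ) = (((k : ℕ) + (n + 1) * (ν k / (n + 1)) : ℕ) : ℤ) := by rw [h1]
      rw [h2]
      push_cast
      ring
    have hg : ∑ k : Fin (n + 1), ((ν k / (n + 1) : ℕ) : ℤ) = (gR K F : ℤ) := by
      exact_mod_cast hsum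
    have hi : 2 * ∑ k : Fin (n + 1), ((k : ℕ) : ℤ) = ((n + 1 : ℕ) : ℤ) * (n : ℤ) := by
      have h1 := Finset.sum_range_id_mul_two (n + 1)
      rw [Finset.sum_range (fun i => i), Nat.add_sub_cancel] at h1
      have h2 : ((((∑ i : Fin (n + 1), (i : ℕ)) * 2 : ℕ)) : ℤ) = (((n + 1) * n : ℕ) : ℤ) := by
        rw [h1]
      push_cast at h2 ⊢
      linarith
    rw [Finset.sum_congr rfl (fun k _ => hk k), Finset.sum_add_distrib, ← Finset.mul_sum, hg]
    linarith

end Fermat.Agent.S17.R
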