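/-
MW strand R (helper178), curve instance for block D4 of strand H (adjugate form, leaf FIB): the
pole-order filtration and the Apéry basis **on the ring `↥(regOff v₀)`** of the functions regular
off `v₀` (the ring on which the evaluations at the places `≠ v₀` are `K`-algebra maps).

* `regFilt v₀ e` : the elements of `↥(regOff v₀)` with pole order `≤ e` at `v₀` (zero allowed);
  `mem_regFilt_iff`, `isMulFilt_regFilt`, `monotone_regFilt`, `algebraMap_mem_regFilt`,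
  `mem_regFilt_neg_ord`;
* `exists_apery_reg` : for `x : ↥(regOff v₀)` of pole order `n + 1` there are `w 0 = 1, …, w n` in
  `↥(regOff v₀)` and weights `ν`, `ν 0 = 0`, `w c ∈ regFilt v₀ (ν c)`, with the representation
  property (every `f ∈ regFilt v₀ e` is `∑ pᵢ(x) wᵢ` with `pᵢ ∈ degFilt K (n+1) (e - ν i)`),
  freeness, and `2 ∑ ν = 2 (n+1) gR + (n+1) n`;
* `exists_structure_reg` : structure matrices with degree control.
-/
import Mathlib
import Fermat.Agent.S17.R.Eval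
import Fermat.Agent.S17.R.AperyFilt

set_option autoImplicit false
set_option linter.unusedSectionVars false

namespace Fermat.Agent.S17.R.AperyReg

open AlgebraicCurve Polynomial
open Fermat.Agent.S24.FF
open Fermat.Agent.S17.R
open Fermat.Agent.S17.H.Glob

variable {K F : Type*} [Field K] [Field F] [Algebra K F]

/-- The pole-order filtration of the ring of functions regular off `v₀`. -/
noncomputable def regFilt (v₀ : Place K F) (e : ℤ) : AddSubgroup ↥(regOff v₀) :=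
  (poleFilt v₀ e).comap (regOff v₀).val.toRingHom.toAddMonoidHom

theorem mem_regFilt {v₀ : Place K F} {e : ℤ} {f : ↥(regOff v₀)} :
    f ∈ regFilt v₀ e ↔ (f : F) ∈ poleFilt v₀ e := Iff.rfl

theorem mem_regFilt_iff {v₀ : Place K F} {e : ℤ} {f : ↥(regOff v₀)} :
    f ∈ regFilt v₀ e ↔ ((f : F) = 0 ∨ -e ≤ v₀.ord (f : F)) := by
  rw [mem_regFilt]
  by_cases hf : (f : F) = 0
  · rw [hf]
    exact ⟨fun _ => Or.inl rfl, fun _ => AddSubgroup.zero_mem _⟩
  · rw [mem_poleFilt_iff hf]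
    constructor
    · exact fun h => Or.inr h.1
    · rintro (h | h)
      · exact absurd h hf
      · exact ⟨h, fun v hv => (ord_nonneg_iff v hf).mpr (f.2 v hv)⟩

theorem mem_regFilt_neg_ord {v₀ : Place K F} (f : ↥(regOff v₀)) :
    f ∈ regFilt v₀ (-(v₀.ord (f : F))) := by
  rw [mem_regFilt_iff, neg_neg]
  exact Or.inr le_rfl

theorem monotone_regFilt (v₀ : Place K F) : Monotone (regFilt v₀) :=
  fun _ _ h _ hf => monotone_poleFilt v₀ h hf

theorem isMulFilt_regFilt (v₀ : Place K F) : WeightedDet.IsMulFilt (regFilt v₀) where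
  one_mem := (isMulFilt_poleFilt v₀).one_mem
  mul_mem := fun ha hb => (isMulFilt_poleFilt v₀).mul_mem ha hb

theorem algebraMap_mem_regFilt (v₀ : Place K F) (k : K) :
    algebraMap K ↥(regOff v₀) k ∈ regFilt v₀ 0 :=
  algebraMap_mem_poleFilt v₀ k

/-- Structure matrices with degree control, from the representation property. -/
theorem exists_structure_reg {v₀ : Place K F} {x : ↥(regOff v₀)} {n : ℕ}
    {w : Fin (n + 1) → ↥(regOff v₀)} {ν : Fin (n + 1) → ℤ}
    (hw : ∀ c, w c ∈ regFilt v₀ (ν c))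
    (hrep : ∀ (e : ℤ) (f : ↥(regOff v₀)), f ∈ regFilt v₀ e → ∃ c : Fin (n + 1) → K[X],
      f = ∑ i, aeval x (c i) * w i ∧
        ∀ i, c i ∈ WeightedDet.degFilt K ((n : ℤ) + 1) (e - ν i))
    {τ : Type*} (φ : τ → ↥(regOff v₀)) (μ : τ → ℤ) (hφ : ∀ s, φ s ∈ regFilt v₀ (μ s)) :
    ∃ u : τ → Matrix (Fin (n + 1)) (Fin (n + 1)) K[X],
      (∀ s c, φ s * w c = ∑ i, aeval x (u s i c) * w i) ∧
      ∀ s i c, u s i c ∈ WeightedDet.degFilt K ((n : ℤ) + 1) (μ s + ν c - ν i) := by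
  have h : ∀ s c, ∃ p : Fin (n + 1) → K[X], φ s * w c = ∑ i, aeval x (p i) * w i ∧
      ∀ i, p i ∈ WeightedDet.degFilt K ((n : ℤ) + 1) (μ s + ν c - ν i) :=
    fun s c => hrep _ _ ((isMulFilt_regFilt v₀).mul_mem (hφ s) (hw c))
  choose p hp1 hp2 using h
  exact ⟨fun s => Matrix.of fun i c => p s c i, fun s c => hp1 s c, fun s i c => hp2 s c i⟩

variable [IsAlgClosed K] [CharZero K] [Algebra.EssFiniteType K F]

/-- **The Apéry basis of `↥(regOff v₀)` in filtered form.** -/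
theorem exists_apery_reg (htr : Algebra.trdeg K F = 1) (v₀ : Place K F) (x : ↥(regOff v₀))
    (n : ℕ) (hord : v₀.ord (x : F) = -((n : ℤ) + 1)) :
    ∃ (w : Fin (n + 1) → ↥(regOff v₀)) (ν : Fin (n + 1) → ℤ), w 0 = 1 ∧ ν 0 = 0 ∧
      (∀ c, 0 ≤ ν c) ∧ (∀ c, w c ∈ regFilt v₀ (ν c)) ∧ (∀ c, v₀.ord (w c : F) = -ν c) ∧
      x ∈ regFilt v₀ ((n : ℤ) + 1) ∧
      (∀ (e : ℤ) (f : ↥(regOff v₀)), f ∈ regFilt v₀ e → ∃ c : Fin (n + 1) → K[X],
        f = ∑ i, aeval x (c i) * w i ∧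
          ∀ i, c i ∈ WeightedDet.degFilt K ((n : ℤ) + 1) (e - ν i)) ∧
      (∀ p : Fin (n + 1) → K[X], ∑ i, aeval x (p i) * w i = 0 → p = 0) ∧
      2 * ∑ k, ν k = 2 * ((n : ℤ) + 1) * (gR K F : ℤ) + ((n : ℤ) + 1) * (n : ℤ) := by
  have hcast : ((n + 1 : ℕ) : ℤ) = (n : ℤ) + 1 := by push_cast; ring
  have hxF : x ∈ regFilt v₀ ((n : ℤ) + 1) := by
    rw [mem_regFilt_iff, hord]
    exact Or.inr le_rfl
  have hxF' : (x : F) ∈ poleFilt v₀ ((n + 1 : ℕ) : ℤ) := by
    rw [hcast]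
    exact hxF
  have hord' : v₀.ord (x : F) = -((n + 1 : ℕ) : ℤ) := by rw [hcast, hord]
  obtain ⟨w, ν, hw0, hν0, hνnn, hwL, hwo, hrep, hfree, hsum⟩ :=
    exists_apery_filt htr v₀ (x : F) n hxF' hord'
  rw [hcast] at hsum
  have hwR : ∀ c, w c ∈ regOff v₀ := by
    intro c v hv
    by_cases hc : w c = 0
    · rw [hc]
      exact zero_mem _
    · exact (ord_nonneg_iff v hc).mp (((mem_poleFilt_iff hc).mp (hwL c)).2 v hv)
  have hcoe : ∀ p : Fin (n + 1) → K[X],
      ((∑ i, aeval x (p i) * (⟨w i, hwR i⟩ : ↥(regOff v₀)) : ↥(regOff v₀)) : F) =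
        ∑ i, aeval (x : F) (p i) * w i := by
    intro p
    rw [AddSubmonoidClass.coe_finsetSum]
    simp only [Subalgebra.coe_mul, Polynomial.aeval_subalgebra_coe]
  refine ⟨fun c => ⟨w c, hwR c⟩, ν, Subtype.ext hw0, hν0, hνnn, fun c => hwL c, hwo, hxF,
    ?_, ?_, hsum⟩
  · intro e f hf
    obtain ⟨p, hp, hpd⟩ := hrep e (f : F) hf
    refine ⟨p, Subtype.ext ?_, fun i => ?_⟩
    · rw [hcoe, hp]
    · have := hpd i
      rwa [hcast] at this
  · intro p hp
    refine hfree p ?_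
    rw [← hcoe, hp]
    rfl

end Fermat.Agent.S17.R.AperyReg
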