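/-
MW strand R, leaf R22 (helper19) = (CAR0) of strand HB: generic position of `gR` points.

`F / K` a function field of one variable over an algebraically closed field of characteristic
zero, `Q₀` a place, `S` a finite set of places.

* `finrank_L_single`          : positive genus ⟹ `l(Q₀) = 1` (no function with one simple pole);
* `exists_generic_finset_sub` : a set `E₀` of `gR` places off `S ∪ {Q₀}` with `l(E₀) = 1` and
  `l(E₀ - P + Q₀) = 1` for every `P ∈ E₀`;
* `exists_generic_finset`     : the same with `E₀.erase P` (classical decidable equality).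

Only Riemann's theorem in large degree is used (`riemann_eq_of_large`), through
`nonspecial_step` (leaf R9) and the gap theorem `ncard_gaps`.
-/
import Mathlib
import Fermat.Prelude.Def_AlgebraicCurve_Repartitions
import Fermat.Agent.S17.R.LSpace
import Fermat.Agent.S17.R.Riemann
import Fermat.Agent.S17.R.Places
import Fermat.Agent.S17.R.NonSpecialStep
import Fermat.Agent.S17.R.Gaps

set_option autoImplicit false

namespace Fermat.Agent.S17.R.GenericPos

open AlgebraicCurve Fermat.Agent.S17.R

variable {K F : Type*} [Field K] [Field F] [Algebra K F]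
variable [IsAlgClosed K] [CharZero K] [Algebra.EssFiniteType K F]

/-- positive genus: no function with a single simple pole, `l(Q₀) = 1`. -/
theorem finrank_L_single (htr : Algebra.trdeg K F = 1) (hg : 0 < gR K F) (Q₀ : Place K F) :
    Module.finrank K ↥(riemannRochSpace (Finsupp.single Q₀ (1 : ℤ))) = 1 := by
  have hgap : ¬ IsNonGap Q₀ (0 + 1) := by
    intro h1
    obtain ⟨hfin, hcard⟩ := ncard_gaps htr Q₀
    have hempty : {n : ℕ | ¬ IsNonGap Q₀ n} = ∅ := by
      ext n
      simp only [Set.mem_setOf_eq, Set.mem_empty_iff_false, iff_false, not_not]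
      have h := isNonGap_mul h1 n
      rwa [zero_add, mul_one] at h
    rw [hempty, Set.ncard_empty] at hcard
    omega
  have h1 := Gaps.finrank_Ln_succ_of_gap Q₀ 0 hgap
  rw [Gaps.finrank_Ln_zero htr Q₀] at h1
  have h2 : (((0 + 1 : ℕ) : ℤ) • Finsupp.single Q₀ (1 : ℤ) : Divisor K F) =
      Finsupp.single Q₀ (1 : ℤ) := by
    rw [zero_add, Nat.cast_one, one_smul]
  rw [h2] at h1
  exact h1

/-- The invariant of the greedy construction. -/
def Good (Q₀ : Place K F) (S : Finset (Place K F)) (U : Finset (Place K F)) : Prop :=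
  Disjoint U S ∧ Q₀ ∉ U ∧
    Module.finrank K ↥(riemannRochSpace (∑ v ∈ U, Finsupp.single v (1 : ℤ))) = 1 ∧
    (∀ P ∈ U, ∀ U' : Finset (Place K F), P ∉ U' → (∀ v, v ∈ U ↔ v = P ∨ v ∈ U') →
      Module.finrank K ↥(riemannRochSpace
        (∑ v ∈ U', Finsupp.single v (1 : ℤ) + Finsupp.single Q₀ 1)) = 1) ∧
    (U.card < gR K F → Module.finrank K ↥(riemannRochSpace
        (∑ v ∈ U, Finsupp.single v (1 : ℤ) + Finsupp.single Q₀ 1)) = 1)

/-- `deg (∑ U + Q₀) = card U + 1`. -/
theorem degree_sum_add (htr : Algebra.trdeg K F = 1) (U : Finset (Place K F)) (Q₀ : Place K F) :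
    Divisor.degree (∑ v ∈ U, Finsupp.single v (1 : ℤ) + Finsupp.single Q₀ 1) =
      (U.card : ℤ) + 1 := by
  rw [map_add, NonSpecialStep.degree_sum_single htr, NonSpecialStep.degree_single_one htr]

/-- `∑ U + Q₀ ≥ 0`. -/
theorem sum_add_nonneg (U : Finset (Place K F)) (Q₀ : Place K F) :
    (0 : Divisor K F) ≤ ∑ v ∈ U, Finsupp.single v (1 : ℤ) + Finsupp.single Q₀ 1 :=
  add_nonneg (NonSpecialStep.sum_single_nonneg U) (NonSpecialStep.single_one_nonneg Q₀)

/-- The value of `∑ U + Q₀` at a place outside `U ∪ {Q₀}`. -/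
theorem sum_add_apply (U : Finset (Place K F)) {Q₀ E : Place K F} (hE : E ∉ U) (hEQ : E ≠ Q₀) :
    (∑ v ∈ U, Finsupp.single v (1 : ℤ) + Finsupp.single Q₀ 1 : Divisor K F) E = 0 := by
  rw [Finsupp.add_apply, NonSpecialStep.sum_single_apply_of_notMem U hE,
    Finsupp.single_eq_of_ne hEQ, add_zero]

/-- The greedy construction. -/
theorem exists_good (htr : Algebra.trdeg K F = 1) (Q₀ : Place K F) (S : Finset (Place K F)) :
    ∀ j : ℕ, j ≤ gR K F → ∃ U : Finset (Place K F), U.card = j ∧ Good Q₀ S U := by
  classical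
  obtain ⟨c, hc⟩ := riemann_eq_of_large (K := K) (F := F) htr
  intro j
  induction j with
  | zero =>
    intro _
    refine ⟨∅, Finset.card_empty, Finset.disjoint_empty_left S, Finset.notMem_empty Q₀, ?_, ?_, ?_⟩
    · rw [Finset.sum_empty]
      exact NonSpecialStep.finrank_L_zero htr
    · intro P hP
      exact absurd hP (Finset.notMem_empty P)
    · intro hg
      rw [Finset.card_empty] at hg
      rw [Finset.sum_empty, zero_add]
      exact finrank_L_single htr hg Q₀
  | succ j ih =>
    intro hj
    obtain ⟨U, hcard, hdisj, hQ, h0, hP, hcc⟩ := ih (by omega)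
    have hjg : U.card < gR K F := by omega
    have hQU := hcc hjg
    -- the three kinds of exceptional sets
    have hfin0 := (nonspecial_step htr hc (A := ∑ v ∈ U, Finsupp.single v (1 : ℤ))
      (NonSpecialStep.sum_single_nonneg U) h0
      (by rw [NonSpecialStep.degree_sum_single htr]; exact_mod_cast hjg)).1
    have hfinP : ∀ P ∈ U, {E : Place K F |
        (∑ v ∈ U.erase P, Finsupp.single v (1 : ℤ) + Finsupp.single Q₀ 1 : Divisor K F) E = 0 ∧
        Module.finrank K ↥(riemannRochSpace
          (∑ v ∈ U.erase P, Finsupp.single v (1 : ℤ) + Finsupp.single Q₀ 1 +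
            Finsupp.single E (1 : ℤ))) ≠ 1}.Finite := by
      intro P hPU
      have h1 := hP P hPU (U.erase P) (Finset.notMem_erase P U) (fun v => by
        rw [Finset.mem_erase]
        constructor
        · intro hv
          by_cases hvP : v = P
          · exact Or.inl hvP
          · exact Or.inr ⟨hvP, hv⟩
        · rintro (hv | hv)
          · rw [hv]; exact hPU
          · exact hv.2)
      refine (nonspecial_step htr hc (sum_add_nonneg (U.erase P) Q₀) h1 ?_).1
      rw [degree_sum_add htr, Finset.card_erase_of_mem hPU]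
      have h2 : 0 < U.card := Finset.card_pos.mpr ⟨P, hPU⟩
      have h3 : ((U.card - 1 : ℕ) : ℤ) = (U.card : ℤ) - 1 := by
        rw [Nat.cast_sub (by omega)]
        simp
      rw [h3]
      have h4 : (U.card : ℤ) < (gR K F : ℤ) := by exact_mod_cast hjg
      omega
    have hfinc : j + 1 < gR K F → {E : Place K F |
        (∑ v ∈ U, Finsupp.single v (1 : ℤ) + Finsupp.single Q₀ 1 : Divisor K F) E = 0 ∧
        Module.finrank K ↥(riemannRochSpace
          (∑ v ∈ U, Finsupp.single v (1 : ℤ) + Finsupp.single Q₀ 1 +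
            Finsupp.single E (1 : ℤ))) ≠ 1}.Finite := by
      intro hlt
      refine (nonspecial_step htr hc (sum_add_nonneg U Q₀) hQU ?_).1
      rw [degree_sum_add htr, hcard]
      have h4 : ((j + 1 : ℕ) : ℤ) < (gR K F : ℤ) := by exact_mod_cast hlt
      push_cast at h4
      omega
    -- the bad set
    let Bad : Set (Place K F) :=
      (((↑U ∪ ↑S) ∪ {Q₀}) ∪
        {E : Place K F | (∑ v ∈ U, Finsupp.single v (1 : ℤ) : Divisor K F) E = 0 ∧
          Module.finrank K ↥(riemannRochSpace
            (∑ v ∈ U, Finsupp.single v (1 : ℤ) + Finsupp.single E (1 : ℤ))) ≠ 1}) ∪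
      ((⋃ P ∈ (U : Set (Place K F)), {E : Place K F |
        (∑ v ∈ U.erase P, Finsupp.single v (1 : ℤ) + Finsupp.single Q₀ 1 : Divisor K F) E = 0 ∧
        Module.finrank K ↥(riemannRochSpace
          (∑ v ∈ U.erase P, Finsupp.single v (1 : ℤ) + Finsupp.single Q₀ 1 +
            Finsupp.single E (1 : ℤ))) ≠ 1}) ∪
      {E : Place K F | j + 1 < gR K F ∧
        (∑ v ∈ U, Finsupp.single v (1 : ℤ) + Finsupp.single Q₀ 1 : Divisor K F) E = 0 ∧
        Module.finrank K ↥(riemannRochSpace
          (∑ v ∈ U, Finsupp.single v (1 : ℤ) + Finsupp.single Q₀ 1 +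
            Finsupp.single E (1 : ℤ))) ≠ 1})
    have hBad : Bad.Finite := by
      refine Set.Finite.union (Set.Finite.union (Set.Finite.union (Set.Finite.union
        U.finite_toSet S.finite_toSet) (Set.finite_singleton Q₀)) hfin0)
        (Set.Finite.union (Set.Finite.biUnion U.finite_toSet
          (fun P hPU => hfinP P (Finset.mem_coe.mp hPU))) ?_)
      by_cases hlt : j + 1 < gR K F
      · exact (hfinc hlt).subset fun E hE => hE.2
      · have hemp : {E : Place K F | j + 1 < gR K F ∧
            (∑ v ∈ U, Finsupp.single v (1 : ℤ) + Finsupp.single Q₀ 1 : Divisor K F) E = 0 ∧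
            Module.finrank K ↥(riemannRochSpace
              (∑ v ∈ U, Finsupp.single v (1 : ℤ) + Finsupp.single Q₀ 1 +
                Finsupp.single E (1 : ℤ))) ≠ 1} = ∅ := by
          ext E
          simp only [Set.mem_setOf_eq, Set.mem_empty_iff_false, iff_false]
          exact fun h => hlt h.1
        rw [hemp]
        exact Set.finite_empty
    haveI := infinite_place (K := K) (F := F) htr
    obtain ⟨E, -, hE⟩ := ((Set.infinite_univ (α := Place K F)).diff hBad).nonempty
    -- unpack `E ∉ Bad`
    have hEU : E ∉ U := fun h => hE (Or.inl (Or.inl (Or.inl (Or.inl (Finset.mem_coe.mpr h)))))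
    have hES : E ∉ S := fun h => hE (Or.inl (Or.inl (Or.inl (Or.inr (Finset.mem_coe.mpr h)))))
    have hEQ : E ≠ Q₀ := fun h => hE (Or.inl (Or.inl (Or.inr h)))
    have hE0 : Module.finrank K ↥(riemannRochSpace
        (∑ v ∈ U, Finsupp.single v (1 : ℤ) + Finsupp.single E (1 : ℤ))) = 1 := by
      by_contra hne
      exact hE (Or.inl (Or.inr ⟨NonSpecialStep.sum_single_apply_of_notMem U hEU, hne⟩))
    have hEP : ∀ P ∈ U, Module.finrank K ↥(riemannRochSpace
        (∑ v ∈ U.erase P, Finsupp.single v (1 : ℤ) + Finsupp.single Q₀ 1 +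
          Finsupp.single E (1 : ℤ))) = 1 := by
      intro P hPU
      by_contra hne
      refine hE (Or.inr (Or.inl ?_))
      rw [Set.mem_iUnion₂]
      exact ⟨P, Finset.mem_coe.mpr hPU,
        sum_add_apply (U.erase P) (fun h => hEU (Finset.mem_of_mem_erase h)) hEQ, hne⟩
    have hEc : j + 1 < gR K F → Module.finrank K ↥(riemannRochSpace
        (∑ v ∈ U, Finsupp.single v (1 : ℤ) + Finsupp.single Q₀ 1 +
          Finsupp.single E (1 : ℤ))) = 1 := by
      intro hlt
      by_contra hne
      exact hE (Or.inr (Or.inr ⟨hlt, sum_add_apply U hEU hEQ, hne⟩))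
    -- the new set
    have hsum : ∀ T : Finset (Place K F), E ∉ T →
        (∑ v ∈ insert E T, Finsupp.single v (1 : ℤ) : Divisor K F) =
          ∑ v ∈ T, Finsupp.single v (1 : ℤ) + Finsupp.single E (1 : ℤ) := by
      intro T hT
      rw [Finset.sum_insert hT, add_comm]
    refine ⟨insert E U, by rw [Finset.card_insert_of_notMem hEU, hcard], ?_, ?_, ?_, ?_, ?_⟩
    · rw [Finset.disjoint_insert_left]
      exact ⟨hES, hdisj⟩
    · rw [Finset.mem_insert]
      rintro (h | h)
      · exact hEQ h.symm
      · exact hQ h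
    · rw [hsum U hEU]
      exact hE0
    · intro P hPm U' hPU' hU'
      rcases Finset.mem_insert.mp hPm with hPE | hPU
      · -- `P = E`: `U' = U`
        have hUU' : U' = U := by
          ext v
          constructor
          · intro hv
            have h1 := (hU' v).mpr (Or.inr hv)
            rcases Finset.mem_insert.mp h1 with h2 | h2
            · exact absurd (h2 ▸ hv) (hPE ▸ hPU')
            · exact h2
          · intro hv
            rcases (hU' v).mp (Finset.mem_insert_of_mem hv) with h2 | h2
            · exact absurd (h2 ▸ hv) (hPE ▸ hEU)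
            · exact h2
        rw [hUU']
        exact hQU
      · -- `P ∈ U`: `U' = insert E (U.erase P)`
        have hPE : P ≠ E := fun h => hEU (h ▸ hPU)
        have hUU' : U' = insert E (U.erase P) := by
          ext v
          rw [Finset.mem_insert, Finset.mem_erase]
          constructor
          · intro hv
            have hvP : v ≠ P := fun h => hPU' (h ▸ hv)
            rcases Finset.mem_insert.mp ((hU' v).mpr (Or.inr hv)) with h2 | h2
            · exact Or.inl h2
            · exact Or.inr ⟨hvP, h2⟩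
          · rintro (hv | hv)
            · rcases (hU' v).mp (by rw [hv]; exact Finset.mem_insert_self E U) with h2 | h2
              · exact absurd (hv.symm.trans h2) hPE.symm
              · exact h2
            · rcases (hU' v).mp (Finset.mem_insert_of_mem hv.2) with h2 | h2
              · exact absurd h2 hv.1
              · exact h2
        rw [hUU', hsum (U.erase P) (fun h => hEU (Finset.mem_of_mem_erase h)), add_right_comm]
        exact hEP P hPU
    · intro hlt
      rw [Finset.card_insert_of_notMem hEU, hcard] at hlt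
      rw [hsum U hEU, add_right_comm]
      exact hEc hlt

open Classical in
/-- **CAR0 (generic position)**: `gR` distinct places off `S ∪ {Q₀}` with `l(E₀) = 1` and
`l(E₀ - P + Q₀) = 1` for every `P ∈ E₀` (erase form). -/
theorem exists_generic_finset (htr : Algebra.trdeg K F = 1) (Q₀ : Place K F)
    (S : Finset (Place K F)) :
    ∃ E₀ : Finset (Place K F), E₀.card = gR K F ∧ Disjoint E₀ S ∧ Q₀ ∉ E₀ ∧
      Module.finrank K ↥(riemannRochSpace (∑ v ∈ E₀, Finsupp.single v (1 : ℤ))) = 1 ∧
      ∀ P ∈ E₀, Module.finrank K ↥(riemannRochSpace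
        (∑ v ∈ E₀.erase P, Finsupp.single v (1 : ℤ) + Finsupp.single Q₀ 1)) = 1 := by
  obtain ⟨U, hcard, hdisj, hQ, h0, hP, -⟩ := exists_good htr Q₀ S (gR K F) le_rfl
  refine ⟨U, hcard, hdisj, hQ, h0, fun P hPU => ?_⟩
  refine hP P hPU (U.erase P) (Finset.notMem_erase P U) fun v => ?_
  rw [Finset.mem_erase]
  constructor
  · intro hv
    by_cases hvP : v = P
    · exact Or.inl hvP
    · exact Or.inr ⟨hvP, hv⟩
  · rintro (hv | hv)
    · rw [hv]; exact hPU
    · exact hv.2

/-- **CAR0**, subtraction form (no decidable equality in the statement). -/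
theorem exists_generic_finset_sub (htr : Algebra.trdeg K F = 1) (Q₀ : Place K F)
    (S : Finset (Place K F)) :
    ∃ E₀ : Finset (Place K F), E₀.card = gR K F ∧ Disjoint E₀ S ∧ Q₀ ∉ E₀ ∧
      Module.finrank K ↥(riemannRochSpace (∑ v ∈ E₀, Finsupp.single v (1 : ℤ))) = 1 ∧
      ∀ P ∈ E₀, Module.finrank K ↥(riemannRochSpace
        (∑ v ∈ E₀, Finsupp.single v (1 : ℤ) - Finsupp.single P 1 + Finsupp.single Q₀ 1)) = 1 := by
  classical
  obtain ⟨E₀, hcard, hdisj, hQ, h0, hP⟩ := exists_generic_finset htr Q₀ S
  refine ⟨E₀, hcard, hdisj, hQ, h0, fun P hPE => ?_⟩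
  have h := hP P hPE
  rw [Finset.sum_erase_eq_sub hPE] at h
  exact h

end Fermat.Agent.S17.R.GenericPos
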