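/-
MW strand R, leaf R4 (modular exit): the reduced divisor of a class of `JZero N` with respect
to the cusp `∞` is Galois-equivariant; for a rational (Galois-fixed) class it is a
Galois-stable effective divisor of degree at most the genus which does not contain `∞`.
-/
import Mathlib
import Fermat.Agent.S17.R.Reduced
import Fermat.Agent.S17.R.FbInf
import Fermat.Agent.S30.HeckeInputs

set_option autoImplicit false

namespace Fermat.Agent.S17.R

open AlgebraicCurve ModularCurve

variable (N : ℕ) [NeZero N]

local notation "Qb" => AlgebraicClosure ℚ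
local notation "Fb" => modularFunctionFieldBar

/-- The reduced divisor (base place: the cusp `∞`) of a class of `JZero N`. -/
noncomputable def redDivInf (x : JZero N) : Divisor Qb (Fb N) := redDiv (infPlace N) x

/-- The reduced degree (base place: the cusp `∞`) of a class of `JZero N`. -/
noncomputable def redDegInf (x : JZero N) : ℕ := redDeg (infPlace N) x

theorem redDivInf_nonneg (x : JZero N) : 0 ≤ redDivInf N x :=
  redDiv_nonneg (Fermat.Agent.S30.HeckeInputs.trdeg_bar N) (infPlace N) x

theorem degree_redDivInf (x : JZero N) : Divisor.degree (redDivInf N x) = redDegInf N x :=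
  degree_redDiv (Fermat.Agent.S30.HeckeInputs.trdeg_bar N) (infPlace N) x

theorem redDegInf_le_gR (x : JZero N) : redDegInf N x ≤ gR Qb (Fb N) :=
  redDeg_le_gR (Fermat.Agent.S30.HeckeInputs.trdeg_bar N) (infPlace N) x

/-- `x = [redDivInf x - redDegInf x · ∞]`. -/
theorem mk_redDivInf (x : JZero N) :
    ∃ h : redDivInf N x - (redDegInf N x : ℤ) • Finsupp.single (infPlace N) (1 : ℤ) ∈
        Divisor.degZero (K := Qb) (F := Fb N),
      Pic0.mk ⟨redDivInf N x - (redDegInf N x : ℤ) • Finsupp.single (infPlace N) (1 : ℤ), h⟩ = x :=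
  mk_redDiv (Fermat.Agent.S30.HeckeInputs.trdeg_bar N) (infPlace N) x

/-- The cusp `∞` is not in the support of the reduced divisor. -/
theorem redDivInf_apply_infPlace (x : JZero N) : redDivInf N x (infPlace N) = 0 :=
  redDiv_apply_self (Fermat.Agent.S30.HeckeInputs.trdeg_bar N) (infPlace N) x

/-- Uniqueness: an effective `E` with `x = [E - redDegInf x · ∞]` is the reduced divisor. -/
theorem eq_redDivInf {x : JZero N} {E : Divisor Qb (Fb N)}
    (hE : IsEffRep (infPlace N) x (redDegInf N x) E) : E = redDivInf N x :=
  eq_redDiv (Fermat.Agent.S30.HeckeInputs.trdeg_bar N) hE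

/-- A class of `JZero N` is determined by its reduced divisor. -/
theorem redDivInf_injective : Function.Injective (redDivInf N) :=
  redDiv_injective (Fermat.Agent.S30.HeckeInputs.trdeg_bar N) (infPlace N)

/-- `l(redDivInf x) = 1`. -/
theorem finrank_L_redDivInf (x : JZero N) :
    Module.finrank Qb ↥(riemannRochSpace (redDivInf N x)) = 1 :=
  finrank_L_redDiv (Fermat.Agent.S30.HeckeInputs.trdeg_bar N) (infPlace N) x

theorem redDegInf_eq_zero_iff (x : JZero N) : redDegInf N x = 0 ↔ x = 0 :=
  redDeg_eq_zero_iff (Fermat.Agent.S30.HeckeInputs.trdeg_bar N) (infPlace N) x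

/-- The reduced degree is Galois-invariant. -/
theorem redDegInf_galois_smul (σ : Qb ≃ₐ[ℚ] Qb) (x : JZero N) :
    redDegInf N (σ • x) = redDegInf N x := by
  have h := redDeg_smul (arithmeticGalois (modularFunctionFieldFull N) σ) (infPlace N) x
  rw [smul_infPlace] at h
  exact h

/-- The reduced divisor is Galois-equivariant. -/
theorem redDivInf_galois_smul (σ : Qb ≃ₐ[ℚ] Qb) (x : JZero N) :
    redDivInf N (σ • x) = arithmeticGalois (modularFunctionFieldFull N) σ • redDivInf N x := by
  have h := redDiv_smul (Fermat.Agent.S30.HeckeInputs.trdeg_bar N)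
    (arithmeticGalois (modularFunctionFieldFull N) σ) (infPlace N) x
  rw [smul_infPlace] at h
  exact h

/-- **The reduced divisor of a rational class is Galois-stable.** -/
theorem galois_smul_redDivInf {x : JZero N} (hx : ∀ σ : Qb ≃ₐ[ℚ] Qb, σ • x = x)
    (σ : Qb ≃ₐ[ℚ] Qb) :
    arithmeticGalois (modularFunctionFieldFull N) σ • redDivInf N x = redDivInf N x := by
  rw [← redDivInf_galois_smul, hx σ]

/-- The same for a point of the Mordell-Weil group (the Galois-fixed points of `JZero N`). -/
theorem galois_smul_redDivInf_of_mem {x : JZero N}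
    (hx : x ∈ FixedPoints.addSubgroup (Qb ≃ₐ[ℚ] Qb) (JZero N)) (σ : Qb ≃ₐ[ℚ] Qb) :
    arithmeticGalois (modularFunctionFieldFull N) σ • redDivInf N x = redDivInf N x :=
  galois_smul_redDivInf N (fun τ => hx τ) σ

/-- Pointwise form of the stability: the multiplicity of the reduced divisor of a rational
class is constant on Galois orbits of places. -/
theorem redDivInf_apply_galois_smul {x : JZero N} (hx : ∀ σ : Qb ≃ₐ[ℚ] Qb, σ • x = x)
    (σ : Qb ≃ₐ[ℚ] Qb) (v : Place Qb (Fb N)) :
    redDivInf N x (arithmeticGalois (modularFunctionFieldFull N) σ • v) = redDivInf N x v := by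
  have h := SemilinearAut.divisor_smul_apply_smul
    (arithmeticGalois (modularFunctionFieldFull N) σ) (redDivInf N x) v
  rw [galois_smul_redDivInf N hx σ] at h
  exact h

end Fermat.Agent.S17.R
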