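import Mathlib
import Fermat.Prelude.Def_AlgebraicCurve_Repartitions
import Fermat.Agent.S24.FF.Principal
import Fermat.Agent.S24.FF.Residue
import Fermat.Agent.Lib.PlaceApprox
import Fermat.Agent.S17.R.LSpace
import Fermat.Agent.S17.R.Places

/-!
# MW strand R, leaf R17: the moving lemma and generators of `Pic⁰`

`F / K` is a function field of one variable over an algebraically closed field of characteristic
zero.

* `exists_move` : every divisor is linearly equivalent to a divisor whose support avoids a given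
  finite set of places (weak approximation, `Lib/PlaceApprox`).
* `single_sub_single_mem_degZero` : `P - Q` has degree zero.
* `pic0_closure_eq_top` : `Pic⁰` is generated by the classes `[P - Q₀]`, `P` outside any given
  finite set of places.
-/

set_option autoImplicit false

namespace Fermat.Agent.S17.R

open AlgebraicCurve

variable {K F : Type*} [Field K] [Field F] [Algebra K F]
variable [IsAlgClosed K] [CharZero K] [Algebra.EssFiniteType K F]

/-- Moving lemma: every divisor is linearly equivalent to one whose support avoids a finite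
set. -/
theorem exists_move (htr : Algebra.trdeg K F = 1) (D : Divisor K F) (S : Finset (Place K F)) :
    ∃ f : F, f ≠ 0 ∧ ∀ v ∈ S, (D + divOf K f) v = 0 := by
  obtain ⟨x, hx⟩ := exists_transcendental (K := K) (F := F) htr
  have : Module.Finite (IntermediateField.adjoin K {x}) F :=
    Fermat.Agent.S24.FF.finite_adjoin_simple htr hx
  obtain ⟨w, hw0, hw⟩ := Fermat.Agent.Lib.PlaceApprox.exists_forall_ord_eq_divisor x hx (-D) S
  refine ⟨w, hw0, fun v hv => ?_⟩
  rw [Finsupp.add_apply, divOf_apply htr, hw v hv, Finsupp.neg_apply, add_neg_cancel]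

theorem single_sub_single_mem_degZero (htr : Algebra.trdeg K F = 1) (P Q : Place K F) :
    (Finsupp.single P (1 : ℤ) - Finsupp.single Q (1 : ℤ) : Divisor K F) ∈
      Divisor.degZero (K := K) (F := F) := by
  rw [Divisor.mem_degZero, map_sub, Divisor.degree_single, Divisor.degree_single,
    Fermat.Agent.S24.FF.deg_eq_one htr P, Fermat.Agent.S24.FF.deg_eq_one htr Q, sub_self]

namespace Move

/-- `E ↦ E - (deg E) Q₀`, as an additive map into the divisors of degree zero. -/
noncomputable def toDegZero (htr : Algebra.trdeg K F = 1) (Q₀ : Place K F) :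
    Divisor K F →+ Divisor.degZero (K := K) (F := F) :=
  (AddMonoidHom.id (Divisor K F) - (Finsupp.singleAddHom Q₀).comp Divisor.degree).codRestrict
    (Divisor.degZero (K := K) (F := F)) (fun E => by
      rw [Divisor.mem_degZero, AddMonoidHom.sub_apply, AddMonoidHom.id_apply,
        AddMonoidHom.comp_apply, Finsupp.singleAddHom_apply, map_sub, Divisor.degree_single,
        Fermat.Agent.S24.FF.deg_eq_one htr Q₀, Nat.cast_one, mul_one, sub_self])

theorem coe_toDegZero (htr : Algebra.trdeg K F = 1) (Q₀ : Place K F) (E : Divisor K F) :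
    (toDegZero htr Q₀ E : Divisor K F) = E - Finsupp.single Q₀ (Divisor.degree E) := rfl

/-- The class of `E - (deg E) Q₀` in `Pic⁰`, additive in `E`. -/
noncomputable def cls (htr : Algebra.trdeg K F = 1) (Q₀ : Place K F) :
    Divisor K F →+ Pic0 K F :=
  (QuotientAddGroup.mk' ((Divisor.principal (K := K) (F := F)).addSubgroupOf
    (Divisor.degZero (K := K) (F := F)))).comp (toDegZero htr Q₀)

theorem cls_apply (htr : Algebra.trdeg K F = 1) (Q₀ : Place K F) (E : Divisor K F) :
    cls htr Q₀ E = Pic0.mk (toDegZero htr Q₀ E) := rfl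

theorem cls_single (htr : Algebra.trdeg K F = 1) (Q₀ a : Place K F) (b : ℤ) :
    cls htr Q₀ (Finsupp.single a b) = b • cls htr Q₀ (Finsupp.single a 1) := by
  rw [← map_zsmul, Finsupp.smul_single_one]

theorem cls_single_one (htr : Algebra.trdeg K F = 1) (Q₀ a : Place K F) :
    cls htr Q₀ (Finsupp.single a 1) =
      Pic0.mk ⟨Finsupp.single a (1 : ℤ) - Finsupp.single Q₀ (1 : ℤ),
        single_sub_single_mem_degZero htr a Q₀⟩ := by
  rw [cls_apply]
  congr 1
  apply Subtype.ext
  rw [coe_toDegZero, Divisor.degree_single, Fermat.Agent.S24.FF.deg_eq_one htr a, Nat.cast_one,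
    mul_one]

/-- On a divisor of degree zero `cls` is the class of the divisor. -/
theorem cls_eq_mk (htr : Algebra.trdeg K F = 1) (Q₀ : Place K F) {D : Divisor K F}
    (hD : D ∈ Divisor.degZero (K := K) (F := F)) : cls htr Q₀ D = Pic0.mk ⟨D, hD⟩ := by
  rw [cls_apply]
  congr 1
  apply Subtype.ext
  rw [coe_toDegZero, Divisor.mem_degZero.mp hD, Finsupp.single_zero, sub_zero]

theorem cls_principal (htr : Algebra.trdeg K F = 1) (Q₀ : Place K F) {D : Divisor K F}
    (hD : D ∈ Divisor.principal (K := K) (F := F)) : cls htr Q₀ D = 0 := by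
  obtain ⟨f, hf, hfD⟩ := hD
  have hdeg : Divisor.degree D = 0 := Fermat.Agent.S24.FF.degree_eq_zero_of_ord htr hf D hfD
  rw [cls_eq_mk htr Q₀ (Divisor.mem_degZero.mpr hdeg)]
  unfold Pic0.mk
  rw [QuotientAddGroup.eq_zero_iff, AddSubgroup.mem_addSubgroupOf]
  exact ⟨f, hf, hfD⟩

/-- `cls E` is a `ℤ`-combination of the classes `[a - Q₀]`, `a` in the support of `E`. -/
theorem cls_eq_sum (htr : Algebra.trdeg K F = 1) (Q₀ : Place K F) (E : Divisor K F) :
    cls htr Q₀ E = ∑ a ∈ E.support, E a • cls htr Q₀ (Finsupp.single a 1) := by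
  conv_lhs => rw [← Finsupp.sum_single E]
  rw [Finsupp.sum, map_sum]
  exact Finset.sum_congr rfl fun a _ => cls_single htr Q₀ a (E a)

theorem cls_mem_closure (htr : Algebra.trdeg K F = 1) (Q₀ : Place K F)
    (S : Finset (Place K F)) {E : Divisor K F} (hE : ∀ v ∈ S, E v = 0) :
    cls htr Q₀ E ∈ AddSubgroup.closure {y : Pic0 K F | ∃ P : Place K F, P ∉ S ∧
      y = Pic0.mk ⟨Finsupp.single P (1 : ℤ) - Finsupp.single Q₀ (1 : ℤ),
        single_sub_single_mem_degZero htr P Q₀⟩} := by
  rw [cls_eq_sum]
  refine AddSubgroup.sum_mem _ fun a ha => ?_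
  have hmem : cls htr Q₀ (Finsupp.single a 1) ∈ {y : Pic0 K F | ∃ P : Place K F, P ∉ S ∧
      y = Pic0.mk ⟨Finsupp.single P (1 : ℤ) - Finsupp.single Q₀ (1 : ℤ),
        single_sub_single_mem_degZero htr P Q₀⟩} :=
    ⟨a, fun haS => (Finsupp.mem_support_iff.mp ha) (hE a haS), cls_single_one htr Q₀ a⟩
  exact AddSubgroup.zsmul_mem _ (AddSubgroup.subset_closure hmem) _

end Move

/-- `Pic⁰` is generated by the classes `[P - Q₀]`, `P` outside any given finite set. -/
theorem pic0_closure_eq_top (htr : Algebra.trdeg K F = 1) (Q₀ : Place K F)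
    (S : Finset (Place K F)) :
    AddSubgroup.closure {y : Pic0 K F | ∃ P : Place K F, P ∉ S ∧
      y = Pic0.mk ⟨Finsupp.single P (1 : ℤ) - Finsupp.single Q₀ (1 : ℤ),
        single_sub_single_mem_degZero htr P Q₀⟩} = ⊤ := by
  rw [eq_top_iff]
  rintro x -
  obtain ⟨⟨D, hD⟩, rfl⟩ := Pic0.mk_surjective x
  obtain ⟨f, hf, hfS⟩ := exists_move htr D S
  have h1 : Pic0.mk ⟨D, hD⟩ = Move.cls htr Q₀ (D + divOf K f) := by
    rw [map_add, Move.cls_principal htr Q₀ (divOf_mem_principal htr hf), add_zero,
      Move.cls_eq_mk htr Q₀ hD]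
  rw [h1]
  exact Move.cls_mem_closure htr Q₀ S hfS

end Fermat.Agent.S17.R
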