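import Mathlib
import Fermat.Prelude.Def_AlgebraicCurve_BaseChangeGalois
import Fermat.Prelude.Def_ModularCurve_ArithmeticGalois
import Fermat.Agent.S17.R.Eval
import Fermat.Agent.S17.H.Glob.Eval

/-!
# S17 / strand R, leaf R13s: evaluation at places is equivariant for semilinear automorphisms

For a semilinear automorphism `g` of `F / K` (e.g. the arithmetic Galois action on `Fb N`),
a place `v` and a function `f`:

* `smul_mem`, `smul_mem_iff` : `g • f` is regular at `g • v` iff `f` is regular at `v`;
* `valuation_smul_lt_one_iff` : `g • f` vanishes at `g • v` iff `f` vanishes at `v`;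
* `glob_evalAt_smul` : `Glob.evalAt (g • v) (g • f) = baseAut g (Glob.evalAt v f)`
  (unconditional: the junk value `0` goes to the junk value `0`);
* `isEval_map_semi` : the same for an arbitrary value function `ev` (`Glob.IsEval ev`) at a
  function regular at `v`;
* `evalAt_smul` : the same for the residue-map evaluation `R.evalAt` of leaf R13;
* `glob_evalAt_galois`, `glob_evalAt_galois_fixed`, `evalAt_galois_fixed` : the corollaries for
  the arithmetic Galois action on `Fb N`: the value of a Galois-fixed function at `σ • P` is
  `σ` of its value at `P`.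
-/

set_option autoImplicit false

namespace Fermat.Agent.S17.R.EvalSmul

open AlgebraicCurve Fermat.Agent.S17.H

variable {K F : Type*} [Field K] [Field F] [Algebra K F]

/-- `g • f` is regular at `g • v` when `f` is regular at `v`. -/
theorem smul_mem (g : SemilinearAut K F) {v : Place K F} {f : F}
    (hf : f ∈ v.toValuationSubring) : g • f ∈ (g • v).toValuationSubring := by
  rw [SemilinearAut.smul_toValuationSubring]
  exact ValuationSubring.smul_mem_pointwise_smul g f v.toValuationSubring hf

/-- `g • f` is regular at `g • v` iff `f` is regular at `v`. -/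
theorem smul_mem_iff (g : SemilinearAut K F) {v : Place K F} {f : F} :
    g • f ∈ (g • v).toValuationSubring ↔ f ∈ v.toValuationSubring := by
  refine ⟨fun h => ?_, smul_mem g⟩
  have h2 := smul_mem g⁻¹ h
  rwa [inv_smul_smul, inv_smul_smul] at h2

/-- `g • f` vanishes at `g • v` iff `f` vanishes at `v`. -/
theorem valuation_smul_lt_one_iff (g : SemilinearAut K F) (v : Place K F) (f : F) :
    (g • v).toValuationSubring.valuation (g • f) < 1 ↔ v.toValuationSubring.valuation f < 1 := by
  rw [Glob.valuation_lt_one_iff, Glob.valuation_lt_one_iff, SemilinearAut.ord_smul,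
    smul_eq_zero_iff_eq]

theorem smul_sub_algebraMap (g : SemilinearAut K F) (f : F) (c : K) :
    g • f - algebraMap K F (SemilinearAut.baseAut g c) = g • (f - algebraMap K F c) := by
  rw [smul_sub, SemilinearAut.smul_algebraMap]

/-- `c` is a value of `f` at `v` iff `baseAut g c` is a value of `g • f` at `g • v`. -/
theorem valuation_smul_sub_lt_one_iff (g : SemilinearAut K F) (v : Place K F) (f : F) (c : K) :
    (g • v).toValuationSubring.valuation (g • f - algebraMap K F (SemilinearAut.baseAut g c)) < 1
      ↔ v.toValuationSubring.valuation (f - algebraMap K F c) < 1 := by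
  rw [smul_sub_algebraMap, valuation_smul_lt_one_iff]

/-- The defining property of `Glob.evalAt` where a value exists. -/
theorem glob_evalAt_spec {v : Place K F} {f : F}
    (h : ∃ c : K, v.toValuationSubring.valuation (f - algebraMap K F c) < 1) :
    v.toValuationSubring.valuation (f - algebraMap K F (Glob.evalAt v f)) < 1 := by
  unfold Glob.evalAt
  rw [dif_pos h]
  exact h.choose_spec

/-- The junk value of `Glob.evalAt` where no value exists. -/
theorem glob_evalAt_of_not {v : Place K F} {f : F}
    (h : ¬ ∃ c : K, v.toValuationSubring.valuation (f - algebraMap K F c) < 1) :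
    Glob.evalAt v f = 0 := by
  unfold Glob.evalAt
  rw [dif_neg h]

/-- **Equivariance of the canonical value function** (unconditional). -/
theorem glob_evalAt_smul (g : SemilinearAut K F) (v : Place K F) (f : F) :
    Glob.evalAt (g • v) (g • f) = SemilinearAut.baseAut g (Glob.evalAt v f) := by
  by_cases h : ∃ c : K, v.toValuationSubring.valuation (f - algebraMap K F c) < 1
  · have h' : ∃ c : K, (g • v).toValuationSubring.valuation (g • f - algebraMap K F c) < 1 := by
      obtain ⟨c, hc⟩ := h
      exact ⟨SemilinearAut.baseAut g c, (valuation_smul_sub_lt_one_iff g v f c).mpr hc⟩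
    exact Glob.value_unique (g • v) (glob_evalAt_spec h')
      ((valuation_smul_sub_lt_one_iff g v f _).mpr (glob_evalAt_spec h))
  · have h' : ¬ ∃ c : K, (g • v).toValuationSubring.valuation (g • f - algebraMap K F c) < 1 := by
      rintro ⟨c, hc⟩
      apply h
      refine ⟨(SemilinearAut.baseAut g).symm c, ?_⟩
      rw [← valuation_smul_sub_lt_one_iff g, RingEquiv.apply_symm_apply]
      exact hc
    rw [glob_evalAt_of_not h, glob_evalAt_of_not h', map_zero]

/-- **Equivariance of an arbitrary value function** at a function regular at `v`. -/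
theorem isEval_map_semi {ev : Place K F → F → K} (hev : Glob.IsEval ev) (g : SemilinearAut K F)
    {v : Place K F} {f : F} (hf : f ∈ v.toValuationSubring) :
    ev (g • v) (g • f) = SemilinearAut.baseAut g (ev v f) :=
  hev.eq_of_valuation_lt (smul_mem g hf)
    ((valuation_smul_sub_lt_one_iff g v f _).mpr (hev v f hf))

section Curve

variable [IsAlgClosed K] [CharZero K] [Algebra.EssFiniteType K F]

/-- **Equivariance of the residue-map evaluation** `R.evalAt` (leaf R13). -/
theorem evalAt_smul (htr : Algebra.trdeg K F = 1) (g : SemilinearAut K F) (v : Place K F)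
    (f : ↥v.toValuationSubring) :
    evalAt htr (g • v) ⟨g • (f : F), smul_mem g f.2⟩ =
      SemilinearAut.baseAut g (evalAt htr v f) := by
  rw [evalAt_eq_iff]
  show g • (f : F) = algebraMap K F (SemilinearAut.baseAut g (evalAt htr v f)) ∨
    0 < (g • v).ord (g • (f : F) - algebraMap K F (SemilinearAut.baseAut g (evalAt htr v f)))
  rw [smul_sub_algebraMap, SemilinearAut.ord_smul, ← SemilinearAut.smul_algebraMap]
  rcases (evalAt_eq_iff htr v f (evalAt htr v f)).mp rfl with h | h
  · exact Or.inl (congrArg (g • ·) h)
  · exact Or.inr h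

/-- `R.evalAt` and `Glob.evalAt` agree on the functions regular at `v`. -/
theorem evalAt_eq_glob (htr : Algebra.trdeg K F = 1) (v : Place K F)
    (f : ↥v.toValuationSubring) : evalAt htr v f = Glob.evalAt v (f : F) := by
  rw [evalAt_eq_iff]
  have h := (Glob.isEval_evalAt (K := K) (F := F) htr) v (f : F) f.2
  rcases (Glob.valuation_lt_one_iff v _).mp h with h0 | h0
  · exact Or.inl (sub_eq_zero.mp h0)
  · exact Or.inr h0

end Curve

section Modular

open ModularCurve

local notation "Qb" => AlgebraicClosure ℚ
local notation "Fb" => modularFunctionFieldBar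

/-- The arithmetic Galois action: `evalAt (σ • P) (σ • f) = σ (evalAt P f)`. -/
theorem glob_evalAt_galois (N : ℕ) (σ : Qb ≃ₐ[ℚ] Qb) (P : Place Qb (Fb N)) (f : Fb N) :
    Glob.evalAt (arithmeticGalois (modularFunctionFieldFull N) σ • P)
        (arithmeticGalois (modularFunctionFieldFull N) σ • f) = σ (Glob.evalAt P f) :=
  glob_evalAt_smul (arithmeticGalois (modularFunctionFieldFull N) σ) P f

/-- The value of a Galois-fixed function at `σ • P` is `σ` of its value at `P`. -/
theorem glob_evalAt_galois_fixed (N : ℕ) (σ : Qb ≃ₐ[ℚ] Qb) (P : Place Qb (Fb N)) {f : Fb N}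
    (hf : arithmeticGalois (modularFunctionFieldFull N) σ • f = f) :
    Glob.evalAt (arithmeticGalois (modularFunctionFieldFull N) σ • P) f = σ (Glob.evalAt P f) := by
  have h := glob_evalAt_galois N σ P f
  rwa [hf] at h

/-- A Galois-fixed function regular at `P` is regular at `σ • P`. -/
theorem mem_galois_smul_of_fixed (N : ℕ) (σ : Qb ≃ₐ[ℚ] Qb) {P : Place Qb (Fb N)} {f : Fb N}
    (hf : arithmeticGalois (modularFunctionFieldFull N) σ • f = f)
    (hP : f ∈ P.toValuationSubring) :
    f ∈ (arithmeticGalois (modularFunctionFieldFull N) σ • P).toValuationSubring := by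
  have h := smul_mem (arithmeticGalois (modularFunctionFieldFull N) σ) hP
  rwa [hf] at h

/-- The same for an arbitrary value function. -/
theorem isEval_galois_fixed (N : ℕ) {ev : Place Qb (Fb N) → Fb N → Qb} (hev : Glob.IsEval ev)
    (σ : Qb ≃ₐ[ℚ] Qb) {P : Place Qb (Fb N)} {f : Fb N}
    (hf : arithmeticGalois (modularFunctionFieldFull N) σ • f = f)
    (hP : f ∈ P.toValuationSubring) :
    ev (arithmeticGalois (modularFunctionFieldFull N) σ • P) f = σ (ev P f) := by
  have h := isEval_map_semi hev (arithmeticGalois (modularFunctionFieldFull N) σ) hP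
  rwa [hf] at h

/-- The same for the residue-map evaluation `R.evalAt`. -/
theorem evalAt_galois_fixed (N : ℕ) [Algebra.EssFiniteType Qb (Fb N)]
    (htr : Algebra.trdeg Qb (Fb N) = 1) (σ : Qb ≃ₐ[ℚ] Qb)
    (P : Place Qb (Fb N)) (f : ↥P.toValuationSubring)
    (hf : arithmeticGalois (modularFunctionFieldFull N) σ • (f : Fb N) = (f : Fb N)) :
    evalAt htr (arithmeticGalois (modularFunctionFieldFull N) σ • P)
        ⟨(f : Fb N), mem_galois_smul_of_fixed N σ hf f.2⟩ = σ (evalAt htr P f) := by
  have h := evalAt_smul htr (arithmeticGalois (modularFunctionFieldFull N) σ) P f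
  have e : (⟨(f : Fb N), mem_galois_smul_of_fixed N σ hf f.2⟩ :
      ↥(arithmeticGalois (modularFunctionFieldFull N) σ • P).toValuationSubring) =
      ⟨arithmeticGalois (modularFunctionFieldFull N) σ • (f : Fb N),
        smul_mem (arithmeticGalois (modularFunctionFieldFull N) σ) f.2⟩ :=
    Subtype.ext hf.symm
  rw [e]
  exact h

end Modular

end Fermat.Agent.S17.R.EvalSmul
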