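/-
MW strand R, leaf R8a (part 1): Weil differentials on the Prelude's repartitions.

A Weil differential is a `K`-linear form on `↥(repartitions K F)`; `weilOf D` is the space of
those vanishing on `R(D) + F`, i.e. the dual of `H1 D`.  The field `F` acts by
`(x • ω)(α) = ω(x • α)` (`smulDiff`), and `x • Ω(D) ⊆ Ω(D + div x)`.

Nothing here depends on the finiteness of `H1 D` (leaf R7); the two statements which do are
given in conditional form (`finite_weilOf_of_finite`, `finrank_weilOf_eq_h1`).
-/
import Mathlib
import Fermat.Prelude.Def_AlgebraicCurve_Repartitions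
import Fermat.Agent.S17.R.LSpace

set_option autoImplicit false

namespace Fermat.Agent.S17.R

open AlgebraicCurve

variable {K F : Type*} [Field K] [Field F] [Algebra K F]

/-- Weil differentials vanishing on `R(D) + F`. -/
noncomputable def weilOf (D : Divisor K F) : Submodule K (Module.Dual K ↥(repartitions K F)) :=
  (repartitionsOf D ⊔ principalRepartitions K F).dualAnnihilator

/-- The `F`-action on linear forms on the repartitions: `(x • ω)(α) = ω(x • α)`. -/
noncomputable def smulDiff (x : F) (ω : Module.Dual K ↥(repartitions K F)) :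
    Module.Dual K ↥(repartitions K F) :=
  ω.comp ((LinearMap.lsmul F ↥(repartitions K F) x).restrictScalars K)

theorem smulDiff_apply (x : F) (ω : Module.Dual K ↥(repartitions K F))
    (α : ↥(repartitions K F)) : smulDiff x ω α = ω (x • α) := rfl

theorem mem_weilOf_iff {D : Divisor K F} {ω : Module.Dual K ↥(repartitions K F)} :
    ω ∈ weilOf D ↔ (∀ α ∈ repartitionsOf D, ω α = 0) ∧
      ∀ α ∈ principalRepartitions K F, ω α = 0 := by
  unfold weilOf
  rw [Submodule.dualAnnihilator_sup_eq, Submodule.mem_inf, Submodule.mem_dualAnnihilator,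
    Submodule.mem_dualAnnihilator]

theorem weilOf_anti {D D' : Divisor K F} (h : D ≤ D') : weilOf D' ≤ weilOf D :=
  Submodule.dualAnnihilator_anti (sup_le_sup_right (repartitionsOf_mono h) _)

theorem smulDiff_one (ω : Module.Dual K ↥(repartitions K F)) : smulDiff (1 : F) ω = ω := by
  ext α
  rw [smulDiff_apply, one_smul]

theorem smulDiff_mul (x y : F) (ω : Module.Dual K ↥(repartitions K F)) :
    smulDiff (x * y) ω = smulDiff x (smulDiff y ω) := by
  ext α
  rw [smulDiff_apply, smulDiff_apply, smulDiff_apply, smul_smul, mul_comm]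

theorem smulDiff_add (x y : F) (ω : Module.Dual K ↥(repartitions K F)) :
    smulDiff (x + y) ω = smulDiff x ω + smulDiff y ω := by
  ext α
  rw [LinearMap.add_apply, smulDiff_apply, smulDiff_apply, smulDiff_apply, add_smul, map_add]

theorem smulDiff_add_right (x : F) (ω ω' : Module.Dual K ↥(repartitions K F)) :
    smulDiff x (ω + ω') = smulDiff x ω + smulDiff x ω' := by
  ext α
  rw [LinearMap.add_apply, smulDiff_apply, smulDiff_apply, smulDiff_apply, LinearMap.add_apply]

theorem smulDiff_algebraMap (c : K) (ω : Module.Dual K ↥(repartitions K F)) :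
    smulDiff (algebraMap K F c) ω = c • ω := by
  ext α
  rw [LinearMap.smul_apply, smulDiff_apply, algebraMap_smul, map_smul]

theorem smulDiff_zero (ω : Module.Dual K ↥(repartitions K F)) : smulDiff (0 : F) ω = 0 := by
  ext α
  rw [smulDiff_apply, zero_smul, map_zero, LinearMap.zero_apply]

theorem smulDiff_zero_right (x : F) :
    smulDiff x (0 : Module.Dual K ↥(repartitions K F)) = 0 := by
  ext α
  rw [smulDiff_apply, LinearMap.zero_apply, LinearMap.zero_apply]

/-- `K`-homogeneity in the function. -/
theorem smulDiff_smul (c : K) (x : F) (ω : Module.Dual K ↥(repartitions K F)) :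
    smulDiff (c • x) ω = c • smulDiff x ω := by
  ext α
  rw [LinearMap.smul_apply, smulDiff_apply, smulDiff_apply, smul_assoc, map_smul]

/-- `K`-homogeneity in the differential. -/
theorem smulDiff_smul_right (c : K) (x : F) (ω : Module.Dual K ↥(repartitions K F)) :
    smulDiff x (c • ω) = c • smulDiff x ω := by
  ext α
  rw [LinearMap.smul_apply, smulDiff_apply, smulDiff_apply, LinearMap.smul_apply]

theorem smulDiff_injective {x : F} (hx : x ≠ 0) :
    Function.Injective (smulDiff (K := K) x) := by
  intro ω₁ ω₂ h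
  have := congrArg (smulDiff x⁻¹) h
  rwa [← smulDiff_mul, ← smulDiff_mul, inv_mul_cancel₀ hx, smulDiff_one, smulDiff_one] at this

theorem smulDiff_eq_zero_iff {x : F} (hx : x ≠ 0) {ω : Module.Dual K ↥(repartitions K F)} :
    smulDiff x ω = 0 ↔ ω = 0 := by
  constructor
  · intro h
    apply smulDiff_injective hx
    rw [h, smulDiff_zero_right]
  · rintro rfl
    exact smulDiff_zero_right x

/-- For a nonzero differential, `x • ω = 0` only for `x = 0`. -/
theorem smulDiff_eq_zero_iff_left {x : F} {ω : Module.Dual K ↥(repartitions K F)}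
    (hω : ω ≠ 0) : smulDiff x ω = 0 ↔ x = 0 := by
  constructor
  · intro h
    by_contra hx
    exact hω ((smulDiff_eq_zero_iff hx).mp h)
  · rintro rfl
    exact smulDiff_zero ω

/-- `x ↦ x • ω` as a `K`-linear map `F → Ω`. -/
noncomputable def smulDiffRight (ω : Module.Dual K ↥(repartitions K F)) :
    F →ₗ[K] Module.Dual K ↥(repartitions K F) where
  toFun x := smulDiff x ω
  map_add' x y := smulDiff_add x y ω
  map_smul' c x := smulDiff_smul c x ω

theorem smulDiffRight_apply (ω : Module.Dual K ↥(repartitions K F)) (x : F) :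
    smulDiffRight ω x = smulDiff x ω := rfl

theorem smulDiffRight_injective {ω : Module.Dual K ↥(repartitions K F)} (hω : ω ≠ 0) :
    Function.Injective (smulDiffRight ω) := by
  rw [← LinearMap.ker_eq_bot, LinearMap.ker_eq_bot']
  intro x hx
  exact (smulDiff_eq_zero_iff_left hω).mp hx

/-- `Ω(D)` is the dual of `H¹(D)`. -/
noncomputable def weilEquiv (D : Divisor K F) : Module.Dual K (H1 D) ≃ₗ[K] ↥(weilOf D) :=
  Submodule.dualQuotEquivDualAnnihilator _

theorem finite_weilOf_of_finite (D : Divisor K F) (_h : Module.Finite K (H1 D)) :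
    Module.Finite K ↥(weilOf D) :=
  Module.Finite.equiv (weilEquiv D)

theorem finrank_weilOf_eq_h1 (D : Divisor K F) (_h : Module.Finite K (H1 D)) :
    Module.finrank K ↥(weilOf D) = Module.finrank K (H1 D) := by
  rw [← (weilEquiv D).finrank_eq, Subspace.dual_finrank_eq]

section Curve

variable [IsAlgClosed K] [CharZero K] [Algebra.EssFiniteType K F]

theorem smulDiff_mem_weilOf (htr : Algebra.trdeg K F = 1) {D : Divisor K F} {x : F} (hx : x ≠ 0)
    {ω : Module.Dual K ↥(repartitions K F)} (hω : ω ∈ weilOf D) :
    smulDiff x ω ∈ weilOf (D + divOf K x) := by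
  rw [mem_weilOf_iff] at hω ⊢
  refine ⟨fun α hα => ?_, fun α hα => ?_⟩
  · rw [smulDiff_apply]
    apply hω.1
    rw [mem_repartitionsOf_iff] at hα ⊢
    intro v
    by_cases h0 : (α : Place K F → F) v = 0
    · left
      show x * (α : Place K F → F) v = 0
      rw [h0, mul_zero]
    · right
      have h := (hα v).resolve_left h0
      show -D v ≤ v.ord (x * (α : Place K F → F) v)
      rw [v.ord_mul hx h0]
      rw [Finsupp.add_apply, divOf_apply htr] at h
      omega
  · rw [smulDiff_apply]
    apply hω.2
    rw [mem_principalRepartitions_iff] at hα ⊢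
    obtain ⟨f, hf⟩ := hα
    refine ⟨x * f, ?_⟩
    funext v
    show x * (α : Place K F → F) v = x * f
    rw [hf]

/-- `x ∈ L(A + B)`, `ω ∈ Ω(A)`: then `x • ω ∈ Ω(-B)`. -/
theorem smulDiff_mem_weilOf_of_mem_L (htr : Algebra.trdeg K F = 1) {A B : Divisor K F} {x : F}
    (hx : x ∈ riemannRochSpace (A + B)) {ω : Module.Dual K ↥(repartitions K F)}
    (hω : ω ∈ weilOf A) : smulDiff x ω ∈ weilOf (-B) := by
  by_cases hx0 : x = 0
  · rw [hx0, smulDiff_zero]
    exact zero_mem _
  · refine weilOf_anti ?_ (smulDiff_mem_weilOf htr hx0 hω)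
    have h := add_divOf_nonneg htr hx0 hx
    rw [Finsupp.le_def] at h ⊢
    intro v
    have := h v
    simp only [Finsupp.add_apply, Finsupp.zero_apply, Finsupp.neg_apply] at this ⊢
    omega

end Curve

end Fermat.Agent.S17.R
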