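/-
Strand R of PROGRAM MW (S17), leaf R7, core part.

The adele count on the Prelude's repartitions: along one-point steps `D ↦ D + P` the quotient
`H1 D = A ⧸ (A(D) + F)` changes by `1 - (l(D + P) - l(D))` dimensions, and `A = A(B) + F` as soon
as Riemann's equality holds above `B`.  Everything here takes Riemann's equality and the
finiteness of `L(D)` as hypotheses; `H1.lean` plugs in the landed literals.
-/
import Mathlib
import Fermat.Prelude.Def_AlgebraicCurve_Repartitions
import Fermat.Agent.S24.FF.Principal
import Fermat.Agent.S24.FF.Residue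
import Fermat.Agent.S17.R.LSpace

set_option autoImplicit false
set_option linter.unusedSectionVars false

namespace Fermat.Agent.S17.R.H1

open AlgebraicCurve WithZero IntermediateField Fermat.Agent.S24.FF

variable {K F : Type*} [Field K] [Field F] [Algebra K F]

/-! ### Linear algebra: one more dimension in a quotient -/

theorem quot_step {M : Type*} [AddCommGroup M] [Module K M] (p : Submodule K M) (x : M)
    (hx : x ∉ p) (hfin : Module.Finite K (M ⧸ (p ⊔ Submodule.span K {x}))) :
    Module.Finite K (M ⧸ p) ∧
      Module.finrank K (M ⧸ p) = Module.finrank K (M ⧸ (p ⊔ Submodule.span K {x})) + 1 := by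
  set N : Submodule K (M ⧸ p) := (Submodule.span K {x}).map p.mkQ with hN
  have e : ((M ⧸ p) ⧸ N) ≃ₗ[K] M ⧸ (p ⊔ Submodule.span K {x}) :=
    Submodule.quotientQuotientEquivQuotientSup p (Submodule.span K {x})
  have hN' : N = Submodule.span K {p.mkQ x} := by
    rw [hN, Submodule.map_span, Set.image_singleton]
  have hne : p.mkQ x ≠ 0 := by
    rw [Ne, Submodule.mkQ_apply, Submodule.Quotient.mk_eq_zero]
    exact hx
  have hNfin : Module.Finite K N := by
    rw [hN']
    infer_instance
  have hQfin : Module.Finite K ((M ⧸ p) ⧸ N) := Module.Finite.equiv e.symm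
  have hfinp : Module.Finite K (M ⧸ p) := Module.Finite.of_submodule_quotient N
  refine ⟨hfinp, ?_⟩
  have h1 := Submodule.finrank_quotient_add_finrank N
  have h2 : Module.finrank K N = 1 := by
    rw [hN']
    exact finrank_span_singleton hne
  have h3 := e.finrank_eq
  omega

/-! ### The value group -/

theorem lt_one_mul_exp_le {x : ℤᵐ⁰} (hx : x < 1) (n : ℤ) : x * exp n ≤ exp (n - 1) := by
  rcases eq_or_ne x 0 with rfl | h0
  · simp
  · obtain ⟨m, rfl⟩ : ∃ m : ℤ, x = exp m := ⟨log x, (exp_log h0).symm⟩
    rw [show (1 : ℤᵐ⁰) = exp (0 : ℤ) from rfl, exp_lt_exp] at hx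
    rw [← exp_add, exp_le_exp]
    omega

theorem eq_exp_of_le_of_not_le {x : ℤᵐ⁰} {n : ℤ} (h1 : x ≤ exp (n + 1)) (h2 : ¬ x ≤ exp n) :
    x = exp (n + 1) := by
  have h0 : x ≠ 0 := by
    rintro rfl
    exact h2 (by simp)
  obtain ⟨m, rfl⟩ : ∃ m : ℤ, x = exp m := ⟨log x, (exp_log h0).symm⟩
  rw [exp_le_exp] at h1 h2
  rw [exp_inj]
  omega

/-! ### Divisors -/

theorem le_add_single (D : Divisor K F) (P : Place K F) : D ≤ D + Finsupp.single P (1 : ℤ) :=
  le_add_of_nonneg_right (Finsupp.single_nonneg.mpr zero_le_one)

theorem add_single_apply_self (D : Divisor K F) (P : Place K F) :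
    (D + Finsupp.single P (1 : ℤ)) P = D P + 1 := by
  simp

theorem add_single_apply_of_ne (D : Divisor K F) {P w : Place K F} (h : w ≠ P) :
    (D + Finsupp.single P (1 : ℤ)) w = D w := by
  classical
  rw [Finsupp.add_apply, Finsupp.single_apply, if_neg (Ne.symm h), add_zero]

theorem sub_single_nonneg {E : Divisor K F} (hE : 0 ≤ E) {P : Place K F} (hP : E P ≠ 0) :
    0 ≤ E - Finsupp.single P (1 : ℤ) := by
  classical
  rw [Finsupp.le_def]
  intro w
  have hw := Finsupp.le_def.mp hE w
  rw [Finsupp.coe_zero, Pi.zero_apply] at hw ⊢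
  rw [Finsupp.sub_apply, Finsupp.single_apply]
  split_ifs with h
  · subst h
    omega
  · simpa using hw

section Curve

variable [IsAlgClosed K]

/-! ### The local step -/

theorem exists_sub_smul_le (htr : Algebra.trdeg K F = 1) (v : Place K F) (n : ℤ) {a b : F}
    (hb : v.adicValuation b = exp n) (ha : v.adicValuation a ≤ exp n) :
    ∃ c : K, v.adicValuation (a - c • b) ≤ exp (n - 1) := by
  have hb0 : b ≠ 0 := by
    rintro rfl
    rw [map_zero] at hb
    exact exp_ne_zero hb.symm
  have hq : a / b ∈ v.toValuationSubring := by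
    rw [← Fermat.Agent.S24.FF.adicValuation_le_one_iff, map_div₀, hb]
    exact div_le_one_of_le₀ ha zero_le
  obtain ⟨c, hc⟩ := exists_residue_sub_mem htr v ⟨a / b, hq⟩
  refine ⟨c, ?_⟩
  have h1 : v.adicValuation (a / b - algebraMap K F c) < 1 :=
    adicValuation_lt_one_of_mem_maximal v hc
  have h2 : a - c • b = (a / b - algebraMap K F c) * b := by
    rw [Algebra.smul_def]
    field_simp
  rw [h2, map_mul, hb]
  exact lt_one_mul_exp_le h1 n

/-- One-point step on adeles: `A(D + P) = A(D) + K β` for every `β ∈ A(D + P) \ A(D)`. -/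
theorem exists_sub_smul_mem (htr : Algebra.trdeg K F = 1) (D : Divisor K F) (P : Place K F)
    {α β : ↥(repartitions K F)} (hα : α ∈ repartitionsOf (D + Finsupp.single P (1 : ℤ)))
    (hβ : β ∈ repartitionsOf (D + Finsupp.single P (1 : ℤ))) (hβ' : β ∉ repartitionsOf D) :
    ∃ c : K, α - c • β ∈ repartitionsOf D := by
  have hβP : P.adicValuation ((β : Place K F → F) P) = exp (D P + 1) := by
    apply eq_exp_of_le_of_not_le
    · have := hβ P
      rwa [add_single_apply_self] at this
    · intro h
      apply hβ'
      intro w
      rcases eq_or_ne w P with rfl | hne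
      · exact h
      · have := hβ w
        rwa [add_single_apply_of_ne D hne] at this
  have hαP : P.adicValuation ((α : Place K F → F) P) ≤ exp (D P + 1) := by
    have := hα P
    rwa [add_single_apply_self] at this
  obtain ⟨c, hc⟩ := exists_sub_smul_le htr P (D P + 1) hβP hαP
  refine ⟨c, fun w => ?_⟩
  show w.adicValuation ((α : Place K F → F) w - c • (β : Place K F → F) w) ≤ exp (D w)
  rcases eq_or_ne w P with rfl | hne
  · simpa using hc
  · have h1 := hα w
    have h2 := hβ w
    rw [add_single_apply_of_ne D hne] at h1 h2
    refine (Valuation.map_sub _ _ _).trans (max_le h1 ?_)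
    rw [Algebra.smul_def, map_mul]
    exact (mul_le_of_le_one_left' (w.adicValuation_algebraMap_le_one c)).trans h2

/-! ### Constant adeles -/

theorem const_mem_repartitionsOf_iff {D : Divisor K F} {f : F} :
    algebraMap F ↥(repartitions K F) f ∈ repartitionsOf D ↔ f ∈ riemannRochSpace D := by
  constructor
  · intro h v
    exact h v
  · intro h v
    exact h v

theorem const_mem_principal (f : F) :
    algebraMap F ↥(repartitions K F) f ∈ principalRepartitions K F :=
  mem_principalRepartitions_iff.mpr ⟨f, rfl⟩

theorem exists_single_adele (P : Place K F) (n : ℤ) :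
    ∃ β : ↥(repartitions K F), P.adicValuation ((β : Place K F → F) P) = exp n ∧
      ∀ w : Place K F, w ≠ P → (β : Place K F → F) w = 0 := by
  classical
  obtain ⟨π, hπ⟩ := IsDiscreteValuationRing.exists_irreducible P.toValuationSubring
  have hπ0 : (π : F) ≠ 0 := by
    simpa [ne_eq, ZeroMemClass.coe_eq_zero] using hπ.ne_zero
  have ht : P.adicValuation ((π : F) ^ (-n)) = exp n := by
    rw [P.adicValuation_eq_exp_neg_ord (zpow_ne_zero _ hπ0), P.ord_zpow, P.ord_coe_irreducible hπ]
    congr 1
    ring
  have hmem : (Pi.single P ((π : F) ^ (-n)) : Place K F → F) ∈ repartitions K F := by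
    refine mem_repartitions_of_finite ((Set.finite_singleton P).subset fun w hw => ?_)
    by_contra hne
    apply hw
    rw [Pi.single_eq_of_ne hne]
    simp
  refine ⟨⟨_, hmem⟩, ?_, fun w hw => ?_⟩
  · show P.adicValuation ((Pi.single P ((π : F) ^ (-n)) : Place K F → F) P) = exp n
    rw [Pi.single_eq_same]
    exact ht
  · show (Pi.single P ((π : F) ^ (-n)) : Place K F → F) w = 0
    exact Pi.single_eq_of_ne hw _

/-- If `L(D + P) ≠ L(D)` then `A(D + P) ⊆ A(D) + F`. -/
theorem sup_eq_of_mem (htr : Algebra.trdeg K F = 1) (D : Divisor K F) (P : Place K F) {f : F}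
    (hf : f ∈ riemannRochSpace (D + Finsupp.single P (1 : ℤ))) (hf' : f ∉ riemannRochSpace D) :
    repartitionsOf (D + Finsupp.single P (1 : ℤ)) ⊔ principalRepartitions K F =
      repartitionsOf D ⊔ principalRepartitions K F := by
  apply le_antisymm
  · refine sup_le ?_ le_sup_right
    intro α hα
    obtain ⟨c, hc⟩ := exists_sub_smul_mem htr D P hα
      (const_mem_repartitionsOf_iff.mpr hf) (fun h => hf' (const_mem_repartitionsOf_iff.mp h))
    have : α = (α - c • algebraMap F ↥(repartitions K F) f) +
        c • algebraMap F ↥(repartitions K F) f := (sub_add_cancel _ _).symm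
    rw [this]
    exact Submodule.add_mem_sup hc (Submodule.smul_mem _ c (const_mem_principal f))
  · exact sup_le_sup_right (repartitionsOf_mono (le_add_single D P)) _

/-! ### The propagated property -/

/-- `A ⧸ S` is finite-dimensional of dimension `r`. -/
def QS (S : Submodule K ↥(repartitions K F)) (r : ℤ) : Prop :=
  Module.Finite K (↥(repartitions K F) ⧸ S) ∧
    (Module.finrank K (↥(repartitions K F) ⧸ S) : ℤ) = r

theorem qs_top (r : ℤ) (hr : r = 0) : QS (⊤ : Submodule K ↥(repartitions K F)) r := by
  have : Subsingleton (↥(repartitions K F) ⧸ (⊤ : Submodule K ↥(repartitions K F))) :=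
    Unique.instSubsingleton
  refine ⟨Module.Finite.of_finite, ?_⟩
  rw [Module.finrank_zero_of_subsingleton, hr]
  rfl

/-- The one-point step downwards. -/
theorem qs_of_qs_add_single (htr : Algebra.trdeg K F = 1) (g : ℤ)
    (hfin : ∀ D : Divisor K F, Module.Finite K ↥(riemannRochSpace D))
    (D : Divisor K F) (P : Place K F)
    (h : QS (repartitionsOf (D + Finsupp.single P (1 : ℤ)) ⊔ principalRepartitions K F)
      (Module.finrank K ↥(riemannRochSpace (D + Finsupp.single P (1 : ℤ))) -
        Divisor.degree (D + Finsupp.single P (1 : ℤ)) - 1 + g)) :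
    QS (repartitionsOf D ⊔ principalRepartitions K F)
      (Module.finrank K ↥(riemannRochSpace D) - Divisor.degree D - 1 + g) := by
  have hdeg : Divisor.degree (D + Finsupp.single P (1 : ℤ)) = Divisor.degree D + 1 := by
    rw [map_add, Divisor.degree_single, deg_eq_one htr P]
    simp
  have hle : riemannRochSpace D ≤ riemannRochSpace (D + Finsupp.single P (1 : ℤ)) :=
    L_mono (le_add_single D P)
  by_cases hL : riemannRochSpace (D + Finsupp.single P (1 : ℤ)) ≤ riemannRochSpace D
  · -- `L(D + P) = L(D)`: one more dimension
    have hLeq : riemannRochSpace (D + Finsupp.single P (1 : ℤ)) = riemannRochSpace D :=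
      le_antisymm hL hle
    obtain ⟨β, hβP, hβw⟩ := exists_single_adele P (D P + 1)
    have hβmem : β ∈ repartitionsOf (D + Finsupp.single P (1 : ℤ)) := by
      intro w
      rcases eq_or_ne w P with rfl | hne
      · rw [hβP, add_single_apply_self]
      · rw [hβw w hne]
        simp
    have hβnot : β ∉ repartitionsOf D := by
      intro hmem
      have := hmem P
      rw [hβP, exp_le_exp] at this
      omega
    have hβS : β ∉ repartitionsOf D ⊔ principalRepartitions K F := by
      intro hmem
      obtain ⟨α, hα, φ, hφ, hsum⟩ := Submodule.mem_sup.mp hmem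
      obtain ⟨f, hf⟩ := mem_principalRepartitions_iff.mp hφ
      have hφ' : φ = algebraMap F ↥(repartitions K F) f := Subtype.ext hf
      have hfD' : f ∈ riemannRochSpace (D + Finsupp.single P (1 : ℤ)) := by
        rw [← const_mem_repartitionsOf_iff, ← hφ']
        have : φ = β - α := by
          rw [← hsum]
          abel
        rw [this]
        exact Submodule.sub_mem _ hβmem (repartitionsOf_mono (le_add_single D P) hα)
      have hfD : f ∈ riemannRochSpace D := hL hfD'
      apply hβnot
      rw [← hsum, hφ']
      exact Submodule.add_mem _ hα (const_mem_repartitionsOf_iff.mpr hfD)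
    have hsup : repartitionsOf (D + Finsupp.single P (1 : ℤ)) ⊔ principalRepartitions K F =
        (repartitionsOf D ⊔ principalRepartitions K F) ⊔ Submodule.span K {β} := by
      apply le_antisymm
      · refine sup_le ?_ (le_sup_right.trans le_sup_left)
        intro α hα
        obtain ⟨c, hc⟩ := exists_sub_smul_mem htr D P hα hβmem hβnot
        have : α = (α - c • β) + c • β := (sub_add_cancel _ _).symm
        rw [this]
        exact Submodule.add_mem_sup (Submodule.mem_sup_left hc)
          (Submodule.smul_mem _ c (Submodule.mem_span_singleton_self β))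
      · refine sup_le (sup_le_sup_right (repartitionsOf_mono (le_add_single D P)) _) ?_
        rw [Submodule.span_singleton_le_iff_mem]
        exact Submodule.mem_sup_left hβmem
    rw [hsup] at h
    obtain ⟨h1, h2⟩ := quot_step _ β hβS h.1
    refine ⟨h1, ?_⟩
    have h3 := h.2
    rw [hLeq, hdeg] at h3
    rw [h2]
    push_cast
    omega
  · -- `L(D + P) ≠ L(D)`: the same quotient
    obtain ⟨f, hf, hf'⟩ := SetLike.not_le_iff_exists.mp hL
    have hf0 : f ≠ 0 := by
      rintro rfl
      exact hf' (Submodule.zero_mem _)
    rw [sup_eq_of_mem htr D P hf hf'] at h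
    refine ⟨h.1, ?_⟩
    have h3 := h.2
    have := hfin D
    have := hfin (D + Finsupp.single P (1 : ℤ))
    have hlt : Module.finrank K ↥(riemannRochSpace D) <
        Module.finrank K ↥(riemannRochSpace (D + Finsupp.single P (1 : ℤ))) :=
      Submodule.finrank_lt_finrank_of_lt (lt_of_le_of_ne hle (fun heq => hf' (heq ▸ hf)))
    have hsub : riemannRochSpace (D + Finsupp.single P (1 : ℤ)) ≤
        riemannRochSpace D ⊔ Submodule.span K {f} := by
      intro h' hh'
      obtain ⟨c, hc⟩ := exists_sub_smul_mem htr D P (const_mem_repartitionsOf_iff.mpr hh')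
        (const_mem_repartitionsOf_iff.mpr hf) (fun h => hf' (const_mem_repartitionsOf_iff.mp h))
      have hc' : h' - c • f ∈ riemannRochSpace D := by
        intro v
        exact hc v
      have : h' = (h' - c • f) + c • f := (sub_add_cancel _ _).symm
      rw [this]
      exact Submodule.add_mem_sup hc' (Submodule.smul_mem _ c (Submodule.mem_span_singleton_self f))
    have hle2 : Module.finrank K ↥(riemannRochSpace (D + Finsupp.single P (1 : ℤ))) ≤
        Module.finrank K ↥(riemannRochSpace D) + 1 := by
      calc Module.finrank K ↥(riemannRochSpace (D + Finsupp.single P (1 : ℤ)))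
          ≤ Module.finrank K ↥(riemannRochSpace D ⊔ Submodule.span K {f}) :=
            Submodule.finrank_mono hsub
        _ ≤ Module.finrank K ↥(riemannRochSpace D) + Module.finrank K ↥(Submodule.span K {f}) :=
            Submodule.finrank_add_le_finrank_add_finrank _ _
        _ = Module.finrank K ↥(riemannRochSpace D) + 1 := by
            rw [finrank_span_singleton hf0]
    rw [hdeg] at h3
    omega

variable [CharZero K] [Algebra.EssFiniteType K F]

/-! ### Adeles have finitely many poles -/

theorem poles_finite_of_mem (htr : Algebra.trdeg K F = 1) {α : Place K F → F}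
    (hα : α ∈ repartitions K F) : {v : Place K F | ¬ v.adicValuation (α v) ≤ 1}.Finite := by
  unfold repartitions at hα
  induction hα using Algebra.adjoin_induction with
  | mem x hx => exact hx
  | algebraMap f =>
    rcases eq_or_ne f 0 with rfl | hf
    · refine Set.finite_empty.subset fun v hv => ?_
      exact hv (by simp)
    · refine (support_ord_finite htr hf).subset fun v hv => ?_
      have hv' : ¬ v.adicValuation f ≤ 1 := hv
      have : v.ord f < 0 := v.not_adicValuation_le_one_iff.mp hv'
      exact this.ne
  | add x y _ _ hx hy =>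
    refine (hx.union hy).subset fun v hv => ?_
    by_contra h
    have h1 : v.adicValuation (x v) ≤ 1 := by
      by_contra h1
      exact h (Or.inl h1)
    have h2 : v.adicValuation (y v) ≤ 1 := by
      by_contra h2
      exact h (Or.inr h2)
    exact hv ((Valuation.map_add _ _ _).trans (max_le h1 h2))
  | mul x y _ _ hx hy =>
    refine (hx.union hy).subset fun v hv => ?_
    by_contra h
    have h1 : v.adicValuation (x v) ≤ 1 := by
      by_contra h1
      exact h (Or.inl h1)
    have h2 : v.adicValuation (y v) ≤ 1 := by
      by_contra h2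
      exact h (Or.inr h2)
    apply hv
    show v.adicValuation (x v * y v) ≤ 1
    rw [map_mul]
    exact mul_le_one' h1 h2

/-- Every adele lies in some `A(B')` with `B' ≥ B`. -/
theorem exists_ge_mem_repartitionsOf (htr : Algebra.trdeg K F = 1) (α : ↥(repartitions K F))
    (B : Divisor K F) : ∃ B' : Divisor K F, B ≤ B' ∧ α ∈ repartitionsOf B' := by
  classical
  have hfin : (Function.support fun v : Place K F =>
      max (B v) (-(v.ord ((α : Place K F → F) v)))).Finite := by
    refine ((B.support.finite_toSet).union (poles_finite_of_mem htr α.2)).subset fun v hv => ?_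
    by_contra h
    have h1 : B v = 0 := by
      by_contra h1
      exact h (Or.inl (Finset.mem_coe.mpr (Finsupp.mem_support_iff.mpr h1)))
    have h2 : v.adicValuation ((α : Place K F → F) v) ≤ 1 := by
      by_contra h2
      exact h (Or.inr h2)
    apply hv
    show max (B v) (-(v.ord ((α : Place K F → F) v))) = 0
    rcases v.adicValuation_le_one_iff.mp h2 with h3 | h3
    · rw [h1, h3]
      simp
    · rw [h1]
      omega
  refine ⟨Finsupp.ofSupportFinite _ hfin, ?_, ?_⟩
  · rw [Finsupp.le_def]
    intro v
    exact le_max_left _ _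
  · rw [mem_repartitionsOf_iff]
    intro v
    right
    show -(max (B v) (-(v.ord ((α : Place K F → F) v)))) ≤ _
    have := le_max_right (B v) (-(v.ord ((α : Place K F → F) v)))
    omega

/-! ### Induction on effective divisors -/

theorem effective_induction (htr : Algebra.trdeg K F = 1) {R : Divisor K F → Prop} (h0 : R 0)
    (hstep : ∀ (E : Divisor K F) (P : Place K F), 0 ≤ E → R E → R (E + Finsupp.single P (1 : ℤ))) :
    ∀ E : Divisor K F, 0 ≤ E → R E := by
  have hdegsub : ∀ (E : Divisor K F) (P : Place K F),
      Divisor.degree (E - Finsupp.single P (1 : ℤ)) = Divisor.degree E - 1 := by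
    intro E P
    rw [map_sub, Divisor.degree_single, deg_eq_one htr P]
    simp
  have key : ∀ (n : ℕ) (E : Divisor K F), 0 ≤ E → Divisor.degree E = n → R E := by
    intro n
    induction n with
    | zero =>
      intro E hE hdeg
      have hE0 : E = 0 := by
        by_contra hne
        obtain ⟨P, hP⟩ : ∃ P, E P ≠ 0 := by
          by_contra hall
          exact hne (Finsupp.ext fun w => not_not.mp fun hw => hall ⟨w, hw⟩)
        have h1 := degree_nonneg htr (sub_single_nonneg hE hP)
        rw [hdegsub, hdeg] at h1
        simp at h1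
      rw [hE0]
      exact h0
    | succ n ih =>
      intro E hE hdeg
      obtain ⟨P, hP⟩ : ∃ P, E P ≠ 0 := by
        by_contra hall
        have hE0 : E = 0 := Finsupp.ext fun w => not_not.mp fun hw => hall ⟨w, hw⟩
        rw [hE0, map_zero] at hdeg
        push_cast at hdeg
        omega
      have hE' := sub_single_nonneg hE hP
      have hdeg' : Divisor.degree (E - Finsupp.single P (1 : ℤ)) = n := by
        rw [hdegsub, hdeg]
        push_cast
        ring
      have := hstep _ P hE' (ih _ hE' hdeg')
      rwa [sub_add_cancel] at this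
  intro E hE
  have hnn := degree_nonneg htr hE
  exact key (Divisor.degree E).toNat E hE (Int.toNat_of_nonneg hnn).symm

/-! ### Above Riemann's bound every adele is `A(B) + F` -/

theorem sup_eq_top_of_large (htr : Algebra.trdeg K F = 1) (g c : ℤ)
    (hlarge : ∀ D : Divisor K F, c ≤ Divisor.degree D →
      (Module.finrank K ↥(riemannRochSpace D) : ℤ) = Divisor.degree D + 1 - g)
    (B : Divisor K F) (hB : c ≤ Divisor.degree B) :
    repartitionsOf B ⊔ principalRepartitions K F = ⊤ := by
  have hup : ∀ E : Divisor K F, 0 ≤ E →
      repartitionsOf (B + E) ⊔ principalRepartitions K F =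
        repartitionsOf B ⊔ principalRepartitions K F := by
    refine effective_induction htr (R := fun E => repartitionsOf (B + E) ⊔
      principalRepartitions K F = repartitionsOf B ⊔ principalRepartitions K F) ?_ ?_
    · show repartitionsOf (B + 0) ⊔ principalRepartitions K F = _
      rw [add_zero]
    · intro E P hE ih
      show repartitionsOf (B + (E + Finsupp.single P (1 : ℤ))) ⊔ principalRepartitions K F = _
      replace ih : repartitionsOf (B + E) ⊔ principalRepartitions K F =
        repartitionsOf B ⊔ principalRepartitions K F := ih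
      rw [← add_assoc, ← ih]
      have hd : c ≤ Divisor.degree (B + E) := by
        rw [map_add]
        have := degree_nonneg htr hE
        omega
      have hdeg : Divisor.degree (B + E + Finsupp.single P (1 : ℤ)) =
          Divisor.degree (B + E) + 1 := by
        rw [map_add Divisor.degree (B + E), Divisor.degree_single, deg_eq_one htr P]
        simp
      have h1 := hlarge (B + E) hd
      have h2 := hlarge (B + E + Finsupp.single P (1 : ℤ)) (by omega)
      have hL : ¬ riemannRochSpace (B + E + Finsupp.single P (1 : ℤ)) ≤
          riemannRochSpace (B + E) := by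
        intro hle
        have heq : riemannRochSpace (B + E + Finsupp.single P (1 : ℤ)) =
            riemannRochSpace (B + E) := le_antisymm hle (L_mono (le_add_single _ P))
        rw [heq] at h2
        omega
      obtain ⟨f, hf, hf'⟩ := SetLike.not_le_iff_exists.mp hL
      exact sup_eq_of_mem htr (B + E) P hf hf'
  rw [eq_top_iff]
  intro α _
  obtain ⟨B', hBB', hα⟩ := exists_ge_mem_repartitionsOf htr α B
  have := hup (B' - B) (sub_nonneg.mpr hBB')
  rw [add_sub_cancel] at this
  rw [← this]
  exact Submodule.mem_sup_left hα

/-! ### Places exist -/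

theorem exists_place (htr : Algebra.trdeg K F = 1) : Nonempty (Place K F) := by
  have htrans : Algebra.Transcendental K F := by
    rw [← trdeg_ne_zero_iff, htr]
    exact one_ne_zero
  obtain ⟨x, hx⟩ := htrans.transcendental
  have hsum := sum_ord_poles htr hx
  have := finite_adjoin_simple htr hx
  have hpos : 0 < Module.finrank K⟮x⟯ F := Module.finrank_pos
  by_contra hemp
  rw [not_nonempty_iff] at hemp
  have h0 : ∑ᶠ v ∈ {v : Place K F | v.ord x < 0}, -v.ord x = 0 := by
    apply finsum_eq_zero_of_forall_eq_zero
    intro v
    exact (hemp.false v).elim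
  rw [h0] at hsum
  omega

/-! ### The index of speciality -/

theorem qs_all (htr : Algebra.trdeg K F = 1) (g c : ℤ)
    (hfin : ∀ D : Divisor K F, Module.Finite K ↥(riemannRochSpace D))
    (hlarge : ∀ D : Divisor K F, c ≤ Divisor.degree D →
      (Module.finrank K ↥(riemannRochSpace D) : ℤ) = Divisor.degree D + 1 - g)
    (D : Divisor K F) :
    QS (repartitionsOf D ⊔ principalRepartitions K F)
      (Module.finrank K ↥(riemannRochSpace D) - Divisor.degree D - 1 + g) := by
  obtain ⟨v₀⟩ := exists_place htr
  set E : Divisor K F := Finsupp.single v₀ (((c - Divisor.degree D).toNat : ℕ) : ℤ) with hEdef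
  have hE : 0 ≤ E := Finsupp.single_nonneg.mpr (Int.natCast_nonneg _)
  have hdegB : c ≤ Divisor.degree (D + E) := by
    rw [map_add, hEdef, Divisor.degree_single, deg_eq_one htr v₀]
    have := Int.self_le_toNat (c - Divisor.degree D)
    push_cast
    omega
  have hB : QS (repartitionsOf (D + E) ⊔ principalRepartitions K F)
      (Module.finrank K ↥(riemannRochSpace (D + E)) - Divisor.degree (D + E) - 1 + g) := by
    rw [sup_eq_top_of_large htr g c hlarge (D + E) hdegB, hlarge (D + E) hdegB]
    exact qs_top _ (by ring)
  have hdown : ∀ E' : Divisor K F, 0 ≤ E' →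
      QS (repartitionsOf (D + E - E') ⊔ principalRepartitions K F)
        (Module.finrank K ↥(riemannRochSpace (D + E - E')) - Divisor.degree (D + E - E') - 1 + g) := by
    refine effective_induction htr (R := fun E' =>
      QS (repartitionsOf (D + E - E') ⊔ principalRepartitions K F)
        (Module.finrank K ↥(riemannRochSpace (D + E - E')) - Divisor.degree (D + E - E') - 1 + g))
      ?_ ?_
    · show QS (repartitionsOf (D + E - 0) ⊔ principalRepartitions K F)
        (Module.finrank K ↥(riemannRochSpace (D + E - 0)) - Divisor.degree (D + E - 0) - 1 + g)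
      rw [sub_zero]
      exact hB
    · intro E' P _ ih
      replace ih : QS (repartitionsOf (D + E - E') ⊔ principalRepartitions K F)
        (Module.finrank K ↥(riemannRochSpace (D + E - E')) - Divisor.degree (D + E - E') - 1 + g) :=
        ih
      apply qs_of_qs_add_single htr g hfin _ P
      have : D + E - (E' + Finsupp.single P (1 : ℤ)) + Finsupp.single P (1 : ℤ) = D + E - E' := by
        abel
      rw [this]
      exact ih
  have := hdown E hE
  rwa [add_sub_cancel_right] at this

/-- **Finiteness of `H¹(D)`**, from Riemann's equality for large degree. -/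
theorem finite_H1_of (htr : Algebra.trdeg K F = 1) (g c : ℤ)
    (hfin : ∀ D : Divisor K F, Module.Finite K ↥(riemannRochSpace D))
    (hlarge : ∀ D : Divisor K F, c ≤ Divisor.degree D →
      (Module.finrank K ↥(riemannRochSpace D) : ℤ) = Divisor.degree D + 1 - g)
    (D : Divisor K F) : Module.Finite K (H1 D) :=
  (qs_all htr g c hfin hlarge D).1

/-- **The index of speciality**: `i(D) = l(D) - deg D - 1 + g`. -/
theorem finrank_H1_of (htr : Algebra.trdeg K F = 1) (g c : ℤ)
    (hfin : ∀ D : Divisor K F, Module.Finite K ↥(riemannRochSpace D))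
    (hlarge : ∀ D : Divisor K F, c ≤ Divisor.degree D →
      (Module.finrank K ↥(riemannRochSpace D) : ℤ) = Divisor.degree D + 1 - g)
    (D : Divisor K F) :
    (Module.finrank K (H1 D) : ℤ) =
      Module.finrank K ↥(riemannRochSpace D) - Divisor.degree D - 1 + g :=
  (qs_all htr g c hfin hlarge D).2

/-- `l(0) = 1`. -/
theorem finrank_L_zero (htr : Algebra.trdeg K F = 1) :
    Module.finrank K ↥(riemannRochSpace (0 : Divisor K F)) = 1 := by
  have h : riemannRochSpace (0 : Divisor K F) = Submodule.span K {(1 : F)} := by
    ext f
    rw [mem_L_zero_iff htr, Submodule.mem_span_singleton]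
    constructor
    · rintro ⟨a, rfl⟩
      exact ⟨a, (Algebra.algebraMap_eq_smul_one a).symm⟩
    · rintro ⟨a, rfl⟩
      exact ⟨a, Algebra.algebraMap_eq_smul_one a⟩
  rw [h]
  exact finrank_span_singleton one_ne_zero

/-- The genus of the Prelude (`dim H¹(0)`) is Riemann's constant. -/
theorem genusFF_eq_of (htr : Algebra.trdeg K F = 1) (g : ℕ) (c : ℤ)
    (hfin : ∀ D : Divisor K F, Module.Finite K ↥(riemannRochSpace D))
    (hlarge : ∀ D : Divisor K F, c ≤ Divisor.degree D →
      (Module.finrank K ↥(riemannRochSpace D) : ℤ) = Divisor.degree D + 1 - (g : ℤ)) :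
    g = genusFF K F := by
  have h := finrank_H1_of htr (g : ℤ) c hfin hlarge (0 : Divisor K F)
  rw [finrank_L_zero htr, map_zero] at h
  unfold genusFF
  push_cast at h
  omega

end Curve

end Fermat.Agent.S17.R.H1
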