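/-
MW strand R, leaf R8b: the Weil differentials of a function field `F / K` of one variable form a
one-dimensional `F`-vector space (Stichtenoth, Proposition 1.5.9).

Vocabulary: a Weil differential is a `K`-linear form on the repartitions `↥(repartitions K F)` of
the Prelude, `weilOf D` are those vanishing on `R(D) + F`, and `smulDiff x ω = ω (x • ·)` is the
`F`-action (leaf R8a, `WeilDef.lean`).  The dimension of `weilOf D` is read off from the landed
adele count `H1Core.lean` with Riemann's theorem (`Riemann.lean`) and `finite_L` (`LStep.lean`).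

Public literal (namespace `Fermat.Agent.S17.R`): `exists_smulDiff_eq`.
Helpers live in `Fermat.Agent.S17.R.WeilDim`.
-/
import Mathlib
import Fermat.Prelude.Def_AlgebraicCurve_Repartitions
import Fermat.Agent.S17.R.LSpace
import Fermat.Agent.S17.R.LStep
import Fermat.Agent.S17.R.Places
import Fermat.Agent.S17.R.Riemann
import Fermat.Agent.S17.R.H1Core
import Fermat.Agent.S17.R.WeilDef

set_option autoImplicit false

namespace Fermat.Agent.S17.R

open AlgebraicCurve

variable {K F : Type*} [Field K] [Field F] [Algebra K F]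

namespace WeilDim

theorem smulDiff_zero_left (ω : Module.Dual K ↥(repartitions K F)) :
    smulDiff (0 : F) ω = 0 := by
  have h := smulDiff_algebraMap (F := F) (0 : K) ω
  rwa [map_zero, zero_smul] at h

/-- `x ↦ smulDiff x ω` as a `K`-linear map. -/
noncomputable def smulDiffL (ω : Module.Dual K ↥(repartitions K F)) :
    F →ₗ[K] Module.Dual K ↥(repartitions K F) where
  toFun x := smulDiff x ω
  map_add' x y := smulDiff_add x y ω
  map_smul' c x := by
    rw [RingHom.id_apply, Algebra.smul_def, smulDiff_mul, smulDiff_algebraMap]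

theorem smulDiffL_apply (ω : Module.Dual K ↥(repartitions K F)) (x : F) :
    smulDiffL ω x = smulDiff x ω := rfl

theorem smulDiffL_injective {ω : Module.Dual K ↥(repartitions K F)} (hω : ω ≠ 0) :
    Function.Injective (smulDiffL (F := F) ω) := by
  rw [injective_iff_map_eq_zero]
  intro x hx
  rw [smulDiffL_apply] at hx
  by_contra hx0
  exact hω ((smulDiff_eq_zero_iff hx0).mp hx)

section Curve

variable [IsAlgClosed K] [CharZero K] [Algebra.EssFiniteType K F]

/-- `Ω(D)` is finite-dimensional of dimension `l(D) - deg D - 1 + g` (the dual of `H¹(D)`). -/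
theorem finrank_weilOf_aux (htr : Algebra.trdeg K F = 1) (D : Divisor K F) :
    Module.Finite K ↥(weilOf D) ∧
    (Module.finrank K ↥(weilOf D) : ℤ) =
      Module.finrank K ↥(riemannRochSpace D) - Divisor.degree D - 1 + (gR K F : ℤ) := by
  obtain ⟨c, hc⟩ := riemann_eq_of_large htr
  have hfinH : Module.Finite K (H1 D) :=
    Fermat.Agent.S17.R.H1.finite_H1_of htr (gR K F : ℤ) c (finite_L htr) hc D
  have hrk := Fermat.Agent.S17.R.H1.finrank_H1_of htr (gR K F : ℤ) c (finite_L htr) hc D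
  refine ⟨finite_weilOf_of_finite D hfinH, ?_⟩
  rw [finrank_weilOf_eq_h1 D hfinH]
  exact hrk

/-- For `ω ∈ Ω(D)`, multiplication by `ω` maps `L(D + B)` into `Ω(-B)`. -/
theorem map_le_weilOf (htr : Algebra.trdeg K F = 1) {D : Divisor K F} (B : Divisor K F)
    {ω : Module.Dual K ↥(repartitions K F)} (hω : ω ∈ weilOf D) :
    (riemannRochSpace (D + B)).map (smulDiffL ω) ≤ weilOf (-B) := by
  rintro η ⟨x, hx, rfl⟩
  rw [smulDiffL_apply]
  by_cases hx0 : x = 0
  · rw [hx0, smulDiff_zero_left]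
    exact Submodule.zero_mem _
  · have h1 := smulDiff_mem_weilOf htr hx0 hω
    refine weilOf_anti ?_ h1
    have h2 := add_divOf_nonneg htr hx0 hx
    rw [Finsupp.le_def] at h2 ⊢
    intro v
    have h3 := h2 v
    rw [Finsupp.add_apply, Finsupp.add_apply, Finsupp.zero_apply] at h3
    rw [Finsupp.add_apply, Finsupp.neg_apply]
    omega

/-- Two nonzero Weil differentials have a common nonzero `F`-multiple. -/
theorem exists_common (htr : Algebra.trdeg K F = 1) {D₁ D₂ : Divisor K F}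
    {ω₁ ω₂ : Module.Dual K ↥(repartitions K F)} (h₁ : ω₁ ∈ weilOf D₁) (h₂ : ω₂ ∈ weilOf D₂)
    (hω₁ : ω₁ ≠ 0) (hω₂ : ω₂ ≠ 0) :
    ∃ x₁ x₂ : F, smulDiff x₁ ω₁ = smulDiff x₂ ω₂ ∧ smulDiff x₁ ω₁ ≠ 0 := by
  classical
  obtain ⟨v⟩ := nonempty_place htr
  obtain ⟨n, hn⟩ : ∃ n : ℕ, 3 * (gR K F : ℤ) - Divisor.degree D₁ - Divisor.degree D₂ < n :=
    ⟨(3 * (gR K F : ℤ) - Divisor.degree D₁ - Divisor.degree D₂).toNat + 1, by
      have := Int.self_le_toNat (3 * (gR K F : ℤ) - Divisor.degree D₁ - Divisor.degree D₂)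
      push_cast
      omega⟩
  set B : Divisor K F := Finsupp.single v ((n : ℤ) + 1) with hB
  have hdegB : Divisor.degree B = (n : ℤ) + 1 := by
    rw [hB, Divisor.degree_single, Fermat.Agent.S24.FF.deg_eq_one htr v]
    simp
  have hneg : Divisor.degree (-B) < 0 := by
    rw [map_neg, hdegB]
    omega
  obtain ⟨hfin, hrk⟩ := finrank_weilOf_aux htr (-B)
  rw [L_eq_bot_of_degree_neg htr hneg, finrank_bot, map_neg, hdegB] at hrk
  have hU₁le : (riemannRochSpace (D₁ + B)).map (smulDiffL ω₁) ≤ weilOf (-B) :=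
    map_le_weilOf htr B h₁
  have hU₂le : (riemannRochSpace (D₂ + B)).map (smulDiffL ω₂) ≤ weilOf (-B) :=
    map_le_weilOf htr B h₂
  have := hfin
  have : Module.Finite K ↥((riemannRochSpace (D₁ + B)).map (smulDiffL ω₁)) :=
    Submodule.finiteDimensional_of_le hU₁le
  have : Module.Finite K ↥((riemannRochSpace (D₂ + B)).map (smulDiffL ω₂)) :=
    Submodule.finiteDimensional_of_le hU₂le
  have hr₁ : Module.finrank K ↥((riemannRochSpace (D₁ + B)).map (smulDiffL ω₁)) =
      Module.finrank K ↥(riemannRochSpace (D₁ + B)) :=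
    (Submodule.equivMapOfInjective _ (smulDiffL_injective hω₁) _).finrank_eq.symm
  have hr₂ : Module.finrank K ↥((riemannRochSpace (D₂ + B)).map (smulDiffL ω₂)) =
      Module.finrank K ↥(riemannRochSpace (D₂ + B)) :=
    (Submodule.equivMapOfInjective _ (smulDiffL_injective hω₂) _).finrank_eq.symm
  have hri₁ := riemann_inequality htr (D₁ + B)
  have hri₂ := riemann_inequality htr (D₂ + B)
  rw [map_add, hdegB] at hri₁ hri₂
  have hsup : Module.finrank K ↥((riemannRochSpace (D₁ + B)).map (smulDiffL ω₁) ⊔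
      (riemannRochSpace (D₂ + B)).map (smulDiffL ω₂)) ≤ Module.finrank K ↥(weilOf (-B)) :=
    Submodule.finrank_mono (sup_le hU₁le hU₂le)
  have hdim := Submodule.finrank_sup_add_finrank_inf_eq
    ((riemannRochSpace (D₁ + B)).map (smulDiffL ω₁))
    ((riemannRochSpace (D₂ + B)).map (smulDiffL ω₂))
  have hpos : 0 < Module.finrank K ↥((riemannRochSpace (D₁ + B)).map (smulDiffL ω₁) ⊓
      (riemannRochSpace (D₂ + B)).map (smulDiffL ω₂)) := by
    rw [hr₁, hr₂] at hdim
    zify at hsup hdim ⊢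
    push_cast at hrk
    omega
  have : Nontrivial ↥((riemannRochSpace (D₁ + B)).map (smulDiffL ω₁) ⊓
      (riemannRochSpace (D₂ + B)).map (smulDiffL ω₂)) := Module.nontrivial_of_finrank_pos hpos
  obtain ⟨η, hη0⟩ := exists_ne (0 : ↥((riemannRochSpace (D₁ + B)).map (smulDiffL ω₁) ⊓
      (riemannRochSpace (D₂ + B)).map (smulDiffL ω₂)))
  obtain ⟨hη₁, hη₂⟩ := Submodule.mem_inf.mp η.2
  obtain ⟨x₁, -, hx₁⟩ := Submodule.mem_map.mp hη₁
  obtain ⟨x₂, -, hx₂⟩ := Submodule.mem_map.mp hη₂
  refine ⟨x₁, x₂, ?_, ?_⟩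
  · rw [← smulDiffL_apply, ← smulDiffL_apply, hx₁, hx₂]
  · rw [← smulDiffL_apply, hx₁]
    intro h
    exact hη0 (Subtype.ext h)

end Curve

end WeilDim

section Curve

variable [IsAlgClosed K] [CharZero K] [Algebra.EssFiniteType K F]

/-- The Weil differentials form a one-dimensional `F`-vector space. -/
theorem exists_smulDiff_eq (htr : Algebra.trdeg K F = 1) {D₁ D₂ : Divisor K F}
    {ω₁ ω₂ : Module.Dual K ↥(repartitions K F)} (h₁ : ω₁ ∈ weilOf D₁) (h₂ : ω₂ ∈ weilOf D₂)
    (hω₁ : ω₁ ≠ 0) : ∃ x : F, ω₂ = smulDiff x ω₁ := by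
  by_cases hω₂ : ω₂ = 0
  · exact ⟨0, by rw [hω₂, WeilDim.smulDiff_zero_left]⟩
  · obtain ⟨x₁, x₂, heq, hne⟩ := WeilDim.exists_common htr h₁ h₂ hω₁ hω₂
    have hx₂ : x₂ ≠ 0 := by
      rintro rfl
      rw [heq, WeilDim.smulDiff_zero_left] at hne
      exact hne rfl
    refine ⟨x₂⁻¹ * x₁, ?_⟩
    rw [smulDiff_mul, heq, ← smulDiff_mul, inv_mul_cancel₀ hx₂, smulDiff_one]

end Curve

end Fermat.Agent.S17.R
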