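/-
MW strand R, leaf R8c (core): the divisor of a nonzero Weil differential (Stichtenoth 1.5.10),
with Riemann's equality for large degree as a hypothesis (no dependency on R2).

`WeilDivCore.exists_max_divisor_of`: if `l(D) = deg D + 1 - g` for all `D` of degree `≥ c`, then a
nonzero Weil differential `ω ∈ Ω(D)` has a largest divisor `W` with `ω ∈ Ω(W)`.

Proof: above Riemann's bound `R(A) + F` is everything (`H1.sup_eq_top_of_large`), so `Ω(A) = 0`
and the degrees of the `A` with `ω ∈ Ω(A)` are `< c`; take `W` of maximal degree.  If `D' ≰ W`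
at a place `Q`, then `ω ∈ Ω(W + Q)`: a repartition `α ∈ R(W + Q)` is `α' + α''` with
`α'' = α(Q)` concentrated at `Q` (in `R(D')`) and `α' ∈ R(W)`.
-/
import Mathlib
import Fermat.Prelude.Def_AlgebraicCurve_Repartitions
import Fermat.Agent.S24.FF.Residue
import Fermat.Agent.S17.R.LSpace
import Fermat.Agent.S17.R.H1Core
import Fermat.Agent.S17.R.WeilDef

set_option autoImplicit false

namespace Fermat.Agent.S17.R

open AlgebraicCurve

variable {K F : Type*} [Field K] [Field F] [Algebra K F]

namespace WeilDivCore

open Classical in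
/-- The repartition concentrated at one place. -/
noncomputable def onePt (Q : Place K F) (a : F) : ↥(repartitions K F) :=
  ⟨fun v => if v = Q then a else 0,
    mem_repartitions_of_finite <| (Set.finite_singleton Q).subset fun v hv => by
      rw [Set.mem_singleton_iff]
      by_contra hne
      apply hv
      show v.adicValuation (if v = Q then a else 0) ≤ 1
      rw [if_neg hne]
      simp⟩

open Classical in
theorem onePt_apply (Q : Place K F) (a : F) (v : Place K F) :
    (onePt Q a : Place K F → F) v = if v = Q then a else 0 := rfl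

theorem onePt_apply_self (Q : Place K F) (a : F) :
    (onePt Q a : Place K F → F) Q = a := by
  rw [onePt_apply, if_pos rfl]

theorem onePt_apply_of_ne (Q : Place K F) (a : F) {v : Place K F} (hv : v ≠ Q) :
    (onePt Q a : Place K F → F) v = 0 := by
  rw [onePt_apply, if_neg hv]

/-- `ω ∈ Ω(D)` kills `R(D)`. -/
theorem apply_eq_zero_of_mem {D : Divisor K F} {ω : Module.Dual K ↥(repartitions K F)}
    (hω : ω ∈ weilOf D) {α : ↥(repartitions K F)} (hα : α ∈ repartitionsOf D) : ω α = 0 :=
  (Submodule.mem_dualAnnihilator ω).mp hω α (Submodule.mem_sup_left hα)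

/-- `ω ∈ Ω(D)` kills the principal repartitions. -/
theorem apply_eq_zero_of_principal {D : Divisor K F} {ω : Module.Dual K ↥(repartitions K F)}
    (hω : ω ∈ weilOf D) {α : ↥(repartitions K F)} (hα : α ∈ principalRepartitions K F) :
    ω α = 0 :=
  (Submodule.mem_dualAnnihilator ω).mp hω α (Submodule.mem_sup_right hα)

/-- The one-point step: if `ω ∈ Ω(W) ∩ Ω(D')` and `W Q < D' Q`, then `ω ∈ Ω(W + Q)`. -/
theorem mem_weilOf_add_single {W D' : Divisor K F} {ω : Module.Dual K ↥(repartitions K F)}
    (hW : ω ∈ weilOf W) (hD' : ω ∈ weilOf D') {Q : Place K F} (hQ : W Q < D' Q) :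
    ω ∈ weilOf (W + Finsupp.single Q (1 : ℤ)) := by
  refine (Submodule.mem_dualAnnihilator ω).mpr fun x hx => ?_
  obtain ⟨α, hα, β, hβ, rfl⟩ := Submodule.mem_sup.mp hx
  rw [map_add, apply_eq_zero_of_principal hW hβ, add_zero]
  -- split `α = (α - s) + s`, `s` concentrated at `Q`
  set s : ↥(repartitions K F) := onePt Q ((α : Place K F → F) Q) with hs
  have hαv := mem_repartitionsOf_iff.mp hα
  have hs_mem : s ∈ repartitionsOf D' := by
    refine mem_repartitionsOf_iff.mpr fun v => ?_
    by_cases hv : v = Q
    · subst hv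
      rw [hs, onePt_apply_self]
      rcases hαv v with h0 | h1
      · exact Or.inl h0
      · refine Or.inr ?_
        rw [Finsupp.add_apply, Finsupp.single_eq_same] at h1
        omega
    · exact Or.inl (by rw [hs, onePt_apply_of_ne _ _ hv])
  have hsub_mem : α - s ∈ repartitionsOf W := by
    refine mem_repartitionsOf_iff.mpr fun v => ?_
    have hcoe : ((α - s : ↥(repartitions K F)) : Place K F → F) v
        = (α : Place K F → F) v - (s : Place K F → F) v := rfl
    by_cases hv : v = Q
    · subst hv
      refine Or.inl ?_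
      rw [hcoe, hs, onePt_apply_self, sub_self]
    · rw [hcoe, hs, onePt_apply_of_ne _ _ hv, sub_zero]
      rcases hαv v with h0 | h1
      · exact Or.inl h0
      · refine Or.inr ?_
        rw [Finsupp.add_apply, Finsupp.single_eq_of_ne hv, add_zero] at h1
        exact h1
  have hsplit : α = (α - s) + s := (sub_add_cancel α s).symm
  rw [hsplit, map_add, apply_eq_zero_of_mem hW hsub_mem, apply_eq_zero_of_mem hD' hs_mem,
    add_zero]


section Curve

variable [IsAlgClosed K] [CharZero K] [Algebra.EssFiniteType K F]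

/-- Above Riemann's bound there is no nonzero Weil differential. -/
theorem eq_zero_of_large (htr : Algebra.trdeg K F = 1) (g c : ℤ)
    (hlarge : ∀ D : Divisor K F, c ≤ Divisor.degree D →
      (Module.finrank K ↥(riemannRochSpace D) : ℤ) = Divisor.degree D + 1 - g)
    {A : Divisor K F} {ω : Module.Dual K ↥(repartitions K F)} (hω : ω ∈ weilOf A)
    (hA : c ≤ Divisor.degree A) : ω = 0 := by
  have htop := H1.sup_eq_top_of_large htr g c hlarge A hA
  have hbot : weilOf A = ⊥ := by
    unfold weilOf
    rw [htop, Submodule.dualAnnihilator_top]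
  rw [hbot, Submodule.mem_bot] at hω
  exact hω

/-- The divisor of a nonzero Weil differential (Riemann's equality for large degree as a
hypothesis). -/
theorem exists_max_divisor_of (htr : Algebra.trdeg K F = 1) (g c : ℤ)
    (hlarge : ∀ D : Divisor K F, c ≤ Divisor.degree D →
      (Module.finrank K ↥(riemannRochSpace D) : ℤ) = Divisor.degree D + 1 - g)
    {D : Divisor K F} {ω : Module.Dual K ↥(repartitions K F)} (hω : ω ∈ weilOf D) (h0 : ω ≠ 0) :
    ∃ W : Divisor K F, ω ∈ weilOf W ∧ ∀ D' : Divisor K F, ω ∈ weilOf D' → D' ≤ W := by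
  have hbound : ∀ A : Divisor K F, ω ∈ weilOf A → Divisor.degree A ≤ c := fun A hA => by
    by_contra hlt
    rw [not_le] at hlt
    exact h0 (eq_zero_of_large htr g c hlarge hA hlt.le)
  -- a divisor of maximal degree among those with `ω ∈ Ω(A)`
  obtain ⟨n, ⟨W, hW, hWn⟩, hmax⟩ :=
    Int.exists_greatest_of_bdd
      (P := fun n : ℤ => ∃ A : Divisor K F, ω ∈ weilOf A ∧ Divisor.degree A = n)
      ⟨c, fun z ⟨A, hA, hAz⟩ => hAz ▸ hbound A hA⟩ ⟨_, D, hω, rfl⟩
  refine ⟨W, hW, fun D' hD' => ?_⟩
  rw [Finsupp.le_def]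
  intro Q
  by_contra hlt
  rw [not_le] at hlt
  have hstep := mem_weilOf_add_single hW hD' hlt
  have hle := hmax _ ⟨_, hstep, rfl⟩
  rw [map_add, Divisor.degree_single, Fermat.Agent.S24.FF.deg_eq_one htr Q, hWn] at hle
  simp at hle

end Curve

end WeilDivCore

end Fermat.Agent.S17.R
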