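/-
MW strand R, leaf R8c: the divisor of a nonzero Weil differential (Stichtenoth 1.5.10).

`exists_max_divisor` (literal of record of `S17_R8_iface`): a nonzero Weil differential
`ω ∈ Ω(D)` has a largest divisor `W` with `ω ∈ Ω(W)`.  `WeilDivCore.lean` + Riemann's theorem
`riemann_eq_of_large` (R2).
-/
import Mathlib
import Fermat.Prelude.Def_AlgebraicCurve_Repartitions
import Fermat.Agent.S17.R.LSpace
import Fermat.Agent.S17.R.Riemann
import Fermat.Agent.S17.R.WeilDef
import Fermat.Agent.S17.R.WeilDivCore

set_option autoImplicit false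

namespace Fermat.Agent.S17.R

open AlgebraicCurve

variable {K F : Type*} [Field K] [Field F] [Algebra K F]
variable [IsAlgClosed K] [CharZero K] [Algebra.EssFiniteType K F]

/-- The divisor of a nonzero Weil differential. -/
theorem exists_max_divisor (htr : Algebra.trdeg K F = 1) {D : Divisor K F}
    {ω : Module.Dual K ↥(repartitions K F)} (hω : ω ∈ weilOf D) (h0 : ω ≠ 0) :
    ∃ W : Divisor K F, ω ∈ weilOf W ∧ ∀ D' : Divisor K F, ω ∈ weilOf D' → D' ≤ W := by
  obtain ⟨c, hc⟩ := riemann_eq_of_large (K := K) (F := F) htr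
  exact WeilDivCore.exists_max_divisor_of htr (gR K F : ℤ) c hc hω h0

end Fermat.Agent.S17.R
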