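/-
Strand R of PROGRAM MW (S17), leaf R7.

`H¹(D) = A ⧸ (A(D) + F)` on the Prelude's repartitions: finiteness, the index of speciality
`dim H¹(D) = l(D) - deg D - 1 + g`, and `gR = genusFF`.  The adele count is in `H1Core.lean`;
here the landed literals `finite_L` (R1) and `riemann_eq_of_large` (R2) are plugged in.
-/
import Mathlib
import Fermat.Agent.S17.R.H1Core
import Fermat.Agent.S17.R.LStep
import Fermat.Agent.S17.R.Riemann

set_option autoImplicit false

namespace Fermat.Agent.S17.R

open AlgebraicCurve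

variable {K F : Type*} [Field K] [Field F] [Algebra K F]
variable [IsAlgClosed K] [CharZero K] [Algebra.EssFiniteType K F]

/-- **`H¹(D)` is finite-dimensional.** -/
theorem h1_finite (htr : Algebra.trdeg K F = 1) (D : Divisor K F) :
    Module.Finite K (H1 D) := by
  obtain ⟨c, hc⟩ := riemann_eq_of_large htr
  exact H1.finite_H1_of htr (gR K F : ℤ) c (finite_L htr) hc D

/-- **The index of speciality**: `dim H¹(D) = l(D) - deg D - 1 + g`. -/
theorem h1_finrank (htr : Algebra.trdeg K F = 1) (D : Divisor K F) :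
    (Module.finrank K (H1 D) : ℤ) =
      Module.finrank K ↥(riemannRochSpace D) - Divisor.degree D - 1 + (gR K F : ℤ) := by
  obtain ⟨c, hc⟩ := riemann_eq_of_large htr
  exact H1.finrank_H1_of htr (gR K F : ℤ) c (finite_L htr) hc D

/-- Riemann–Roch with `H¹`: `l(D) = deg D + 1 - g + dim H¹(D)`. -/
theorem finrank_L_eq_add_finrank_H1 (htr : Algebra.trdeg K F = 1) (D : Divisor K F) :
    (Module.finrank K ↥(riemannRochSpace D) : ℤ) =
      Divisor.degree D + 1 - (gR K F : ℤ) + Module.finrank K (H1 D) := by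
  have h := h1_finrank htr D
  omega

/-- `H¹(D) = 0` above Riemann's bound. -/
theorem exists_finrank_H1_eq_zero (htr : Algebra.trdeg K F = 1) :
    ∃ c : ℤ, ∀ D : Divisor K F, c ≤ Divisor.degree D → Module.finrank K (H1 D) = 0 := by
  obtain ⟨c, hc⟩ := riemann_eq_of_large htr
  refine ⟨c, fun D hD => ?_⟩
  have h := h1_finrank htr D
  have h2 := hc D hD
  omega

/-- The Prelude's genus `dim H¹(0)` is Riemann's constant, and `H¹(0)` is finite-dimensional. -/
theorem gR_eq_genusFF (htr : Algebra.trdeg K F = 1) :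
    gR K F = genusFF K F ∧ Module.Finite K (H1 (0 : Divisor K F)) := by
  obtain ⟨c, hc⟩ := riemann_eq_of_large htr
  exact ⟨H1.genusFF_eq_of htr (gR K F) c (finite_L htr) hc, h1_finite htr 0⟩

end Fermat.Agent.S17.R
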