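/-
MW strand R, leaf R8a (part 2): the dimension of the space of Weil differentials `Ω(D)`,
from the finiteness of `H1 D` (leaf R7), and the existence of a nonzero Weil differential.
-/
import Mathlib
import Fermat.Prelude.Def_AlgebraicCurve_Repartitions
import Fermat.Agent.S17.R.WeilDef
import Fermat.Agent.S17.R.Places
import Fermat.Agent.S17.R.H1

set_option autoImplicit false

namespace Fermat.Agent.S17.R

open AlgebraicCurve

variable {K F : Type*} [Field K] [Field F] [Algebra K F]
variable [IsAlgClosed K] [CharZero K] [Algebra.EssFiniteType K F]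

/-- (R8a) `Ω(D)` is the dual of `H¹(D)`. -/
theorem finrank_weilOf (htr : Algebra.trdeg K F = 1) (D : Divisor K F) :
    Module.Finite K ↥(weilOf D) ∧
    (Module.finrank K ↥(weilOf D) : ℤ) =
      Module.finrank K ↥(riemannRochSpace D) - Divisor.degree D - 1 + (gR K F : ℤ) := by
  have hfin := h1_finite htr D
  exact ⟨finite_weilOf_of_finite D hfin, by rw [finrank_weilOf_eq_h1 D hfin, h1_finrank htr D]⟩

/-- (R8a) a nonzero Weil differential exists. -/
theorem exists_weil_ne_zero (htr : Algebra.trdeg K F = 1) :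
    ∃ (D : Divisor K F) (ω : Module.Dual K ↥(repartitions K F)), ω ∈ weilOf D ∧ ω ≠ 0 := by
  obtain ⟨v⟩ := nonempty_place htr
  have hdeg : Divisor.degree (Finsupp.single v (-2) : Divisor K F) = -2 := by
    rw [Divisor.degree_single, Fermat.Agent.S24.FF.deg_eq_one htr v]
    norm_num
  have hL : riemannRochSpace (Finsupp.single v (-2) : Divisor K F) = ⊥ :=
    L_eq_bot_of_degree_neg htr (by rw [hdeg]; norm_num)
  obtain ⟨hfin, hrank⟩ := finrank_weilOf htr (Finsupp.single v (-2) : Divisor K F)
  have hL0 : Module.finrank K ↥(riemannRochSpace (Finsupp.single v (-2) : Divisor K F)) = 0 := by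
    rw [hL]
    exact finrank_bot K F
  rw [hL0, hdeg] at hrank
  have hpos : 0 < Module.finrank K ↥(weilOf (Finsupp.single v (-2) : Divisor K F)) := by
    have : (0 : ℤ) ≤ (gR K F : ℤ) := Int.natCast_nonneg _
    omega
  by_contra hcon
  have hbot : weilOf (Finsupp.single v (-2) : Divisor K F) = ⊥ := by
    rw [eq_bot_iff]
    intro ω hω
    rw [Submodule.mem_bot]
    by_contra hne
    exact hcon ⟨_, ω, hω, hne⟩
  rw [hbot, finrank_bot] at hpos
  exact lt_irrefl _ hpos

end Fermat.Agent.S17.R
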