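/-
MW strand R, leaf R8d: the Riemann–Roch theorem for a function field `F / K` of one variable over
an algebraically closed field of characteristic zero, through Weil differentials on the
Prelude's repartitions (Stichtenoth 1.5.14-15).

For a nonzero Weil differential `ω` with maximal divisor `W`, `x ↦ x ω` is a `K`-linear bijection
`L(W - D) ≃ Ω(D)`; with `dim Ω(D) = l(D) - deg D - 1 + g` this is Riemann–Roch, and the cases
`D = 0`, `D = W` give `deg W = 2 g - 2`.
-/
import Mathlib
import Fermat.Agent.S17.R.LSpace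
import Fermat.Agent.S17.R.WeilDef
import Fermat.Agent.S17.R.WeilRank
import Fermat.Agent.S17.R.WeilDim
import Fermat.Agent.S17.R.WeilDiv

set_option autoImplicit false

namespace Fermat.Agent.S17.R

open AlgebraicCurve

variable {K F : Type*} [Field K] [Field F] [Algebra K F]

namespace RiemannRoch

section Curve

variable [IsAlgClosed K] [CharZero K] [Algebra.EssFiniteType K F]

/-- `x ∈ L(W - D)` sends `ω ∈ Ω(W)` into `Ω(D)`. -/
theorem smulDiff_mem_of_mem_L (htr : Algebra.trdeg K F = 1) {W D : Divisor K F}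
    {ω : Module.Dual K ↥(repartitions K F)} (hW : ω ∈ weilOf W) {x : F}
    (hx : x ∈ riemannRochSpace (W - D)) : smulDiff x ω ∈ weilOf D := by
  by_cases hx0 : x = 0
  · rw [hx0, smulDiff_zero]
    exact Submodule.zero_mem _
  · have h1 := smulDiff_mem_weilOf htr hx0 hW
    have h2 : 0 ≤ (W - D) + divOf K x := add_divOf_nonneg htr hx0 hx
    have h3 : D ≤ W + divOf K x := by
      have e : (W - D) + divOf K x = (W + divOf K x) - D := by abel
      rw [e] at h2
      exact sub_nonneg.mp h2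
    exact weilOf_anti h3 h1

/-- Maximality of `W` transported along `x`: if `x ω ∈ Ω(D)` then `x ∈ L(W - D)`. -/
theorem mem_L_of_smulDiff_mem (htr : Algebra.trdeg K F = 1) {W D : Divisor K F}
    {ω : Module.Dual K ↥(repartitions K F)}
    (hmax : ∀ D' : Divisor K F, ω ∈ weilOf D' → D' ≤ W) {x : F} (hx0 : x ≠ 0)
    (h : smulDiff x ω ∈ weilOf D) : x ∈ riemannRochSpace (W - D) := by
  have h1 := smulDiff_mem_weilOf htr (inv_ne_zero hx0) h
  rw [← smulDiff_mul, inv_mul_cancel₀ hx0, smulDiff_one, divOf_inv htr] at h1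
  have h2 : D + -divOf K x ≤ W := hmax _ h1
  apply mem_L_of_add_divOf_nonneg htr
  have e : (W - D) + divOf K x = W - (D + -divOf K x) := by abel
  rw [e]
  exact sub_nonneg.mpr h2

/-- The `K`-linear map `L(W - D) → Ω(D)`, `x ↦ x ω`. -/
noncomputable def toWeil (htr : Algebra.trdeg K F = 1) {W : Divisor K F}
    {ω : Module.Dual K ↥(repartitions K F)} (hW : ω ∈ weilOf W) (D : Divisor K F) :
    ↥(riemannRochSpace (W - D)) →ₗ[K] ↥(weilOf D) where
  toFun x := ⟨smulDiff (x : F) ω, smulDiff_mem_of_mem_L htr hW x.2⟩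
  map_add' _ _ := Subtype.ext (smulDiff_add _ _ _)
  map_smul' c _ := Subtype.ext (smulDiff_smul c _ _)

theorem toWeil_injective (htr : Algebra.trdeg K F = 1) {W : Divisor K F}
    {ω : Module.Dual K ↥(repartitions K F)} (hW : ω ∈ weilOf W) (h0 : ω ≠ 0) (D : Divisor K F) :
    Function.Injective (toWeil htr hW D) := by
  rw [injective_iff_map_eq_zero]
  intro x hx
  by_contra hx0
  have hxF : (x : F) ≠ 0 := fun h => hx0 (Subtype.ext h)
  have h1 : smulDiff (x : F) ω = 0 := congrArg Subtype.val hx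
  exact h0 ((smulDiff_eq_zero_iff hxF).mp h1)

theorem toWeil_surjective (htr : Algebra.trdeg K F = 1) {W : Divisor K F}
    {ω : Module.Dual K ↥(repartitions K F)} (hW : ω ∈ weilOf W) (h0 : ω ≠ 0)
    (hmax : ∀ D' : Divisor K F, ω ∈ weilOf D' → D' ≤ W) (D : Divisor K F) :
    Function.Surjective (toWeil htr hW D) := by
  rintro ⟨η, hη⟩
  obtain ⟨x, hx⟩ := exists_smulDiff_eq htr hW hη h0
  by_cases hx0 : x = 0
  · refine ⟨0, Subtype.ext ?_⟩
    rw [map_zero]
    show (0 : Module.Dual K ↥(repartitions K F)) = η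
    rw [hx, hx0, smulDiff_zero]
  · have hmem : x ∈ riemannRochSpace (W - D) :=
      mem_L_of_smulDiff_mem htr hmax hx0 (hx ▸ hη)
    exact ⟨⟨x, hmem⟩, Subtype.ext hx.symm⟩

/-- `L(W - D) ≃ Ω(D)`. -/
noncomputable def equivWeil (htr : Algebra.trdeg K F = 1) {W : Divisor K F}
    {ω : Module.Dual K ↥(repartitions K F)} (hW : ω ∈ weilOf W) (h0 : ω ≠ 0)
    (hmax : ∀ D' : Divisor K F, ω ∈ weilOf D' → D' ≤ W) (D : Divisor K F) :
    ↥(riemannRochSpace (W - D)) ≃ₗ[K] ↥(weilOf D) :=
  LinearEquiv.ofBijective (toWeil htr hW D)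
    ⟨toWeil_injective htr hW h0 D, toWeil_surjective htr hW h0 hmax D⟩

/-- `l(0) = 1`. -/
theorem finrank_L_zero (htr : Algebra.trdeg K F = 1) :
    Module.finrank K ↥(riemannRochSpace (0 : Divisor K F)) = 1 := by
  have h1 : (1 : F) ∈ riemannRochSpace (0 : Divisor K F) :=
    (mem_L_zero_iff htr).mpr ⟨1, map_one _⟩
  refine (finrank_eq_one_iff_of_nonzero'
    (⟨1, h1⟩ : ↥(riemannRochSpace (0 : Divisor K F))) ?_).mpr ?_
  · intro h
    exact one_ne_zero (congrArg Subtype.val h)
  · rintro ⟨w, hw⟩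
    obtain ⟨c, rfl⟩ := (mem_L_zero_iff htr).mp hw
    exact ⟨c, Subtype.ext (by simp [Algebra.smul_def])⟩

end Curve

end RiemannRoch

section Curve

variable [IsAlgClosed K] [CharZero K] [Algebra.EssFiniteType K F]

open RiemannRoch in
/-- **Riemann–Roch**: there is a canonical divisor `W` of degree `2 g - 2` with
`l(D) = deg D + 1 - g + l(W - D)` for every divisor `D`. -/
theorem riemann_roch (htr : Algebra.trdeg K F = 1) :
    ∃ W : Divisor K F, Divisor.degree W = 2 * (gR K F : ℤ) - 2 ∧ ∀ D : Divisor K F,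
      (Module.finrank K ↥(riemannRochSpace D) : ℤ) =
        Divisor.degree D + 1 - (gR K F : ℤ) + Module.finrank K ↥(riemannRochSpace (W - D)) := by
  obtain ⟨D₀, ω, hω, h0⟩ := exists_weil_ne_zero (K := K) (F := F) htr
  obtain ⟨W, hW, hmax⟩ := exists_max_divisor htr hω h0
  have key : ∀ D : Divisor K F, (Module.finrank K ↥(riemannRochSpace D) : ℤ) =
      Divisor.degree D + 1 - (gR K F : ℤ) + Module.finrank K ↥(riemannRochSpace (W - D)) := by
    intro D
    have e := (equivWeil htr hW h0 hmax D).finrank_eq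
    have h := (finrank_weilOf htr D).2
    rw [e]
    omega
  refine ⟨W, ?_, key⟩
  have k0 := key 0
  have kW := key W
  rw [sub_zero] at k0
  rw [sub_self] at kW
  have h1 : (Module.finrank K ↥(riemannRochSpace (0 : Divisor K F)) : ℤ) = 1 := by
    exact_mod_cast finrank_L_zero htr
  rw [h1, map_zero] at k0
  rw [h1] at kW
  omega

end Curve

end Fermat.Agent.S17.R
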