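/-
MW strand R, leaf R12: corollaries of the Riemann–Roch theorem (`riemann_roch`, leaf R8d) for
divisors of large degree, with the EXPLICIT thresholds `2g - 1`, `2g`, `2g + 1` (`g = gR K F`).

* `finrank_L_of_degree_ge`            : `deg D ≥ 2g - 1 ⇒ l(D) = deg D + 1 - g`
* `finrank_L_sub_single_of_degree_ge` : `deg D ≥ 2g ⇒ l(D - P) + 1 = l(D)`      (no base points)
* `finrank_L_sub_two_of_degree_ge`    : `deg D ≥ 2g + 1 ⇒ l(D - P - Q) + 2 = l(D)`
                                         (`|D|` separates points and tangents)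
* `exists_mem_L_ord_eq_of_degree_ge`  : `deg D ≥ 2g ⇒ ∃ f ∈ L(D), f ≠ 0, ord_P f = -D(P)`
* the explicit forms of the leaf R10a for `D = n • v₀`:
  `finrank_L_nsmul_single_of_ge` (`n + 1 ≥ 2g`), `exists_nongap_of_ge` (`n ≥ 2g`),
  `finrank_L_sub_two_points_of_ge` (`m ≥ 2g + 1`), `finrank_L_sub_point_of_ge` (`m ≥ 2g`).

The namespace `RRCor` holds the same statements on the Riemann–Roch formula as a hypothesis
(`hW : deg W = 2 g - 2`, `hRR : ∀ D, l(D) = deg D + 1 - g + l(W - D)`, any `g : ℤ`).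
-/
import Mathlib
import Fermat.Prelude.Def_AlgebraicCurve_Repartitions
import Fermat.Agent.S24.FF.Residue
import Fermat.Agent.S17.R.LSpace
import Fermat.Agent.S17.R.RiemannRoch

set_option autoImplicit false

namespace Fermat.Agent.S17.R.RRCor

open AlgebraicCurve

variable {K F : Type*} [Field K] [Field F] [Algebra K F]

theorem sub_single_le (D : Divisor K F) (P : Place K F) :
    D - Finsupp.single P (1 : ℤ) ≤ D := by
  classical
  rw [Finsupp.le_def]
  intro v
  rw [Finsupp.sub_apply, Finsupp.single_apply]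
  split_ifs <;> omega

theorem nsmul_single_apply_self (v₀ : Place K F) (n : ℕ) :
    ((n : ℤ) • Finsupp.single v₀ (1 : ℤ) : Divisor K F) v₀ = n := by
  rw [Finsupp.smul_apply, Finsupp.single_eq_same, smul_eq_mul, mul_one]

variable [IsAlgClosed K]

theorem degree_single_one (htr : Algebra.trdeg K F = 1) (P : Place K F) :
    Divisor.degree (Finsupp.single P (1 : ℤ)) = 1 := by
  rw [Divisor.degree_single, Fermat.Agent.S24.FF.deg_eq_one htr P]
  simp

theorem degree_nsmul_single (htr : Algebra.trdeg K F = 1) (v₀ : Place K F) (n : ℕ) :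
    Divisor.degree ((n : ℤ) • Finsupp.single v₀ (1 : ℤ)) = n := by
  rw [map_zsmul, degree_single_one htr, smul_eq_mul, mul_one]

theorem degree_sub_single (htr : Algebra.trdeg K F = 1) (D : Divisor K F) (P : Place K F) :
    Divisor.degree (D - Finsupp.single P (1 : ℤ)) = Divisor.degree D - 1 := by
  rw [map_sub, degree_single_one htr]

variable [CharZero K] [Algebra.EssFiniteType K F]

variable {g : ℤ} {W : Divisor K F}

/-- `deg D ≥ 2g - 1 ⇒ l(D) = deg D + 1 - g`. -/
theorem finrank_L_of_rr (htr : Algebra.trdeg K F = 1) (hW : Divisor.degree W = 2 * g - 2)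
    (hRR : ∀ D : Divisor K F, (Module.finrank K ↥(riemannRochSpace D) : ℤ) =
      Divisor.degree D + 1 - g + Module.finrank K ↥(riemannRochSpace (W - D)))
    {D : Divisor K F} (h : 2 * g - 1 ≤ Divisor.degree D) :
    (Module.finrank K ↥(riemannRochSpace D) : ℤ) = Divisor.degree D + 1 - g := by
  have h1 : Divisor.degree (W - D) < 0 := by
    rw [map_sub, hW]
    omega
  have h2 : Module.finrank K ↥(riemannRochSpace (W - D)) = 0 := by
    rw [L_eq_bot_of_degree_neg htr h1, finrank_bot]
  have h3 := hRR D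
  rw [h2] at h3
  rw [h3]
  simp

/-- `deg D ≥ 2g ⇒ l(D - P) + 1 = l(D)`: the complete linear system `|D|` has no base point. -/
theorem finrank_L_sub_single_of_rr (htr : Algebra.trdeg K F = 1)
    (hW : Divisor.degree W = 2 * g - 2)
    (hRR : ∀ D : Divisor K F, (Module.finrank K ↥(riemannRochSpace D) : ℤ) =
      Divisor.degree D + 1 - g + Module.finrank K ↥(riemannRochSpace (W - D)))
    {D : Divisor K F} (h : 2 * g ≤ Divisor.degree D) (P : Place K F) :
    Module.finrank K ↥(riemannRochSpace (D - Finsupp.single P (1 : ℤ))) + 1 =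
      Module.finrank K ↥(riemannRochSpace D) := by
  have h1 := finrank_L_of_rr htr hW hRR (D := D) (by omega)
  have h2 := finrank_L_of_rr htr hW hRR (D := D - Finsupp.single P (1 : ℤ))
    (by rw [degree_sub_single htr]; omega)
  rw [degree_sub_single htr] at h2
  omega

/-- `deg D ≥ 2g + 1 ⇒ l(D - P - Q) + 2 = l(D)`: `|D|` separates points and tangents. -/
theorem finrank_L_sub_two_of_rr (htr : Algebra.trdeg K F = 1)
    (hW : Divisor.degree W = 2 * g - 2)
    (hRR : ∀ D : Divisor K F, (Module.finrank K ↥(riemannRochSpace D) : ℤ) =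
      Divisor.degree D + 1 - g + Module.finrank K ↥(riemannRochSpace (W - D)))
    {D : Divisor K F} (h : 2 * g + 1 ≤ Divisor.degree D) (P Q : Place K F) :
    Module.finrank K ↥(riemannRochSpace
        (D - Finsupp.single P (1 : ℤ) - Finsupp.single Q (1 : ℤ))) + 2 =
      Module.finrank K ↥(riemannRochSpace D) := by
  have h1 := finrank_L_of_rr htr hW hRR (D := D) (by omega)
  have h2 := finrank_L_of_rr htr hW hRR
    (D := D - Finsupp.single P (1 : ℤ) - Finsupp.single Q (1 : ℤ))
    (by rw [degree_sub_single htr, degree_sub_single htr]; omega)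
  rw [degree_sub_single htr, degree_sub_single htr] at h2
  omega

/-- `deg D ≥ 2g`: some `f ∈ L(D)` has exactly the pole order `D(P)` at `P`. -/
theorem exists_mem_L_ord_eq_of_rr (htr : Algebra.trdeg K F = 1)
    (hW : Divisor.degree W = 2 * g - 2)
    (hRR : ∀ D : Divisor K F, (Module.finrank K ↥(riemannRochSpace D) : ℤ) =
      Divisor.degree D + 1 - g + Module.finrank K ↥(riemannRochSpace (W - D)))
    {D : Divisor K F} (h : 2 * g ≤ Divisor.degree D) (P : Place K F) :
    ∃ f : F, f ∈ riemannRochSpace D ∧ f ≠ 0 ∧ P.ord f = -D P := by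
  classical
  have hstep := finrank_L_sub_single_of_rr htr hW hRR h P
  have hle : riemannRochSpace (D - Finsupp.single P (1 : ℤ)) ≤ riemannRochSpace D :=
    L_mono (sub_single_le D P)
  by_contra hcon
  have hge : riemannRochSpace D ≤ riemannRochSpace (D - Finsupp.single P (1 : ℤ)) := by
    intro f hf
    by_cases hf0 : f = 0
    · rw [hf0]
      exact Submodule.zero_mem _
    · have hf' := (mem_L_of_ne_zero hf0).mp hf
      rw [mem_L_of_ne_zero hf0]
      intro v
      have hv := hf' v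
      rw [Finsupp.sub_apply, Finsupp.single_apply]
      by_cases hvP : P = v
      · rw [if_pos hvP]
        have hne : P.ord f ≠ -D P := fun he => hcon ⟨f, hf, hf0, he⟩
        rw [← hvP] at hv ⊢
        omega
      · rw [if_neg hvP]
        omega
  have heq : Module.finrank K ↥(riemannRochSpace (D - Finsupp.single P (1 : ℤ))) =
      Module.finrank K ↥(riemannRochSpace D) := by
    rw [le_antisymm hle hge]
  omega

/-! ### The divisors `n • v₀` (explicit forms of R10a) -/

/-- `n ≥ 2g - 1 ⇒ l(n v₀) = n + 1 - g`. -/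
theorem finrank_L_nsmul_single_of_rr (htr : Algebra.trdeg K F = 1)
    (hW : Divisor.degree W = 2 * g - 2)
    (hRR : ∀ D : Divisor K F, (Module.finrank K ↥(riemannRochSpace D) : ℤ) =
      Divisor.degree D + 1 - g + Module.finrank K ↥(riemannRochSpace (W - D)))
    (v₀ : Place K F) {n : ℕ} (hn : 2 * g - 1 ≤ (n : ℤ)) :
    (Module.finrank K ↥(riemannRochSpace ((n : ℤ) • Finsupp.single v₀ (1 : ℤ))) : ℤ) =
      (n : ℤ) + 1 - g := by
  have h := finrank_L_of_rr htr hW hRR (D := (n : ℤ) • Finsupp.single v₀ (1 : ℤ))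
    (by rw [degree_nsmul_single htr]; exact hn)
  rwa [degree_nsmul_single htr] at h

/-- `n ≥ 2g`: `n` is a pole order at `v₀` of a function regular elsewhere (a non-gap). -/
theorem exists_nongap_of_rr (htr : Algebra.trdeg K F = 1)
    (hW : Divisor.degree W = 2 * g - 2)
    (hRR : ∀ D : Divisor K F, (Module.finrank K ↥(riemannRochSpace D) : ℤ) =
      Divisor.degree D + 1 - g + Module.finrank K ↥(riemannRochSpace (W - D)))
    (v₀ : Place K F) {n : ℕ} (hn : 2 * g ≤ (n : ℤ)) :
    ∃ f : F, f ∈ riemannRochSpace ((n : ℤ) • Finsupp.single v₀ (1 : ℤ)) ∧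
      v₀.ord f = -(n : ℤ) := by
  obtain ⟨f, hf, -, hord⟩ := exists_mem_L_ord_eq_of_rr htr hW hRR
    (D := (n : ℤ) • Finsupp.single v₀ (1 : ℤ)) (by rw [degree_nsmul_single htr]; exact hn) v₀
  rw [nsmul_single_apply_self] at hord
  exact ⟨f, hf, hord⟩

/-- `m ≥ 2g + 1`: `L(m v₀)` separates points and tangents. -/
theorem finrank_L_sub_two_points_of_rr (htr : Algebra.trdeg K F = 1)
    (hW : Divisor.degree W = 2 * g - 2)
    (hRR : ∀ D : Divisor K F, (Module.finrank K ↥(riemannRochSpace D) : ℤ) =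
      Divisor.degree D + 1 - g + Module.finrank K ↥(riemannRochSpace (W - D)))
    (v₀ : Place K F) {m : ℕ} (hm : 2 * g + 1 ≤ (m : ℤ)) (P Q : Place K F) :
    Module.finrank K ↥(riemannRochSpace
        ((m : ℤ) • Finsupp.single v₀ (1 : ℤ) - Finsupp.single P 1 - Finsupp.single Q 1)) + 2 =
      Module.finrank K ↥(riemannRochSpace ((m : ℤ) • Finsupp.single v₀ (1 : ℤ))) :=
  finrank_L_sub_two_of_rr htr hW hRR (by rw [degree_nsmul_single htr]; exact hm) P Q

/-- `m ≥ 2g`: `L(m v₀)` has no base point. -/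
theorem finrank_L_sub_point_of_rr (htr : Algebra.trdeg K F = 1)
    (hW : Divisor.degree W = 2 * g - 2)
    (hRR : ∀ D : Divisor K F, (Module.finrank K ↥(riemannRochSpace D) : ℤ) =
      Divisor.degree D + 1 - g + Module.finrank K ↥(riemannRochSpace (W - D)))
    (v₀ : Place K F) {m : ℕ} (hm : 2 * g ≤ (m : ℤ)) (P : Place K F) :
    Module.finrank K ↥(riemannRochSpace
        ((m : ℤ) • Finsupp.single v₀ (1 : ℤ) - Finsupp.single P 1)) + 1 =
      Module.finrank K ↥(riemannRochSpace ((m : ℤ) • Finsupp.single v₀ (1 : ℤ))) :=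
  finrank_L_sub_single_of_rr htr hW hRR (by rw [degree_nsmul_single htr]; exact hm) P

end Fermat.Agent.S17.R.RRCor

namespace Fermat.Agent.S17.R

open AlgebraicCurve

variable {K F : Type*} [Field K] [Field F] [Algebra K F]
variable [IsAlgClosed K] [CharZero K] [Algebra.EssFiniteType K F]

/-- `deg D ≥ 2g - 1 ⇒ l(D) = deg D + 1 - g`. -/
theorem finrank_L_of_degree_ge (htr : Algebra.trdeg K F = 1) {D : Divisor K F}
    (h : 2 * (gR K F : ℤ) - 1 ≤ Divisor.degree D) :
    (Module.finrank K ↥(riemannRochSpace D) : ℤ) = Divisor.degree D + 1 - (gR K F : ℤ) := by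
  obtain ⟨W, hW, hRR⟩ := riemann_roch (K := K) (F := F) htr
  exact RRCor.finrank_L_of_rr htr hW hRR h

/-- `deg D ≥ 2g ⇒ l(D - P) + 1 = l(D)`: the complete linear system `|D|` has no base point. -/
theorem finrank_L_sub_single_of_degree_ge (htr : Algebra.trdeg K F = 1) {D : Divisor K F}
    (h : 2 * (gR K F : ℤ) ≤ Divisor.degree D) (P : Place K F) :
    Module.finrank K ↥(riemannRochSpace (D - Finsupp.single P (1 : ℤ))) + 1 =
      Module.finrank K ↥(riemannRochSpace D) := by
  obtain ⟨W, hW, hRR⟩ := riemann_roch (K := K) (F := F) htr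
  exact RRCor.finrank_L_sub_single_of_rr htr hW hRR h P

/-- `deg D ≥ 2g + 1 ⇒ l(D - P - Q) + 2 = l(D)`: `|D|` separates points and tangents. -/
theorem finrank_L_sub_two_of_degree_ge (htr : Algebra.trdeg K F = 1) {D : Divisor K F}
    (h : 2 * (gR K F : ℤ) + 1 ≤ Divisor.degree D) (P Q : Place K F) :
    Module.finrank K ↥(riemannRochSpace
        (D - Finsupp.single P (1 : ℤ) - Finsupp.single Q (1 : ℤ))) + 2 =
      Module.finrank K ↥(riemannRochSpace D) := by
  obtain ⟨W, hW, hRR⟩ := riemann_roch (K := K) (F := F) htr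
  exact RRCor.finrank_L_sub_two_of_rr htr hW hRR h P Q

/-- `deg D ≥ 2g`: some `f ∈ L(D)` has exactly the pole order `D(P)` at `P`. -/
theorem exists_mem_L_ord_eq_of_degree_ge (htr : Algebra.trdeg K F = 1) {D : Divisor K F}
    (h : 2 * (gR K F : ℤ) ≤ Divisor.degree D) (P : Place K F) :
    ∃ f : F, f ∈ riemannRochSpace D ∧ f ≠ 0 ∧ P.ord f = -D P := by
  obtain ⟨W, hW, hRR⟩ := riemann_roch (K := K) (F := F) htr
  exact RRCor.exists_mem_L_ord_eq_of_rr htr hW hRR h P

/-- Explicit `finrank_L_nsmul_single`: `l(n v₀) = n + 1 - g` for `n ≥ 2g - 1`. -/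
theorem finrank_L_nsmul_single_of_ge (htr : Algebra.trdeg K F = 1) (v₀ : Place K F) {n : ℕ}
    (hn : 2 * gR K F ≤ n + 1) :
    (Module.finrank K ↥(riemannRochSpace ((n : ℤ) • Finsupp.single v₀ (1 : ℤ))) : ℤ) =
      (n : ℤ) + 1 - (gR K F : ℤ) := by
  obtain ⟨W, hW, hRR⟩ := riemann_roch (K := K) (F := F) htr
  exact RRCor.finrank_L_nsmul_single_of_rr htr hW hRR v₀ (by omega)

/-- Explicit `exists_nongap_bound`: every `n ≥ 2g` is a pole order at `v₀` of a function regular
elsewhere. -/
theorem exists_nongap_of_ge (htr : Algebra.trdeg K F = 1) (v₀ : Place K F) {n : ℕ}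
    (hn : 2 * gR K F ≤ n) :
    ∃ f : F, f ∈ riemannRochSpace ((n : ℤ) • Finsupp.single v₀ (1 : ℤ)) ∧
      v₀.ord f = -(n : ℤ) := by
  obtain ⟨W, hW, hRR⟩ := riemann_roch (K := K) (F := F) htr
  exact RRCor.exists_nongap_of_rr htr hW hRR v₀ (by omega)

/-- Explicit `finrank_L_sub_two_points`: `L(m v₀)` separates points and tangents for
`m ≥ 2g + 1`. -/
theorem finrank_L_sub_two_points_of_ge (htr : Algebra.trdeg K F = 1) (v₀ : Place K F) {m : ℕ}
    (hm : 2 * gR K F + 1 ≤ m) (P Q : Place K F) :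
    Module.finrank K ↥(riemannRochSpace
        ((m : ℤ) • Finsupp.single v₀ (1 : ℤ) - Finsupp.single P 1 - Finsupp.single Q 1)) + 2 =
      Module.finrank K ↥(riemannRochSpace ((m : ℤ) • Finsupp.single v₀ (1 : ℤ))) := by
  obtain ⟨W, hW, hRR⟩ := riemann_roch (K := K) (F := F) htr
  exact RRCor.finrank_L_sub_two_points_of_rr htr hW hRR v₀ (by omega) P Q

/-- Explicit `finrank_L_sub_point`: `L(m v₀)` has no base point for `m ≥ 2g`. -/
theorem finrank_L_sub_point_of_ge (htr : Algebra.trdeg K F = 1) (v₀ : Place K F) {m : ℕ}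
    (hm : 2 * gR K F ≤ m) (P : Place K F) :
    Module.finrank K ↥(riemannRochSpace
        ((m : ℤ) • Finsupp.single v₀ (1 : ℤ) - Finsupp.single P 1)) + 1 =
      Module.finrank K ↥(riemannRochSpace ((m : ℤ) • Finsupp.single v₀ (1 : ℤ))) := by
  obtain ⟨W, hW, hRR⟩ := riemann_roch (K := K) (F := F) htr
  exact RRCor.finrank_L_sub_point_of_rr htr hW hRR v₀ (by omega) P

end Fermat.Agent.S17.R
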