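/-
MW strand R, leaf R21 (helper19): separating, unramified functions on a finite set of places, and
local monogenicity of `regOff v₀` over `K[x]` at a fibre `x = α` (the places half of D4d
LocalMono).

* `exists_simple_separating` : for a finite set `S` of places `≠ v₀` there is `y ∈ regOff v₀`
  with pairwise distinct values `c P` on `S` and `y - c P` a uniformiser at every `P ∈ S`;
* `exists_fibre_generator`   : `x ∈ regOff v₀` with a pole of order `n0 > 0` at `v₀`, `α : K`:
  there is `y ∈ regOff v₀` with `q(y) ∉ (x - α) · regOff v₀` for every `q ∈ K[X] \ 0` of degree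
  `< n0`;
* `exists_fibre_generator_fin` : the same for coefficient vectors: `1, y, …, y^(n0-1)` are
  `K`-linearly independent modulo `(x - α) · regOff v₀`.
-/
import Mathlib
import Fermat.Prelude.Def_AlgebraicCurve_Repartitions
import Fermat.Agent.S17.R.LSpace
import Fermat.Agent.S17.R.RRCor
import Fermat.Agent.S17.R.Eval
import Fermat.Agent.S17.R.PoleDegree

set_option autoImplicit false

namespace Fermat.Agent.S17.R

open AlgebraicCurve
open Fermat.Agent.S24.FF

variable {K F : Type*} [Field K] [Field F] [Algebra K F]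

namespace FibreSep

/-- `ord (f ^ n) = n · ord f`. -/
theorem ord_pow' (v : Place K F) {f : F} (hf : f ≠ 0) (n : ℕ) :
    v.ord (f ^ n) = (n : ℤ) * v.ord f := by
  induction n with
  | zero => simp [Place.ord_one]
  | succ k ih =>
    rw [pow_succ, v.ord_mul (pow_ne_zero k hf) hf, ih]
    push_cast
    ring

/-- Constants are sections of `n · v₀`. -/
theorem algebraMap_mem_L (v₀ : Place K F) (n : ℕ) (a : K) :
    algebraMap K F a ∈ riemannRochSpace ((n : ℤ) • Finsupp.single v₀ (1 : ℤ)) := by
  rw [mem_L_iff]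
  refine Or.inr fun v => ?_
  rw [ord_algebraMap]
  by_cases hv : v = v₀
  · rw [hv, Eval.nsmul_single_apply_self]
    have : (0 : ℤ) ≤ (n : ℤ) := Int.natCast_nonneg n
    omega
  · rw [Eval.nsmul_single_apply_of_ne hv]
    omega

/-- A section of `n · v₀` vanishing to the orders of `E` off `v₀` is a section of `n · v₀ - E`. -/
theorem mem_L_sub {v₀ : Place K F} {n : ℕ} {f : F} {E : Divisor K F}
    (hf : f ∈ riemannRochSpace ((n : ℤ) • Finsupp.single v₀ (1 : ℤ))) (hE0 : E v₀ = 0)
    (hE : f ≠ 0 → ∀ v : Place K F, v ≠ v₀ → E v ≤ v.ord f) :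
    f ∈ riemannRochSpace ((n : ℤ) • Finsupp.single v₀ (1 : ℤ) - E) := by
  by_cases hf0 : f = 0
  · rw [hf0]
    exact zero_mem _
  · rw [mem_L_of_ne_zero hf0] at hf ⊢
    intro v
    rw [Finsupp.sub_apply]
    by_cases hv : v = v₀
    · have h := hf v
      rw [hv] at h ⊢
      rw [hE0]
      omega
    · have h := hE hf0 v hv
      rw [Eval.nsmul_single_apply_of_ne hv]
      omega

open Classical in
/-- The value of `P + Q` at a place. -/
theorem two_single_apply (P Q v : Place K F) :
    (Finsupp.single P (1 : ℤ) + Finsupp.single Q (1 : ℤ) : Divisor K F) v =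
      (if P = v then 1 else 0) + (if Q = v then 1 else 0) := by
  rw [Finsupp.add_apply, Finsupp.single_apply, Finsupp.single_apply]

/-- The "bad" subspace: constants plus the sections vanishing at `P + Q`. -/
noncomputable def bad (v₀ : Place K F) (n : ℕ) (P Q : Place K F) : Submodule K F :=
  Submodule.span K {(1 : F)} ⊔
    riemannRochSpace ((n : ℤ) • Finsupp.single v₀ (1 : ℤ) -
      (Finsupp.single P (1 : ℤ) + Finsupp.single Q (1 : ℤ)))

/-- A function congruent to a constant modulo `P + Q` lies in the bad subspace. -/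
theorem mem_bad {v₀ : Place K F} {n : ℕ} {P Q : Place K F} {f : F} (a : K)
    (h : f - algebraMap K F a ∈ riemannRochSpace ((n : ℤ) • Finsupp.single v₀ (1 : ℤ) -
      (Finsupp.single P (1 : ℤ) + Finsupp.single Q (1 : ℤ)))) : f ∈ bad v₀ n P Q := by
  have h1 : algebraMap K F a ∈ Submodule.span K {(1 : F)} := by
    rw [Algebra.algebraMap_eq_smul_one]
    exact Submodule.smul_mem _ _ (Submodule.subset_span rfl)
  have h2 : f = algebraMap K F a + (f - algebraMap K F a) := by ring
  rw [h2]
  exact Submodule.add_mem_sup h1 h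

end FibreSep

variable [IsAlgClosed K] [CharZero K] [Algebra.EssFiniteType K F]

namespace FibreSep

/-- The bad subspaces are proper in `L(n v₀)` for `n = 2g + 1`. -/
theorem exists_notMem_bad (htr : Algebra.trdeg K F = 1) (v₀ : Place K F) {P Q : Place K F}
    (hP : P ≠ v₀) (hQ : Q ≠ v₀) :
    ∃ f : F, f ∈ riemannRochSpace (((2 * gR K F + 1 : ℕ) : ℤ) • Finsupp.single v₀ (1 : ℤ)) ∧
      f ∉ bad v₀ (2 * gR K F + 1) P Q := by
  classical
  obtain ⟨n, hn⟩ : ∃ n : ℕ, n = 2 * gR K F + 1 := ⟨_, rfl⟩
  rw [← hn]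
  obtain ⟨D, hD⟩ : ∃ D : Divisor K F, D = (n : ℤ) • Finsupp.single v₀ (1 : ℤ) := ⟨_, rfl⟩
  have hDP : D P = 0 := by rw [hD, Eval.nsmul_single_apply_of_ne hP]
  have hDQ : D Q = 0 := by rw [hD, Eval.nsmul_single_apply_of_ne hQ]
  have hdeg : 2 * (gR K F : ℤ) ≤ Divisor.degree (D - Finsupp.single P (1 : ℤ)) := by
    rw [RRCor.degree_sub_single htr, hD, RRCor.degree_nsmul_single htr, hn]
    push_cast
    omega
  obtain ⟨f, hf, hf0, hfQ⟩ := exists_mem_L_ord_eq_of_degree_ge htr hdeg Q
  have hfD : f ∈ riemannRochSpace D := L_mono (RRCor.sub_single_le D P) hf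
  rw [← hD]
  refine ⟨f, hfD, fun hbad => ?_⟩
  unfold bad at hbad
  rw [← hD] at hbad
  obtain ⟨u, hu, w, hw, huw⟩ := Submodule.mem_sup.mp hbad
  obtain ⟨a, rfl⟩ := Submodule.mem_span_singleton.mp hu
  -- `w ∈ L(D - P)`
  have hwP : w ∈ riemannRochSpace (D - Finsupp.single P (1 : ℤ)) := by
    refine L_mono ?_ hw
    rw [← sub_sub]
    exact RRCor.sub_single_le _ Q
  -- the constant `a` vanishes at `P`, hence is zero
  have ha : a = 0 := by
    by_contra ha0
    have hc : a • (1 : F) = f - w := by rw [← huw]; ring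
    have hc0 : a • (1 : F) ≠ 0 := by
      rw [← Algebra.algebraMap_eq_smul_one]
      exact (map_ne_zero (algebraMap K F)).mpr ha0
    have hmem : a • (1 : F) ∈ riemannRochSpace (D - Finsupp.single P (1 : ℤ)) := by
      rw [hc]
      exact Submodule.sub_mem _ hf hwP
    have h1 := (mem_L_of_ne_zero hc0).mp hmem P
    rw [Finsupp.sub_apply, Finsupp.single_eq_same, hDP, ← Algebra.algebraMap_eq_smul_one,
      ord_algebraMap] at h1
    omega
  rw [ha, zero_smul, zero_add] at huw
  rw [huw] at hw
  have h2 := (mem_L_of_ne_zero hf0).mp hw Q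
  rw [Finsupp.sub_apply, two_single_apply] at h2
  rw [Finsupp.sub_apply, Finsupp.single_apply] at hfQ
  rw [if_pos rfl] at h2
  omega

end FibreSep

/-- **R21 (a)**: a function regular off `v₀` with pairwise distinct values on a finite set `S` of
places `≠ v₀`, and simple (`y - y(P)` a uniformiser) at each of them. -/
theorem exists_simple_separating (htr : Algebra.trdeg K F = 1) (v₀ : Place K F)
    (S : Finset (Place K F)) (hS : v₀ ∉ S) :
    ∃ (y : F) (c : Place K F → K), y ∈ regOff v₀ ∧ Set.InjOn c (S : Set (Place K F)) ∧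
      ∀ P ∈ S, P.ord (y - algebraMap K F (c P)) = 1 := by
  classical
  obtain ⟨n, hn⟩ : ∃ n : ℕ, n = 2 * gR K F + 1 := ⟨_, rfl⟩
  have hne : ∀ P ∈ S, P ≠ v₀ := fun P hP h => hS (h ▸ hP)
  -- the finite family of proper subspaces of `V = L(n v₀)`
  let V : Submodule K F := riemannRochSpace ((n : ℤ) • Finsupp.single v₀ (1 : ℤ))
  let s : Finset (Submodule K ↥V) :=
    (S ×ˢ S).image fun pq => (FibreSep.bad v₀ n pq.1 pq.2).comap V.subtype
  have hs : (⊤ : Submodule K ↥V) ∉ s := by
    intro htop
    obtain ⟨pq, hpq, hpqtop⟩ := Finset.mem_image.mp htop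
    obtain ⟨hp, hq⟩ := Finset.mem_product.mp hpq
    obtain ⟨f, hf, hfbad⟩ := FibreSep.exists_notMem_bad htr v₀ (hne _ hp) (hne _ hq)
    rw [← hn] at hf hfbad
    have hmem : (⟨f, hf⟩ : ↥V) ∈ (FibreSep.bad v₀ n pq.1 pq.2).comap V.subtype := by
      rw [hpqtop]
      exact Submodule.mem_top
    exact hfbad hmem
  have hcov := Subspace.biUnion_ne_univ_of_top_notMem hs
  obtain ⟨y, hy⟩ : ∃ y : ↥V, y ∉ ⋃ p ∈ s, (p : Set ↥V) := by
    by_contra hcon
    apply hcov
    rw [Set.eq_univ_iff_forall]
    intro y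
    by_contra hy
    exact hcon ⟨y, hy⟩
  have hybad : ∀ P ∈ S, ∀ Q ∈ S, (y : F) ∉ FibreSep.bad v₀ n P Q := by
    intro P hP Q hQ hmem
    apply hy
    rw [Set.mem_iUnion₂]
    exact ⟨(FibreSep.bad v₀ n P Q).comap V.subtype,
      Finset.mem_image.mpr ⟨(P, Q), Finset.mem_product.mpr ⟨hP, hQ⟩, rfl⟩, hmem⟩
  have hyV : (y : F) ∈ riemannRochSpace ((n : ℤ) • Finsupp.single v₀ (1 : ℤ)) := y.2
  have hyreg : (y : F) ∈ regOff v₀ := Eval.mem_regOff_of_mem_L hyV
  -- the values
  have hval : ∀ P : Place K F, ∃ a : K, P ∈ S →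
      ((y : F) = algebraMap K F a ∨ 0 < P.ord ((y : F) - algebraMap K F a)) := by
    intro P
    by_cases hP : P ∈ S
    · have hyP : (y : F) ∈ P.toValuationSubring := hyreg P (hne P hP)
      exact ⟨evalAt htr P ⟨(y : F), hyP⟩, fun _ => (evalAt_eq_iff htr P ⟨(y : F), hyP⟩ _).mp rfl⟩
    · exact ⟨0, fun h => absurd h hP⟩
  choose c hc using hval
  -- `y - c P` is a section of `n v₀`
  have hsubV : ∀ a : K, (y : F) - algebraMap K F a ∈
      riemannRochSpace ((n : ℤ) • Finsupp.single v₀ (1 : ℤ)) := fun a =>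
    Submodule.sub_mem _ hyV (FibreSep.algebraMap_mem_L v₀ n a)
  -- regularity of `y - a` off `v₀`
  have hreg : ∀ a : K, ∀ v : Place K F, v ≠ v₀ → 0 ≤ v.ord ((y : F) - algebraMap K F a) :=
    fun a v hv => ord_nonneg_of_mem v
      ((regOff v₀).sub_mem hyreg ((regOff v₀).algebraMap_mem a) v hv)
  have hpos : ∀ P ∈ S, (y : F) - algebraMap K F (c P) ≠ 0 →
      0 < P.ord ((y : F) - algebraMap K F (c P)) := by
    intro P hP h0
    rcases hc P hP with h | h
    · exact absurd (sub_eq_zero.mpr h) h0
    · exact h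
  refine ⟨(y : F), c, hyreg, ?_, ?_⟩
  · -- injectivity of the values
    intro P hP Q hQ hcPQ
    by_contra hPQ
    have hP' : P ∈ S := hP
    have hQ' : Q ∈ S := hQ
    refine hybad P hP' Q hQ' (FibreSep.mem_bad (c P) (FibreSep.mem_L_sub (hsubV (c P)) ?_ ?_))
    · rw [FibreSep.two_single_apply, if_neg (hne P hP'), if_neg (hne Q hQ')]
      rfl
    · intro h0 v hv
      rw [FibreSep.two_single_apply]
      have h1 := hreg (c P) v hv
      by_cases hvP : P = v
      · subst hvP
        have h2 := hpos P hP' h0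
        rw [if_pos rfl, if_neg (fun h => hPQ h.symm)]
        omega
      · by_cases hvQ : Q = v
        · subst hvQ
          have h2 : 0 < Q.ord ((y : F) - algebraMap K F (c P)) := by
            rw [hcPQ]
            exact hpos Q hQ' (by rw [← hcPQ]; exact h0)
          rw [if_neg hvP, if_pos rfl]
          omega
        · rw [if_neg hvP, if_neg hvQ]
          omega
  · -- simplicity
    intro P hP
    have hne0 : (y : F) - algebraMap K F (c P) ≠ 0 := by
      intro h0
      refine hybad P hP P hP (FibreSep.mem_bad (c P) ?_)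
      rw [h0]
      exact zero_mem _
    have h1 := hpos P hP hne0
    by_contra hne1
    refine hybad P hP P hP (FibreSep.mem_bad (c P) (FibreSep.mem_L_sub (hsubV (c P)) ?_ ?_))
    · rw [FibreSep.two_single_apply, if_neg (hne P hP)]
      rfl
    · intro _ v hv
      rw [FibreSep.two_single_apply]
      have h2 := hreg (c P) v hv
      by_cases hvP : P = v
      · subst hvP
        rw [if_pos rfl]
        omega
      · rw [if_neg hvP]
        omega

/-- **R21 (b)**: local monogenicity at the fibre `x = α`, polynomial form: there is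
`y ∈ regOff v₀` such that no nonzero polynomial of degree `< n0 = [F : K(x)]` in `y` lies in
`(x - α) · regOff v₀`. -/
theorem exists_fibre_generator (htr : Algebra.trdeg K F = 1) (v₀ : Place K F) {x : F}
    (hx : x ∈ regOff v₀) {n0 : ℕ} (hn0 : 0 < n0) (hord : v₀.ord x = -(n0 : ℤ)) (α : K) :
    ∃ y : F, y ∈ regOff v₀ ∧ ∀ q : Polynomial K, q ≠ 0 → q.natDegree < n0 →
      ∀ r : F, r ∈ regOff v₀ → Polynomial.aeval y q ≠ (x - algebraMap K F α) * r := by
  classical
  have hn0' : (0 : ℤ) < (n0 : ℤ) := by exact_mod_cast hn0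
  have hneg : v₀.ord x < 0 := by rw [hord]; omega
  have hfin := PoleDegree.fibre_finite htr (v₀ := v₀) (x := x) (by omega) α
  have hS : v₀ ∉ hfin.toFinset := by
    intro h
    exact PoleDegree.ne_of_mem_fibre hneg (hfin.mem_toFinset.mp h) rfl
  obtain ⟨y, c, hy, hinj, hsimple⟩ := exists_simple_separating htr v₀ hfin.toFinset hS
  refine ⟨y, hy, fun q hq0 hdeg r hr heq => ?_⟩
  -- the key local inequality
  have hkey : ∀ P ∈ hfin.toFinset,
      P.ord (x - algebraMap K F α) ≤ ((q.roots.count (c P) : ℕ) : ℤ) := by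
    intro P hP
    have hPne : P ≠ v₀ := fun h => hS (h ▸ hP)
    rw [Polynomial.count_roots]
    obtain ⟨q', hq', hndvd⟩ := Polynomial.exists_eq_pow_rootMultiplicity_mul_and_not_dvd q hq0 (c P)
    have he : q'.eval (c P) ≠ 0 := fun h => hndvd (Polynomial.dvd_iff_isRoot.mpr h)
    obtain ⟨s, hs⟩ := Polynomial.X_sub_C_dvd_sub_C_eval (a := c P) (p := q')
    have hq'' : q' = Polynomial.C (q'.eval (c P)) + (Polynomial.X - Polynomial.C (c P)) * s := by
      rw [← hs]; ring
    have ht1 := hsimple P hP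
    have ht0 : y - algebraMap K F (c P) ≠ 0 := by
      intro h0
      rw [h0, Place.ord_zero] at ht1
      omega
    -- `A = q'(y)` is a unit at `P`
    have hA : Polynomial.aeval y q' ≠ 0 ∧ P.ord (Polynomial.aeval y q') = 0 := by
      have hAeq : Polynomial.aeval y q' =
          algebraMap K F (q'.eval (c P)) + (y - algebraMap K F (c P)) * Polynomial.aeval y s := by
        conv_lhs => rw [hq'']
        simp only [map_add, map_mul, map_sub, Polynomial.aeval_C, Polynomial.aeval_X]
      have he' : algebraMap K F (q'.eval (c P)) ≠ 0 := (map_ne_zero (algebraMap K F)).mpr he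
      by_cases hu0 : Polynomial.aeval y s = 0
      · rw [hAeq, hu0, mul_zero, add_zero]
        exact ⟨he', ord_algebraMap P _⟩
      · have hureg : Polynomial.aeval y s ∈ regOff v₀ := by
          have h : Polynomial.aeval y s =
              ((Polynomial.aeval (⟨y, hy⟩ : ↥(regOff v₀)) s : ↥(regOff v₀)) : F) :=
            Polynomial.aeval_algHom_apply (regOff v₀).val (⟨y, hy⟩ : ↥(regOff v₀)) s
          rw [h]
          exact SetLike.coe_mem _
        have hu := ord_nonneg_of_mem P (hureg P hPne)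
        have htu0 : (y - algebraMap K F (c P)) * Polynomial.aeval y s ≠ 0 := mul_ne_zero ht0 hu0
        have htu : P.ord ((y - algebraMap K F (c P)) * Polynomial.aeval y s) =
            1 + P.ord (Polynomial.aeval y s) := by
          rw [P.ord_mul ht0 hu0, ht1]
        have hlt : P.ord (algebraMap K F (q'.eval (c P))) <
            P.ord ((y - algebraMap K F (c P)) * Polynomial.aeval y s) := by
          rw [ord_algebraMap, htu]
          omega
        have hsum := ord_add_eq_of_lt P hlt he' htu0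
        rw [ord_algebraMap] at hsum
        refine ⟨fun h0 => ?_, by rw [hAeq]; exact hsum⟩
        rw [hAeq] at h0
        have h1 : (y - algebraMap K F (c P)) * Polynomial.aeval y s =
            -algebraMap K F (q'.eval (c P)) := by
          rw [eq_neg_iff_add_eq_zero, add_comm]
          exact h0
        rw [h1, ord_neg, ord_algebraMap] at htu
        omega
    -- the order of `q(y)` at `P`
    have hqy : Polynomial.aeval y q =
        (y - algebraMap K F (c P)) ^ q.rootMultiplicity (c P) * Polynomial.aeval y q' := by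
      conv_lhs => rw [hq']
      simp only [map_mul, map_pow, map_sub, Polynomial.aeval_C, Polynomial.aeval_X]
    have hqy0 : Polynomial.aeval y q ≠ 0 := by
      rw [hqy]
      exact mul_ne_zero (pow_ne_zero _ ht0) hA.1
    have hordq : P.ord (Polynomial.aeval y q) = (q.rootMultiplicity (c P) : ℤ) := by
      rw [hqy, P.ord_mul (pow_ne_zero _ ht0) hA.1, FibreSep.ord_pow' P ht0, ht1, hA.2]
      ring
    rw [heq] at hqy0 hordq
    have hxa0 : x - algebraMap K F α ≠ 0 := left_ne_zero_of_mul hqy0
    have hr0 : r ≠ 0 := right_ne_zero_of_mul hqy0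
    rw [P.ord_mul hxa0 hr0] at hordq
    have hrP := ord_nonneg_of_mem P (hr P hPne)
    omega
  -- summing over the fibre
  have hsum := PoleDegree.sum_ord_fibre htr v₀ hx hn0 hord α
  rw [finsum_mem_eq_finite_toFinset_sum _ hfin] at hsum
  have h1 : (n0 : ℤ) ≤ ∑ P ∈ hfin.toFinset, ((q.roots.count (c P) : ℕ) : ℤ) := by
    rw [← hsum]
    exact Finset.sum_le_sum hkey
  have h2 : ∑ P ∈ hfin.toFinset, q.roots.count (c P) ≤ Multiset.card q.roots := by
    have h3 : ∑ P ∈ hfin.toFinset, q.roots.count (c P) =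
        ∑ a ∈ hfin.toFinset.image c, q.roots.count a := by
      rw [Finset.sum_image]
      intro P hP Q hQ h
      exact hinj (Finset.mem_coe.mpr hP) (Finset.mem_coe.mpr hQ) h
    rw [h3]
    calc ∑ a ∈ hfin.toFinset.image c, q.roots.count a
        ≤ ∑ a ∈ hfin.toFinset.image c ∪ q.roots.toFinset, q.roots.count a :=
          Finset.sum_le_sum_of_subset Finset.subset_union_left
      _ = Multiset.card q.roots :=
          Multiset.sum_count_eq_card fun a ha =>
            Finset.mem_union_right _ (Multiset.mem_toFinset.mpr ha)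
  have h4 := Polynomial.card_roots' q
  have h5 : (n0 : ℤ) ≤ ((∑ P ∈ hfin.toFinset, q.roots.count (c P) : ℕ) : ℤ) := by
    push_cast
    exact h1
  have h6 : n0 ≤ ∑ P ∈ hfin.toFinset, q.roots.count (c P) := by exact_mod_cast h5
  omega

/-- **R21 (b')**: the same for coefficient vectors: `1, y, …, y^(n0-1)` are `K`-linearly
independent modulo `(x - α) · regOff v₀`. -/
theorem exists_fibre_generator_fin (htr : Algebra.trdeg K F = 1) (v₀ : Place K F) {x : F}
    (hx : x ∈ regOff v₀) {n0 : ℕ} (hn0 : 0 < n0) (hord : v₀.ord x = -(n0 : ℤ)) (α : K) :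
    ∃ y : F, y ∈ regOff v₀ ∧ ∀ c : Fin n0 → K, c ≠ 0 →
      ∀ r : F, r ∈ regOff v₀ → ∑ j : Fin n0, c j • y ^ (j : ℕ) ≠ (x - algebraMap K F α) * r := by
  classical
  obtain ⟨y, hy, h⟩ := exists_fibre_generator htr v₀ hx hn0 hord α
  refine ⟨y, hy, fun c hc r hr heq => ?_⟩
  have hq0 : Polynomial.ofFn n0 c ≠ 0 := by
    intro h0
    apply hc
    have := Polynomial.injective_ofFn n0 (h0.trans (Polynomial.ofFn_zero n0).symm)
    exact this
  have hdeg : (Polynomial.ofFn n0 c).natDegree < n0 := Polynomial.ofFn_natDegree_lt hn0 c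
  refine h (Polynomial.ofFn n0 c) hq0 hdeg r hr ?_
  rw [← heq, Polynomial.ofFn_eq_sum_monomial, map_sum]
  refine Finset.sum_congr rfl fun j _ => ?_
  rw [Polynomial.aeval_monomial, Algebra.smul_def]

end Fermat.Agent.S17.R
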