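/-
MW strand R, leaf R23 (helper19) = the curve half of (CAR4) of strand HB: a canonical divisor
with support off a given finite set, and the non-degeneracy of its sections on a non-special
set of `gR` points.

* `exists_canonical_off`   : a Riemann–Roch witness `W` (`deg W = 2 gR - 2`,
  `l(D) = deg D + 1 - gR + l(W - D)`) with `W v = 0` on a given finite set `T`;
* `finrank_L_canonical`    : `l(W) = gR`;
* `finrank_L_canonical_sub`: `l(E) = 1`, `deg E = gR` ⟹ `l(W - E) = 0`;
* `exists_canonical_basis` : such a `W` with a basis `u : Fin gR → F` of `L(W)` such that for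
  every set `E₀ ⊆ T` of `gR` places with `l(E₀) = 1`, no nonzero `K`-combination of the `u b`
  vanishes at all points of `E₀` (the matrix of values `[u b (E k)]` is invertible).
-/
import Mathlib
import Fermat.Prelude.Def_AlgebraicCurve_Repartitions
import Fermat.Agent.S17.R.LSpace
import Fermat.Agent.S17.R.LStep
import Fermat.Agent.S17.R.RiemannRoch
import Fermat.Agent.S17.R.Move
import Fermat.Agent.S17.R.NonSpecialStep

set_option autoImplicit false

namespace Fermat.Agent.S17.R.CanonicalOff

open AlgebraicCurve Fermat.Agent.S17.R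

variable {K F : Type*} [Field K] [Field F] [Algebra K F]
variable [IsAlgClosed K] [CharZero K] [Algebra.EssFiniteType K F]

/-- A canonical divisor (Riemann–Roch witness) with support off a given finite set. -/
theorem exists_canonical_off (htr : Algebra.trdeg K F = 1) (T : Finset (Place K F)) :
    ∃ W : Divisor K F, Divisor.degree W = 2 * (gR K F : ℤ) - 2 ∧
      (∀ D : Divisor K F, (Module.finrank K ↥(riemannRochSpace D) : ℤ) =
        Divisor.degree D + 1 - (gR K F : ℤ) + Module.finrank K ↥(riemannRochSpace (W - D))) ∧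
      ∀ v ∈ T, W v = 0 := by
  obtain ⟨W₀, hW₀, hRR⟩ := riemann_roch (K := K) (F := F) htr
  obtain ⟨f, hf, hfT⟩ := exists_move htr W₀ T
  refine ⟨W₀ + divOf K f, ?_, fun D => ?_, hfT⟩
  · rw [map_add, degree_divOf htr, add_zero, hW₀]
  · have hprin : (W₀ + divOf K f - D) - (W₀ - D) ∈ Divisor.principal (K := K) (F := F) := by
      have h : (W₀ + divOf K f - D) - (W₀ - D) = divOf K f := by abel
      rw [h]
      exact divOf_mem_principal htr hf
    rw [finrank_L_eq_of_principal htr hprin]
    exact hRR D

/-- `l(W) = gR` for a Riemann–Roch witness `W`. -/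
theorem finrank_L_canonical (htr : Algebra.trdeg K F = 1) {W : Divisor K F}
    (hW : Divisor.degree W = 2 * (gR K F : ℤ) - 2)
    (hRR : ∀ D : Divisor K F, (Module.finrank K ↥(riemannRochSpace D) : ℤ) =
      Divisor.degree D + 1 - (gR K F : ℤ) + Module.finrank K ↥(riemannRochSpace (W - D))) :
    Module.finrank K ↥(riemannRochSpace W) = gR K F := by
  have h := hRR W
  rw [sub_self, NonSpecialStep.finrank_L_zero htr, hW] at h
  have h2 : (Module.finrank K ↥(riemannRochSpace W) : ℤ) = (gR K F : ℤ) := by
    rw [h]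
    push_cast
    ring
  exact_mod_cast h2

/-- `l(E) = 1`, `deg E = gR` ⟹ `l(W - E) = 0`. -/
theorem finrank_L_canonical_sub (htr : Algebra.trdeg K F = 1) {W : Divisor K F}
    (hRR : ∀ D : Divisor K F, (Module.finrank K ↥(riemannRochSpace D) : ℤ) =
      Divisor.degree D + 1 - (gR K F : ℤ) + Module.finrank K ↥(riemannRochSpace (W - D)))
    {E : Divisor K F} (hE : Module.finrank K ↥(riemannRochSpace E) = 1)
    (hdeg : Divisor.degree E = (gR K F : ℤ)) :
    Module.finrank K ↥(riemannRochSpace (W - E)) = 0 := by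
  have h := hRR E
  rw [hE, hdeg] at h
  have h2 : (Module.finrank K ↥(riemannRochSpace (W - E)) : ℤ) = 0 := by
    push_cast at h
    linarith
  exact_mod_cast h2

/-- The value of `∑ E₀` at one of its points. -/
theorem sum_single_apply_of_mem {E₀ : Finset (Place K F)} {P : Place K F} (hP : P ∈ E₀) :
    (∑ v ∈ E₀, Finsupp.single v (1 : ℤ) : Divisor K F) P = 1 := by
  classical
  rw [Finsupp.finset_sum_apply, Finset.sum_eq_single P]
  · exact Finsupp.single_eq_same
  · intro v _ hvP
    exact Finsupp.single_eq_of_ne (Ne.symm hvP)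
  · intro h
    exact absurd hP h

/-- **The curve half of CAR4**: a canonical divisor `W` off `T` with a basis `u` of `L(W)` whose
value matrix on every non-special `E₀ ⊆ T` of `gR` points is non-degenerate. -/
theorem exists_canonical_basis (htr : Algebra.trdeg K F = 1) (T : Finset (Place K F)) :
    ∃ (W : Divisor K F) (u : Fin (gR K F) → F),
      Divisor.degree W = 2 * (gR K F : ℤ) - 2 ∧
      (∀ D : Divisor K F, (Module.finrank K ↥(riemannRochSpace D) : ℤ) =
        Divisor.degree D + 1 - (gR K F : ℤ) + Module.finrank K ↥(riemannRochSpace (W - D))) ∧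
      (∀ v ∈ T, W v = 0) ∧ LinearIndependent K u ∧
      Submodule.span K (Set.range u) = riemannRochSpace W ∧
      ∀ E₀ : Finset (Place K F), E₀ ⊆ T → E₀.card = gR K F →
        Module.finrank K ↥(riemannRochSpace (∑ v ∈ E₀, Finsupp.single v (1 : ℤ))) = 1 →
        ∀ c : Fin (gR K F) → K,
          (∀ P ∈ E₀, ∑ b, c b • u b = 0 ∨ 0 < P.ord (∑ b, c b • u b)) → c = 0 := by
  classical
  obtain ⟨W, hW, hRR, hWT⟩ := exists_canonical_off htr T
  have hfr := finrank_L_canonical htr hW hRR
  haveI : Module.Finite K ↥(riemannRochSpace W) := finite_L htr W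
  let B : Module.Basis (Fin (gR K F)) K ↥(riemannRochSpace W) := Module.finBasisOfFinrankEq K _ hfr
  have hli : LinearIndependent K (fun b => ((B b : ↥(riemannRochSpace W)) : F)) :=
    B.linearIndependent.map' (riemannRochSpace W).subtype (Submodule.ker_subtype _)
  have hspan : Submodule.span K (Set.range fun b => ((B b : ↥(riemannRochSpace W)) : F)) =
      riemannRochSpace W := by
    have h1 : (Set.range fun b => ((B b : ↥(riemannRochSpace W)) : F)) =
        (riemannRochSpace W).subtype '' Set.range B := by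
      rw [← Set.range_comp]
      rfl
    rw [h1, Submodule.span_image, B.span_eq, Submodule.map_subtype_top]
  refine ⟨W, fun b => ((B b : ↥(riemannRochSpace W)) : F), hW, hRR, hWT, hli, hspan, ?_⟩
  intro E₀ hE₀T hcard hE₀ c hc
  -- `f := ∑ c b • u b ∈ L(W - ∑ E₀) = 0`
  obtain ⟨f, hf⟩ : ∃ f : F, f = ∑ b, c b • ((B b : ↥(riemannRochSpace W)) : F) := ⟨_, rfl⟩
  rw [← hf] at hc
  have hfW : f ∈ riemannRochSpace W := by
    rw [hf]
    exact Submodule.sum_mem _ fun b _ => Submodule.smul_mem _ _ (B b).2
  have hdeg : Divisor.degree (∑ v ∈ E₀, Finsupp.single v (1 : ℤ) : Divisor K F) =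
      (gR K F : ℤ) := by
    rw [NonSpecialStep.degree_sum_single htr, hcard]
  have h0 := finrank_L_canonical_sub htr hRR hE₀ hdeg
  haveI : Module.Finite K ↥(riemannRochSpace (W - ∑ v ∈ E₀, Finsupp.single v (1 : ℤ))) :=
    finite_L htr _
  have hbot : riemannRochSpace (W - ∑ v ∈ E₀, Finsupp.single v (1 : ℤ)) = ⊥ :=
    Submodule.finrank_eq_zero.mp h0
  have hf0 : f = 0 := by
    by_contra hne
    have hmem : f ∈ riemannRochSpace (W - ∑ v ∈ E₀, Finsupp.single v (1 : ℤ)) := by
      rw [mem_L_of_ne_zero hne]
      intro v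
      have h1 := (mem_L_of_ne_zero hne).mp hfW v
      rw [Finsupp.sub_apply]
      by_cases hv : v ∈ E₀
      · have h2 := (hc v hv).resolve_left hne
        rw [sum_single_apply_of_mem hv, hWT v (hE₀T hv)]
        omega
      · rw [NonSpecialStep.sum_single_apply_of_notMem E₀ hv]
        omega
    rw [hbot, Submodule.mem_bot] at hmem
    exact hne hmem
  rw [hf] at hf0
  funext b
  exact Fintype.linearIndependent_iff.mp hli c hf0 b

end Fermat.Agent.S17.R.CanonicalOff
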