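/-
MW strand R, leaf R20: values of functions at places and semilinear automorphisms.

* level-free: `g • f ∈ regOff (g • v₀) ↔ f ∈ regOff v₀`, and the value at a place is semilinear:
  `evalAt htr (g • v) (g • f) = baseAut g (evalAt htr v f)` (`evalAt_smul`);
  `valAt htr v f : K` is the total value function (junk `0` where `f` has a pole) with
  `valAt_smul : valAt htr (g • v) (g • f) = baseAut g (valAt htr v f)` for ALL `f`;
* for `Fb N`: the fibre polynomial `∏ (X - x(P)) ^ (E P)` of a Galois-stable effective divisor
  `E` with respect to a Galois-fixed function `x` has rational coefficients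
  (`exists_rational_valPoly`, `valPoly htr x E` is that polynomial); the support of a Galois-stable
  divisor is Galois-stable and has at most `deg E` points (`galois_smul_mem_support`,
  `EvalGalois.card_support_le_degree`).
This is how the Galois-stable reduced divisor of a rational class meets Northcott.
-/
import Mathlib
import Fermat.Prelude.Def_AlgebraicCurve_Repartitions
import Fermat.Prelude.Def_AlgebraicCurve_BaseChangeGalois
import Fermat.Prelude.Def_ModularCurve_ArithmeticGalois
import Fermat.Agent.Lib.FixedRational
import Fermat.Agent.S17.R.LSpace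
import Fermat.Agent.S17.R.Eval
import Fermat.Agent.S17.R.FbInf
import Fermat.Agent.S30.HeckeInputs

set_option autoImplicit false
set_option linter.unusedSectionVars false

namespace Fermat.Agent.S17.R

open AlgebraicCurve ModularCurve
open scoped Pointwise

section General

variable {K F : Type*} [Field K] [Field F] [Algebra K F]

/-- Regularity at a place is transported by semilinear automorphisms. -/
theorem smul_mem_place_iff (g : SemilinearAut K F) (v : Place K F) {f : F} :
    g • f ∈ (g • v).toValuationSubring ↔ f ∈ v.toValuationSubring := by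
  rw [SemilinearAut.smul_toValuationSubring, ValuationSubring.mem_pointwise_smul_iff_inv_smul_mem,
    inv_smul_smul]

/-- `regOff` is transported by semilinear automorphisms. -/
theorem smul_mem_regOff_iff (g : SemilinearAut K F) {v₀ : Place K F} {f : F} :
    g • f ∈ regOff (g • v₀) ↔ f ∈ regOff v₀ := by
  constructor
  · intro h v hv
    have h1 := h (g • v) (fun hEq => hv (MulAction.injective g hEq))
    exact (smul_mem_place_iff g v).mp h1
  · intro h w hw
    have hw' : g⁻¹ • w ≠ v₀ := fun hEq => hw (by rw [← hEq, smul_inv_smul])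
    have h1 := h (g⁻¹ • w) hw'
    have h2 := (smul_mem_place_iff g (g⁻¹ • w)).mpr h1
    rwa [smul_inv_smul] at h2

theorem smul_mem_regOff_of_fixed (g : SemilinearAut K F) {v₀ : Place K F} (hv : g • v₀ = v₀)
    {f : F} (hf : f ∈ regOff v₀) : g • f ∈ regOff v₀ := by
  have h := (smul_mem_regOff_iff g (v₀ := v₀) (f := f)).mpr hf
  rwa [hv] at h

variable [IsAlgClosed K] [CharZero K] [Algebra.EssFiniteType K F]

/-- **The value at a place is semilinear**: `(g • f)(g • v) = baseAut g (f(v))`. -/
theorem evalAt_smul (htr : Algebra.trdeg K F = 1) (g : SemilinearAut K F) (v : Place K F)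
    {f : F} (hf : f ∈ v.toValuationSubring) (hgf : g • f ∈ (g • v).toValuationSubring) :
    evalAt htr (g • v) ⟨g • f, hgf⟩ = SemilinearAut.baseAut g (evalAt htr v ⟨f, hf⟩) := by
  rw [evalAt_eq_iff]
  have h := (evalAt_eq_iff htr v ⟨f, hf⟩ (evalAt htr v ⟨f, hf⟩)).mp rfl
  show g • f = algebraMap K F (SemilinearAut.baseAut g (evalAt htr v ⟨f, hf⟩)) ∨
    0 < (g • v).ord (g • f - algebraMap K F (SemilinearAut.baseAut g (evalAt htr v ⟨f, hf⟩)))
  rw [← SemilinearAut.smul_algebraMap g]
  rcases h with h | h
  · left
    have h' : f = algebraMap K F (evalAt htr v ⟨f, hf⟩) := h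
    exact congrArg (g • ·) h'
  · right
    have h' : 0 < v.ord (f - algebraMap K F (evalAt htr v ⟨f, hf⟩)) := h
    rw [← smul_sub, SemilinearAut.ord_smul]
    exact h'

/-- The value of `f` at `v`, as a total function (junk `0` if `f` has a pole at `v`). -/
noncomputable def valAt (htr : Algebra.trdeg K F = 1) (v : Place K F) (f : F) : K :=
  letI := Classical.propDecidable
  if h : f ∈ v.toValuationSubring then evalAt htr v ⟨f, h⟩ else 0

theorem valAt_of_mem (htr : Algebra.trdeg K F = 1) (v : Place K F) {f : F}
    (h : f ∈ v.toValuationSubring) : valAt htr v f = evalAt htr v ⟨f, h⟩ := by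
  unfold valAt
  rw [dif_pos h]

theorem valAt_of_notMem (htr : Algebra.trdeg K F = 1) (v : Place K F) {f : F}
    (h : f ∉ v.toValuationSubring) : valAt htr v f = 0 := by
  unfold valAt
  rw [dif_neg h]

theorem valAt_eq_iff (htr : Algebra.trdeg K F = 1) (v : Place K F) {f : F}
    (h : f ∈ v.toValuationSubring) (c : K) :
    valAt htr v f = c ↔ (f = algebraMap K F c ∨ 0 < v.ord (f - algebraMap K F c)) := by
  rw [valAt_of_mem htr v h]
  exact evalAt_eq_iff htr v ⟨f, h⟩ c

theorem valAt_algebraMap (htr : Algebra.trdeg K F = 1) (v : Place K F) (c : K) :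
    valAt htr v (algebraMap K F c) = c := by
  rw [valAt_eq_iff htr v (v.algebraMap_mem' c)]
  exact Or.inl rfl

theorem valAt_add (htr : Algebra.trdeg K F = 1) (v : Place K F) {f g : F}
    (hf : f ∈ v.toValuationSubring) (hg : g ∈ v.toValuationSubring) :
    valAt htr v (f + g) = valAt htr v f + valAt htr v g := by
  rw [valAt_of_mem htr v (add_mem hf hg), valAt_of_mem htr v hf, valAt_of_mem htr v hg, ← map_add]
  rfl

theorem valAt_mul (htr : Algebra.trdeg K F = 1) (v : Place K F) {f g : F}
    (hf : f ∈ v.toValuationSubring) (hg : g ∈ v.toValuationSubring) :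
    valAt htr v (f * g) = valAt htr v f * valAt htr v g := by
  rw [valAt_of_mem htr v (mul_mem hf hg), valAt_of_mem htr v hf, valAt_of_mem htr v hg, ← map_mul]
  rfl

/-- **`valAt` is semilinear**, for every function (also at poles). -/
theorem valAt_smul (htr : Algebra.trdeg K F = 1) (g : SemilinearAut K F) (v : Place K F) (f : F) :
    valAt htr (g • v) (g • f) = SemilinearAut.baseAut g (valAt htr v f) := by
  by_cases h : f ∈ v.toValuationSubring
  · have hg := (smul_mem_place_iff g v).mpr h
    rw [valAt_of_mem htr _ hg, valAt_of_mem htr _ h]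
    exact evalAt_smul htr g v h hg
  · have hg : g • f ∉ (g • v).toValuationSubring := fun h' => h ((smul_mem_place_iff g v).mp h')
    rw [valAt_of_notMem htr _ hg, valAt_of_notMem htr _ h, map_zero]

/-- The value of a `g`-fixed function at the `g`-translate of a place. -/
theorem valAt_smul_of_fixed (htr : Algebra.trdeg K F = 1) (g : SemilinearAut K F) (v : Place K F)
    {f : F} (hf : g • f = f) :
    valAt htr (g • v) f = SemilinearAut.baseAut g (valAt htr v f) := by
  have h := valAt_smul htr g v f
  rwa [hf] at h

/-- The fibre polynomial `∏ (X - x(P)) ^ (E P)` of a divisor `E` with respect to a function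
`x`. -/
noncomputable def valPoly (htr : Algebra.trdeg K F = 1) (x : F) (E : Divisor K F) :
    Polynomial K :=
  ∏ P ∈ E.support, (Polynomial.X - Polynomial.C (valAt htr P x)) ^ (E P).toNat

theorem valPoly_monic (htr : Algebra.trdeg K F = 1) (x : F) (E : Divisor K F) :
    (valPoly htr x E).Monic :=
  Polynomial.monic_prod_of_monic _ _ fun _ _ => (Polynomial.monic_X_sub_C _).pow _

theorem natDegree_valPoly (htr : Algebra.trdeg K F = 1) (x : F) {E : Divisor K F}
    (hE : 0 ≤ E) : ((valPoly htr x E).natDegree : ℤ) = Divisor.degree E := by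
  unfold valPoly
  rw [Polynomial.natDegree_prod_of_monic _ _
    (fun P _ => (Polynomial.monic_X_sub_C (valAt htr P x)).pow (E P).toNat)]
  have h1 : Divisor.degree E = E.sum (fun v n => n * (v.deg : ℤ)) := by
    simp [Divisor.degree, Finsupp.liftAddHom_apply]
  rw [h1, Finsupp.sum, Nat.cast_sum]
  refine Finset.sum_congr rfl fun P _ => ?_
  rw [(Polynomial.monic_X_sub_C (valAt htr P x)).natDegree_pow, Polynomial.natDegree_X_sub_C,
    Fermat.Agent.S24.FF.deg_eq_one htr P]
  have h0 : 0 ≤ E P := by
    have := Finsupp.le_def.mp hE P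
    simpa using this
  simp only [mul_one, Nat.cast_one]
  exact Int.toNat_of_nonneg h0

/-- A point of the support of an effective divisor gives a root of the fibre polynomial. -/
theorem valPoly_isRoot (htr : Algebra.trdeg K F = 1) (x : F) {E : Divisor K F} (hE : 0 ≤ E)
    {P : Place K F} (hP : P ∈ E.support) : (valPoly htr x E).IsRoot (valAt htr P x) := by
  have h0 : 0 ≤ E P := by
    have := Finsupp.le_def.mp hE P
    simpa using this
  have hne : E P ≠ 0 := Finsupp.mem_support_iff.mp hP
  have hpos : (E P).toNat ≠ 0 := by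
    intro h
    have := Int.toNat_of_nonneg h0
    omega
  unfold valPoly
  rw [Polynomial.IsRoot.def, Polynomial.eval_prod]
  refine Finset.prod_eq_zero hP ?_
  rw [Polynomial.eval_pow, Polynomial.eval_sub, Polynomial.eval_X, Polynomial.eval_C, sub_self,
    zero_pow hpos]

/-- **The fibre polynomial of a `g`-stable divisor w.r.t. a `g`-fixed function is fixed by the
base automorphism of `g`.** -/
theorem map_valPoly (htr : Algebra.trdeg K F = 1) (g : SemilinearAut K F) {x : F}
    (hx : g • x = x) {E : Divisor K F} (hE : g • E = E) :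
    (valPoly htr x E).map (SemilinearAut.baseAut g : K →+* K) = valPoly htr x E := by
  have h1 : (valPoly htr x E).map (SemilinearAut.baseAut g : K →+* K) =
      E.prod fun P n => (Polynomial.X - Polynomial.C (valAt htr (g • P) x)) ^ n.toNat := by
    unfold valPoly
    rw [Polynomial.map_prod]
    refine Finset.prod_congr rfl fun P _ => ?_
    rw [Polynomial.map_pow, Polynomial.map_sub, Polynomial.map_X, Polynomial.map_C]
    show _ = (Polynomial.X - Polynomial.C (valAt htr (g • P) x)) ^ (E P).toNat
    rw [valAt_smul_of_fixed htr g P hx]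
    rfl
  have h2 : valPoly htr x E =
      (g • E).prod fun P n => (Polynomial.X - Polynomial.C (valAt htr P x)) ^ n.toNat := by
    rw [hE]
    rfl
  rw [h1, h2, SemilinearAut.divisor_smul_def,
    Finsupp.prod_mapDomain_index_inj (MulAction.injective g)]

/-- The support of an effective divisor has at most `deg E` points. -/
theorem EvalGalois.card_support_le_degree (htr : Algebra.trdeg K F = 1) {E : Divisor K F} (hE : 0 ≤ E) :
    (E.support.card : ℤ) ≤ Divisor.degree E := by
  have h1 : Divisor.degree E = E.sum (fun v n => n * (v.deg : ℤ)) := by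
    simp [Divisor.degree, Finsupp.liftAddHom_apply]
  rw [h1, Finsupp.sum, Finset.card_eq_sum_ones, Nat.cast_sum]
  refine Finset.sum_le_sum fun P hP => ?_
  have h0 : 0 ≤ E P := by
    have := Finsupp.le_def.mp hE P
    simpa using this
  have hne : E P ≠ 0 := Finsupp.mem_support_iff.mp hP
  rw [Fermat.Agent.S24.FF.deg_eq_one htr P]
  simp only [Nat.cast_one, mul_one]
  omega

/-- The support of a `g`-stable divisor is `g`-stable. -/
theorem smul_mem_support_of_stable (g : SemilinearAut K F) {E : Divisor K F} (hE : g • E = E)
    {P : Place K F} (hP : P ∈ E.support) : g • P ∈ E.support := by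
  rw [Finsupp.mem_support_iff] at hP ⊢
  have h := SemilinearAut.divisor_smul_apply_smul g E P
  rw [hE] at h
  rwa [h]

end General

section Modular

variable (N : ℕ) [NeZero N]

local notation "Qb" => AlgebraicClosure ℚ
local notation "Fb" => modularFunctionFieldBar

/-- The value at the Galois conjugate of a place of a Galois-fixed (= rational) function. -/
theorem valAt_galois_smul (σ : Qb ≃ₐ[ℚ] Qb) (P : Place Qb (Fb N)) {x : Fb N}
    (hx : arithmeticGalois (modularFunctionFieldFull N) σ • x = x) :
    valAt (Fermat.Agent.S30.HeckeInputs.trdeg_bar N)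
        (arithmeticGalois (modularFunctionFieldFull N) σ • P) x =
      σ (valAt (Fermat.Agent.S30.HeckeInputs.trdeg_bar N) P x) :=
  valAt_smul_of_fixed (Fermat.Agent.S30.HeckeInputs.trdeg_bar N)
    (arithmeticGalois (modularFunctionFieldFull N) σ) P hx

/-- **The fibre polynomial of a Galois-stable effective divisor with respect to a rational
function has rational coefficients.** -/
theorem exists_rational_valPoly {x : Fb N}
    (hx : ∀ σ : Qb ≃ₐ[ℚ] Qb, arithmeticGalois (modularFunctionFieldFull N) σ • x = x)
    {E : Divisor Qb (Fb N)} (hE : 0 ≤ E)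
    (hEfix : ∀ σ : Qb ≃ₐ[ℚ] Qb, arithmeticGalois (modularFunctionFieldFull N) σ • E = E) :
    ∃ q : Polynomial ℚ, q.Monic ∧ (q.natDegree : ℤ) = Divisor.degree E ∧
      q.map (algebraMap ℚ Qb) =
        ∏ P ∈ E.support, (Polynomial.X - Polynomial.C
          (valAt (Fermat.Agent.S30.HeckeInputs.trdeg_bar N) P x)) ^ (E P).toNat := by
  have htr := Fermat.Agent.S30.HeckeInputs.trdeg_bar N
  have hlift : valPoly htr x E ∈ Polynomial.lifts (algebraMap ℚ Qb) := by
    rw [Polynomial.lifts_iff_coeff_lifts]
    intro n
    refine Fermat.Agent.Lib.FixedRational.fixed_rational_algebraMap _ fun σ => ?_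
    have h := map_valPoly htr (arithmeticGalois (modularFunctionFieldFull N) σ) (hx σ) (hEfix σ)
    have h2 := congrArg (fun p : Polynomial Qb => p.coeff n) h
    simp only [Polynomial.coeff_map] at h2
    exact h2
  obtain ⟨q, hq, hdeg, hmonic⟩ :=
    Polynomial.lifts_and_natDegree_eq_and_monic hlift (valPoly_monic htr x E)
  refine ⟨q, hmonic, ?_, hq⟩
  rw [hdeg]
  exact natDegree_valPoly htr x hE

/-- The support of a Galois-stable divisor is Galois-stable. -/
theorem galois_smul_mem_support {E : Divisor Qb (Fb N)}
    (hEfix : ∀ σ : Qb ≃ₐ[ℚ] Qb, arithmeticGalois (modularFunctionFieldFull N) σ • E = E)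
    (σ : Qb ≃ₐ[ℚ] Qb) {P : Place Qb (Fb N)} (hP : P ∈ E.support) :
    arithmeticGalois (modularFunctionFieldFull N) σ • P ∈ E.support :=
  smul_mem_support_of_stable _ (hEfix σ) hP

end Modular

end Fermat.Agent.S17.R
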