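import Mathlib
import Fermat.Prelude.Def_AlgebraicCurve_Repartitions
import Fermat.Prelude.Def_ModularCurve_ArithmeticGalois
import Fermat.Agent.Lib.FixedRational
import Fermat.Agent.S36.CoefDescent

/-!
# S17, strand R, leaf R6: rational elements and rational bases in `Fb N`

`Fb N = modularFunctionFieldBar N ⊆ ℚ̄((q))`, with the coefficientwise action
`arithmeticGalois (modularFunctionFieldFull N) σ` of `σ ∈ Gal(ℚ̄/ℚ)`.

* `fixed_iff_rational` : the Galois-fixed elements of `Fb N` are exactly the images of the
  elements of `modularFunctionFieldFull N ⊆ ℚ((q))`.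
* `FbRat.exists_basis_dual_to_subfamily` : linear algebra - a finite-dimensional space on which a
  family of functionals is jointly injective has a basis dual to a sub-family.
* `FbRat.exists_fixed_basis` : a finite-dimensional Galois-stable `ℚ̄`-subspace of
  `laurentBaseChange ℚ̄ F₀` has a basis of Galois-fixed elements (the reduced echelon basis for
  the coefficient functionals is canonical, hence fixed; no continuity of the action is used).
* `FbRat.smul_mem_L` : `L(D)` is stable under a semilinear automorphism fixing `D`.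
* `exists_rational_basis_of_finite` : a Galois-stable divisor `D` with `L(D)` finite-dimensional
  has a basis of `L(D)` made of Galois-fixed functions.
-/

set_option autoImplicit false

namespace Fermat.Agent.S17.R

open AlgebraicCurve ModularCurve

local notation "Qb" => AlgebraicClosure ℚ

namespace FbRat

/-- Linear algebra: a finite-dimensional space on which a family of functionals is jointly
injective has a basis dual to a sub-family. -/
theorem exists_basis_dual_to_subfamily {K V ι : Type*} [Field K] [AddCommGroup V] [Module K V]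
    [FiniteDimensional K V] (φ : ι → Module.Dual K V)
    (hφ : ∀ v : V, (∀ k, φ k v = 0) → v = 0) :
    ∃ (n : ℕ) (κ : Fin n → ι) (b : Module.Basis (Fin n) K V),
      ∀ i j, φ (κ i) (b j) = if i = j then 1 else 0 := by
  classical
  have hspan : Submodule.span K (Set.range φ) = ⊤ := by
    have h1 : (Submodule.span K (Set.range φ)).dualCoannihilator = ⊥ := by
      rw [eq_bot_iff]
      intro v hv
      rw [Submodule.mem_dualCoannihilator] at hv
      exact (Submodule.mem_bot K).mpr (hφ v fun k => hv _ (Submodule.subset_span ⟨k, rfl⟩))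
    have h2 := Subspace.dualCoannihilator_dualAnnihilator_eq
      (W := Submodule.span K (Set.range φ))
    rw [h1, Submodule.dualAnnihilator_bot] at h2
    exact h2.symm
  obtain ⟨κ', a, -, hsp, hli⟩ := exists_linearIndependent' K φ
  have hsp' : ⊤ ≤ Submodule.span K (Set.range (φ ∘ a)) := by rw [hsp, hspan]
  let ε : Module.Basis κ' K (Module.Dual K V) := Module.Basis.mk hli hsp'
  haveI : Finite κ' := Module.Finite.finite_basis ε
  haveI : Fintype κ' := Fintype.ofFinite κ'
  let e : κ' ≃ Fin (Fintype.card κ') := Fintype.equivFin κ'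
  let ε' : Module.Basis (Fin (Fintype.card κ')) K (Module.Dual K V) := ε.reindex e
  refine ⟨Fintype.card κ', a ∘ e.symm, ε'.dualBasis.map (Module.evalEquiv K V).symm, ?_⟩
  intro i j
  have h3 : φ ((a ∘ e.symm) i) = ε' i := by
    simp only [ε', ε, Module.Basis.reindex_apply, Module.Basis.mk_apply, Function.comp_apply]
  rw [Module.Basis.map_apply, Module.apply_evalEquiv_symm_apply, h3,
    Module.Basis.dualBasis_apply_self]

/-- The `k`-th coefficient as a linear functional on `laurentBaseChange L F₀`. -/
noncomputable def coeffFun {L : Type*} [Field L] [Algebra ℚ L]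
    (F₀ : IntermediateField ℚ (LaurentSeries ℚ)) (k : ℤ) :
    ↥(laurentBaseChange L F₀) →ₗ[L] L where
  toFun f := (f : LaurentSeries L).coeff k
  map_add' f g := rfl
  map_smul' c f := by
    show ((c • f : ↥(laurentBaseChange L F₀)) : LaurentSeries L).coeff k = c • _
    rw [IntermediateField.coe_smul, Algebra.smul_def, algebraMap_laurentSeries_eq_single,
      HahnSeries.coeff_single_zero_mul, smul_eq_mul]

theorem coeffFun_apply {L : Type*} [Field L] [Algebra ℚ L]
    (F₀ : IntermediateField ℚ (LaurentSeries ℚ)) (k : ℤ) (f : ↥(laurentBaseChange L F₀)) :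
    coeffFun F₀ k f = (f : LaurentSeries L).coeff k := rfl

theorem coeffFun_smul (F₀ : IntermediateField ℚ (LaurentSeries ℚ)) (k : ℤ) (σ : Qb ≃ₐ[ℚ] Qb)
    (f : ↥(laurentBaseChange Qb F₀)) :
    coeffFun F₀ k (arithmeticGalois F₀ σ • f) = σ (coeffFun F₀ k f) := by
  rw [coeffFun_apply, coeffFun_apply, coe_arithmeticGalois_smul, coeffMap_coeff]
  rfl

/-- A finite-dimensional Galois-stable `ℚ̄`-subspace of `laurentBaseChange ℚ̄ F₀` has a basis of
Galois-fixed elements. -/
theorem exists_fixed_basis (F₀ : IntermediateField ℚ (LaurentSeries ℚ))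
    (V : Submodule Qb ↥(laurentBaseChange Qb F₀)) (hfin : Module.Finite Qb ↥V)
    (hV : ∀ σ : Qb ≃ₐ[ℚ] Qb, ∀ f ∈ V, arithmeticGalois F₀ σ • f ∈ V) :
    ∃ (n : ℕ) (b : Fin n → ↥(laurentBaseChange Qb F₀)),
      (∀ i, ∀ σ : Qb ≃ₐ[ℚ] Qb, arithmeticGalois F₀ σ • b i = b i) ∧
      LinearIndependent Qb b ∧ Submodule.span Qb (Set.range b) = V := by
  classical
  let φ : ℤ → Module.Dual Qb ↥V := fun k => (coeffFun F₀ k).comp V.subtype
  have hφ : ∀ v : ↥V, (∀ k, φ k v = 0) → v = 0 := by
    intro v hv
    apply Subtype.ext
    apply Subtype.ext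
    ext k
    exact hv k
  obtain ⟨n, κ, b, hb⟩ := exists_basis_dual_to_subfamily φ hφ
  have hcoord : ∀ j, φ (κ j) = b.coord j := by
    intro j
    refine b.ext fun l => ?_
    rw [hb j l, Module.Basis.coord_apply, Module.Basis.repr_self, Finsupp.single_apply]
    simp only [eq_comm]
  refine ⟨n, fun i => ((b i : ↥V) : ↥(laurentBaseChange Qb F₀)), ?_, ?_, ?_⟩
  · intro i σ
    have hmem : arithmeticGalois F₀ σ • ((b i : ↥V) : ↥(laurentBaseChange Qb F₀)) ∈ V :=
      hV σ _ (b i).2
    have hw : (⟨_, hmem⟩ : ↥V) = b i := by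
      apply b.ext_elem
      intro j
      rw [← Module.Basis.coord_apply, ← Module.Basis.coord_apply, ← hcoord j]
      show coeffFun F₀ (κ j) (arithmeticGalois F₀ σ • ((b i : ↥V) : ↥(laurentBaseChange Qb F₀)))
        = φ (κ j) (b i)
      rw [coeffFun_smul]
      have h4 : coeffFun F₀ (κ j) ((b i : ↥V) : ↥(laurentBaseChange Qb F₀)) = φ (κ j) (b i) := rfl
      rw [h4, hb j i]
      split_ifs <;> simp
    exact congrArg Subtype.val hw
  · exact b.linearIndependent.map' V.subtype (Submodule.ker_subtype V)
  · have h5 : (fun i => ((b i : ↥V) : ↥(laurentBaseChange Qb F₀))) = V.subtype ∘ b := rfl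
    rw [h5, Set.range_comp, ← Submodule.map_span, b.span_eq, Submodule.map_top,
      Submodule.range_subtype]

/-- `L(D)` is stable under a semilinear automorphism fixing `D`. -/
theorem smul_mem_L {K F : Type*} [Field K] [Field F] [Algebra K F] (g : SemilinearAut K F)
    {D : Divisor K F} (hD : g • D = D) {f : F} (hf : f ∈ riemannRochSpace D) :
    g • f ∈ riemannRochSpace D := by
  rw [mem_riemannRochSpace_iff] at hf ⊢
  intro w
  rcases hf (g⁻¹ • w) with h0 | h
  · left
    rw [h0, smul_zero]
  · right
    have h1 := SemilinearAut.ord_smul g (g⁻¹ • w) f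
    rw [smul_inv_smul] at h1
    have h2 : D w = D (g⁻¹ • w) := by
      conv_lhs => rw [← hD]
      exact SemilinearAut.divisor_smul_apply g D w
    rw [h1, h2]
    exact h

end FbRat

section Modular

variable (N : ℕ) [NeZero N]

local notation "Fb" => modularFunctionFieldBar

/-- Rational elements of `Fb N` = fixed points of the arithmetic Galois action. -/
theorem fixed_iff_rational (f : Fb N) :
    (∀ σ : Qb ≃ₐ[ℚ] Qb, arithmeticGalois (modularFunctionFieldFull N) σ • f = f) ↔
      ∃ g ∈ modularFunctionFieldFull N, (f : LaurentSeries Qb) = coeffEmb Qb g := by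
  constructor
  · intro h
    have hcoeff : ∀ n : ℤ, (f : LaurentSeries Qb).coeff n ∈ Set.range (algebraMap ℚ Qb) := by
      intro n
      obtain ⟨r, hr⟩ := Fermat.Agent.Lib.FixedRational.fixed_rational_algebraMap
        ((f : LaurentSeries Qb).coeff n) (fun σ => by
          have h1 := congrArg (fun x : Fb N => (x : LaurentSeries Qb).coeff n) (h σ)
          simp only [coe_arithmeticGalois_smul, coeffMap_coeff] at h1
          exact h1)
      exact ⟨r, hr⟩
    have : Algebra.IsAlgebraic ℚ Qb := AlgebraicClosure.isAlgebraic ℚ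
    obtain ⟨y, hy, hyf⟩ := Fermat.Agent.S36.Descent.exists_of_coeff_mem
      (K := ℚ) (E := Qb) (modularFunctionFieldFull N) f.2 hcoeff
    refine ⟨y, ?_, hyf.symm⟩
    have h2 : (⇑(coeffEmb ℚ) '' ((modularFunctionFieldFull N : IntermediateField ℚ
        (LaurentSeries ℚ)) : Set (LaurentSeries ℚ)))
        = ((modularFunctionFieldFull N : IntermediateField ℚ (LaurentSeries ℚ)) :
          Set (LaurentSeries ℚ)) := by
      have h3 : ∀ x : LaurentSeries ℚ, coeffEmb ℚ x = x := by
        intro x
        ext k
        simp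
      ext x
      constructor
      · rintro ⟨z, hz, rfl⟩
        rw [h3]
        exact hz
      · intro hx
        exact ⟨x, hx, h3 x⟩
    have h4 : laurentBaseChange ℚ (modularFunctionFieldFull N) = modularFunctionFieldFull N := by
      unfold laurentBaseChange
      rw [h2, IntermediateField.adjoin_self]
    rw [← h4]
    exact hy
  · rintro ⟨g, -, hfg⟩ σ
    apply Subtype.ext
    rw [coe_arithmeticGalois_smul, hfg, coeffMap_coeffEmb]

/-- A Galois-stable divisor `D` with `L(D)` finite-dimensional has a basis of `L(D)` made of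
Galois-fixed (= `ℚ`-rational, by `fixed_iff_rational`) functions. -/
theorem exists_rational_basis_of_finite (D : Divisor Qb (Fb N))
    (hfin : Module.Finite Qb ↥(riemannRochSpace D))
    (hD : ∀ σ : Qb ≃ₐ[ℚ] Qb, arithmeticGalois (modularFunctionFieldFull N) σ • D = D) :
    ∃ (n : ℕ) (b : Fin n → Fb N),
      (∀ i, ∀ σ : Qb ≃ₐ[ℚ] Qb, arithmeticGalois (modularFunctionFieldFull N) σ • b i = b i) ∧
      LinearIndependent Qb b ∧
      Submodule.span Qb (Set.range b) = riemannRochSpace D :=
  FbRat.exists_fixed_basis (modularFunctionFieldFull N) (riemannRochSpace D) hfin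
    fun σ _ hf => FbRat.smul_mem_L _ (hD σ) hf

end Modular

end Fermat.Agent.S17.R
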