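import Mathlib
import Fermat.Prelude.Def_AlgebraicCurve_Repartitions
import Fermat.Agent.S24.FF.Principal
import Fermat.Agent.S17.R.LSpace
import Fermat.Agent.S17.R.Places

/-!
# Program MW, strand R, leaf R9: non-special divisors

Level-free: `F / K` a function field in one variable over an algebraically closed field `K`
of characteristic zero (`Algebra.trdeg K F = 1`, `Algebra.EssFiniteType K F`).

* `Fermat.Agent.S17.R.infinite_univ_place`: the set of places is infinite (set form of
  `infinite_place` of `Places.lean`).
* `Fermat.Agent.S17.R.exists_nonspecial_avoiding`, `exists_nonspecial_of_rr`,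
  `exists_nonspecial`: from a Riemann-Roch formula `l(D) = deg D + 1 - g + l(W - D)` (taken as
  a hypothesis) there is an effective divisor `E` of degree `g` with `l(E) = 1` (and
  `l(W - E) = 0`), whose support avoids a given finite set of places.

The one-point step `l(A) = l(A - P) + 1` for a section of `L(A)` not in `L(A - P)` is proved
here from `exists_residue` of the landed place calculus `Fermat.Agent.S24.FF`.
-/

set_option autoImplicit false
set_option linter.unusedSectionVars false

open AlgebraicCurve

namespace Fermat.Agent.S17.R.NonSpecial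

open Fermat.Agent.S24.FF

variable {K F : Type*} [Field K] [Field F] [Algebra K F]

/-- `L(D)` is monotone in `D`. -/
theorem rrSpace_mono {D D' : Divisor K F} (h : D ≤ D') :
    riemannRochSpace D ≤ riemannRochSpace D' := by
  intro f hf
  rw [mem_riemannRochSpace_iff] at hf ⊢
  intro v
  rcases hf v with h0 | h1
  · exact Or.inl h0
  · right
    have := Finsupp.le_def.mp h v
    omega

variable [IsAlgClosed K] [CharZero K] [Algebra.EssFiniteType K F]

/-- `L(0)` is the line of constants. -/
theorem finrank_rrSpace_zero (htr : Algebra.trdeg K F = 1) :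
    Module.finrank K ↥(riemannRochSpace (0 : Divisor K F)) = 1 := by
  have h : riemannRochSpace (0 : Divisor K F) = K ∙ (1 : F) := by
    ext f
    rw [mem_riemannRochSpace_iff, Submodule.mem_span_singleton]
    constructor
    · intro hf
      by_contra hcon
      have hK : f ∉ Set.range (algebraMap K F) := by
        rintro ⟨c, rfl⟩
        exact hcon ⟨c, by rw [Algebra.smul_def, mul_one]⟩
      have hx := transcendental_of_not_mem_range hK
      obtain ⟨v, hv⟩ := exists_pole htr hx
      have hf0 : f ≠ 0 := by
        rintro rfl
        simp at hv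
      have h1 := (hf v).resolve_left hf0
      simp only [Finsupp.coe_zero, Pi.zero_apply, neg_zero] at h1
      omega
    · rintro ⟨c, rfl⟩ v
      right
      rw [Algebra.smul_def, mul_one, ord_algebraMap]
      simp
  rw [h]
  exact finrank_span_singleton one_ne_zero

/-- One-point step: a section `g` of `L(A)` outside `L(A - P)` spans `L(A)` over `L(A - P)`. -/
theorem rrSpace_le_sup_span (htr : Algebra.trdeg K F = 1) (A : Divisor K F) (P : Place K F)
    {g : F} (hg : g ∈ riemannRochSpace A)
    (hgP : g ∉ riemannRochSpace (A - Finsupp.single P 1)) :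
    riemannRochSpace A ≤ riemannRochSpace (A - Finsupp.single P 1) ⊔ K ∙ g := by
  intro f hf
  have hg0 : g ≠ 0 := by
    rintro rfl
    exact hgP (Submodule.zero_mem _)
  have hgA := mem_riemannRochSpace_iff.mp hg
  have hordg : P.ord g = -A P := by
    by_contra hne
    apply hgP
    rw [mem_riemannRochSpace_iff]
    intro v
    right
    have h1 := (hgA v).resolve_left hg0
    by_cases hv : v = P
    · subst hv
      simp only [Finsupp.coe_sub, Pi.sub_apply, Finsupp.single_eq_same]
      omega
    · rw [Finsupp.sub_apply, Finsupp.single_eq_of_ne hv]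
      simpa using h1
  rw [Submodule.mem_sup]
  by_cases hf0 : f = 0
  · subst hf0
    exact ⟨0, Submodule.zero_mem _, 0, Submodule.zero_mem _, by simp⟩
  have hfA := mem_riemannRochSpace_iff.mp hf
  have hu : f * g⁻¹ ∈ P.toValuationSubring := by
    have hne : f * g⁻¹ ≠ 0 := mul_ne_zero hf0 (inv_ne_zero hg0)
    rw [← ord_nonneg_iff P hne, P.ord_mul hf0 (inv_ne_zero hg0), P.ord_inv]
    have := (hfA P).resolve_left hf0
    omega
  obtain ⟨c, hc⟩ := exists_residue htr P hu
  refine ⟨f - c • g, ?_, c • g,
    Submodule.smul_mem _ c (Submodule.mem_span_singleton_self g), by ring⟩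
  have hmem : f - c • g ∈ riemannRochSpace A :=
    Submodule.sub_mem _ hf (Submodule.smul_mem _ c hg)
  rw [mem_riemannRochSpace_iff] at hmem ⊢
  intro v
  by_cases h0 : f - c • g = 0
  · exact Or.inl h0
  right
  have h1 := (hmem v).resolve_left h0
  by_cases hv : v = P
  · subst hv
    simp only [Finsupp.coe_sub, Pi.sub_apply, Finsupp.single_eq_same]
    have hfact : f - c • g = g * (f * g⁻¹ - algebraMap K F c) := by
      rw [Algebra.smul_def]
      field_simp
    rcases hc with hc | hc
    · exfalso
      apply h0
      rw [hfact, hc, sub_self, mul_zero]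
    · have hne2 : f * g⁻¹ - algebraMap K F c ≠ 0 := by
        intro h
        rw [h] at hc
        simp at hc
      rw [hfact, v.ord_mul hg0 hne2, hordg]
      omega
  · rw [Finsupp.sub_apply, Finsupp.single_eq_of_ne hv]
    simpa using h1

/-- One-point step for dimensions: `l(A - P) + 1 = l(A)` as soon as some section of `L(A)` is
not in `L(A - P)`. -/
theorem finrank_rrSpace_sub_single (htr : Algebra.trdeg K F = 1) (A : Divisor K F)
    (P : Place K F) {g : F} (hg : g ∈ riemannRochSpace A)
    (hgP : g ∉ riemannRochSpace (A - Finsupp.single P 1))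
    [Module.Finite K ↥(riemannRochSpace A)] :
    Module.finrank K ↥(riemannRochSpace (A - Finsupp.single P 1)) + 1 =
      Module.finrank K ↥(riemannRochSpace A) := by
  have hle : riemannRochSpace (A - Finsupp.single P 1) ≤ riemannRochSpace A := by
    apply rrSpace_mono
    rw [sub_le_self_iff]
    exact Finsupp.single_nonneg.mpr zero_le_one
  have hlt : riemannRochSpace (A - Finsupp.single P 1) < riemannRochSpace A :=
    lt_of_le_of_ne hle (fun h => hgP (h ▸ hg))
  have h1 := Submodule.finrank_lt_finrank_of_lt hlt
  have hfin' : Module.Finite K ↥(riemannRochSpace (A - Finsupp.single P 1)) :=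
    Submodule.finiteDimensional_of_le hle
  have h2 := Submodule.finrank_mono (rrSpace_le_sup_span htr A P hg hgP)
  have h3 := Submodule.finrank_add_le_finrank_add_finrank
    (riemannRochSpace (A - Finsupp.single P 1)) (K ∙ g)
  have hg0 : g ≠ 0 := by
    rintro rfl
    exact hgP (Submodule.zero_mem _)
  rw [finrank_span_singleton hg0] at h3
  omega

/-- A place away from a finite set, from the zeros and poles of `f` and from the support of
`B`. -/
theorem exists_place_avoiding (htr : Algebra.trdeg K F = 1) {f : F} (hf : f ≠ 0)
    (B : Divisor K F) (S : Finset (Place K F)) :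
    ∃ P : Place K F, P ∉ S ∧ P.ord f = 0 ∧ B P = 0 := by
  have hinf := infinite_place (K := K) (F := F) htr
  have hfin : ({v : Place K F | v.ord f ≠ 0} ∪ (B.support : Set (Place K F)) ∪
      (S : Set (Place K F))).Finite :=
    ((support_ord_finite htr hf).union B.support.finite_toSet).union S.finite_toSet
  obtain ⟨P, hP⟩ := hfin.exists_notMem
  refine ⟨P, fun h => hP (Or.inr h), ?_, ?_⟩
  · by_contra h
    exact hP (Or.inl (Or.inl h))
  · by_contra h
    exact hP (Or.inl (Or.inr (by simpa using h)))

/-- Dropping the dimension one point at a time: for `n ≤ l(A)` there is an effective divisor `E`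
of degree `n`, away from `S`, with `l(A - E) = l(A) - n`. -/
theorem exists_effective_drop (htr : Algebra.trdeg K F = 1) (S : Finset (Place K F))
    (A : Divisor K F) :
    ∀ n : ℕ, n ≤ Module.finrank K ↥(riemannRochSpace A) →
      ∃ E : Divisor K F, 0 ≤ E ∧ Divisor.degree E = (n : ℤ) ∧ (∀ v ∈ S, E v = 0) ∧
        Module.finrank K ↥(riemannRochSpace (A - E)) + n =
          Module.finrank K ↥(riemannRochSpace A) := by
  intro n
  induction n with
  | zero =>
    intro _
    exact ⟨0, le_rfl, by simp, fun _ _ => rfl, by rw [sub_zero, add_zero]⟩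
  | succ n ih =>
    intro hn
    obtain ⟨E, hE0, hEdeg, hES, hEl⟩ := ih (by omega)
    have hpos : 0 < Module.finrank K ↥(riemannRochSpace (A - E)) := by omega
    have hfin : Module.Finite K ↥(riemannRochSpace (A - E)) := Module.finite_of_finrank_pos hpos
    obtain ⟨⟨f, hfm⟩, hf0⟩ := Module.finrank_pos_iff_exists_ne_zero.mp hpos
    have hf0' : f ≠ 0 := fun h => hf0 (Subtype.ext h)
    obtain ⟨P, hPS, hPf, hPB⟩ := exists_place_avoiding htr hf0' (A - E) S
    have hnot : f ∉ riemannRochSpace (A - E - Finsupp.single P 1) := by
      intro hmem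
      have h1 := (mem_riemannRochSpace_iff.mp hmem P).resolve_left hf0'
      simp only [Finsupp.coe_sub, Pi.sub_apply, Finsupp.single_eq_same] at h1
      have hPB' : A P - E P = 0 := by simpa using hPB
      omega
    have hstep := finrank_rrSpace_sub_single htr (A - E) P hfm hnot
    refine ⟨E + Finsupp.single P 1, ?_, ?_, ?_, ?_⟩
    · exact add_nonneg hE0 (Finsupp.single_nonneg.mpr zero_le_one)
    · rw [map_add, hEdeg, Divisor.degree_single, deg_eq_one htr P]
      push_cast
      ring
    · intro v hv
      have hvP : v ≠ P := fun h => hPS (h ▸ hv)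
      rw [Finsupp.add_apply, hES v hv, Finsupp.single_eq_of_ne hvP, add_zero]
    · have hAE : A - (E + Finsupp.single P 1) = A - E - Finsupp.single P 1 := by abel
      rw [hAE]
      omega

end Fermat.Agent.S17.R.NonSpecial

namespace Fermat.Agent.S17.R

variable {K F : Type*} [Field K] [Field F] [Algebra K F]
variable [IsAlgClosed K] [CharZero K] [Algebra.EssFiniteType K F]

/-- The set of places of a function field in one variable is infinite (set form). -/
theorem infinite_univ_place (htr : Algebra.trdeg K F = 1) :
    (Set.univ : Set (Place K F)).Infinite :=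
  Set.infinite_univ_iff.mpr (infinite_place htr)

/-- **Non-special divisors, general form.**  If `g` and `W` satisfy the Riemann-Roch formula
`l(D) = deg D + 1 - g + l(W - D)` for all `D`, then for every finite set `S` of places there is
an effective divisor `E` of degree `g`, with support disjoint from `S`, such that `l(E) = 1` and
`l(W - E) = 0`. -/
theorem exists_nonspecial_avoiding (htr : Algebra.trdeg K F = 1) {g : ℤ} {W : Divisor K F}
    (hRR : ∀ D : Divisor K F, (Module.finrank K ↥(riemannRochSpace D) : ℤ) =
      Divisor.degree D + 1 - g + Module.finrank K ↥(riemannRochSpace (W - D)))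
    (S : Finset (Place K F)) :
    ∃ E : Divisor K F, 0 ≤ E ∧ Divisor.degree E = g ∧ (∀ v ∈ S, E v = 0) ∧
      Module.finrank K ↥(riemannRochSpace E) = 1 ∧
      Module.finrank K ↥(riemannRochSpace (W - E)) = 0 := by
  have h0 := hRR 0
  rw [NonSpecial.finrank_rrSpace_zero htr, map_zero, sub_zero] at h0
  have hg : g = (Module.finrank K ↥(riemannRochSpace W) : ℤ) := by
    push_cast at h0
    linarith
  obtain ⟨E, hE0, hEdeg, hES, hEl⟩ := NonSpecial.exists_effective_drop htr S W
    (Module.finrank K ↥(riemannRochSpace W)) le_rfl
  have hz : Module.finrank K ↥(riemannRochSpace (W - E)) = 0 := by omega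
  refine ⟨E, hE0, by rw [hEdeg, hg], hES, ?_, hz⟩
  have h1 := hRR E
  rw [hz, hEdeg, ← hg] at h1
  have h2 : (Module.finrank K ↥(riemannRochSpace E) : ℤ) = 1 := by
    rw [h1]
    push_cast
    ring
  exact_mod_cast h2

/-- **Non-special divisors**, for any `g` satisfying Riemann-Roch (the shape of the conclusion
of `riemann_roch`, with `g` in place of `gR K F`). -/
theorem exists_nonspecial_of_rr (htr : Algebra.trdeg K F = 1) (g : ℕ)
    (hRR : ∃ W : Divisor K F, Divisor.degree W = 2 * (g : ℤ) - 2 ∧ ∀ D : Divisor K F,
      (Module.finrank K ↥(riemannRochSpace D) : ℤ) =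
        Divisor.degree D + 1 - (g : ℤ) + Module.finrank K ↥(riemannRochSpace (W - D))) :
    ∃ E : Divisor K F, 0 ≤ E ∧ Divisor.degree E = (g : ℤ) ∧
      Module.finrank K ↥(riemannRochSpace E) = 1 := by
  obtain ⟨W, -, hW⟩ := hRR
  obtain ⟨E, hE0, hEdeg, -, hE1, -⟩ := exists_nonspecial_avoiding htr hW ∅
  exact ⟨E, hE0, hEdeg, hE1⟩

/-- **Non-special divisors** (contract literal R9): from Riemann-Roch as a hypothesis (the
conclusion of `riemann_roch`), there is an effective divisor `E` of degree `gR K F` with
`l(E) = 1`. -/
theorem exists_nonspecial (htr : Algebra.trdeg K F = 1)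
    (hRR : ∃ W : Divisor K F, Divisor.degree W = 2 * (gR K F : ℤ) - 2 ∧ ∀ D : Divisor K F,
      (Module.finrank K ↥(riemannRochSpace D) : ℤ) =
        Divisor.degree D + 1 - (gR K F : ℤ) + Module.finrank K ↥(riemannRochSpace (W - D))) :
    ∃ E : Divisor K F, 0 ≤ E ∧ Divisor.degree E = (gR K F : ℤ) ∧
      Module.finrank K ↥(riemannRochSpace E) = 1 :=
  exists_nonspecial_of_rr htr (gR K F) hRR

end Fermat.Agent.S17.R
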