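import Mathlib
import Fermat.Prelude.Def_AlgebraicCurve_Repartitions
import Fermat.Agent.S24.FF.Principal
import Fermat.Agent.S17.R.LSpace
import Fermat.Agent.S17.R.Places
import Fermat.Agent.S17.R.LStep
import Fermat.Agent.S17.R.NonSpecial

/-!
# Program MW, strand R: the jump set of a special divisor (general form of R9)

Level-free: `F / K` a function field in one variable over an algebraically closed field `K`
of characteristic zero.  No Riemann-Roch: the only input beyond the calculus of `L(D)` is the
conclusion of `riemann_eq_of_large`, `hc : ∀ D, c ≤ deg D → l(D) = deg D + 1 - gR K F`.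

A divisor `A` is *special* if `deg A + 1 - gR K F < l(A)` (any `l(A)`, `A` not necessarily
effective).  For a special `A` the jump set `{P | l(A + P) ≠ l(A)}` is finite and
`deg A + (its cardinality) < c` (`finite_jump`, `degree_add_ncard_jump_lt`); one can add `n`
distinct general points to `A` without changing `l(A)` as long as
`deg A + 1 - gR K F + n ≤ l(A)` (`exists_points_finrank_eq`); and every pool of `c` distinct
places contains, for every effective special `A`, a point `P` off the support of `A` with
`l(A + P) = l(A)` (`exists_mem_pool_finrank_eq`).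

Base points (`finite_basePoints`, `finrank_sub_single_of_section`): if `l(B) > 0` then
`l(B - Q) + 1 = l(B)` for every `Q` outside a set of at most `deg B` places.

The case `l(A) = 1`, `deg A < gR K F` is `NonSpecialStep.lean`.
-/

set_option autoImplicit false
set_option linter.unusedSectionVars false

open AlgebraicCurve

namespace Fermat.Agent.S17.R.SpecialJump

open Fermat.Agent.S24.FF

variable {K F : Type*} [Field K] [Field F] [Algebra K F]

/-- A section of `L(A + P)` outside `L(A)` has a pole of exact order `A P + 1` at `P`. -/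
theorem ord_of_jump {A : Divisor K F} {P : Place K F} {f : F}
    (hf : f ∈ riemannRochSpace (A + Finsupp.single P 1)) (hfA : f ∉ riemannRochSpace A) :
    f ≠ 0 ∧ P.ord f = -A P - 1 := by
  have hf0 : f ≠ 0 := by
    rintro rfl
    exact hfA (Submodule.zero_mem _)
  refine ⟨hf0, ?_⟩
  have h1 := (mem_L_of_ne_zero hf0).mp hf
  have hP := h1 P
  simp only [Finsupp.coe_add, Pi.add_apply, Finsupp.single_eq_same] at hP
  by_contra hne
  apply hfA
  rw [mem_L_of_ne_zero hf0]
  intro v
  by_cases hv : v = P
  · subst hv
    omega
  · have h2 := h1 v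
    rw [Finsupp.add_apply, Finsupp.single_eq_of_ne hv, add_zero] at h2
    exact h2

/-- A jump at `P` for `A` persists for every `B ≥ A` with the same multiplicity at `P`. -/
theorem jump_mono {A B : Divisor K F} {P : Place K F} (hAB : A ≤ B) (hP : B P = A P) {f : F}
    (hf : f ∈ riemannRochSpace (A + Finsupp.single P 1)) (hfA : f ∉ riemannRochSpace A) :
    f ∈ riemannRochSpace (B + Finsupp.single P 1) ∧ f ∉ riemannRochSpace B := by
  obtain ⟨hf0, hord⟩ := ord_of_jump hf hfA
  refine ⟨L_mono (add_le_add hAB le_rfl) hf, fun hB => ?_⟩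
  have h1 := (mem_L_of_ne_zero hf0).mp hB P
  omega

/-- A jump of the dimension at `P` is witnessed by a section. -/
theorem exists_section_of_finrank_ne {A : Divisor K F} {P : Place K F}
    (h : Module.finrank K ↥(riemannRochSpace (A + Finsupp.single P 1)) ≠
      Module.finrank K ↥(riemannRochSpace A)) :
    ∃ f, f ∈ riemannRochSpace (A + Finsupp.single P 1) ∧ f ∉ riemannRochSpace A := by
  by_contra hcon
  apply h
  have hle : riemannRochSpace (A + Finsupp.single P 1) ≤ riemannRochSpace A := by
    intro f hf
    by_contra hfA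
    exact hcon ⟨f, hf, hfA⟩
  have hge : riemannRochSpace A ≤ riemannRochSpace (A + Finsupp.single P 1) :=
    L_mono (le_add_of_nonneg_right (Finsupp.single_nonneg.mpr zero_le_one))
  rw [le_antisymm hle hge]

/-- A sum of distinct points is effective. -/
theorem sum_single_nonneg (U : Finset (Place K F)) :
    (0 : Divisor K F) ≤ ∑ P ∈ U, Finsupp.single P (1 : ℤ) :=
  Finset.sum_nonneg fun _ _ => Finsupp.single_nonneg.mpr zero_le_one

/-- A sum of distinct points vanishes off these points. -/
theorem sum_single_apply_of_notMem {U : Finset (Place K F)} {P : Place K F} (hP : P ∉ U) :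
    (∑ Q ∈ U, Finsupp.single Q (1 : ℤ) : Divisor K F) P = 0 := by
  rw [Finsupp.finsetSum_apply]
  apply Finset.sum_eq_zero
  intro Q hQ
  have hne : P ≠ Q := fun h => hP (h ▸ hQ)
  exact Finsupp.single_eq_of_ne hne

variable [IsAlgClosed K] [CharZero K] [Algebra.EssFiniteType K F]

/-- The degree of a sum of distinct points is their number. -/
theorem degree_sum_single (htr : Algebra.trdeg K F = 1) (U : Finset (Place K F)) :
    Divisor.degree (∑ P ∈ U, Finsupp.single P (1 : ℤ) : Divisor K F) = (U.card : ℤ) := by
  rw [map_sum, Finset.card_eq_sum_ones, Nat.cast_sum]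
  apply Finset.sum_congr rfl
  intro P _
  rw [Divisor.degree_single, deg_eq_one htr P]
  simp

/-- The support of an effective divisor has at most `deg` points. -/
theorem card_support_le_degree (htr : Algebra.trdeg K F = 1) {A : Divisor K F} (hA0 : 0 ≤ A) :
    (A.support.card : ℤ) ≤ Divisor.degree A := by
  have h1 : Divisor.degree A = A.sum (fun v n => n * (v.deg : ℤ)) := by
    simp [Divisor.degree, Finsupp.liftAddHom_apply]
  rw [h1, Finsupp.sum, Finset.card_eq_sum_ones, Nat.cast_sum]
  apply Finset.sum_le_sum
  intro v hv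
  rw [deg_eq_one htr v]
  have h2 : 0 ≤ A v := Finsupp.le_def.mp hA0 v
  have h3 : A v ≠ 0 := Finsupp.mem_support_iff.mp hv
  push_cast
  omega

/-- A jump raises the dimension by exactly one. -/
theorem finrank_add_single_of_jump (htr : Algebra.trdeg K F = 1) {B : Divisor K F}
    {P : Place K F} {f : F} (hf : f ∈ riemannRochSpace (B + Finsupp.single P 1))
    (hfB : f ∉ riemannRochSpace B) :
    Module.finrank K ↥(riemannRochSpace (B + Finsupp.single P 1)) =
      Module.finrank K ↥(riemannRochSpace B) + 1 := by
  have hfin := finite_L htr (B + Finsupp.single P 1)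
  have hBP : B + Finsupp.single P 1 - Finsupp.single P 1 = B := add_sub_cancel_right _ _
  have h := NonSpecial.finrank_rrSpace_sub_single htr (B + Finsupp.single P 1) P hf
    (by rw [hBP]; exact hfB)
  rw [hBP] at h
  omega

/-- Adding the points of a finite subset of the jump set of `A` raises `l` by their number. -/
theorem finrank_add_sum_of_jumps (htr : Algebra.trdeg K F = 1) (A : Divisor K F)
    (U : Finset (Place K F))
    (hU : ∀ P ∈ U, Module.finrank K ↥(riemannRochSpace (A + Finsupp.single P 1)) ≠
      Module.finrank K ↥(riemannRochSpace A)) :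
    Module.finrank K ↥(riemannRochSpace (A + ∑ P ∈ U, Finsupp.single P (1 : ℤ))) =
      Module.finrank K ↥(riemannRochSpace A) + U.card := by
  classical
  induction U using Finset.induction_on with
  | empty => rw [Finset.sum_empty, add_zero, Finset.card_empty, add_zero]
  | insert P U hPU ih =>
    have ih' := ih (fun Q hQ => hU Q (Finset.mem_insert_of_mem hQ))
    obtain ⟨f, hf, hfA⟩ := exists_section_of_finrank_ne (hU P (Finset.mem_insert_self P U))
    have hAB : A ≤ A + ∑ Q ∈ U, Finsupp.single Q (1 : ℤ) :=
      le_add_of_nonneg_right (sum_single_nonneg U)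
    have hP : (A + ∑ Q ∈ U, Finsupp.single Q (1 : ℤ)) P = A P := by
      rw [Finsupp.add_apply, sum_single_apply_of_notMem hPU, add_zero]
    obtain ⟨hf', hfB⟩ := jump_mono hAB hP hf hfA
    have h := finrank_add_single_of_jump htr hf' hfB
    have hsum : A + ∑ Q ∈ insert P U, Finsupp.single Q (1 : ℤ) =
        A + ∑ Q ∈ U, Finsupp.single Q (1 : ℤ) + Finsupp.single P 1 := by
      rw [Finset.sum_insert hPU]
      abel
    rw [hsum, h, ih', Finset.card_insert_of_notMem hPU]
    omega

/-- Finite subsets of the jump set of a special divisor are small. -/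
theorem degree_add_card_lt (htr : Algebra.trdeg K F = 1) {c : ℤ}
    (hc : ∀ D : Divisor K F, c ≤ Divisor.degree D →
      (Module.finrank K ↥(riemannRochSpace D) : ℤ) = Divisor.degree D + 1 - (gR K F : ℤ))
    {A : Divisor K F}
    (hA : Divisor.degree A + 1 - (gR K F : ℤ) < (Module.finrank K ↥(riemannRochSpace A) : ℤ))
    (U : Finset (Place K F))
    (hU : ∀ P ∈ U, Module.finrank K ↥(riemannRochSpace (A + Finsupp.single P 1)) ≠
      Module.finrank K ↥(riemannRochSpace A)) :
    Divisor.degree A + (U.card : ℤ) < c := by
  by_contra hcon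
  have hcon' : c ≤ Divisor.degree A + (U.card : ℤ) := not_lt.mp hcon
  have hdeg : Divisor.degree (A + ∑ P ∈ U, Finsupp.single P (1 : ℤ)) =
      Divisor.degree A + U.card := by
    rw [map_add, degree_sum_single htr]
  have h1 := hc (A + ∑ P ∈ U, Finsupp.single P (1 : ℤ)) (by rw [hdeg]; exact hcon')
  rw [finrank_add_sum_of_jumps htr A U hU, hdeg] at h1
  push_cast at h1
  omega

end Fermat.Agent.S17.R.SpecialJump

namespace Fermat.Agent.S17.R

open SpecialJump

variable {K F : Type*} [Field K] [Field F] [Algebra K F]
variable [IsAlgClosed K] [CharZero K] [Algebra.EssFiniteType K F]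

/-- **(NS1)** The jump set `{P | l(A + P) ≠ l(A)}` of a special divisor `A` is finite. -/
theorem finite_jump (htr : Algebra.trdeg K F = 1) {c : ℤ}
    (hc : ∀ D : Divisor K F, c ≤ Divisor.degree D →
      (Module.finrank K ↥(riemannRochSpace D) : ℤ) = Divisor.degree D + 1 - (gR K F : ℤ))
    {A : Divisor K F}
    (hA : Divisor.degree A + 1 - (gR K F : ℤ) < (Module.finrank K ↥(riemannRochSpace A) : ℤ)) :
    {P : Place K F | Module.finrank K ↥(riemannRochSpace (A + Finsupp.single P 1)) ≠
      Module.finrank K ↥(riemannRochSpace A)}.Finite := by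
  by_contra hinf
  obtain ⟨U, hUT, hUcard⟩ :=
    Set.Infinite.exists_subset_card_eq hinf (c - Divisor.degree A).toNat
  have h1 := degree_add_card_lt htr hc hA U (fun P hP => hUT hP)
  rw [hUcard] at h1
  have h2 := Int.self_le_toNat (c - Divisor.degree A)
  omega

/-- **(NS1)** with the bound: `deg A + #(jump set of A) < c` for a special divisor `A`. -/
theorem degree_add_ncard_jump_lt (htr : Algebra.trdeg K F = 1) {c : ℤ}
    (hc : ∀ D : Divisor K F, c ≤ Divisor.degree D →
      (Module.finrank K ↥(riemannRochSpace D) : ℤ) = Divisor.degree D + 1 - (gR K F : ℤ))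
    {A : Divisor K F}
    (hA : Divisor.degree A + 1 - (gR K F : ℤ) < (Module.finrank K ↥(riemannRochSpace A) : ℤ)) :
    Divisor.degree A +
      (({P : Place K F | Module.finrank K ↥(riemannRochSpace (A + Finsupp.single P 1)) ≠
        Module.finrank K ↥(riemannRochSpace A)}.ncard : ℕ) : ℤ) < c := by
  have hfin := finite_jump htr hc hA
  have h1 := degree_add_card_lt htr hc hA hfin.toFinset
    (fun P hP => (Set.Finite.mem_toFinset hfin).mp hP)
  rwa [← Set.ncard_eq_toFinset_card _ hfin] at h1

/-- **(NS2), general form.**  If `deg A + 1 - gR + n ≤ l(A)`, one can add `n` distinct points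
to `A`, away from a finite set `S` and from the support of `A`, without changing `l(A)`. -/
theorem exists_points_finrank_eq (htr : Algebra.trdeg K F = 1) {c : ℤ}
    (hc : ∀ D : Divisor K F, c ≤ Divisor.degree D →
      (Module.finrank K ↥(riemannRochSpace D) : ℤ) = Divisor.degree D + 1 - (gR K F : ℤ))
    (S : Finset (Place K F)) (A : Divisor K F) (n : ℕ)
    (hn : Divisor.degree A + 1 - (gR K F : ℤ) + (n : ℤ) ≤
      (Module.finrank K ↥(riemannRochSpace A) : ℤ)) :
    ∃ U : Finset (Place K F), U.card = n ∧ Disjoint U S ∧ (∀ P ∈ U, A P = 0) ∧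
      Module.finrank K ↥(riemannRochSpace (A + ∑ P ∈ U, Finsupp.single P (1 : ℤ))) =
        Module.finrank K ↥(riemannRochSpace A) := by
  classical
  induction n with
  | zero =>
    exact ⟨∅, rfl, Finset.disjoint_empty_left S, fun _ h => absurd h (Finset.notMem_empty _),
      by rw [Finset.sum_empty, add_zero]⟩
  | succ n ih =>
    obtain ⟨U, hUcard, hUS, hUA, hUl⟩ := ih (by push_cast at hn; omega)
    have hdegB : Divisor.degree (A + ∑ P ∈ U, Finsupp.single P (1 : ℤ)) =
        Divisor.degree A + n := by
      rw [map_add, degree_sum_single htr, hUcard]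
    have hBspecial : Divisor.degree (A + ∑ P ∈ U, Finsupp.single P (1 : ℤ)) + 1 -
        (gR K F : ℤ) <
        (Module.finrank K ↥(riemannRochSpace (A + ∑ P ∈ U, Finsupp.single P (1 : ℤ))) : ℤ) := by
      rw [hdegB, hUl]
      push_cast at hn
      omega
    have hfin := finite_jump htr hc hBspecial
    have hinf := infinite_place (K := K) (F := F) htr
    obtain ⟨P, hP⟩ := (((hfin.union S.finite_toSet).union U.finite_toSet).union
      A.support.finite_toSet).exists_notMem
    have hPj : Module.finrank K ↥(riemannRochSpace
        (A + ∑ P ∈ U, Finsupp.single P (1 : ℤ) + Finsupp.single P 1)) =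
        Module.finrank K ↥(riemannRochSpace (A + ∑ P ∈ U, Finsupp.single P (1 : ℤ))) := by
      by_contra h
      exact hP (Or.inl (Or.inl (Or.inl h)))
    have hPS : P ∉ S := fun h => hP (Or.inl (Or.inl (Or.inr h)))
    have hPU : P ∉ U := fun h => hP (Or.inl (Or.inr h))
    have hPA : A P = 0 := by
      by_contra h
      exact hP (Or.inr (Finset.mem_coe.mpr (Finsupp.mem_support_iff.mpr h)))
    refine ⟨insert P U, ?_, ?_, ?_, ?_⟩
    · rw [Finset.card_insert_of_notMem hPU, hUcard]
    · rw [Finset.disjoint_insert_left]
      exact ⟨hPS, hUS⟩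
    · intro Q hQ
      rcases Finset.mem_insert.mp hQ with rfl | hQ
      · exact hPA
      · exact hUA Q hQ
    · have hsum : A + ∑ Q ∈ insert P U, Finsupp.single Q (1 : ℤ) =
          A + ∑ Q ∈ U, Finsupp.single Q (1 : ℤ) + Finsupp.single P 1 := by
        rw [Finset.sum_insert hPU]
        abel
      rw [hsum, hPj, hUl]

/-- **(NS3), general form.**  Every pool `Q` of at least `c` distinct places contains, for every
effective special divisor `A`, a point `P` outside the support of `A` with `l(A + P) = l(A)`. -/
theorem exists_mem_pool_finrank_eq (htr : Algebra.trdeg K F = 1) {c : ℤ}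
    (hc : ∀ D : Divisor K F, c ≤ Divisor.degree D →
      (Module.finrank K ↥(riemannRochSpace D) : ℤ) = Divisor.degree D + 1 - (gR K F : ℤ))
    {A : Divisor K F} (hA0 : 0 ≤ A)
    (hA : Divisor.degree A + 1 - (gR K F : ℤ) < (Module.finrank K ↥(riemannRochSpace A) : ℤ))
    (Q : Finset (Place K F)) (hQ : c ≤ (Q.card : ℤ)) :
    ∃ P ∈ Q, A P = 0 ∧ Module.finrank K ↥(riemannRochSpace (A + Finsupp.single P 1)) =
      Module.finrank K ↥(riemannRochSpace A) := by
  classical
  by_contra hcon
  have hfin := finite_jump htr hc hA
  have hsub : Q ⊆ A.support ∪ hfin.toFinset := by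
    intro P hPQ
    rw [Finset.mem_union, Finsupp.mem_support_iff, Set.Finite.mem_toFinset]
    by_contra h
    rw [not_or] at h
    exact hcon ⟨P, hPQ, not_not.mp h.1, not_not.mp h.2⟩
  have hcard : (Q.card : ℤ) ≤ (A.support.card : ℤ) + (hfin.toFinset.card : ℤ) := by
    exact_mod_cast (Finset.card_le_card hsub).trans (Finset.card_union_le _ _)
  have hsupp := card_support_le_degree htr hA0
  have hj := degree_add_card_lt htr hc hA hfin.toFinset
    (fun P hP => (Set.Finite.mem_toFinset hfin).mp hP)
  omega

/-- **Base points.**  If `l(B) > 0`, then `l(B - Q) + 1 = l(B)` for every place `Q` outside a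
finite set of at most `deg B` places (the support of an effective divisor `B + div f`). -/
theorem finite_basePoints (htr : Algebra.trdeg K F = 1) {B : Divisor K F}
    (hB : 0 < Module.finrank K ↥(riemannRochSpace B)) :
    {Q : Place K F | Module.finrank K ↥(riemannRochSpace (B - Finsupp.single Q 1)) + 1 ≠
      Module.finrank K ↥(riemannRochSpace B)}.Finite ∧
    (({Q : Place K F | Module.finrank K ↥(riemannRochSpace (B - Finsupp.single Q 1)) + 1 ≠
      Module.finrank K ↥(riemannRochSpace B)}.ncard : ℕ) : ℤ) ≤ Divisor.degree B := by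
  have hfinB := finite_L htr B
  obtain ⟨⟨f, hfm⟩, hf0⟩ := Module.finrank_pos_iff_exists_ne_zero.mp hB
  have hf0' : f ≠ 0 := fun h => hf0 (Subtype.ext h)
  have hE := add_divOf_nonneg htr hf0' hfm
  have hsub : {Q : Place K F | Module.finrank K ↥(riemannRochSpace (B - Finsupp.single Q 1)) + 1 ≠
      Module.finrank K ↥(riemannRochSpace B)} ⊆
      ((B + divOf K f).support : Set (Place K F)) := by
    intro Q hQ
    rw [Finset.mem_coe, Finsupp.mem_support_iff]
    intro hEQ
    apply hQ
    apply NonSpecial.finrank_rrSpace_sub_single htr B Q hfm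
    intro hmem
    have h1 := (mem_L_of_ne_zero hf0').mp hmem Q
    rw [Finsupp.add_apply, divOf_apply htr] at hEQ
    simp only [Finsupp.coe_sub, Pi.sub_apply, Finsupp.single_eq_same] at h1
    omega
  have hfin := (B + divOf K f).support.finite_toSet.subset hsub
  refine ⟨hfin, ?_⟩
  have h1 := Set.ncard_le_ncard hsub (B + divOf K f).support.finite_toSet
  rw [Set.ncard_coe_finset] at h1
  have h2 := card_support_le_degree htr hE
  rw [map_add, degree_divOf htr, add_zero] at h2
  have h3 : (({Q : Place K F | Module.finrank K ↥(riemannRochSpace (B - Finsupp.single Q 1)) + 1 ≠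
      Module.finrank K ↥(riemannRochSpace B)}.ncard : ℕ) : ℤ) ≤
      ((B + divOf K f).support.card : ℤ) := by
    exact_mod_cast h1
  omega

/-- **Base points**, pointwise form: outside the support of the effective divisor `B + div f`
of a nonzero section `f` of `L(B)`, removing a point drops `l` by one. -/
theorem finrank_sub_single_of_section (htr : Algebra.trdeg K F = 1) {B : Divisor K F} {f : F}
    (hf0 : f ≠ 0) (hf : f ∈ riemannRochSpace B) {Q : Place K F}
    (hQ : (B + divOf K f) Q = 0) :
    Module.finrank K ↥(riemannRochSpace (B - Finsupp.single Q 1)) + 1 =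
      Module.finrank K ↥(riemannRochSpace B) := by
  have hfin := finite_L htr B
  apply NonSpecial.finrank_rrSpace_sub_single htr B Q hf
  intro hmem
  have h1 := (mem_L_of_ne_zero hf0).mp hmem Q
  rw [Finsupp.add_apply, divOf_apply htr] at hQ
  simp only [Finsupp.coe_sub, Pi.sub_apply, Finsupp.single_eq_same] at h1
  omega

end Fermat.Agent.S17.R
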