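import Mathlib
import Fermat.Prelude.Def_AlgebraicCurve_Repartitions
import Fermat.Agent.S24.FF.Principal
import Fermat.Agent.S17.R.LSpace
import Fermat.Agent.S17.R.Places
import Fermat.Agent.S17.R.LStep
import Fermat.Agent.S17.R.Riemann
import Fermat.Agent.S17.R.NonSpecial
import Fermat.Agent.S17.R.SpecialJump

/-!
# Program MW, strand R: the pool step for two divisors of degree `g - 1`

Level-free, Riemann only (`hc` = the conclusion of `riemann_eq_of_large`).  Let `A`, `A'` be
divisors of degree `gR K F - 1` and `pool` a finite set of at least `c + 2` places.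

* `exists_pool_step`: there are `Q, P ∈ pool` with
  `l(A - Q + P) = l(A) - 1` and `l(A' + Q - P) = l(A') - 1` (truncated subtraction in `ℕ`).
* `exists_pool_shift`: hence there is a divisor `D` of degree `0`, supported in the pool, with
  `|D v| ≤ gR K F` everywhere, such that `l(A + D) = 0` and `l(A' - D) = 0`.

With `A = D_x + (g - 1) v₀` and `A' = -D_x + (g - 1) v₀` this says: every class `x` of degree
zero can be moved by a bounded divisor supported in the pool to a class `y` such that neither
`y + (g - 1) v₀` nor `-y + (g - 1) v₀` is effective.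
-/

set_option autoImplicit false
set_option linter.unusedSectionVars false

open AlgebraicCurve

namespace Fermat.Agent.S17.R.PoolStep

open Fermat.Agent.S24.FF

/-- A finite set larger than two others together has a point outside both. -/
theorem exists_mem_avoid {α : Type*} [DecidableEq α] (pool X Y : Finset α)
    (h : X.card + Y.card < pool.card) : ∃ a ∈ pool, a ∉ X ∧ a ∉ Y := by
  have h1 : (X ∪ Y).card < pool.card := lt_of_le_of_lt (Finset.card_union_le X Y) h
  obtain ⟨a, ha, hna⟩ := Finset.exists_mem_notMem_of_card_lt_card h1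
  exact ⟨a, ha, fun hx => hna (Finset.mem_union_left _ hx),
    fun hy => hna (Finset.mem_union_right _ hy)⟩

variable {K F : Type*} [Field K] [Field F] [Algebra K F]
variable [IsAlgClosed K] [CharZero K] [Algebra.EssFiniteType K F]

theorem degree_add_single (htr : Algebra.trdeg K F = 1) (B : Divisor K F) (R : Place K F) :
    Divisor.degree (B + Finsupp.single R 1) = Divisor.degree B + 1 := by
  rw [map_add, Divisor.degree_single, deg_eq_one htr R]
  simp

theorem degree_sub_single (htr : Algebra.trdeg K F = 1) (B : Divisor K F) (R : Place K F) :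
    Divisor.degree (B - Finsupp.single R 1) = Divisor.degree B - 1 := by
  rw [map_sub, Divisor.degree_single, deg_eq_one htr R]
  simp

/-- Base points as a finite set: at most `deg B` places, off which `l(B - Q) + 1 = l(B)`. -/
theorem exists_basePoint_finset (htr : Algebra.trdeg K F = 1) {B : Divisor K F}
    (hB : 0 < Module.finrank K ↥(riemannRochSpace B)) :
    ∃ X : Finset (Place K F), (X.card : ℤ) ≤ Divisor.degree B ∧ ∀ Q : Place K F, Q ∉ X →
      Module.finrank K ↥(riemannRochSpace (B - Finsupp.single Q 1)) + 1 =
        Module.finrank K ↥(riemannRochSpace B) := by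
  have hfinB := finite_L htr B
  obtain ⟨⟨f, hfm⟩, hf0⟩ := Module.finrank_pos_iff_exists_ne_zero.mp hB
  have hf0' : f ≠ 0 := fun h => hf0 (Subtype.ext h)
  have hE := add_divOf_nonneg htr hf0' hfm
  refine ⟨(B + divOf K f).support, ?_, fun Q hQ => ?_⟩
  · have h2 := SpecialJump.card_support_le_degree htr hE
    rwa [map_add, degree_divOf htr, add_zero] at h2
  · exact finrank_sub_single_of_section htr hf0' hfm (Finsupp.notMem_support_iff.mp hQ)

open Classical in
/-- The places of the pool which are bad for `B`: adding them changes `l(B)`. -/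
noncomputable def badIn (pool : Finset (Place K F)) (B : Divisor K F) : Finset (Place K F) :=
  pool.filter (fun P => Module.finrank K ↥(riemannRochSpace (B + Finsupp.single P 1)) ≠
    Module.finrank K ↥(riemannRochSpace B))

theorem mem_badIn {pool : Finset (Place K F)} {B : Divisor K F} {P : Place K F} :
    P ∈ badIn pool B ↔ P ∈ pool ∧
      Module.finrank K ↥(riemannRochSpace (B + Finsupp.single P 1)) ≠
        Module.finrank K ↥(riemannRochSpace B) := by
  classical
  unfold badIn
  rw [Finset.mem_filter]

/-- The pool contains fewer than `c - deg B` bad places of a special divisor `B`. -/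
theorem card_badIn_lt (htr : Algebra.trdeg K F = 1) {c : ℤ}
    (hc : ∀ D : Divisor K F, c ≤ Divisor.degree D →
      (Module.finrank K ↥(riemannRochSpace D) : ℤ) = Divisor.degree D + 1 - (gR K F : ℤ))
    {B : Divisor K F}
    (hB : Divisor.degree B + 1 - (gR K F : ℤ) < (Module.finrank K ↥(riemannRochSpace B) : ℤ))
    (pool : Finset (Place K F)) :
    Divisor.degree B + ((badIn pool B).card : ℤ) < c :=
  SpecialJump.degree_add_card_lt htr hc hB (badIn pool B) (fun _ hP => (mem_badIn.mp hP).2)

end Fermat.Agent.S17.R.PoolStep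

namespace Fermat.Agent.S17.R

open PoolStep Fermat.Agent.S24.FF

variable {K F : Type*} [Field K] [Field F] [Algebra K F]
variable [IsAlgClosed K] [CharZero K] [Algebra.EssFiniteType K F]

/-- **The pool step.**  For divisors `A`, `A'` of degree `g - 1` and a pool of at least `c + 2`
places there are `Q, P` in the pool with `l(A - Q + P) = l(A) - 1` and
`l(A' + Q - P) = l(A') - 1` (truncated). -/
theorem exists_pool_step (htr : Algebra.trdeg K F = 1) {c : ℤ}
    (hc : ∀ D : Divisor K F, c ≤ Divisor.degree D →
      (Module.finrank K ↥(riemannRochSpace D) : ℤ) = Divisor.degree D + 1 - (gR K F : ℤ))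
    (A A' : Divisor K F) (hA : Divisor.degree A = (gR K F : ℤ) - 1)
    (hA' : Divisor.degree A' = (gR K F : ℤ) - 1)
    (pool : Finset (Place K F)) (hpool : c + 2 ≤ (pool.card : ℤ)) :
    ∃ Q ∈ pool, ∃ P ∈ pool,
      Module.finrank K ↥(riemannRochSpace (A - Finsupp.single Q 1 + Finsupp.single P 1)) =
        Module.finrank K ↥(riemannRochSpace A) - 1 ∧
      Module.finrank K ↥(riemannRochSpace (A' + Finsupp.single Q 1 - Finsupp.single P 1)) =
        Module.finrank K ↥(riemannRochSpace A') - 1 := by
  classical
  -- `c ≥ g - 1`: a divisor of degree `g - 2` is special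
  have hcg : (gR K F : ℤ) - 1 ≤ c := by
    obtain ⟨Q₀⟩ := nonempty_place (K := K) (F := F) htr
    have hsp : Divisor.degree (A - Finsupp.single Q₀ 1) + 1 - (gR K F : ℤ) <
        (Module.finrank K ↥(riemannRochSpace (A - Finsupp.single Q₀ 1)) : ℤ) := by
      rw [degree_sub_single htr, hA]
      have : (0 : ℤ) ≤ (Module.finrank K ↥(riemannRochSpace (A - Finsupp.single Q₀ 1)) : ℤ) :=
        Int.natCast_nonneg _
      omega
    have h := card_badIn_lt htr hc hsp ∅
    rw [degree_sub_single htr, hA] at h
    have h0 : (0 : ℤ) ≤ ((badIn (∅ : Finset (Place K F)) (A - Finsupp.single Q₀ 1)).card : ℤ) :=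
      Int.natCast_nonneg _
    omega
  -- the set `X1` of base points of `|A|`
  obtain ⟨X1, hX1card, hX1⟩ : ∃ X : Finset (Place K F),
      (X.card : ℤ) ≤ max ((gR K F : ℤ) - 1) 0 ∧ ∀ Q : Place K F, Q ∉ X →
        Module.finrank K ↥(riemannRochSpace (A - Finsupp.single Q 1)) =
          Module.finrank K ↥(riemannRochSpace A) - 1 := by
    by_cases hl : 0 < Module.finrank K ↥(riemannRochSpace A)
    · obtain ⟨X, hXc, hX⟩ := exists_basePoint_finset htr hl
      rw [hA] at hXc
      exact ⟨X, le_max_of_le_left hXc, fun Q hQ => by have := hX Q hQ; omega⟩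
    · refine ⟨∅, by simp, fun Q _ => ?_⟩
      have hle : riemannRochSpace (A - Finsupp.single Q 1) ≤ riemannRochSpace A :=
        L_mono (sub_le_self _ (Finsupp.single_nonneg.mpr zero_le_one))
      have hfinA := finite_L htr A
      have h1 := Submodule.finrank_mono hle
      omega
  -- the set `X2` of pool places which are bad for `A'` (if `l(A') > 0`)
  obtain ⟨X2, hX2card, hX2⟩ : ∃ X : Finset (Place K F),
      (X.card : ℤ) ≤ max (c - (gR K F : ℤ)) 0 ∧ ∀ Q : Place K F, Q ∈ pool → Q ∉ X →
        Module.finrank K ↥(riemannRochSpace (A' + Finsupp.single Q 1)) =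
          max (Module.finrank K ↥(riemannRochSpace A')) 1 := by
    by_cases hl : 0 < Module.finrank K ↥(riemannRochSpace A')
    · have hsp : Divisor.degree A' + 1 - (gR K F : ℤ) <
          (Module.finrank K ↥(riemannRochSpace A') : ℤ) := by
        rw [hA']
        have : (0 : ℤ) < (Module.finrank K ↥(riemannRochSpace A') : ℤ) := by exact_mod_cast hl
        omega
      refine ⟨badIn pool A', ?_, fun Q hQ hQX => ?_⟩
      · have h := card_badIn_lt htr hc hsp pool
        rw [hA'] at h
        exact le_max_of_le_left (by omega)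
      · have h1 : Module.finrank K ↥(riemannRochSpace (A' + Finsupp.single Q 1)) =
            Module.finrank K ↥(riemannRochSpace A') := by
          by_contra hne
          exact hQX (mem_badIn.mpr ⟨hQ, hne⟩)
        rw [h1]
        omega
    · refine ⟨∅, by simp, fun Q _ _ => ?_⟩
      have h0 : Module.finrank K ↥(riemannRochSpace A') = 0 := by omega
      have h1 := riemann_inequality htr (A' + Finsupp.single Q 1)
      rw [degree_add_single htr, hA'] at h1
      have h2 := finrank_L_le_of_le htr (D := A') (D' := A' + Finsupp.single Q 1)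
        (le_add_of_nonneg_right (Finsupp.single_nonneg.mpr zero_le_one))
      rw [degree_add_single htr, h0] at h2
      rw [h0]
      have h3 : (Module.finrank K ↥(riemannRochSpace (A' + Finsupp.single Q 1)) : ℤ) = 1 := by
        push_cast at h2
        omega
      have h4 : Module.finrank K ↥(riemannRochSpace (A' + Finsupp.single Q 1)) = 1 := by
        exact_mod_cast h3
      rw [h4]
      rfl
  -- choose `Q`
  have hgnn : (0 : ℤ) ≤ (gR K F : ℤ) := Int.natCast_nonneg _
  obtain ⟨Q, hQpool, hQX1, hQX2⟩ := exists_mem_avoid pool X1 X2 (by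
    have : ((X1.card + X2.card : ℕ) : ℤ) < (pool.card : ℤ) := by
      push_cast
      omega
    exact_mod_cast this)
  have hlAQ := hX1 Q hQX1
  have hlA'Q := hX2 Q hQpool hQX2
  -- the set `Y1` of pool places which are bad for `A - Q` (always special)
  have hspAQ : Divisor.degree (A - Finsupp.single Q 1) + 1 - (gR K F : ℤ) <
      (Module.finrank K ↥(riemannRochSpace (A - Finsupp.single Q 1)) : ℤ) := by
    rw [degree_sub_single htr, hA]
    have : (0 : ℤ) ≤ (Module.finrank K ↥(riemannRochSpace (A - Finsupp.single Q 1)) : ℤ) :=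
      Int.natCast_nonneg _
    omega
  have hY1card := card_badIn_lt htr hc hspAQ pool
  rw [degree_sub_single htr, hA] at hY1card
  -- the set `Y2` of base points of `|A' + Q|`
  have hposA'Q : 0 < Module.finrank K ↥(riemannRochSpace (A' + Finsupp.single Q 1)) := by
    rw [hlA'Q]
    omega
  obtain ⟨Y2, hY2card, hY2⟩ := exists_basePoint_finset htr hposA'Q
  rw [degree_add_single htr, hA'] at hY2card
  -- choose `P`
  obtain ⟨P, hPpool, hPY1, hPY2⟩ := exists_mem_avoid pool
    (badIn pool (A - Finsupp.single Q 1)) Y2 (by
    have : (((badIn pool (A - Finsupp.single Q 1)).card + Y2.card : ℕ) : ℤ) <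
        (pool.card : ℤ) := by
      push_cast
      omega
    exact_mod_cast this)
  refine ⟨Q, hQpool, P, hPpool, ?_, ?_⟩
  · have h1 : Module.finrank K ↥(riemannRochSpace (A - Finsupp.single Q 1 + Finsupp.single P 1)) =
        Module.finrank K ↥(riemannRochSpace (A - Finsupp.single Q 1)) := by
      by_contra hne
      exact hPY1 (mem_badIn.mpr ⟨hPpool, hne⟩)
    rw [h1, hlAQ]
  · have h1 := hY2 P hPY2
    omega

/-- **The pool shift.**  For divisors `A`, `A'` of degree `g - 1` and a pool of at least `c + 2`
places there is a divisor `D` of degree zero, supported in the pool, with `|D v| ≤ g`, such that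
`l(A + D) = 0` and `l(A' - D) = 0`. -/
theorem exists_pool_shift (htr : Algebra.trdeg K F = 1) {c : ℤ}
    (hc : ∀ D : Divisor K F, c ≤ Divisor.degree D →
      (Module.finrank K ↥(riemannRochSpace D) : ℤ) = Divisor.degree D + 1 - (gR K F : ℤ))
    (A A' : Divisor K F) (hA : Divisor.degree A = (gR K F : ℤ) - 1)
    (hA' : Divisor.degree A' = (gR K F : ℤ) - 1)
    (pool : Finset (Place K F)) (hpool : c + 2 ≤ (pool.card : ℤ)) :
    ∃ D : Divisor K F, Divisor.degree D = 0 ∧ (∀ v : Place K F, v ∉ pool → D v = 0) ∧
      (∀ v : Place K F, |D v| ≤ (gR K F : ℤ)) ∧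
      Module.finrank K ↥(riemannRochSpace (A + D)) = 0 ∧
      Module.finrank K ↥(riemannRochSpace (A' - D)) = 0 := by
  classical
  -- `n` steps
  have key : ∀ n : ℕ, ∃ D : Divisor K F, Divisor.degree D = 0 ∧
      (∀ v : Place K F, v ∉ pool → D v = 0) ∧ (∀ v : Place K F, |D v| ≤ (n : ℤ)) ∧
      Module.finrank K ↥(riemannRochSpace (A + D)) =
        Module.finrank K ↥(riemannRochSpace A) - n ∧
      Module.finrank K ↥(riemannRochSpace (A' - D)) =
        Module.finrank K ↥(riemannRochSpace A') - n := by
    intro n
    induction n with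
    | zero =>
      exact ⟨0, map_zero _, fun _ _ => rfl, fun v => by simp, by rw [add_zero, Nat.sub_zero],
        by rw [sub_zero, Nat.sub_zero]⟩
    | succ n ih =>
      obtain ⟨D, hD0, hDpool, hDabs, hDA, hDA'⟩ := ih
      obtain ⟨Q, hQ, P, hP, h1, h2⟩ := exists_pool_step htr hc (A + D) (A' - D)
        (by rw [map_add, hD0, add_zero, hA]) (by rw [map_sub, hD0, sub_zero, hA']) pool hpool
      refine ⟨D - Finsupp.single Q 1 + Finsupp.single P 1, ?_, ?_, ?_, ?_, ?_⟩
      · rw [map_add, map_sub, hD0, Divisor.degree_single, Divisor.degree_single,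
          deg_eq_one htr Q, deg_eq_one htr P]
        simp
      · intro v hv
        have hvQ : v ≠ Q := fun h => hv (h ▸ hQ)
        have hvP : v ≠ P := fun h => hv (h ▸ hP)
        rw [Finsupp.add_apply, Finsupp.sub_apply, hDpool v hv, Finsupp.single_eq_of_ne hvQ,
          Finsupp.single_eq_of_ne hvP]
        simp
      · intro v
        have h3 := hDabs v
        rw [Finsupp.add_apply, Finsupp.sub_apply]
        have hQ1 : (Finsupp.single Q (1 : ℤ)) v = 0 ∨ (Finsupp.single Q (1 : ℤ)) v = 1 := by
          by_cases hv : v = Q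
          · right; rw [hv, Finsupp.single_eq_same]
          · left; exact Finsupp.single_eq_of_ne hv
        have hP1 : (Finsupp.single P (1 : ℤ)) v = 0 ∨ (Finsupp.single P (1 : ℤ)) v = 1 := by
          by_cases hv : v = P
          · right; rw [hv, Finsupp.single_eq_same]
          · left; exact Finsupp.single_eq_of_ne hv
        rw [abs_le] at h3 ⊢
        push_cast
        rcases hQ1 with hq | hq <;> rcases hP1 with hp | hp <;> rw [hq, hp] <;> constructor <;>
          omega
      · have hs : A + (D - Finsupp.single Q 1 + Finsupp.single P 1) =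
            A + D - Finsupp.single Q 1 + Finsupp.single P 1 := by abel
        rw [hs, h1, hDA]
        omega
      · have hs : A' - (D - Finsupp.single Q 1 + Finsupp.single P 1) =
            A' - D + Finsupp.single Q 1 - Finsupp.single P 1 := by abel
        rw [hs, h2, hDA']
        omega
  obtain ⟨D, hD0, hDpool, hDabs, hDA, hDA'⟩ := key (gR K F)
  have hlA := finrank_L_le htr A
  have hlA' := finrank_L_le htr A'
  rw [hA] at hlA
  rw [hA'] at hlA'
  refine ⟨D, hD0, hDpool, hDabs, ?_, ?_⟩
  · rw [hDA]
    have : (Module.finrank K ↥(riemannRochSpace A) : ℤ) ≤ (gR K F : ℤ) := by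
      have h := hlA
      rw [sub_add_cancel] at h
      exact h.trans (max_le le_rfl (Int.natCast_nonneg _))
    omega
  · rw [hDA']
    have : (Module.finrank K ↥(riemannRochSpace A') : ℤ) ≤ (gR K F : ℤ) := by
      have h := hlA'
      rw [sub_add_cancel] at h
      exact h.trans (max_le le_rfl (Int.natCast_nonneg _))
    omega

end Fermat.Agent.S17.R
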