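/-
MW strand R: semilinear automorphisms (Galois) act on the Riemann–Roch spaces:
`g • L(D) = L(g • D)`, `l(g • D) = l(D)`, `div (g • f) = g • div f`.
-/
import Mathlib
import Fermat.Prelude.Def_AlgebraicCurve_BaseChangeGalois
import Fermat.Prelude.Def_AlgebraicCurve_Repartitions
import Fermat.Agent.S17.R.LSpace

set_option autoImplicit false

namespace Fermat.Agent.S17.R

open AlgebraicCurve

variable {K F : Type*} [Field K] [Field F] [Algebra K F]

theorem semi_smul_eq_zero_iff (g : SemilinearAut K F) {f : F} : g • f = 0 ↔ f = 0 := by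
  rw [SemilinearAut.smul_def]
  exact map_eq_zero_iff _ (SemilinearAut.toRingAut g).injective

/-- `g • f ∈ L(g • D) ↔ f ∈ L(D)`. -/
theorem smul_mem_L_iff (g : SemilinearAut K F) {D : Divisor K F} {f : F} :
    g • f ∈ riemannRochSpace (g • D) ↔ f ∈ riemannRochSpace D := by
  rw [mem_L_iff, mem_L_iff, semi_smul_eq_zero_iff]
  refine or_congr Iff.rfl ⟨fun h v => ?_, fun h w => ?_⟩
  · have := h (g • v)
    rwa [SemilinearAut.divisor_smul_apply_smul, SemilinearAut.ord_smul] at this
  · have := h (g⁻¹ • w)
    rw [← SemilinearAut.ord_smul g (g⁻¹ • w) f, smul_inv_smul] at this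
    rw [SemilinearAut.divisor_smul_apply]
    exact this

/-- For a `g`-stable divisor, `L(D)` is `g`-stable. -/
theorem smul_mem_L_of_fixed (g : SemilinearAut K F) {D : Divisor K F} (hD : g • D = D) {f : F} :
    g • f ∈ riemannRochSpace D ↔ f ∈ riemannRochSpace D := by
  have := smul_mem_L_iff g (D := D) (f := f)
  rwa [hD] at this

/-- The additive equivalence `L(D) ≃+ L(g • D)`, `f ↦ g • f`. -/
noncomputable def smulLEquiv (g : SemilinearAut K F) (D : Divisor K F) :
    ↥(riemannRochSpace D) ≃+ ↥(riemannRochSpace (g • D)) where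
  toFun f := ⟨g • (f : F), (smul_mem_L_iff g).mpr f.2⟩
  invFun f := ⟨g⁻¹ • (f : F), by
    have h := (smul_mem_L_iff g⁻¹ (D := g • D) (f := (f : F))).mpr f.2
    rwa [inv_smul_smul] at h⟩
  left_inv f := Subtype.ext (inv_smul_smul g (f : F))
  right_inv f := Subtype.ext (smul_inv_smul g (f : F))
  map_add' f f' := Subtype.ext (smul_add g (f : F) (f' : F))

theorem smulLEquiv_smul (g : SemilinearAut K F) (D : Divisor K F) (c : K)
    (f : ↥(riemannRochSpace D)) :
    smulLEquiv g D (c • f) = (SemilinearAut.baseAut g c) • smulLEquiv g D f := by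
  apply Subtype.ext
  show g • (c • (f : F)) = (SemilinearAut.baseAut g c) • (g • (f : F))
  rw [Algebra.smul_def, Algebra.smul_def, smul_mul', SemilinearAut.smul_algebraMap]

/-- `l(g • D) = l(D)`. -/
theorem finrank_L_smul (g : SemilinearAut K F) (D : Divisor K F) :
    Module.finrank K ↥(riemannRochSpace (g • D)) = Module.finrank K ↥(riemannRochSpace D) := by
  have h := rank_eq_of_equiv_equiv (SemilinearAut.baseAut g) (smulLEquiv g D)
    (SemilinearAut.baseAut g).bijective (smulLEquiv_smul g D)
  unfold Module.finrank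
  rw [h]

section Curve

variable [IsAlgClosed K] [CharZero K] [Algebra.EssFiniteType K F]

/-- `div (g • f) = g • div f`. -/
theorem divOf_smul (htr : Algebra.trdeg K F = 1) (g : SemilinearAut K F) (f : F) :
    divOf K (g • f) = g • divOf K f := by
  ext w
  rw [divOf_apply htr, SemilinearAut.divisor_smul_apply, divOf_apply htr,
    ← SemilinearAut.ord_smul g (g⁻¹ • w) f, smul_inv_smul]

end Curve

end Fermat.Agent.S17.R
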